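/-
GATE-E / RISK-4 PNEW-STAGE, instance layer (I-b) of helper80 7597 (helper5): **the modular
intertwiner `β₃ ∘ U_q = U3♯ ∘ β₃`** that feeds helper23's abstract `GE9/PNew/KerPair`.

For `q ∤ N` prime, `U_q = latT (N q²) q` on `Λ_{N q²}`, `T_q = latT N q` on `Λ_N` and
`β₃ = (β₀, β₁, β₂) = DualIhara2.beta3` (the cup-form adjoint of `α₃`):

  `β₀ U_q = q β₁`,   `β₁ U_q = q β₂`,   `β₂ U_q = T_q β₂ − β₁`,

i.e. `β₃ U_q = U3♯ β₃` with `U3♯ = [[0, q, 0], [0, 0, q], [0, −1, T_q]]` (`u3s`), over `ℤ` and after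
every base change `O ⊗ −`.

Proof: pure adjunction.  For the cup forms `U_q^† = W U_q W` (`lamB_latT_right`, from
`Fricke/Adjoint.lamB_latT_frP` at EVERY prime + skew-symmetry), `W α_m = α_{2−m} W`
(`Fricke/Alpha3`), `U_q α₀ = α₀ T_q − α₁`, `U_q α₁ = q α₀`, `U_q α₂ = q α₁` (`LocLamU`), `T_q` is
self-adjoint and commutes with `W` at level `N`, and `lamB N` is non-degenerate.

Also: the mixed-level transfer of an adjunction to `O` (`bcForm_adjunction`), the components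
`beO m = (β₃)_m ⊗ O` (helper37's spelling `(proj m ∘ₗ beta3).baseChange O`), `beta3O`, the adjunction
`lamBO_alComp_beO` / `lamBO_alpha3O_beta3O`, `beO_latT`, and the consequence for `KerPair`:
on `ker U_q` resp. on `U_q`-nilpotent vectors nothing is claimed here — that is helper23's file.
-/
import Mathlib
import Fermat.Agent.GE9.Eta.DualIhara2
import Fermat.Agent.GE9.Eta.LocLamU
import Fermat.Agent.GE9.Eta.LocLamFr

set_option autoImplicit false
set_option linter.unusedSectionVars false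

open scoped TensorProduct

namespace Fermat.Agent.GE9.PNew.Inst.Beta3Uq

open Fermat.Agent.GJ.J2.Lat Fermat.Agent.GM.Asm Fermat.Agent.GM.Theta.Outer
  Fermat.Agent.GE9.Adj3 Fermat.Agent.GE9.Fricke
  Fermat.Agent.GE9.Eta.LocLam Fermat.Agent.GE9.Eta.LocLamU Fermat.Agent.GE9.Eta.LocLamFr
  Fermat.Agent.GE9.Eta.DualIhara2 Fermat.Agent.GE8.RaiseP.DualIhara

/-! ### one level : the cup-form adjoint of `T_l`, every prime `l` -/

section OneLevel

variable {M : ℕ} [NeZero M]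

/-- **`T_l^† = W T_l W`** for the cup form, EVERY prime `l` (`U_l` included). -/
theorem lamB_latT_right (l : Nat.Primes) (x w : Lam M) :
    lamB M x (latT M l w) = lamB M (frP M ℤ (latT M l (frP M ℤ x))) w := by
  have h := lamB_latT_frP l w (frP M ℤ x)
  rw [frP_frP] at h
  rw [lamB_skew M x, lamB_skew M _ w, h]

end OneLevel

/-! ### two levels over `ℤ` -/

section TwoLevel

variable {N q : ℕ} [hqF : Fact q.Prime] [NeZero N] [NeZero (N * q)] [NeZero (N * q * q)]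
variable (hqN : ¬ q ∣ N)

/-- `W U_q W α₀ = q α₁`. -/
theorem wuw_al0 (hq : q.Prime) (x : Lam N) :
    frP (N * q * q) ℤ (latT (N * q * q) (⟨q, hq⟩ : Nat.Primes) (frP (N * q * q) ℤ (al0 N q x)))
      = (q : ℤ) • al1 N q x := by
  have h2 := LinearMap.congr_fun (uq_alComp_two (N := N) hq) (frP N ℤ x)
  rw [LinearMap.comp_apply, LinearMap.smul_apply, alComp_two_apply, alComp_one_apply] at h2
  rw [frP_al0, h2, map_zsmul, frP_al1, frP_frP]

/-- `W U_q W α₁ = q α₂`. -/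
theorem wuw_al1 (hq : q.Prime) (x : Lam N) :
    frP (N * q * q) ℤ (latT (N * q * q) (⟨q, hq⟩ : Nat.Primes) (frP (N * q * q) ℤ (al1 N q x)))
      = (q : ℤ) • al2 N q x := by
  have h1 := LinearMap.congr_fun (uq_alComp_one (N := N) hq) (frP N ℤ x)
  rw [LinearMap.comp_apply, LinearMap.smul_apply, alComp_one_apply, alComp_zero_apply] at h1
  rw [frP_al1, h1, map_zsmul, frP_al0, frP_frP]

/-- `W U_q W α₂ = α₂ T_q − α₁`. -/
theorem wuw_al2 (hqN : ¬ q ∣ N) (hq : q.Prime) (x : Lam N) :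
    frP (N * q * q) ℤ (latT (N * q * q) (⟨q, hq⟩ : Nat.Primes) (frP (N * q * q) ℤ (al2 N q x)))
      = al2 N q (latT N (⟨q, hq⟩ : Nat.Primes) x) - al1 N q x := by
  have h0 := LinearMap.congr_fun (uq_alComp_zero (N := N) hqN hq) (frP N ℤ x)
  rw [LinearMap.comp_apply, LinearMap.sub_apply, LinearMap.comp_apply, alComp_zero_apply,
    alComp_zero_apply, alComp_one_apply] at h0
  rw [frP_al2, h0, map_sub, frP_al0, frP_al1, frP_frP,
    frP_latT_of_not_dvd (⟨q, hq⟩ : Nat.Primes) hqN, frP_frP]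

/-- **`β₀ U_q = q β₁`.** -/
theorem be0_uq (hq : q.Prime) (w : Lam (N * q * q)) :
    be0 hqN (latT (N * q * q) (⟨q, hq⟩ : Nat.Primes) w) = (q : ℤ) • be1 hqN w := by
  rw [← sub_eq_zero]
  refine lamB_right_inj N _ fun x => ?_
  rw [map_sub, sub_eq_zero, map_zsmul, ← lamB_al0_be0 hqN, ← lamB_al1_be1 hqN,
    lamB_latT_right (⟨q, hq⟩ : Nat.Primes) (al0 N q x) w, wuw_al0 hq, map_zsmul,
    LinearMap.smul_apply]

/-- **`β₁ U_q = q β₂`.** -/
theorem be1_uq (hq : q.Prime) (w : Lam (N * q * q)) :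
    be1 hqN (latT (N * q * q) (⟨q, hq⟩ : Nat.Primes) w) = (q : ℤ) • be2 hqN w := by
  rw [← sub_eq_zero]
  refine lamB_right_inj N _ fun x => ?_
  rw [map_sub, sub_eq_zero, map_zsmul, ← lamB_al1_be1 hqN, ← lamB_al2_be2 hqN,
    lamB_latT_right (⟨q, hq⟩ : Nat.Primes) (al1 N q x) w, wuw_al1 hq, map_zsmul,
    LinearMap.smul_apply]

/-- **`β₂ U_q = T_q β₂ − β₁`.** -/
theorem be2_uq (hq : q.Prime) (w : Lam (N * q * q)) :
    be2 hqN (latT (N * q * q) (⟨q, hq⟩ : Nat.Primes) w)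
      = latT N (⟨q, hq⟩ : Nat.Primes) (be2 hqN w) - be1 hqN w := by
  rw [← sub_eq_zero]
  refine lamB_right_inj N _ fun x => ?_
  rw [map_sub, sub_eq_zero, map_sub, ← lamB_latT (⟨q, hq⟩ : Nat.Primes) hqN,
    ← lamB_al2_be2 hqN, ← lamB_al2_be2 hqN, ← lamB_al1_be1 hqN,
    lamB_latT_right (⟨q, hq⟩ : Nat.Primes) (al2 N q x) w, wuw_al2 hqN hq, map_sub,
    LinearMap.sub_apply]

/-- the three relations in `beta3` spelling. -/
theorem beta3_uq_zero (hq : q.Prime) (w : Lam (N * q * q)) :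
    beta3 hqN (latT (N * q * q) (⟨q, hq⟩ : Nat.Primes) w) 0 = (q : ℤ) • beta3 hqN w 1 :=
  be0_uq hqN hq w

theorem beta3_uq_one (hq : q.Prime) (w : Lam (N * q * q)) :
    beta3 hqN (latT (N * q * q) (⟨q, hq⟩ : Nat.Primes) w) 1 = (q : ℤ) • beta3 hqN w 2 :=
  be1_uq hqN hq w

theorem beta3_uq_two (hq : q.Prime) (w : Lam (N * q * q)) :
    beta3 hqN (latT (N * q * q) (⟨q, hq⟩ : Nat.Primes) w) 2
      = latT N (⟨q, hq⟩ : Nat.Primes) (beta3 hqN w 2) - beta3 hqN w 1 :=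
  be2_uq hqN hq w

end TwoLevel

/-! ### `β₃` commutes with `T_l`, EVERY prime `l ≠ q` (`U_r`, `r ∣ N`, included); `β_m W = W β_{2−m}` -/

section NeZ

variable {N q : ℕ} [hqF : Fact q.Prime] [NeZero N] [NeZero (N * q)] [NeZero (N * q * q)]
variable (hqN : ¬ q ∣ N)

/-- `W α_m = α_{2−m} W`, pointwise. -/
theorem frP_alComp (m : Fin 3) (x : Lam N) :
    frP (N * q * q) ℤ (alComp N q m x) = alComp N q (Fin.rev m) (frP N ℤ x) :=
  LinearMap.congr_fun (frL_alComp (N := N) (q := q) m) x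

/-- `W T_l W α_m = α_m W T_l W`, every prime `l ≠ q`. -/
theorem wtw_alComp (l : Nat.Primes) (hlq : (l : ℕ) ≠ q) (m : Fin 3) (x : Lam N) :
    frP (N * q * q) ℤ (latT (N * q * q) l (frP (N * q * q) ℤ (alComp N q m x)))
      = alComp N q m (frP N ℤ (latT N l (frP N ℤ x))) := by
  have h := LinearMap.congr_fun (latT_alComp (N := N) l hlq (Fin.rev m)) (frP N ℤ x)
  rw [LinearMap.comp_apply, LinearMap.comp_apply] at h
  rw [frP_alComp, h, frP_alComp, Fin.rev_rev]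

/-- the adjunction `α_m ⊣ (β₃)_m` over `ℤ`, `alComp` spelling. -/
theorem lamB_alComp_beta3 (m : Fin 3) (x : Lam N) (w : Lam (N * q * q)) :
    lamB (N * q * q) (alComp N q m x) w = lamB N x (beta3 hqN w m) := by
  fin_cases m
  · show lamB (N * q * q) (alComp N q 0 x) w = lamB N x (be0 hqN w)
    rw [alComp_zero_apply, lamB_al0_be0 hqN]
  · show lamB (N * q * q) (alComp N q 1 x) w = lamB N x (be1 hqN w)
    rw [alComp_one_apply, lamB_al1_be1 hqN]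
  · show lamB (N * q * q) (alComp N q 2 x) w = lamB N x (be2 hqN w)
    rw [alComp_two_apply, lamB_al2_be2 hqN]

/-- **`β₃` commutes with `T_l` for EVERY prime `l ≠ q`** (`l ∣ N` allowed: `U_r`, `r ∈ Σ`). -/
theorem beta3_latT_ne_apply (l : Nat.Primes) (hlq : (l : ℕ) ≠ q) (w : Lam (N * q * q))
    (m : Fin 3) :
    beta3 hqN (latT (N * q * q) l w) m = latT N l (beta3 hqN w m) := by
  rw [← sub_eq_zero]
  refine lamB_right_inj N _ fun x => ?_
  rw [map_sub, sub_eq_zero, ← lamB_alComp_beta3 hqN, lamB_latT_right, wtw_alComp l hlq,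
    lamB_alComp_beta3 hqN, ← lamB_latT_right]

theorem beta3_latT_ne (l : Nat.Primes) (hlq : (l : ℕ) ≠ q) (w : Lam (N * q * q)) :
    beta3 hqN (latT (N * q * q) l w) = fun m => latT N l (beta3 hqN w m) :=
  funext fun m => beta3_latT_ne_apply hqN l hlq w m

/-- `LinearMap` form. -/
theorem proj_beta3_latT_ne (l : Nat.Primes) (hlq : (l : ℕ) ≠ q) (m : Fin 3) :
    (LinearMap.proj m ∘ₗ beta3 hqN) ∘ₗ latT (N * q * q) l
      = latT N l ∘ₗ (LinearMap.proj m ∘ₗ beta3 hqN) :=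
  LinearMap.ext fun w => beta3_latT_ne_apply hqN l hlq w m

/-- **`β_m W = W β_{2−m}`.** -/
theorem beta3_frP (w : Lam (N * q * q)) (m : Fin 3) :
    beta3 hqN (frP (N * q * q) ℤ w) m = frP N ℤ (beta3 hqN w (Fin.rev m)) := by
  rw [← sub_eq_zero]
  refine lamB_right_inj N _ fun x => ?_
  rw [map_sub, sub_eq_zero, ← lamB_alComp_beta3 hqN, ← lamB_frP_left, frP_alComp,
    lamB_alComp_beta3 hqN, lamB_frP_left]

/-- `LinearMap` form. -/
theorem proj_beta3_frL (m : Fin 3) :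
    (LinearMap.proj m ∘ₗ beta3 hqN) ∘ₗ frL (N * q * q)
      = frL N ∘ₗ (LinearMap.proj (Fin.rev m) ∘ₗ beta3 hqN) :=
  LinearMap.ext fun w => beta3_frP hqN w m

end NeZ

/-! ### the matrix `U3♯` -/

section U3s

variable {R : Type*} [CommRing R] {X : Type*} [AddCommGroup X] [Module R X]

/-- **`U3♯ = [[0, c, 0], [0, 0, c], [0, −1, τ]]`** on `X³` (rows = output components). -/
def u3s (τ : X →ₗ[R] X) (c : R) : (Fin 3 → X) →ₗ[R] (Fin 3 → X) :=
  LinearMap.pi ![c • (LinearMap.proj 1 : (Fin 3 → X) →ₗ[R] X),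
    c • (LinearMap.proj 2 : (Fin 3 → X) →ₗ[R] X),
    τ ∘ₗ (LinearMap.proj 2 : (Fin 3 → X) →ₗ[R] X) - (LinearMap.proj 1 : (Fin 3 → X) →ₗ[R] X)]

theorem u3s_zero (τ : X →ₗ[R] X) (c : R) (u : Fin 3 → X) : u3s τ c u 0 = c • u 1 := rfl
theorem u3s_one (τ : X →ₗ[R] X) (c : R) (u : Fin 3 → X) : u3s τ c u 1 = c • u 2 := rfl
theorem u3s_two (τ : X →ₗ[R] X) (c : R) (u : Fin 3 → X) : u3s τ c u 2 = τ (u 2) - u 1 := rfl

/-- the kernel of `U3♯` is `{(x, 0, 0)}` when `c` is a non-zero-divisor on `X`. -/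
theorem u3s_eq_zero_iff (τ : X →ₗ[R] X) (c : R) (hc : ∀ x : X, c • x = 0 → x = 0)
    (u : Fin 3 → X) : u3s τ c u = 0 ↔ u 1 = 0 ∧ u 2 = 0 := by
  constructor
  · intro h
    have h0 := congrFun h 0
    have h1 := congrFun h 1
    rw [u3s_zero, Pi.zero_apply] at h0
    rw [u3s_one, Pi.zero_apply] at h1
    exact ⟨hc _ h0, hc _ h1⟩
  · rintro ⟨h1, h2⟩
    funext m
    fin_cases m
    · show u3s τ c u 0 = 0
      rw [u3s_zero, h1, smul_zero]
    · show u3s τ c u 1 = 0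
      rw [u3s_one, h2, smul_zero]
    · show u3s τ c u 2 = 0
      rw [u3s_two, h1, h2, map_zero, sub_zero]

end U3s

/-! ### over `ℤ`, matrix form -/

section MatZ

variable {N q : ℕ} [hqF : Fact q.Prime] [NeZero N] [NeZero (N * q)] [NeZero (N * q * q)]
variable (hqN : ¬ q ∣ N)

/-- **`β₃ ∘ U_q = U3♯ ∘ β₃`** over `ℤ`. -/
theorem beta3_uq (hq : q.Prime) (w : Lam (N * q * q)) :
    beta3 hqN (latT (N * q * q) (⟨q, hq⟩ : Nat.Primes) w)
      = u3s (latT N (⟨q, hq⟩ : Nat.Primes)) (q : ℤ) (beta3 hqN w) := by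
  funext m
  fin_cases m
  · exact beta3_uq_zero hqN hq w
  · exact beta3_uq_one hqN hq w
  · exact beta3_uq_two hqN hq w

/-- the component maps, `LinearMap` form. -/
theorem proj_beta3_uq_zero (hq : q.Prime) :
    (LinearMap.proj 0 ∘ₗ beta3 hqN) ∘ₗ latT (N * q * q) (⟨q, hq⟩ : Nat.Primes)
      = (q : ℤ) • (LinearMap.proj 1 ∘ₗ beta3 hqN) :=
  LinearMap.ext fun w => beta3_uq_zero hqN hq w

theorem proj_beta3_uq_one (hq : q.Prime) :
    (LinearMap.proj 1 ∘ₗ beta3 hqN) ∘ₗ latT (N * q * q) (⟨q, hq⟩ : Nat.Primes)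
      = (q : ℤ) • (LinearMap.proj 2 ∘ₗ beta3 hqN) :=
  LinearMap.ext fun w => beta3_uq_one hqN hq w

theorem proj_beta3_uq_two (hq : q.Prime) :
    (LinearMap.proj 2 ∘ₗ beta3 hqN) ∘ₗ latT (N * q * q) (⟨q, hq⟩ : Nat.Primes)
      = latT N (⟨q, hq⟩ : Nat.Primes) ∘ₗ (LinearMap.proj 2 ∘ₗ beta3 hqN)
        - (LinearMap.proj 1 ∘ₗ beta3 hqN) :=
  LinearMap.ext fun w => beta3_uq_two hqN hq w

end MatZ

/-! ### base change of a mixed-level adjunction -/

section Adjunction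

variable {O : Type*} [CommRing O]
variable {Λ Λ' : Type*} [AddCommGroup Λ] [AddCommGroup Λ']

/-- an adjunction `B₀' (α x) w = B₀ x (β w)` between two lattices survives base change. -/
theorem bcForm_adjunction (B₀ : Λ →ₗ[ℤ] Λ →ₗ[ℤ] ℤ) (B₀' : Λ' →ₗ[ℤ] Λ' →ₗ[ℤ] ℤ)
    (α : Λ →ₗ[ℤ] Λ') (β : Λ' →ₗ[ℤ] Λ) (h : ∀ x w, B₀' (α x) w = B₀ x (β w))
    (x : O ⊗[ℤ] Λ) (w : O ⊗[ℤ] Λ') :
    bcForm O B₀' (α.baseChange O x) w = bcForm O B₀ x (β.baseChange O w) := by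
  induction x using TensorProduct.induction_on with
  | zero => simp
  | add x₁ x₂ h₁ h₂ => rw [map_add, map_add, LinearMap.add_apply, map_add, LinearMap.add_apply,
      h₁, h₂]
  | tmul a u =>
    induction w using TensorProduct.induction_on with
    | zero => simp
    | add w₁ w₂ h₁ h₂ => rw [map_add, map_add, map_add, h₁, h₂]
    | tmul a' v =>
      rw [LinearMap.baseChange_tmul, LinearMap.baseChange_tmul, bcForm_tmul, bcForm_tmul, h]

end Adjunction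

/-! ### over `O` -/

section OverO

variable {N q : ℕ} [hqF : Fact q.Prime] [NeZero N] [NeZero (N * q)] [NeZero (N * q * q)]
variable (hqN : ¬ q ∣ N) (O : Type*) [CommRing O]

/-- the `m`-th component of `β₃ ⊗ O` (helper37's spelling). -/
noncomputable def beO (m : Fin 3) : (O ⊗[ℤ] Lam (N * q * q)) →ₗ[O] (O ⊗[ℤ] Lam N) :=
  (LinearMap.proj m ∘ₗ beta3 hqN).baseChange O

/-- **`β₃ ⊗ O`** `: O ⊗ Λ_{N q²} → (O ⊗ Λ_N)³`. -/
noncomputable def beta3O : (O ⊗[ℤ] Lam (N * q * q)) →ₗ[O] (Fin 3 → O ⊗[ℤ] Lam N) :=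
  LinearMap.pi (beO hqN O)

variable {O}

theorem beta3O_apply (w : O ⊗[ℤ] Lam (N * q * q)) (m : Fin 3) :
    beta3O hqN O w m = beO hqN O m w := rfl

theorem beO_one_tmul (m : Fin 3) (w : Lam (N * q * q)) :
    beO hqN O m ((1 : O) ⊗ₜ w) = (1 : O) ⊗ₜ beta3 hqN w m :=
  LinearMap.baseChange_tmul _ _ _

/-- **`α_m^O ⊣ (β₃)_m^O`** for the cup forms over `O`. -/
theorem lamBO_alComp_beO (m : Fin 3) (x : O ⊗[ℤ] Lam N) (w : O ⊗[ℤ] Lam (N * q * q)) :
    lamBO (N * q * q) O ((alComp N q m).baseChange O x) w = lamBO N O x (beO hqN O m w) :=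
  bcForm_adjunction (lamB N) (lamB (N * q * q)) (alComp N q m) _
    (fun x w => lamB_alComp_beta3 hqN m x w) x w

/-- **`α₃^O ⊣ β₃^O`** for the cup forms over `O`. -/
theorem lamBO_alpha3O_beta3O (u : Fin 3 → O ⊗[ℤ] Lam N) (w : O ⊗[ℤ] Lam (N * q * q)) :
    lamBO (N * q * q) O (alpha3O N q O u) w = ∑ m : Fin 3, lamBO N O (u m) (beta3O hqN O w m) := by
  rw [alpha3O_apply, map_sum, LinearMap.sum_apply]
  exact Finset.sum_congr rfl fun m _ => lamBO_alComp_beO hqN m (u m) w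

/-- `β₃^O` commutes with `T_l ⊗ O`, `l ∤ N q`. -/
theorem beO_latT (l : Nat.Primes) (hl : ¬ (l : ℕ) ∣ N * q) (m : Fin 3)
    (w : O ⊗[ℤ] Lam (N * q * q)) :
    beO hqN O m ((latT (N * q * q) l).baseChange O w)
      = (latT N l).baseChange O (beO hqN O m w) :=
  proj_beta3_latT_baseChange hqN l hl m O w

private theorem baseChange_zsmul_apply {Λ₁ Λ₂ : Type*} [AddCommGroup Λ₁] [AddCommGroup Λ₂]
    (z : ℤ) (f : Λ₁ →ₗ[ℤ] Λ₂) (y : O ⊗[ℤ] Λ₁) :
    (z • f).baseChange O y = ((z : ℤ) : O) • f.baseChange O y := by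
  rw [LinearMap.baseChange_smul, LinearMap.smul_apply, ← Int.cast_smul_eq_zsmul O]

/-- **`β₀^O U_q = q β₁^O`.** -/
theorem beO_uq_zero (hq : q.Prime) (w : O ⊗[ℤ] Lam (N * q * q)) :
    beO hqN O 0 ((latT (N * q * q) (⟨q, hq⟩ : Nat.Primes)).baseChange O w)
      = ((q : ℕ) : O) • beO hqN O 1 w := by
  unfold beO
  rw [baseChange_comp_apply, proj_beta3_uq_zero hqN hq, baseChange_zsmul_apply, Int.cast_natCast]

/-- **`β₁^O U_q = q β₂^O`.** -/
theorem beO_uq_one (hq : q.Prime) (w : O ⊗[ℤ] Lam (N * q * q)) :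
    beO hqN O 1 ((latT (N * q * q) (⟨q, hq⟩ : Nat.Primes)).baseChange O w)
      = ((q : ℕ) : O) • beO hqN O 2 w := by
  unfold beO
  rw [baseChange_comp_apply, proj_beta3_uq_one hqN hq, baseChange_zsmul_apply, Int.cast_natCast]

/-- **`β₂^O U_q = T_q β₂^O − β₁^O`.** -/
theorem beO_uq_two (hq : q.Prime) (w : O ⊗[ℤ] Lam (N * q * q)) :
    beO hqN O 2 ((latT (N * q * q) (⟨q, hq⟩ : Nat.Primes)).baseChange O w)
      = (latT N (⟨q, hq⟩ : Nat.Primes)).baseChange O (beO hqN O 2 w) - beO hqN O 1 w := by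
  unfold beO
  rw [baseChange_comp_apply, proj_beta3_uq_two hqN hq, LinearMap.baseChange_sub,
    LinearMap.sub_apply, ← baseChange_comp_apply]

/-- **`β₃^O ∘ (U_q ⊗ O) = U3♯ ∘ β₃^O`**, `U3♯ = [[0, q, 0], [0, 0, q], [0, −1, T_q ⊗ O]]`. -/
theorem beta3O_uq (hq : q.Prime) (w : O ⊗[ℤ] Lam (N * q * q)) :
    beta3O hqN O ((latT (N * q * q) (⟨q, hq⟩ : Nat.Primes)).baseChange O w)
      = u3s ((latT N (⟨q, hq⟩ : Nat.Primes)).baseChange O) ((q : ℕ) : O) (beta3O hqN O w) := by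
  funext m
  fin_cases m
  · exact beO_uq_zero hqN hq w
  · exact beO_uq_one hqN hq w
  · exact beO_uq_two hqN hq w

/-- on `ker (U_q ⊗ O)` (and `q` a non-zero-divisor on `O ⊗ Λ_N`, e.g. a unit of `O`):
`β₁^O = β₂^O = 0`, so `β₃^O w = (β₀^O w, 0, 0)`. -/
theorem beO_eq_zero_of_uq_eq_zero (hq : q.Prime)
    (hc : ∀ x : O ⊗[ℤ] Lam N, ((q : ℕ) : O) • x = 0 → x = 0)
    (w : O ⊗[ℤ] Lam (N * q * q))
    (hw : (latT (N * q * q) (⟨q, hq⟩ : Nat.Primes)).baseChange O w = 0) :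
    beO hqN O 1 w = 0 ∧ beO hqN O 2 w = 0 := by
  have h := beta3O_uq hqN hq w
  rw [hw, map_zero] at h
  exact (u3s_eq_zero_iff _ _ hc _).1 h.symm

/-- `β₃^O` commutes with `T_l ⊗ O` for EVERY prime `l ≠ q`. -/
theorem beO_latT_ne (l : Nat.Primes) (hlq : (l : ℕ) ≠ q) (m : Fin 3)
    (w : O ⊗[ℤ] Lam (N * q * q)) :
    beO hqN O m ((latT (N * q * q) l).baseChange O w)
      = (latT N l).baseChange O (beO hqN O m w) := by
  unfold beO
  rw [baseChange_comp_apply, proj_beta3_latT_ne hqN l hlq m, ← baseChange_comp_apply]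

theorem beta3O_latT_ne (l : Nat.Primes) (hlq : (l : ℕ) ≠ q) (w : O ⊗[ℤ] Lam (N * q * q)) :
    beta3O hqN O ((latT (N * q * q) l).baseChange O w)
      = fun m => (latT N l).baseChange O (beta3O hqN O w m) :=
  funext fun m => beO_latT_ne hqN l hlq m w

/-- **`β_m^O W = W β_{2−m}^O`.** -/
theorem beO_frO (m : Fin 3) (w : O ⊗[ℤ] Lam (N * q * q)) :
    beO hqN O m (frO (N * q * q) O w) = frO N O (beO hqN O (Fin.rev m) w) := by
  unfold beO frO
  rw [baseChange_comp_apply, proj_beta3_frL hqN m, ← baseChange_comp_apply]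

/-- **the `BW`-adjoint of `α₃^O` is `rev ∘ β₃^O`** :
`BW' (α₃^O u) y = Σ_m BW (u m) (β_{2−m}^O y)`. -/
theorem BW_alpha3O_beta3O (u : Fin 3 → O ⊗[ℤ] Lam N) (y : O ⊗[ℤ] Lam (N * q * q)) :
    BW (N * q * q) O (alpha3O N q O u) y
      = ∑ m : Fin 3, BW N O (u m) (beta3O hqN O y (Fin.rev m)) := by
  rw [BW_apply, lamBO_alpha3O_beta3O hqN]
  refine Finset.sum_congr rfl fun m _ => ?_
  rw [beta3O_apply, beO_frO, BW_apply, beta3O_apply]

/-- **the transfer map `t = q β₂^O − a β₁^O + β₀^O`** : the `BW`-adjoint of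
`x ↦ α₃^O (v3 q a ⊗ x)`. -/
noncomputable def tW (a : O) : (O ⊗[ℤ] Lam (N * q * q)) →ₗ[O] (O ⊗[ℤ] Lam N) :=
  ((q : ℕ) : O) • beO hqN O 2 - a • beO hqN O 1 + beO hqN O 0

theorem tW_apply (a : O) (y : O ⊗[ℤ] Lam (N * q * q)) :
    tW hqN a y = ((q : ℕ) : O) • beO hqN O 2 y - a • beO hqN O 1 y + beO hqN O 0 y := rfl

/-- **`hadj`** : `BW' (α₃^O (v3 q a ⊗ x)) y = BW x (t y)`. -/
theorem BW_raise3_tW (a : O) (x : O ⊗[ℤ] Lam N) (y : O ⊗[ℤ] Lam (N * q * q)) :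
    BW (N * q * q) O
        (alpha3O N q O (fun m => Fermat.Agent.GE9.Eta.v3 ((q : ℕ) : O) a m • x)) y
      = BW N O x (tW hqN a y) := by
  have h0 : Fermat.Agent.GE9.Eta.v3 ((q : ℕ) : O) a 0 = ((q : ℕ) : O) := rfl
  have h1 : Fermat.Agent.GE9.Eta.v3 ((q : ℕ) : O) a 1 = -a := rfl
  have h2 : Fermat.Agent.GE9.Eta.v3 ((q : ℕ) : O) a 2 = 1 := rfl
  have r0 : Fin.rev (0 : Fin 3) = 2 := rfl
  have r1 : Fin.rev (1 : Fin 3) = 1 := rfl
  have r2 : Fin.rev (2 : Fin 3) = 0 := rfl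
  rw [BW_alpha3O_beta3O hqN, Fin.sum_univ_three, h0, h1, h2, r0, r1, r2, tW_apply,
    beta3O_apply, beta3O_apply, beta3O_apply]
  simp only [map_smul, LinearMap.smul_apply, map_add, map_sub, neg_smul, map_neg,
    LinearMap.neg_apply, one_smul, smul_eq_mul]
  ring

/-- the same in the spelling of `Eta/Three.raise3`. -/
theorem BW_raise3_apply_tW (a : O) {d : ℕ} (b : Fin d → O ⊗[ℤ] Lam N) (i : Fin d)
    (y : O ⊗[ℤ] Lam (N * q * q)) :
    BW (N * q * q) O (Fermat.Agent.GE9.Eta.raise3 (alpha3O N q O) ((q : ℕ) : O) a b i) y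
      = BW N O (b i) (tW hqN a y) := by
  rw [raise3_alpha3O_apply]
  exact BW_raise3_tW hqN a (b i) y

/-- `t` commutes with `T_l ⊗ O` for every prime `l ≠ q`. -/
theorem tW_latT_ne (a : O) (l : Nat.Primes) (hlq : (l : ℕ) ≠ q) (y : O ⊗[ℤ] Lam (N * q * q)) :
    tW hqN a ((latT (N * q * q) l).baseChange O y) = (latT N l).baseChange O (tW hqN a y) := by
  rw [tW_apply, tW_apply, beO_latT_ne hqN l hlq, beO_latT_ne hqN l hlq, beO_latT_ne hqN l hlq,
    map_add, map_sub, map_smul, map_smul]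

/-- on vectors killed by `β₁^O`, `β₂^O` (e.g. `ker (U_q ⊗ O)`, or the `U_q`-nilpotent part by
helper23's `KerPair`) : `t = β₀^O`. -/
theorem tW_eq_beO_zero (a : O) (y : O ⊗[ℤ] Lam (N * q * q))
    (h1 : beO hqN O 1 y = 0) (h2 : beO hqN O 2 y = 0) : tW hqN a y = beO hqN O 0 y := by
  rw [tW_apply, h1, h2, smul_zero, smul_zero, sub_zero, zero_add]

end OverO

end Fermat.Agent.GE9.PNew.Inst.Beta3Uq
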