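/-
GATE-E / RISK-4, instance layer R4-I, slice of (I-d) (helper21): **`P`-linearity of the base-changed
transfer maps for the polynomial Hecke action `actLam`** (helper74's
`GE9/Eta/Base/LocBridge.actLam O N pr hpr : MvPolynomial σ O →ₐ[O] End_O (O ⊗ Lam N)`,
`X s ↦ (latT N (pr s)).baseChange O`, `σ`, `pr : σ → ℕ` arbitrary).

* `baseChange_actLam` (GENERIC): a `ℤ`-linear `f : Lam M → Lam M'` commuting with `latT (pr s)` for
  every symbol `s` gives `f ⊗ O` intertwining `actLam` at the levels `M`, `M'`;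
* `actLam_selfAdjoint` (GENERIC) : self-adjointness of the whole algebra for any `O`-bilinear form
  for which the generators are self-adjoint; `actLam_lamBO` (symbols prime to the level),
  **`actLam_BW`** (the Fricke-twisted form `BW`, EVERY symbol: `T_l` and `U_r`) = `hB'adj`;
* instances: `alComp_actLam` (`α_m ⊗ O`, symbols `≠ q`), `beO_actLam` (`(β₃)_m ⊗ O`, symbols `≠ q`),
  `lamCast_actLam` (level cast), `alpha3O_actLam`, `beta3O_actLam` (the packaged maps),
  `betaP_actLam_fst/snd` (`cores_p ⊗ O`, `cores_p' ⊗ O`, symbols `∤ N p`; the `U_r` case is stated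
  with the commutation as a hypothesis `hr`).
-/
import Mathlib
import Fermat.Agent.GE9.Eta.Base.LocBridge
import Fermat.Agent.GE9.PNew.Inst.Beta3Uq
import Fermat.Agent.GE9.Eta.DualIhara2P
import Fermat.Agent.GE9.Adj3U.EquivDvd
import Fermat.Agent.GM.B5.EquivLat

set_option autoImplicit false
set_option linter.unusedSectionVars false

open scoped TensorProduct

namespace Fermat.Agent.GE9.PNew.Inst.PolyLin

open Fermat.Agent.GJ.J2.Lat Fermat.Agent.GM.Asm
open Fermat.Agent.GE9.Eta.Base.LocBridge Fermat.Agent.GB.B3.HeckeAct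
open Fermat.Agent.GE9.Eta.LocLam

section Generic

variable {O : Type} [CommRing O] {σ : Type} (pr : σ → ℕ) (hpr : ∀ s, (pr s).Prime)
  {M M' : ℕ} [NeZero M] [NeZero M']

/-- **GENERIC**: `f ⊗ O` intertwines the polynomial Hecke actions at the levels `M`, `M'` as soon
as `f` commutes with `latT (pr s)` for every symbol `s`. -/
theorem baseChange_actLam (f : Lam M →ₗ[ℤ] Lam M')
    (hf : ∀ (s : σ) (x : Lam M),
      f (latT M ⟨pr s, hpr s⟩ x) = latT M' ⟨pr s, hpr s⟩ (f x))
    (t : MvPolynomial σ O) (x : O ⊗[ℤ] Lam M) :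
    f.baseChange O (actLam O M pr hpr t x) = actLam O M' pr hpr t (f.baseChange O x) := by
  refine polyAct_intertwine (genLam O M pr hpr) (genLam_comm O M pr hpr)
    (genLam O M' pr hpr) (genLam_comm O M' pr hpr) (f.baseChange O) (fun s y => ?_) t x
  show f.baseChange O ((latT M ⟨pr s, hpr s⟩).baseChange O y)
    = (latT M' ⟨pr s, hpr s⟩).baseChange O (f.baseChange O y)
  have hc : f ∘ₗ latT M ⟨pr s, hpr s⟩ = latT M' ⟨pr s, hpr s⟩ ∘ₗ f :=
    LinearMap.ext fun x => hf s x
  rw [← LinearMap.comp_apply, ← LinearMap.baseChange_comp, hc, LinearMap.baseChange_comp,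
    LinearMap.comp_apply]

/-- the same for an `O`-linear map given by finitely many components: sums. -/
theorem actLam_sum_comm {ι : Type*} (s : Finset ι) (F : ι → (O ⊗[ℤ] Lam M) →ₗ[O] (O ⊗[ℤ] Lam M'))
    (hF : ∀ i ∈ s, ∀ (t : MvPolynomial σ O) (x : O ⊗[ℤ] Lam M),
      F i (actLam O M pr hpr t x) = actLam O M' pr hpr t (F i x))
    (t : MvPolynomial σ O) (x : O ⊗[ℤ] Lam M) :
    (∑ i ∈ s, F i) (actLam O M pr hpr t x) = actLam O M' pr hpr t ((∑ i ∈ s, F i) x) := by
  rw [LinearMap.sum_apply, LinearMap.sum_apply, map_sum]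
  exact Finset.sum_congr rfl fun i hi => hF i hi t x

/-- **self-adjointness of the whole polynomial algebra** for an `O`-bilinear form on
`O ⊗ Lam M`, from self-adjointness of the generators. -/
theorem actLam_selfAdjoint (B : (O ⊗[ℤ] Lam M) →ₗ[O] (O ⊗[ℤ] Lam M) →ₗ[O] O)
    (hB : ∀ (s : σ) (x y : O ⊗[ℤ] Lam M),
      B ((latT M ⟨pr s, hpr s⟩).baseChange O x) y
        = B x ((latT M ⟨pr s, hpr s⟩).baseChange O y))
    (t : MvPolynomial σ O) (x y : O ⊗[ℤ] Lam M) :
    B (actLam O M pr hpr t x) y = B x (actLam O M pr hpr t y) := by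
  induction t using MvPolynomial.induction_on generalizing x y with
  | C a =>
    rw [actLam, polyAct_C_apply, polyAct_C_apply, map_smul, map_smul, LinearMap.smul_apply]
  | add p q hp hq =>
    rw [map_add, LinearMap.add_apply, LinearMap.add_apply, map_add, LinearMap.add_apply, map_add,
      hp, hq]
  | mul_X p s hp =>
    have hcomm : actLam O M pr hpr (p * MvPolynomial.X s)
        = actLam O M pr hpr (MvPolynomial.X s) * actLam O M pr hpr p := by
      rw [mul_comm, map_mul]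
    have h1 : actLam O M pr hpr (p * MvPolynomial.X s) x
        = actLam O M pr hpr p ((latT M ⟨pr s, hpr s⟩).baseChange O x) := by
      rw [map_mul, Module.End.mul_apply, actLam_X]
    have h2 : actLam O M pr hpr (p * MvPolynomial.X s) y
        = (latT M ⟨pr s, hpr s⟩).baseChange O (actLam O M pr hpr p y) := by
      rw [hcomm, Module.End.mul_apply, actLam_X]
    rw [h1, h2, hp]
    exact hB s x _

/-- `lamBO`-self-adjointness when no symbol divides the level. -/
theorem actLam_lamBO (hM : ∀ s, ¬ pr s ∣ M) (t : MvPolynomial σ O) (x y : O ⊗[ℤ] Lam M) :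
    lamBO M O (actLam O M pr hpr t x) y = lamBO M O x (actLam O M pr hpr t y) :=
  actLam_selfAdjoint pr hpr (lamBO M O)
    (fun s x y => lamBO_latT ⟨pr s, hpr s⟩ (hM s) x y) t x y

/-- **`BW`-self-adjointness of the whole polynomial algebra, EVERY symbol** (`T_l` and `U_r`). -/
theorem actLam_BW (t : MvPolynomial σ O) (x y : O ⊗[ℤ] Lam M) :
    Fermat.Agent.GE9.Eta.LocLamFr.BW M O (actLam O M pr hpr t x) y
      = Fermat.Agent.GE9.Eta.LocLamFr.BW M O x (actLam O M pr hpr t y) :=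
  actLam_selfAdjoint pr hpr (Fermat.Agent.GE9.Eta.LocLamFr.BW M O)
    (fun s x y => Fermat.Agent.GE9.Eta.LocLamFr.BW_latT ⟨pr s, hpr s⟩ x y) t x y

end Generic

/-! ### the level cast -/

section Cast

variable {O : Type} [CommRing O] {σ : Type} (pr : σ → ℕ) (hpr : ∀ s, (pr s).Prime)
  {M M' : ℕ} [NeZero M] [NeZero M']

open Fermat.Agent.GE9.Eta.DualIhara2

/-- the level cast `⊗ O` is `P`-linear. -/
theorem lamCast_actLam (h : M = M') (t : MvPolynomial σ O) (x : O ⊗[ℤ] Lam M) :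
    (lamCast h : Lam M →ₗ[ℤ] Lam M').baseChange O (actLam O M pr hpr t x)
      = actLam O M' pr hpr t ((lamCast h : Lam M →ₗ[ℤ] Lam M').baseChange O x) :=
  baseChange_actLam pr hpr _ (fun s x => (latT_lamCast h ⟨pr s, hpr s⟩ x).symm) t x

end Cast

/-! ### the degeneracy maps at `q` -/

section AtQ

variable {O : Type} [CommRing O] {σ : Type} (pr : σ → ℕ) (hpr : ∀ s, (pr s).Prime)
  {N q : ℕ} [hqF : Fact q.Prime] [NeZero N] [NeZero (N * q)] [NeZero (N * q * q)]

open Fermat.Agent.GE9.Adj3 Fermat.Agent.GE9.Adj3U Fermat.Agent.GE9.Eta.DualIhara2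
  Fermat.Agent.GE9.PNew.Inst.Beta3Uq

/-- `α_m` commutes with `latT l`, `l ≠ q` (component form of `latT_alpha3_ne`). -/
theorem latT_alComp_ne (l : Nat.Primes) (hlq : (l : ℕ) ≠ q) (m : Fin 3) (x : Lam N) :
    alComp N q m (latT N l x) = latT (N * q * q) l (alComp N q m x) := by
  have h := latT_alpha3_ne (N := N) (q := q) l hlq (Pi.single m x)
  simp only [alComp, LinearMap.comp_apply, LinearMap.single_apply]
  rw [h]
  congr 1
  funext k
  by_cases hk : k = m
  · subst hk
    rw [Pi.single_eq_same, Pi.single_eq_same]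
  · rw [Pi.single_eq_of_ne hk, Pi.single_eq_of_ne hk, map_zero]

/-- **`α_m ⊗ O` is `P`-linear** when no symbol is `q`. -/
theorem alComp_actLam (hq : ∀ s, pr s ≠ q) (m : Fin 3) (t : MvPolynomial σ O)
    (x : O ⊗[ℤ] Lam N) :
    (alComp N q m).baseChange O (actLam O N pr hpr t x)
      = actLam O (N * q * q) pr hpr t ((alComp N q m).baseChange O x) :=
  baseChange_actLam pr hpr _ (fun s x => latT_alComp_ne ⟨pr s, hpr s⟩ (hq s) m x) t x

/-- **`α₃ ⊗ O` is `P`-linear** when no symbol is `q`. -/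
theorem alpha3O_actLam (hq : ∀ s, pr s ≠ q) (t : MvPolynomial σ O)
    (u : Fin 3 → O ⊗[ℤ] Lam N) :
    alpha3O N q O (fun m => actLam O N pr hpr t (u m))
      = actLam O (N * q * q) pr hpr t (alpha3O N q O u) := by
  rw [alpha3O_apply, alpha3O_apply, map_sum]
  exact Finset.sum_congr rfl fun m _ => alComp_actLam pr hpr hq m t (u m)

variable (hqN : ¬ q ∣ N)

/-- **`(β₃)_m ⊗ O` is `P`-linear** when no symbol is `q`. -/
theorem beO_actLam (hq : ∀ s, pr s ≠ q) (m : Fin 3) (t : MvPolynomial σ O)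
    (w : O ⊗[ℤ] Lam (N * q * q)) :
    beO hqN O m (actLam O (N * q * q) pr hpr t w) = actLam O N pr hpr t (beO hqN O m w) :=
  baseChange_actLam pr hpr _
    (fun s x => beta3_latT_ne_apply hqN ⟨pr s, hpr s⟩ (hq s) x m) t w

/-- **`β₃ ⊗ O` is `P`-linear** when no symbol is `q`. -/
theorem beta3O_actLam (hq : ∀ s, pr s ≠ q) (t : MvPolynomial σ O)
    (w : O ⊗[ℤ] Lam (N * q * q)) (m : Fin 3) :
    beta3O hqN O (actLam O (N * q * q) pr hpr t w) m
      = actLam O N pr hpr t (beta3O hqN O w m) := by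
  rw [beta3O_apply, beta3O_apply]
  exact beO_actLam pr hpr hqN hq m t w

end AtQ

/-! ### the transfers at `p` -/

section AtP

variable {O : Type} [CommRing O] {σ : Type} (pr : σ → ℕ) (hpr : ∀ s, (pr s).Prime)
  {N p : ℕ} [hpF : Fact p.Prime] [NeZero N] [NeZero (N * p)]

open Fermat.Agent.GM.B Fermat.Agent.GM.B5

variable (hpN : ¬ p ∣ N)

/-- the first component of `β_p` as a `ℤ`-linear map. -/
noncomputable def bP1 : Lam (N * p) →ₗ[ℤ] Lam N :=
  (AddMonoidHom.fst (Lam N) (Lam N)).toIntLinearMap ∘ₗ (betaP ℤ hpN).toIntLinearMap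

/-- the second component of `β_p` as a `ℤ`-linear map. -/
noncomputable def bP2 : Lam (N * p) →ₗ[ℤ] Lam N :=
  (AddMonoidHom.snd (Lam N) (Lam N)).toIntLinearMap ∘ₗ (betaP ℤ hpN).toIntLinearMap

theorem bP1_apply (z : Lam (N * p)) : bP1 hpN z = (betaP ℤ hpN z).1 := rfl
theorem bP2_apply (z : Lam (N * p)) : bP2 hpN z = (betaP ℤ hpN z).2 := rfl

/-- **`cores_p ⊗ O` is `P`-linear**: symbols prime to `N p` are automatic (`betaP_latT`), the
others (`U_r`, `r ∣ N`) enter through `hr`. -/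
theorem bP1_actLam
    (hr : ∀ s, pr s ∣ N * p → ∀ z : Lam (N * p),
      (betaP ℤ hpN (latT (N * p) ⟨pr s, hpr s⟩ z)).1 = latT N ⟨pr s, hpr s⟩ (betaP ℤ hpN z).1)
    (t : MvPolynomial σ O) (z : O ⊗[ℤ] Lam (N * p)) :
    (bP1 hpN).baseChange O (actLam O (N * p) pr hpr t z)
      = actLam O N pr hpr t ((bP1 hpN).baseChange O z) := by
  refine baseChange_actLam pr hpr _ (fun s z => ?_) t z
  rw [bP1_apply, bP1_apply]
  by_cases hs : pr s ∣ N * p
  · exact hr s hs z
  · rw [betaP_latT hpN ⟨pr s, hpr s⟩ hs z]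

/-- **`cores_p' ⊗ O` is `P`-linear** (same convention). -/
theorem bP2_actLam
    (hr : ∀ s, pr s ∣ N * p → ∀ z : Lam (N * p),
      (betaP ℤ hpN (latT (N * p) ⟨pr s, hpr s⟩ z)).2 = latT N ⟨pr s, hpr s⟩ (betaP ℤ hpN z).2)
    (t : MvPolynomial σ O) (z : O ⊗[ℤ] Lam (N * p)) :
    (bP2 hpN).baseChange O (actLam O (N * p) pr hpr t z)
      = actLam O N pr hpr t ((bP2 hpN).baseChange O z) := by
  refine baseChange_actLam pr hpr _ (fun s z => ?_) t z
  rw [bP2_apply, bP2_apply]
  by_cases hs : pr s ∣ N * p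
  · exact hr s hs z
  · rw [betaP_latT hpN ⟨pr s, hpr s⟩ hs z]

end AtP

end Fermat.Agent.GE9.PNew.Inst.PolyLin
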