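/-
GATE-E / RISK-4, instance layer R4-I (helper37): `GE9/PNew/Inst/LocSurj.lean`.

ABSTRACT localisation lemmas for the instance layer (Mathlib + `GB/B3/{Loc,Loc2}`):

* `exists_locPart_of_kill` / `locMap_surjective_of_kill` (G1): a Hecke-linear map `f : X' → X` of
  finite `𝒪`-modules which is "onto modulo `ϖ` after multiplying by some `E ∉ 𝔪`" is ONTO on the
  `𝔪`-primary parts (Nakayama on the `𝔪`-part of the cokernel).  This is how the dual Ihara
  statements (`dual_ihara_baseChange`, `dual_ihara2_baseChange`) are consumed.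
-/
import Mathlib
import Fermat.Agent.GB.B3.Loc
import Fermat.Agent.GB.B3.Loc2

set_option autoImplicit false

namespace Fermat.Agent.GE9.PNew.Inst

open Fermat.Agent.GB.B3.Loc Fermat.Agent.GB.B3.Loc2

section Kill

variable (𝒪 : Type) [CommRing 𝒪] [IsLocalRing 𝒪] [IsNoetherianRing 𝒪]
  [IsAdicComplete (IsLocalRing.maximalIdeal 𝒪) 𝒪]
variable {A : Type} [CommRing A] [Algebra 𝒪 A]
variable {X X' : Type*} [AddCommGroup X] [Module 𝒪 X] [Module A X] [IsScalarTower 𝒪 A X]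
  [Module.Finite 𝒪 X]
  [AddCommGroup X'] [Module 𝒪 X'] [Module A X'] [IsScalarTower 𝒪 A X'] [Module.Finite 𝒪 X']
variable (𝔪 : Ideal A) [h𝔪 : 𝔪.IsMaximal]

include 𝒪

/-- every element is the sum of its `𝔪`-primary component and its component away from `𝔪`. -/
theorem exists_loc_away_decomp (x : X) :
    ∃ x₁ ∈ locPart 𝔪 X, ∃ x₂ ∈ awayPart 𝔪 X, x₁ + x₂ = x := by
  have hx : x ∈ locPart 𝔪 X ⊔ awayPart 𝔪 X := by
    rw [codisjoint_iff.1 (isCompl_locPart_awayPart 𝒪 (L := X) 𝔪).codisjoint]; trivial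
  obtain ⟨x₁, hx₁, x₂, hx₂, h⟩ := Submodule.mem_sup.1 hx
  exact ⟨x₁, hx₁, x₂, hx₂, h⟩

/-- an element which is both `𝔪`-primary and away from `𝔪` vanishes. -/
theorem eq_zero_of_mem_locPart_of_mem_awayPart {x : X} (h1 : x ∈ locPart 𝔪 X)
    (h2 : x ∈ awayPart 𝔪 X) : x = 0 :=
  Submodule.disjoint_def.1 (isCompl_locPart_awayPart 𝒪 (L := X) 𝔪).disjoint _ h1 h2

/-- **(G1), element form.**  `f : X' → X` Hecke-linear, `E ∉ 𝔪`, `ϖ ∈ 𝔪_𝒪`, and every `E • z` lies
in `range f + ϖ • X`.  Then every element of the `𝔪`-primary part of `X` is the image of an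
element of the `𝔪`-primary part of `X'`. -/
theorem exists_locPart_of_kill (f : X' →ₗ[A] X) (E : A) (hE : E ∉ 𝔪) (ϖ : 𝒪)
    (hϖ : ϖ ∈ IsLocalRing.maximalIdeal 𝒪)
    (hkill : ∀ z : X, ∃ (w : X') (z' : X), E • z = f w + ϖ • z') :
    ∀ x ∈ locPart 𝔪 X, ∃ w ∈ locPart 𝔪 X', f w = x := by
  classical
  -- the two `𝒪`-submodules of `X`
  set Y : Submodule 𝒪 X := (locPart 𝔪 X).restrictScalars 𝒪 with hY
  set R : Submodule 𝒪 X := ((locPart 𝔪 X').map f).restrictScalars 𝒪 with hR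
  have hYfg : Y.FG := IsNoetherian.noetherian Y
  obtain ⟨u, hu⟩ := exists_inv_on_locPart 𝒪 (L := X) 𝔪 hE
  have hstep : Y ≤ R ⊔ IsLocalRing.maximalIdeal 𝒪 • Y := by
    intro y hy
    have hy' : y ∈ locPart 𝔪 X := hy
    obtain ⟨w, z', hwz⟩ := hkill y
    obtain ⟨w₁, hw₁, w₂, hw₂, rfl⟩ := exists_loc_away_decomp 𝒪 𝔪 w
    obtain ⟨z₁, hz₁, z₂, hz₂, rfl⟩ := exists_loc_away_decomp 𝒪 𝔪 z'
    -- the away components cancel
    have haway : f w₂ + ϖ • z₂ = 0 := by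
      refine eq_zero_of_mem_locPart_of_mem_awayPart 𝒪 𝔪 ?_ ?_
      · have h1 : f w₂ + ϖ • z₂ = E • y - (f w₁ + ϖ • z₁) := by
          rw [hwz, map_add, smul_add]; abel
        rw [h1]
        refine Submodule.sub_mem _ (Submodule.smul_mem _ _ hy') (Submodule.add_mem _ ?_ ?_)
        · exact apply_mem_locPart f hw₁
        · rw [← algebraMap_smul A ϖ z₁]
          exact Submodule.smul_mem _ _ hz₁
      · refine Submodule.add_mem _ (apply_mem_awayPart f hw₂) ?_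
        rw [← algebraMap_smul A ϖ z₂]
        exact Submodule.smul_mem _ _ hz₂
    have hEy : E • y = f w₁ + ϖ • z₁ := by
      have h1 : E • y = (f w₁ + ϖ • z₁) + (f w₂ + ϖ • z₂) := by
        rw [hwz, map_add, smul_add]; abel
      rw [h1, haway, add_zero]
    have hy2 : y = f (u • w₁) + ϖ • (u • z₁) := by
      have h2 := hu y hy'
      rw [hEy, smul_add, ← map_smul, smul_comm u ϖ z₁] at h2
      exact h2.symm
    rw [hy2]
    refine Submodule.add_mem_sup ?_ ?_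
    · exact ⟨u • w₁, Submodule.smul_mem _ _ hw₁, rfl⟩
    · exact Submodule.smul_mem_smul hϖ (Submodule.smul_mem (locPart 𝔪 X) u hz₁)
  have hle : Y ≤ R :=
    Submodule.le_of_le_smul_of_le_jacobson_bot hYfg
      (IsLocalRing.maximalIdeal_le_jacobson ⊥) hstep
  intro x hx
  obtain ⟨w, hw, hwx⟩ := hle (show x ∈ Y from hx)
  exact ⟨w, hw, hwx⟩

/-- **(G1), map form**: the induced map on the `𝔪`-primary parts is surjective. -/
theorem locMap_surjective_of_kill (f : X' →ₗ[A] X) (E : A) (hE : E ∉ 𝔪) (ϖ : 𝒪)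
    (hϖ : ϖ ∈ IsLocalRing.maximalIdeal 𝒪)
    (hkill : ∀ z : X, ∃ (w : X') (z' : X), E • z = f w + ϖ • z') :
    Function.Surjective (locMap (𝔪 := 𝔪) f) := by
  intro x
  obtain ⟨w, hw, hwx⟩ := exists_locPart_of_kill 𝒪 𝔪 f E hE ϖ hϖ hkill x x.2
  exact ⟨⟨w, hw⟩, Subtype.ext hwx⟩

end Kill

end Fermat.Agent.GE9.PNew.Inst
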