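/-
GATE-E / RISK-4 PNEW-STAGE, instance layer (I-b) of helper80 7597 / helper37 7654 §2 (helper5):
**the transfer `t` is ONTO from the `U_q`-nilpotent part `L′` to the `𝔪`-primary part at the lower
level** — the abstract combination of

* the intertwining relation `β ∘ U = U3♯ ∘ β`, `U3♯ = [[0, c, 0], [0, 0, c], [0, −1, τ]]`
  (`Beta3Uq.beta3O_uq`), with `τ` an ENDOMORPHISM of the target (NOT a scalar of the base ring: the
  lower-level algebra is `q`-anemic, `T_q` is not in it) — this is why the Mathlib-only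
  `KerPair` (where `τ : R`) is re-done here in the 40-line form that is actually needed;
* `LocSurj.exists_locPart_of_kill` (`β` onto on the `𝔪`-primary parts, from dual IHARA2);
* the `(T)(C)` decomposition of the `𝔪`-primary part upstairs (helper8 `LocTC`).

§1 (Mathlib only): `U` topologically nilpotent at `y` ⟹ `(β y) 1 = (β y) 2 = 0`
   (the lower-right block `[[0, c], [−1, τ]]` is invertible, `c` a unit);
   `ε (β (U z)) = 0` for `ε u = u 0 − τ (u 1) + c • u 2`;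
   `exists_mem_single` : `w ∈ L′ ⊔ C`, `β w = (x, 0, 0)` ⟹ `∃ y ∈ L′, β y = (x, 0, 0)`.
§2 (`GB/B3/Loc`, `LocSurj`): `exists_mem_single_of_kill` : every `x` in the `𝔪`-primary part of `X`
   is `(β y) 0` for some `y ∈ L′` with `(β y) 1 = (β y) 2 = 0`.
-/
import Mathlib
import Fermat.Agent.GE9.PNew.Inst.LocSurj

set_option autoImplicit false
set_option linter.unusedSectionVars false

namespace Fermat.Agent.GE9.PNew.Inst.LocSurjU

/-! ## 1. the abstract transfer, `τ` an endomorphism -/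

section Abstract

variable {R : Type*} [CommRing R]
variable {X M : Type*} [AddCommGroup X] [Module R X] [AddCommGroup M] [Module R M]

/-- linear maps preserve `J • ⊤`. -/
theorem map_mem_smul_top {V W : Type*} [AddCommGroup V] [Module R V] [AddCommGroup W]
    [Module R W] (f : V →ₗ[R] W) (J : Ideal R) {x : V}
    (hx : x ∈ (J • ⊤ : Submodule R V)) : f x ∈ (J • ⊤ : Submodule R W) := by
  have h := Submodule.mem_map_of_mem (f := f) hx
  rw [Submodule.map_smul''] at h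
  exact Submodule.smul_mono le_rfl le_top h

variable (β : X →ₗ[R] (Fin 3 → M)) (U : Module.End R X) (τ : Module.End R M) (c : R)
variable (h0 : ∀ y, β (U y) 0 = c • β y 1) (h1 : ∀ y, β (U y) 1 = c • β y 2)
  (h2 : ∀ y, β (U y) 2 = τ (β y 2) - β y 1)

include h1 h2 in
/-- one step back through the invertible block `[[0, c], [−1, τ]]`. -/
theorem mem_of_apply_mem (hc : IsUnit c) (S : Submodule R M) (hS : ∀ v ∈ S, τ v ∈ S) (y : X)
    (hy : β (U y) 1 ∈ S ∧ β (U y) 2 ∈ S) : β y 1 ∈ S ∧ β y 2 ∈ S := by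
  obtain ⟨u, rfl⟩ := hc
  have hb2 : β y 2 ∈ S := by
    have h := S.smul_mem ((u⁻¹ : Rˣ) : R) hy.1
    rwa [h1, smul_smul, Units.inv_mul, one_smul] at h
  refine ⟨?_, hb2⟩
  have h := S.sub_mem (hS _ hb2) hy.2
  rwa [h2, sub_sub_cancel] at h

include h1 h2 in
/-- `n` steps back. -/
theorem mem_of_pow_apply_mem (hc : IsUnit c) (S : Submodule R M) (hS : ∀ v ∈ S, τ v ∈ S)
    (n : ℕ) (y : X) (hy : β ((U ^ n) y) 1 ∈ S ∧ β ((U ^ n) y) 2 ∈ S) :
    β y 1 ∈ S ∧ β y 2 ∈ S := by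
  induction n with
  | zero => simpa using hy
  | succ n ih =>
    refine ih (mem_of_apply_mem β U τ c h1 h2 hc S hS _ ?_)
    rwa [pow_succ', Module.End.mul_apply] at hy

include h1 h2 in
/-- **`U` topologically nilpotent at `y` ⟹ `(β y) 1 = (β y) 2 = 0`.** -/
theorem apply_one_two_eq_zero (hc : IsUnit c) (I : Ideal R)
    (hsep : (⨅ k : ℕ, (I ^ k • ⊤ : Submodule R M)) = ⊥) (y : X)
    (hnil : ∀ k : ℕ, ∃ n : ℕ, (U ^ n) y ∈ (I ^ k • ⊤ : Submodule R X)) :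
    β y 1 = 0 ∧ β y 2 = 0 := by
  have key : ∀ k : ℕ, β y 1 ∈ (I ^ k • ⊤ : Submodule R M) ∧ β y 2 ∈ (I ^ k • ⊤ : Submodule R M) := by
    intro k
    obtain ⟨n, hn⟩ := hnil k
    refine mem_of_pow_apply_mem β U τ c h1 h2 hc _ (fun v hv => map_mem_smul_top τ _ hv) n y ⟨?_, ?_⟩
    · exact map_mem_smul_top ((LinearMap.proj 1 : (Fin 3 → M) →ₗ[R] M) ∘ₗ β) _ hn
    · exact map_mem_smul_top ((LinearMap.proj 2 : (Fin 3 → M) →ₗ[R] M) ∘ₗ β) _ hn
  constructor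
  · have h : β y 1 ∈ (⨅ k : ℕ, (I ^ k • ⊤ : Submodule R M)) :=
      (Submodule.mem_iInf _).2 fun k => (key k).1
    rw [hsep] at h
    exact (Submodule.mem_bot R).1 h
  · have h : β y 2 ∈ (⨅ k : ℕ, (I ^ k • ⊤ : Submodule R M)) :=
      (Submodule.mem_iInf _).2 fun k => (key k).2
    rw [hsep] at h
    exact (Submodule.mem_bot R).1 h

include h0 h1 h2 in
/-- the functional `ε u = u 0 − τ (u 1) + c • u 2` kills `β (range U)`. -/
theorem eps_apply_U (z : X) : β (U z) 0 - τ (β (U z) 1) + c • β (U z) 2 = 0 := by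
  rw [h0, h1, h2, map_smul, smul_sub]
  abel

include h0 h1 h2 in
/-- **`w ∈ L′ ⊔ C`, `β w = (x, 0, 0)` ⟹ `∃ y ∈ L′, β y = (x, 0, 0)`** (`U` topologically nilpotent
on `L′`, onto on `C`, `c` a unit). -/
theorem exists_mem_single (hc : IsUnit c) (I : Ideal R)
    (hsep : (⨅ k : ℕ, (I ^ k • ⊤ : Submodule R M)) = ⊥) (L' C : Submodule R X)
    (hnil : ∀ y ∈ L', ∀ k : ℕ, ∃ n : ℕ, (U ^ n) y ∈ (I ^ k • ⊤ : Submodule R X))
    (hC : ∀ z ∈ C, ∃ z' : X, U z' = z)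
    (w : X) (hw : w ∈ L' ⊔ C) (x : M) (hw0 : β w 0 = x) (hw1 : β w 1 = 0) (hw2 : β w 2 = 0) :
    ∃ y ∈ L', β y 0 = x ∧ β y 1 = 0 ∧ β y 2 = 0 := by
  obtain ⟨l, hl, z, hz, rfl⟩ := Submodule.mem_sup.1 hw
  obtain ⟨hl1, hl2⟩ := apply_one_two_eq_zero β U τ c h1 h2 hc I hsep l (hnil l hl)
  refine ⟨l, hl, ?_, hl1, hl2⟩
  obtain ⟨z', rfl⟩ := hC z hz
  have he := eps_apply_U β U τ c h0 h1 h2 z'
  have e0 : β (U z') 0 = x - β l 0 := by
    rw [← hw0, map_add, Pi.add_apply, add_sub_cancel_left]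
  have e1 : β (U z') 1 = 0 := by
    have := hw1
    rwa [map_add, Pi.add_apply, hl1, zero_add] at this
  have e2 : β (U z') 2 = 0 := by
    have := hw2
    rwa [map_add, Pi.add_apply, hl2, zero_add] at this
  rw [e0, e1, e2, map_zero, smul_zero, sub_zero, add_zero, sub_eq_zero] at he
  exact he.symm

end Abstract

/-! ## 2. on the `𝔪`-primary parts -/

section Local

open Fermat.Agent.GB.B3.Loc Fermat.Agent.GB.B3.Loc2

variable (𝒪 : Type) [CommRing 𝒪] [IsLocalRing 𝒪] [IsNoetherianRing 𝒪]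
  [IsAdicComplete (IsLocalRing.maximalIdeal 𝒪) 𝒪]
variable {A : Type} [CommRing A] [Algebra 𝒪 A]
variable {X X' : Type*} [AddCommGroup X] [Module 𝒪 X] [Module A X] [IsScalarTower 𝒪 A X]
  [Module.Finite 𝒪 X]
  [AddCommGroup X'] [Module 𝒪 X'] [Module A X'] [IsScalarTower 𝒪 A X'] [Module.Finite 𝒪 X']
variable (𝔪 : Ideal A) [h𝔪 : 𝔪.IsMaximal]

omit [IsLocalRing 𝒪] [IsNoetherianRing 𝒪] [IsAdicComplete (IsLocalRing.maximalIdeal 𝒪) 𝒪]
  [Algebra 𝒪 A] [Module 𝒪 X] [IsScalarTower 𝒪 A X] [Module.Finite 𝒪 X] h𝔪 in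
/-- `(x, 0, 0)` is `𝔪`-primary when `x` is. -/
theorem single_mem_locPart [𝔪.IsPrime] {x : X} (hx : x ∈ locPart 𝔪 X) :
    (![x, 0, 0] : Fin 3 → X) ∈ locPart 𝔪 (Fin 3 → X) := by
  rw [mem_locPart] at hx ⊢
  intro s hs
  obtain ⟨y, hy⟩ := hx s hs
  refine ⟨![y, 0, 0], ?_⟩
  funext m
  fin_cases m
  · exact hy
  · exact smul_zero s
  · exact smul_zero s

/-- **(I-b), abstract form.**  `β : X′ → X³` Hecke-linear for the `q`-anemic algebra `A`, with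
`β U = U3♯ β` (`U3♯ = [[0, c, 0], [0, 0, c], [0, −1, τ]]`, `c` a unit of `𝒪`), onto modulo `ϖ`
after multiplication by some `E ∉ 𝔪` (dual IHARA2); `L′, C` with `locPart 𝔪 X′ ≤ L′ ⊔ C`, `U`
topologically nilpotent on `L′` and onto on `C` (helper8 `LocTC`).  Then every `x` in the
`𝔪`-primary part of `X` is `(β y) 0` for some `y ∈ L′` with `(β y) 1 = (β y) 2 = 0`. -/
theorem exists_mem_single_of_kill (β : X' →ₗ[A] (Fin 3 → X)) (U : X' →ₗ[𝒪] X') (τ : X →ₗ[𝒪] X)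
    (c : 𝒪) (hc : IsUnit c)
    (h0 : ∀ y, β (U y) 0 = c • β y 1) (h1 : ∀ y, β (U y) 1 = c • β y 2)
    (h2 : ∀ y, β (U y) 2 = τ (β y 2) - β y 1)
    (E : A) (hE : E ∉ 𝔪) (ϖ : 𝒪) (hϖ : ϖ ∈ IsLocalRing.maximalIdeal 𝒪)
    (hkill : ∀ z : Fin 3 → X, ∃ (w : X') (z' : Fin 3 → X), E • z = β w + ϖ • z')
    (L' C : Submodule 𝒪 X')
    (hsup : (locPart 𝔪 X').restrictScalars 𝒪 ≤ L' ⊔ C)
    (hnil : ∀ y ∈ L', ∀ k : ℕ, ∃ n : ℕ,
      (U ^ n) y ∈ ((IsLocalRing.maximalIdeal 𝒪) ^ k • ⊤ : Submodule 𝒪 X'))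
    (hC : ∀ z ∈ C, ∃ z' : X', U z' = z) :
    ∀ x ∈ locPart 𝔪 X, ∃ y ∈ L', β y 0 = x ∧ β y 1 = 0 ∧ β y 2 = 0 := by
  intro x hx
  obtain ⟨w, hw, hβw⟩ := exists_locPart_of_kill 𝒪 𝔪 β E hE ϖ hϖ hkill _
    (single_mem_locPart 𝔪 hx)
  have hsep : (⨅ k : ℕ, ((IsLocalRing.maximalIdeal 𝒪) ^ k • ⊤ : Submodule 𝒪 X)) = ⊥ :=
    Ideal.iInf_pow_smul_eq_bot_of_isLocalRing _ (IsLocalRing.maximalIdeal.isMaximal 𝒪).ne_top
  refine exists_mem_single (β.restrictScalars 𝒪) U τ c h0 h1 h2 hc (IsLocalRing.maximalIdeal 𝒪)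
    hsep L' C hnil hC w (hsup hw) x ?_ ?_ ?_
  · show β w 0 = x
    rw [hβw]; rfl
  · show β w 1 = 0
    rw [hβw]; rfl
  · show β w 2 = 0
    rw [hβw]; rfl

end Local

end Fermat.Agent.GE9.PNew.Inst.LocSurjU
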