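/-
GATE-E / RISK-4, instance layer R4-I (helper37): `GE9/PNew/Inst/PolyAct.lean` — THE VOCABULARY of
the instance layer.

For a set `Z` of primes ("the primes in the algebra"), `PAlg 𝒪 Z := MvPolynomial {l // l ∈ Z} 𝒪`
acts on EVERY `𝒪 ⊗[ℤ] Lam M` (all levels `M`) through `x_l ↦ (latT M l).baseChange 𝒪`
(`T_l` for `l ∤ M`, `U_l` for `l ∣ M`).

* `PIdx Z`, `PAlg 𝒪 Z` (opaque synonym; `CommRing`, `Algebra 𝒪`), `xP 𝒪 Z l hl`, `pAlg_induction`;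
* `instModulePAlg : Module (PAlg 𝒪 Z) (𝒪 ⊗[ℤ] Lam M)`, `xP_smul`, `IsScalarTower 𝒪 (PAlg 𝒪 Z) _`;
* `linP g hg` / `baseChangeP f hf` : an `𝒪`-linear map (resp. the base change of a `ℤ`-linear map)
  commuting with the `T_l`, `l ∈ Z`, is `PAlg 𝒪 Z`-linear;
* `evP 𝒪 Z lam : PAlg 𝒪 Z →ₐ[𝒪] 𝒪` (`x_l ↦ lam l`), `mP 𝒪 Z lam` (its reduction: a maximal ideal),
  `notMem_mP_iff`, `smulP_eq_evP_smul`, `mem_locPart_mP_of_eigen`, `eigenTensorO_le_locPart_mP`;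
* `BW_smulP` : the whole algebra is self-adjoint for the Fricke-twisted cup form;
* `resP h : PAlg 𝒪 Z →ₐ[𝒪] PAlg 𝒪 Z'` for `Z ⊆ Z'`, `resP_smul`, `comap_mP`,
  `mP_insert` : `𝔪_{Z ∪ {q}} = 𝔪_Z · P' + (x_q - lam q)`.
-/
import Mathlib
import Fermat.Agent.GB.B3.HeckeAct
import Fermat.Agent.GB.B3.Loc
import Fermat.Agent.GE9.Eta.Mod

set_option autoImplicit false
set_option linter.unusedSectionVars false
set_option linter.style.haveILetI false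

noncomputable section

namespace Fermat.Agent.GE9.PNew.Inst

open TensorProduct IsLocalRing
open Fermat.Agent.GJ.J2.Lat Fermat.Agent.GB.B3.Loc Fermat.Agent.GB.B3.HeckeAct
  Fermat.Agent.GE9.Eta.Mod Fermat.Agent.GE9.Eta.Loc Fermat.Agent.GE9.Mult1

/-! ### the polynomial Hecke algebra and its action -/

section Defs

variable (𝒪 : Type) [CommRing 𝒪] (Z : Set ℕ)

/-- the symbols of the algebra: the primes in `Z` -/
abbrev PIdx : Type := {l : Nat.Primes // (l : ℕ) ∈ Z}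

/-- the polynomial Hecke algebra on the primes of `Z` (a type synonym of
`MvPolynomial (PIdx Z) 𝒪`, kept opaque for instance search) -/
def PAlg : Type := MvPolynomial (PIdx Z) 𝒪

instance instCommRingPAlg : CommRing (PAlg 𝒪 Z) :=
  inferInstanceAs (CommRing (MvPolynomial (PIdx Z) 𝒪))

instance instAlgebraPAlg : Algebra 𝒪 (PAlg 𝒪 Z) :=
  inferInstanceAs (Algebra 𝒪 (MvPolynomial (PIdx Z) 𝒪))

/-- the identification with the polynomial ring -/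
def toPoly : PAlg 𝒪 Z ≃ₐ[𝒪] MvPolynomial (PIdx Z) 𝒪 where
  toFun := id
  invFun := id
  left_inv := fun _ => rfl
  right_inv := fun _ => rfl
  map_mul' := fun _ _ => rfl
  map_add' := fun _ _ => rfl
  commutes' := fun _ => rfl

/-- the Hecke symbol of the prime `l ∈ Z` -/
def xP (l : Nat.Primes) (hl : (l : ℕ) ∈ Z) : PAlg 𝒪 Z :=
  (toPoly 𝒪 Z).symm (MvPolynomial.X (⟨l, hl⟩ : PIdx Z))

/-- induction on the polynomial Hecke algebra -/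
theorem pAlg_induction {motive : PAlg 𝒪 Z → Prop} (a : PAlg 𝒪 Z)
    (hC : ∀ c : 𝒪, motive (algebraMap 𝒪 (PAlg 𝒪 Z) c))
    (hadd : ∀ a b, motive a → motive b → motive (a + b))
    (hmul : ∀ a (l : Nat.Primes) (hl : (l : ℕ) ∈ Z), motive a → motive (a * xP 𝒪 Z l hl)) :
    motive a :=
  MvPolynomial.induction_on (motive := fun p : MvPolynomial (PIdx Z) 𝒪 => motive p) a
    (fun c => hC c) (fun p q hp hq => hadd p q hp hq) (fun p i hp => hmul p i.1 i.2 hp)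

variable (M : ℕ) [NeZero M]

/-- the operator of the symbol `l` on `𝒪 ⊗[ℤ] Lam M` -/
def genP (l : PIdx Z) : Module.End 𝒪 (𝒪 ⊗[ℤ] Lam M) := (latT M l.1).baseChange 𝒪

theorem genP_comm (l l' : PIdx Z) :
    genP 𝒪 Z M l * genP 𝒪 Z M l' = genP 𝒪 Z M l' * genP 𝒪 Z M l := by
  unfold genP
  have hc : latT M l.1 ∘ₗ latT M l'.1 = latT M l'.1 ∘ₗ latT M l.1 :=
    (latT_commute M l.1 l'.1).eq
  change (latT M l.1).baseChange 𝒪 ∘ₗ (latT M l'.1).baseChange 𝒪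
    = (latT M l'.1).baseChange 𝒪 ∘ₗ (latT M l.1).baseChange 𝒪
  rw [← LinearMap.baseChange_comp, ← LinearMap.baseChange_comp, hc]

/-- the action of the polynomial Hecke algebra on `𝒪 ⊗[ℤ] Lam M` -/
def actP : PAlg 𝒪 Z →ₐ[𝒪] Module.End 𝒪 (𝒪 ⊗[ℤ] Lam M) :=
  (polyAct (genP 𝒪 Z M) (genP_comm 𝒪 Z M)).comp (toPoly 𝒪 Z : PAlg 𝒪 Z →ₐ[𝒪] _)

instance instModulePAlg : Module (PAlg 𝒪 Z) (𝒪 ⊗[ℤ] Lam M) :=
  Module.compHom _ (actP 𝒪 Z M).toRingHom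

variable {𝒪 Z M}

theorem smulP_def (a : PAlg 𝒪 Z) (x : 𝒪 ⊗[ℤ] Lam M) : a • x = actP 𝒪 Z M a x := rfl

instance instIsScalarTowerPAlg : IsScalarTower 𝒪 (PAlg 𝒪 Z) (𝒪 ⊗[ℤ] Lam M) :=
  ⟨fun c a x => by rw [smulP_def, map_smul, LinearMap.smul_apply, ← smulP_def]⟩

@[simp] theorem xP_smul (l : Nat.Primes) (hl : (l : ℕ) ∈ Z) (x : 𝒪 ⊗[ℤ] Lam M) :
    xP 𝒪 Z l hl • x = (latT M l).baseChange 𝒪 x := by
  rw [smulP_def]
  show polyAct (genP 𝒪 Z M) (genP_comm 𝒪 Z M)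
    (toPoly 𝒪 Z ((toPoly 𝒪 Z).symm (MvPolynomial.X (⟨l, hl⟩ : PIdx Z)))) x = _
  rw [AlgEquiv.apply_symm_apply, polyAct_X]
  rfl

theorem algebraMap_smulP (c : 𝒪) (x : 𝒪 ⊗[ℤ] Lam M) :
    algebraMap 𝒪 (PAlg 𝒪 Z) c • x = c • x :=
  algebraMap_smul (PAlg 𝒪 Z) c x

end Defs

/-! ### Hecke-linearity of the transfer maps -/

section Lin

variable {𝒪 : Type} [CommRing 𝒪] {Z : Set ℕ} {M M' : ℕ} [NeZero M] [NeZero M']

/-- an `𝒪`-linear map commuting with the `T_l`, `l ∈ Z`, commutes with the whole algebra -/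
theorem map_smulP_of_comm (g : 𝒪 ⊗[ℤ] Lam M →ₗ[𝒪] 𝒪 ⊗[ℤ] Lam M')
    (hg : ∀ l : Nat.Primes, (l : ℕ) ∈ Z → ∀ x,
      g ((latT M l).baseChange 𝒪 x) = (latT M' l).baseChange 𝒪 (g x))
    (a : PAlg 𝒪 Z) (x : 𝒪 ⊗[ℤ] Lam M) : g (a • x) = a • g x := by
  revert x
  refine pAlg_induction 𝒪 Z a (motive := fun a => ∀ x, g (a • x) = a • g x) ?_ ?_ ?_
  · intro c x
    rw [algebraMap_smulP, algebraMap_smulP, map_smul]
  · intro a b ha hb x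
    rw [add_smul, add_smul, map_add, ha, hb]
  · intro a l hl ha x
    rw [mul_smul, mul_smul, ha, xP_smul, xP_smul, hg l hl]

/-- **an `𝒪`-linear map commuting with the `T_l`, `l ∈ Z`, as a `PAlg 𝒪 Z`-linear map** -/
def linP (g : 𝒪 ⊗[ℤ] Lam M →ₗ[𝒪] 𝒪 ⊗[ℤ] Lam M')
    (hg : ∀ l : Nat.Primes, (l : ℕ) ∈ Z → ∀ x,
      g ((latT M l).baseChange 𝒪 x) = (latT M' l).baseChange 𝒪 (g x)) :
    𝒪 ⊗[ℤ] Lam M →ₗ[PAlg 𝒪 Z] 𝒪 ⊗[ℤ] Lam M' where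
  toFun := g
  map_add' := map_add g
  map_smul' := fun a x => map_smulP_of_comm g hg a x

@[simp] theorem linP_apply (g : 𝒪 ⊗[ℤ] Lam M →ₗ[𝒪] 𝒪 ⊗[ℤ] Lam M')
    (hg : ∀ l : Nat.Primes, (l : ℕ) ∈ Z → ∀ x,
      g ((latT M l).baseChange 𝒪 x) = (latT M' l).baseChange 𝒪 (g x))
    (x : 𝒪 ⊗[ℤ] Lam M) : linP g hg x = g x := rfl

/-- the base change of a `ℤ`-linear map commuting with the `T_l`, `l ∈ Z`, commutes with the
`T_l ⊗ 𝒪` -/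
theorem baseChange_comm (f : Lam M →ₗ[ℤ] Lam M')
    (hf : ∀ l : Nat.Primes, (l : ℕ) ∈ Z → ∀ x, f (latT M l x) = latT M' l (f x))
    (l : Nat.Primes) (hl : (l : ℕ) ∈ Z) (x : 𝒪 ⊗[ℤ] Lam M) :
    f.baseChange 𝒪 ((latT M l).baseChange 𝒪 x) = (latT M' l).baseChange 𝒪 (f.baseChange 𝒪 x) := by
  have hc : f ∘ₗ latT M l = latT M' l ∘ₗ f := LinearMap.ext fun y => hf l hl y
  rw [← LinearMap.comp_apply, ← LinearMap.baseChange_comp, hc, LinearMap.baseChange_comp,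
    LinearMap.comp_apply]

/-- **the base change of a `ℤ`-linear map commuting with the `T_l`, `l ∈ Z`, as a
`PAlg 𝒪 Z`-linear map** -/
def baseChangeP (f : Lam M →ₗ[ℤ] Lam M')
    (hf : ∀ l : Nat.Primes, (l : ℕ) ∈ Z → ∀ x, f (latT M l x) = latT M' l (f x)) :
    𝒪 ⊗[ℤ] Lam M →ₗ[PAlg 𝒪 Z] 𝒪 ⊗[ℤ] Lam M' :=
  linP (f.baseChange 𝒪) (baseChange_comm f hf)

@[simp] theorem baseChangeP_apply (f : Lam M →ₗ[ℤ] Lam M')
    (hf : ∀ l : Nat.Primes, (l : ℕ) ∈ Z → ∀ x, f (latT M l x) = latT M' l (f x))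
    (x : 𝒪 ⊗[ℤ] Lam M) : baseChangeP (𝒪 := 𝒪) f hf x = f.baseChange 𝒪 x := rfl

end Lin

/-! ### the eigencharacter and the maximal ideal -/

section Char

variable (𝒪 : Type) [CommRing 𝒪] (Z : Set ℕ) (lam : Nat.Primes → 𝒪)

/-- the evaluation `x_l ↦ lam l` -/
def evP : PAlg 𝒪 Z →ₐ[𝒪] 𝒪 :=
  (MvPolynomial.aeval fun l : PIdx Z => lam l.1).comp (toPoly 𝒪 Z : PAlg 𝒪 Z →ₐ[𝒪] _)

@[simp] theorem evP_xP (l : Nat.Primes) (hl : (l : ℕ) ∈ Z) :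
    evP 𝒪 Z lam (xP 𝒪 Z l hl) = lam l := by
  show MvPolynomial.aeval (fun l : PIdx Z => lam l.1)
    (toPoly 𝒪 Z ((toPoly 𝒪 Z).symm (MvPolynomial.X (⟨l, hl⟩ : PIdx Z)))) = _
  rw [AlgEquiv.apply_symm_apply, MvPolynomial.aeval_X]

variable {𝒪 Z lam}

/-- on a joint eigenvector (for the `T_l`, `l ∈ Z`) the algebra acts through `evP` -/
theorem smulP_eq_evP_smul {M : ℕ} [NeZero M] {x : 𝒪 ⊗[ℤ] Lam M}
    (hx : ∀ l : Nat.Primes, (l : ℕ) ∈ Z → (latT M l).baseChange 𝒪 x = lam l • x)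
    (a : PAlg 𝒪 Z) : a • x = evP 𝒪 Z lam a • x := by
  refine pAlg_induction 𝒪 Z a (motive := fun a => a • x = evP 𝒪 Z lam a • x) ?_ ?_ ?_
  · intro c
    rw [algebraMap_smulP, AlgHom.commutes]
    rfl
  · intro a b ha hb
    rw [add_smul, ha, hb, map_add, add_smul]
  · intro a l hl ha
    rw [mul_smul, xP_smul, hx l hl, smul_comm, ha, map_mul, evP_xP, smul_smul, mul_comm]

variable (𝒪 Z lam)
variable [IsLocalRing 𝒪]

/-- the maximal ideal of the polynomial Hecke algebra attached to `lam` mod `𝔪_𝒪` -/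
def mP : Ideal (PAlg 𝒪 Z) :=
  RingHom.ker ((residue 𝒪).comp (evP 𝒪 Z lam : PAlg 𝒪 Z →+* 𝒪))

instance isMaximal_mP : (mP 𝒪 Z lam).IsMaximal := by
  refine RingHom.ker_isMaximal_of_surjective _ fun y => ?_
  obtain ⟨c, rfl⟩ := residue_surjective y
  exact ⟨algebraMap 𝒪 (PAlg 𝒪 Z) c, by
    rw [RingHom.comp_apply, RingHom.coe_coe, AlgHom.commutes]
    rfl⟩

variable {𝒪 Z lam}

theorem mem_mP_iff (a : PAlg 𝒪 Z) : a ∈ mP 𝒪 Z lam ↔ evP 𝒪 Z lam a ∈ maximalIdeal 𝒪 := by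
  rw [mP, RingHom.mem_ker, RingHom.comp_apply, RingHom.coe_coe, residue_eq_zero_iff]

theorem notMem_mP_iff (a : PAlg 𝒪 Z) : a ∉ mP 𝒪 Z lam ↔ IsUnit (evP 𝒪 Z lam a) := by
  rw [mem_mP_iff, mem_maximalIdeal, mem_nonunits_iff, not_not]

/-- the maximal ideal only depends on `lam` modulo `𝔪_𝒪` on `Z` -/
theorem mP_congr {lam' : Nat.Primes → 𝒪}
    (h : ∀ l : Nat.Primes, (l : ℕ) ∈ Z → lam' l - lam l ∈ maximalIdeal 𝒪) :
    mP 𝒪 Z lam' = mP 𝒪 Z lam := by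
  have key : ∀ a : PAlg 𝒪 Z, evP 𝒪 Z lam' a - evP 𝒪 Z lam a ∈ maximalIdeal 𝒪 := by
    intro a
    refine pAlg_induction 𝒪 Z a
      (motive := fun a => evP 𝒪 Z lam' a - evP 𝒪 Z lam a ∈ maximalIdeal 𝒪) ?_ ?_ ?_
    · intro c
      rw [AlgHom.commutes, AlgHom.commutes, sub_self]
      exact Ideal.zero_mem _
    · intro a b ha hb
      have e : evP 𝒪 Z lam' (a + b) - evP 𝒪 Z lam (a + b)
          = (evP 𝒪 Z lam' a - evP 𝒪 Z lam a) + (evP 𝒪 Z lam' b - evP 𝒪 Z lam b) := by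
        rw [map_add, map_add]; ring
      rw [e]
      exact Ideal.add_mem _ ha hb
    · intro a l hl ha
      have e : evP 𝒪 Z lam' (a * xP 𝒪 Z l hl) - evP 𝒪 Z lam (a * xP 𝒪 Z l hl)
          = (evP 𝒪 Z lam' a - evP 𝒪 Z lam a) * lam' l + evP 𝒪 Z lam a * (lam' l - lam l) := by
        rw [map_mul, map_mul, evP_xP, evP_xP]; ring
      rw [e]
      exact Ideal.add_mem _ (Ideal.mul_mem_right _ _ ha) (Ideal.mul_mem_left _ _ (h l hl))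
  ext a
  rw [mem_mP_iff, mem_mP_iff]
  constructor
  · intro ha
    have := Ideal.sub_mem _ ha (key a)
    rwa [sub_sub_cancel] at this
  · intro ha
    have := Ideal.add_mem _ (key a) ha
    rwa [sub_add_cancel] at this

/-- a joint eigenvector (for the `T_l`, `l ∈ Z`) with system `lam` lies in the `𝔪`-primary part -/
theorem mem_locPart_mP_of_eigen {M : ℕ} [NeZero M] {x : 𝒪 ⊗[ℤ] Lam M}
    (hx : ∀ l : Nat.Primes, (l : ℕ) ∈ Z → (latT M l).baseChange 𝒪 x = lam l • x) :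
    x ∈ locPart (mP 𝒪 Z lam) (𝒪 ⊗[ℤ] Lam M) :=
  mem_locPart_of_eigen (mP 𝒪 Z lam) (evP 𝒪 Z lam) (fun a ha => (notMem_mP_iff a).mp ha)
    (fun a => smulP_eq_evP_smul hx a)

/-- the full joint eigen-sublattice lies in the `𝔪`-primary part -/
theorem eigenTensorO_le_locPart_mP {M : ℕ} [NeZero M] {lam' : Nat.Primes → 𝒪}
    (h : ∀ l : Nat.Primes, (l : ℕ) ∈ Z → lam' l = lam l) {x : 𝒪 ⊗[ℤ] Lam M}
    (hx : x ∈ eigenTensorO M 𝒪 lam') : x ∈ locPart (mP 𝒪 Z lam) (𝒪 ⊗[ℤ] Lam M) :=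
  mem_locPart_mP_of_eigen fun l hl => by rw [mem_eigenTensorO.mp hx l, h l hl]

end Char

/-! ### self-adjointness -/

section Adjoint

variable {𝒪 : Type} [CommRing 𝒪] {Z : Set ℕ} {M : ℕ} [NeZero M]

/-- **the whole polynomial Hecke algebra is self-adjoint for the Fricke-twisted cup form** -/
theorem BW_smulP (a : PAlg 𝒪 Z) (x y : 𝒪 ⊗[ℤ] Lam M) :
    BW M 𝒪 (a • x) y = BW M 𝒪 x (a • y) := by
  revert x y
  refine pAlg_induction 𝒪 Z a (motive := fun a => ∀ x y : 𝒪 ⊗[ℤ] Lam M,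
    BW M 𝒪 (a • x) y = BW M 𝒪 x (a • y)) ?_ ?_ ?_
  · intro c x y
    rw [algebraMap_smulP, algebraMap_smulP, map_smul, map_smul, LinearMap.smul_apply]
  · intro a b ha hb x y
    rw [add_smul, add_smul, map_add, map_add, LinearMap.add_apply, ha, hb]
  · intro a l hl ha x y
    rw [mul_smul, ha, xP_smul, BW_latT, ← xP_smul l hl, ← mul_smul, mul_comm]

end Adjoint

/-! ### enlarging the set of primes -/

section Res

variable (𝒪 : Type) [CommRing 𝒪] {Z Z' : Set ℕ} (h : Z ⊆ Z')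

/-- the inclusion of the polynomial Hecke algebras for `Z ⊆ Z'` -/
def resP : PAlg 𝒪 Z →ₐ[𝒪] PAlg 𝒪 Z' :=
  ((toPoly 𝒪 Z').symm : MvPolynomial (PIdx Z') 𝒪 →ₐ[𝒪] PAlg 𝒪 Z').comp
    ((MvPolynomial.rename fun l : PIdx Z => (⟨l.1, h l.2⟩ : PIdx Z')).comp
      (toPoly 𝒪 Z : PAlg 𝒪 Z →ₐ[𝒪] _))

@[simp] theorem resP_xP (l : Nat.Primes) (hl : (l : ℕ) ∈ Z) :
    resP 𝒪 h (xP 𝒪 Z l hl) = xP 𝒪 Z' l (h hl) := by
  show (toPoly 𝒪 Z').symm (MvPolynomial.rename (fun l : PIdx Z => (⟨l.1, h l.2⟩ : PIdx Z'))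
    (toPoly 𝒪 Z ((toPoly 𝒪 Z).symm (MvPolynomial.X (⟨l, hl⟩ : PIdx Z))))) = _
  rw [AlgEquiv.apply_symm_apply, MvPolynomial.rename_X]
  rfl

variable {𝒪}

theorem resP_smul {M : ℕ} [NeZero M] (a : PAlg 𝒪 Z) (x : 𝒪 ⊗[ℤ] Lam M) :
    resP 𝒪 h a • x = a • x := by
  revert x
  refine pAlg_induction 𝒪 Z a (motive := fun a => ∀ x : 𝒪 ⊗[ℤ] Lam M, resP 𝒪 h a • x = a • x)
    ?_ ?_ ?_
  · intro c x
    rw [AlgHom.commutes, algebraMap_smulP, algebraMap_smulP]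
  · intro a b ha hb x
    rw [map_add, add_smul, add_smul, ha, hb]
  · intro a l hl ha x
    rw [map_mul, mul_smul, mul_smul, ha, resP_xP, xP_smul, xP_smul]

theorem evP_resP (lam : Nat.Primes → 𝒪) (a : PAlg 𝒪 Z) :
    evP 𝒪 Z' lam (resP 𝒪 h a) = evP 𝒪 Z lam a := by
  refine pAlg_induction 𝒪 Z a
    (motive := fun a => evP 𝒪 Z' lam (resP 𝒪 h a) = evP 𝒪 Z lam a) ?_ ?_ ?_
  · intro c
    rw [AlgHom.commutes, AlgHom.commutes, AlgHom.commutes]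
  · intro a b ha hb
    rw [map_add, map_add, map_add, ha, hb]
  · intro a l hl ha
    rw [map_mul, map_mul, map_mul, ha, resP_xP, evP_xP, evP_xP]

variable [IsLocalRing 𝒪]

theorem comap_mP (lam : Nat.Primes → 𝒪) :
    (mP 𝒪 Z' lam).comap (resP 𝒪 h) = mP 𝒪 Z lam := by
  ext a
  rw [Ideal.mem_comap, mem_mP_iff, mem_mP_iff, evP_resP]

theorem map_mP_le (lam : Nat.Primes → 𝒪) :
    (mP 𝒪 Z lam).map (resP 𝒪 h) ≤ mP 𝒪 Z' lam := by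
  rw [Ideal.map_le_iff_le_comap, comap_mP]

include h in
/-- the `𝔪_{Z'}`-primary part is contained in the `𝔪_Z`-primary part -/
theorem locPart_mP_le {M : ℕ} [NeZero M] (lam : Nat.Primes → 𝒪) {x : 𝒪 ⊗[ℤ] Lam M}
    (hx : x ∈ locPart (mP 𝒪 Z' lam) (𝒪 ⊗[ℤ] Lam M)) :
    x ∈ locPart (mP 𝒪 Z lam) (𝒪 ⊗[ℤ] Lam M) := by
  rw [mem_locPart] at hx ⊢
  intro s hs
  have hs' : resP 𝒪 h s ∉ mP 𝒪 Z' lam := by
    rw [notMem_mP_iff] at hs ⊢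
    rwa [evP_resP]
  obtain ⟨y, hy⟩ := hx _ hs'
  exact ⟨y, by rw [← hy, resP_smul]⟩

end Res

/-! ### adjoining one prime -/

section Insert

variable {𝒪 : Type} [CommRing 𝒪] {Z : Set ℕ} (q : Nat.Primes)

/-- every element of the algebra on `Z ∪ {q}` is congruent modulo `x_q - c` to an element of the
algebra on `Z` -/
theorem exists_resP_sub_mem (c : 𝒪) (a : PAlg 𝒪 (insert (q : ℕ) Z)) :
    ∃ a₀ : PAlg 𝒪 Z, a - resP 𝒪 (Set.subset_insert (q : ℕ) Z) a₀ ∈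
      Ideal.span {xP 𝒪 (insert (q : ℕ) Z) q (Set.mem_insert _ _)
        - algebraMap 𝒪 (PAlg 𝒪 (insert (q : ℕ) Z)) c} := by
  set I := Ideal.span {xP 𝒪 (insert (q : ℕ) Z) q (Set.mem_insert _ _)
        - algebraMap 𝒪 (PAlg 𝒪 (insert (q : ℕ) Z)) c} with hI
  have hgen : xP 𝒪 (insert (q : ℕ) Z) q (Set.mem_insert _ _)
      - algebraMap 𝒪 (PAlg 𝒪 (insert (q : ℕ) Z)) c ∈ I := Ideal.subset_span rfl
  refine pAlg_induction 𝒪 (insert (q : ℕ) Z) a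
    (motive := fun a => ∃ a₀ : PAlg 𝒪 Z, a - resP 𝒪 (Set.subset_insert (q : ℕ) Z) a₀ ∈ I)
    ?_ ?_ ?_
  · intro c'
    exact ⟨algebraMap 𝒪 (PAlg 𝒪 Z) c', by rw [AlgHom.commutes, sub_self]; exact I.zero_mem⟩
  · rintro a b ⟨a₀, ha⟩ ⟨b₀, hb⟩
    refine ⟨a₀ + b₀, ?_⟩
    have e : a + b - resP 𝒪 (Set.subset_insert (q : ℕ) Z) (a₀ + b₀)
        = (a - resP 𝒪 (Set.subset_insert (q : ℕ) Z) a₀)
          + (b - resP 𝒪 (Set.subset_insert (q : ℕ) Z) b₀) := by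
      rw [map_add]; ring
    rw [e]
    exact I.add_mem ha hb
  · rintro a l hl ⟨a₀, ha⟩
    by_cases hlq : l = q
    · subst hlq
      refine ⟨algebraMap 𝒪 (PAlg 𝒪 Z) c * a₀, ?_⟩
      have e : a * xP 𝒪 (insert (l : ℕ) Z) l hl
            - resP 𝒪 (Set.subset_insert (l : ℕ) Z) (algebraMap 𝒪 (PAlg 𝒪 Z) c * a₀)
          = a * (xP 𝒪 (insert (l : ℕ) Z) l (Set.mem_insert _ _)
              - algebraMap 𝒪 (PAlg 𝒪 (insert (l : ℕ) Z)) c)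
            + algebraMap 𝒪 (PAlg 𝒪 (insert (l : ℕ) Z)) c
              * (a - resP 𝒪 (Set.subset_insert (l : ℕ) Z) a₀) := by
        rw [map_mul, AlgHom.commutes]; ring
      rw [e]
      exact I.add_mem (I.mul_mem_left _ hgen) (I.mul_mem_left _ ha)
    · have hlZ : (l : ℕ) ∈ Z := by
        rcases hl with hl | hl
        · exact absurd (Subtype.ext hl) hlq
        · exact hl
      refine ⟨a₀ * xP 𝒪 Z l hlZ, ?_⟩
      have e : a * xP 𝒪 (insert (q : ℕ) Z) l hl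
            - resP 𝒪 (Set.subset_insert (q : ℕ) Z) (a₀ * xP 𝒪 Z l hlZ)
          = (a - resP 𝒪 (Set.subset_insert (q : ℕ) Z) a₀) * xP 𝒪 (insert (q : ℕ) Z) l hl := by
        rw [map_mul, resP_xP]; ring
      rw [e]
      exact I.mul_mem_right _ ha

variable [IsLocalRing 𝒪]

/-- **`𝔪_{Z ∪ {q}} = 𝔪_Z · P' + (x_q - lam q)`** -/
theorem mP_insert (lam : Nat.Primes → 𝒪) :
    mP 𝒪 (insert (q : ℕ) Z) lam
      = (mP 𝒪 Z lam).map (resP 𝒪 (Set.subset_insert (q : ℕ) Z))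
        ⊔ Ideal.span {xP 𝒪 (insert (q : ℕ) Z) q (Set.mem_insert _ _)
            - algebraMap 𝒪 (PAlg 𝒪 (insert (q : ℕ) Z)) (lam q)} := by
  have hgen : xP 𝒪 (insert (q : ℕ) Z) q (Set.mem_insert _ _)
      - algebraMap 𝒪 (PAlg 𝒪 (insert (q : ℕ) Z)) (lam q) ∈ mP 𝒪 (insert (q : ℕ) Z) lam := by
    rw [mem_mP_iff, map_sub, evP_xP, AlgHom.commutes]
    show lam q - lam q ∈ _
    rw [sub_self]
    exact Ideal.zero_mem _
  have hev0 : ∀ b ∈ Ideal.span {xP 𝒪 (insert (q : ℕ) Z) q (Set.mem_insert _ _)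
      - algebraMap 𝒪 (PAlg 𝒪 (insert (q : ℕ) Z)) (lam q)},
      evP 𝒪 (insert (q : ℕ) Z) lam b = 0 := by
    intro b hb
    obtain ⟨r, rfl⟩ := Ideal.mem_span_singleton'.mp hb
    rw [map_mul, map_sub, evP_xP, AlgHom.commutes]
    show _ * (lam q - lam q) = 0
    rw [sub_self, mul_zero]
  apply le_antisymm
  · intro a ha
    obtain ⟨a₀, ha₀⟩ := exists_resP_sub_mem q (lam q) a
    have h1 : evP 𝒪 Z lam a₀ = evP 𝒪 (insert (q : ℕ) Z) lam a := by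
      have := hev0 _ ha₀
      rw [map_sub, evP_resP, sub_eq_zero] at this
      exact this.symm
    have h2 : a₀ ∈ mP 𝒪 Z lam := by
      rw [mem_mP_iff, h1, ← mem_mP_iff]
      exact ha
    have e : a = resP 𝒪 (Set.subset_insert (q : ℕ) Z) a₀
        + (a - resP 𝒪 (Set.subset_insert (q : ℕ) Z) a₀) := by ring
    rw [e]
    exact Submodule.add_mem_sup (Ideal.mem_map_of_mem _ h2) ha₀
  · refine sup_le (map_mP_le _ lam) ?_
    rw [Ideal.span_le, Set.singleton_subset_iff]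
    exact hgen

/-- the case `lam q = 0` (`U_q ↦ 0`): `𝔪_{Z ∪ {q}} = 𝔪_Z · P' + (x_q)` -/
theorem mP_insert_zero (lam : Nat.Primes → 𝒪) (hq0 : lam q = 0) :
    mP 𝒪 (insert (q : ℕ) Z) lam
      = (mP 𝒪 Z lam).map (resP 𝒪 (Set.subset_insert (q : ℕ) Z))
        ⊔ Ideal.span {xP 𝒪 (insert (q : ℕ) Z) q (Set.mem_insert _ _)} := by
  rw [mP_insert q lam, hq0, map_zero, sub_zero]

/-- `x_l ∈ 𝔪` as soon as `lam l` is a non-unit -/
theorem xP_mem_mP {Z' : Set ℕ} (lam : Nat.Primes → 𝒪) (l : Nat.Primes) (hl : (l : ℕ) ∈ Z')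
    (h0 : lam l ∈ maximalIdeal 𝒪) : xP 𝒪 Z' l hl ∈ mP 𝒪 Z' lam := by
  rw [mem_mP_iff, evP_xP]
  exact h0

end Insert

end Fermat.Agent.GE9.PNew.Inst

end
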