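/-
GATE-E / RISK-4, instance layer R4-I (helper37): `GE9/PNew/Inst/TSurj.lean` — **(I-b) at the
instance**: the transfer `t = β₀ ⊗ 𝒪` maps the `𝔪'`-primary part of `𝒪 ⊗ Λ_{N q²}`
(`𝔪'` = the maximal ideal of the algebra on `Z ∪ {q}`, `U_q ↦ 0`) ONTO the `𝔪`-primary part of
`𝒪 ⊗ Λ_N` (`𝔪` = the maximal ideal of the `q`-anemic algebra on `Z`), and `β₁ = β₂ = 0` there.

Inputs: `DualIhara2.dual_ihara2` (dual IHARA2 over `ℤ`), `Beta3Uq` (helper5: `β₃ U_q = U3♯ β₃`,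
`β₃ T_l = T_l β₃`), `LocSurjU` (helper5) + `LocSurj` (G1) + `LocTC` (helper8), `PolyAct`.

* `beta3P hqN Z hqZ` : `β₃ ⊗ 𝒪` as a `PAlg 𝒪 Z`-linear map (`q ∉ Z`);
* `kill_beta3O` : `E^{×3} z ∈ range (β₃ ⊗ 𝒪) + ϖ • (…)` in the `Fin 3 → 𝒪 ⊗ Λ_N` spelling;
* `eisP`, `eisP_smul`, `eis2P`, `eis2P_smul`, `eis2P_notMem`;
* **`exists_mem_locPart_beO`** : `∀ x ∈ locPart 𝔪 (𝒪 ⊗ Λ_N), ∃ y ∈ locPart 𝔪' (𝒪 ⊗ Λ_{N q²}),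
  β₀ y = x ∧ β₁ y = 0 ∧ β₂ y = 0`;
* `beO_one_two_eq_zero_of_mem` : `β₁ = β₂ = 0` on `locPart 𝔪'`;
* `beO_mem_locPart` : `β_m (locPart 𝔪') ⊆ locPart 𝔪`;
* `tLoc`, `tLoc_surjective`, `tLoc_eq_tW`, `BW_raise3_tLoc` : the map `t` of the abstract step
  (`ht`, `hadj`).
-/
import Mathlib
import Fermat.Agent.GE9.PNew.Inst.PolyAct
import Fermat.Agent.GE9.PNew.Inst.LocSurjU
import Fermat.Agent.GE9.PNew.Inst.LocTC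
import Fermat.Agent.GE9.PNew.Inst.Beta3Uq

set_option autoImplicit false
set_option linter.unusedSectionVars false
set_option linter.style.haveILetI false

noncomputable section

namespace Fermat.Agent.GE9.PNew.Inst

open TensorProduct IsLocalRing
open Fermat.Agent.GJ.J2.Lat Fermat.Agent.GB.B3.Loc Fermat.Agent.GE9.Eta.Mod
  Fermat.Agent.GE9.Eta.KPlug Fermat.Agent.GE9.Eta.DualIhara2
  Fermat.Agent.GE9.PNew.Inst.Beta3Uq Fermat.Agent.GE9.Eta.LocLam Fermat.Agent.GE9.Eta.LocLamU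

/-! ### base change bookkeeping -/

section BC

variable {𝒪 : Type} [CommRing 𝒪] {Λ₁ Λ₂ Λ₃ : Type*} [AddCommGroup Λ₁] [AddCommGroup Λ₂]
  [AddCommGroup Λ₃]

theorem bc_comp_apply (g : Λ₂ →ₗ[ℤ] Λ₃) (f : Λ₁ →ₗ[ℤ] Λ₂) (y : 𝒪 ⊗[ℤ] Λ₁) :
    (g ∘ₗ f).baseChange 𝒪 y = g.baseChange 𝒪 (f.baseChange 𝒪 y) := by
  rw [LinearMap.baseChange_comp, LinearMap.comp_apply]

theorem bc_zsmul_apply (z : ℤ) (f : Λ₁ →ₗ[ℤ] Λ₂) (y : 𝒪 ⊗[ℤ] Λ₁) :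
    (z • f).baseChange 𝒪 y = ((z : ℤ) : 𝒪) • f.baseChange 𝒪 y := by
  rw [LinearMap.baseChange_smul, LinearMap.smul_apply, ← Int.cast_smul_eq_zsmul 𝒪]

/-- `𝒪 ⊗ Λ_M` is finite over `𝒪` (no hypothesis on `𝒪`). -/
theorem finite_tensor_lam' (𝒪 : Type) [CommRing 𝒪] (M : ℕ) [NeZero M] :
    Module.Finite 𝒪 (𝒪 ⊗[ℤ] Lam M) := by
  have : Module.Finite ℤ (Lam M) := Fermat.Agent.GJ.J2.ZStruct.finite_parabolicHoms_int M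
  infer_instance

end BC

/-! ### dual IHARA2 in the `Fin 3 → 𝒪 ⊗ Λ_N` spelling -/

section Kill

variable {N q : ℕ} [hqF : Fact q.Prime] [NeZero N] [NeZero (N * q)] [NeZero (N * q * q)]
variable (hqN : ¬ q ∣ N) {𝒪 : Type} [CommRing 𝒪]

/-- **dual IHARA2 over `𝒪`, all three components at once**: `E^{×3} z = β₃^𝒪 w + ϖ • z'`. -/
theorem kill_beta3O {p : ℕ} (hp : p.Prime) (hp2 : p ≠ 2)
    (l l' : Nat.Primes) (hl : ¬ (l : ℕ) ∣ N * q) (hlq : ((l : ℕ) : ZMod q) = 1)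
    (hl' : ¬ (l' : ℕ) ∣ N) (ϖ : 𝒪) (hpϖ : ∃ c : 𝒪, (p : 𝒪) = ϖ * c)
    (z : Fin 3 → 𝒪 ⊗[ℤ] Lam N) :
    ∃ (w : 𝒪 ⊗[ℤ] Lam (N * q * q)) (z' : Fin 3 → 𝒪 ⊗[ℤ] Lam N),
      (fun m => (eis2 N l l').baseChange 𝒪 (z m)) = beta3O hqN 𝒪 w + ϖ • z' := by
  classical
  obtain ⟨C', D', h⟩ := dual_ihara2 hqN hp hp2 l l' hl hlq hl'
  obtain ⟨c, hc⟩ := hpϖ
  -- the components of the factorisation
  let Cm : Fin 3 → (Lam N →ₗ[ℤ] Lam (N * q * q)) := fun m =>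
    C' ∘ₗ LinearMap.single ℤ (fun _ : Fin 3 => Lam N) m
  let Dm : Fin 3 → Fin 3 → (Lam N →ₗ[ℤ] Lam N) := fun m' m =>
    LinearMap.proj m' ∘ₗ D' ∘ₗ LinearMap.single ℤ (fun _ : Fin 3 => Lam N) m
  have hFG : ∀ m' m : Fin 3, (LinearMap.proj m' ∘ₗ beta3 hqN) ∘ₗ Cm m + (p : ℤ) • Dm m' m
      = if m = m' then eis2 N l l' else 0 := by
    intro m' m
    refine LinearMap.ext fun x => ?_
    have h1 := congrFun (LinearMap.congr_fun h (Pi.single m x)) m'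
    rw [eis2Pi_apply] at h1
    have h2 : ((LinearMap.proj m' ∘ₗ beta3 hqN) ∘ₗ Cm m + (p : ℤ) • Dm m' m) x
        = (beta3 hqN ∘ₗ C' + (p : ℤ) • D') (Pi.single m x) m' := rfl
    rw [h2, ← h1]
    by_cases hmm : m = m'
    · subst hmm
      rw [if_pos rfl, Pi.single_eq_same]
    · rw [if_neg hmm, Pi.single_eq_of_ne' hmm, map_zero, LinearMap.zero_apply]
  refine ⟨∑ m : Fin 3, (Cm m).baseChange 𝒪 (z m),
    fun m' => c • ∑ m : Fin 3, (Dm m' m).baseChange 𝒪 (z m), ?_⟩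
  funext m'
  have e1 : (eis2 N l l').baseChange 𝒪 (z m')
      = ∑ m : Fin 3, ((if m = m' then eis2 N l l' else 0 : Lam N →ₗ[ℤ] Lam N)).baseChange 𝒪
          (z m) := by
    rw [Finset.sum_eq_single m']
    · rw [if_pos rfl]
    · intro m _ hm
      rw [if_neg hm, LinearMap.baseChange_zero, LinearMap.zero_apply]
    · intro hm
      exact absurd (Finset.mem_univ m') hm
  have e2 : (LinearMap.proj m' ∘ₗ beta3 hqN).baseChange 𝒪 (∑ m : Fin 3, (Cm m).baseChange 𝒪 (z m))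
      = ∑ m : Fin 3, ((LinearMap.proj m' ∘ₗ beta3 hqN) ∘ₗ Cm m).baseChange 𝒪 (z m) := by
    rw [map_sum]
    refine Finset.sum_congr rfl fun m _ => ?_
    rw [bc_comp_apply (LinearMap.proj m' ∘ₗ beta3 hqN) (Cm m) (z m)]
  have e3 : ∀ m : Fin 3, ((LinearMap.proj m' ∘ₗ beta3 hqN) ∘ₗ Cm m).baseChange 𝒪 (z m)
      + ϖ • (c • (Dm m' m).baseChange 𝒪 (z m))
      = ((if m = m' then eis2 N l l' else 0 : Lam N →ₗ[ℤ] Lam N)).baseChange 𝒪 (z m) := by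
    intro m
    rw [← hFG m' m, LinearMap.baseChange_add, LinearMap.add_apply, bc_zsmul_apply,
      Int.cast_natCast, hc, smul_smul]
  show (eis2 N l l').baseChange 𝒪 (z m')
    = (LinearMap.proj m' ∘ₗ beta3 hqN).baseChange 𝒪 (∑ m : Fin 3, (Cm m).baseChange 𝒪 (z m))
      + ϖ • (c • ∑ m : Fin 3, (Dm m' m).baseChange 𝒪 (z m))
  rw [e1, e2, Finset.smul_sum, Finset.smul_sum, ← Finset.sum_add_distrib]
  exact Finset.sum_congr rfl fun m _ => (e3 m).symm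

end Kill

/-! ### the Eisenstein element of the polynomial Hecke algebra -/

section Eis

variable {𝒪 : Type} [CommRing 𝒪] {Z : Set ℕ} {M : ℕ} [NeZero M]

/-- `x_l - (l + 1)` -/
def eisP (l : Nat.Primes) (hl : (l : ℕ) ∈ Z) : PAlg 𝒪 Z :=
  xP 𝒪 Z l hl - algebraMap 𝒪 (PAlg 𝒪 Z) (((l : ℕ) : 𝒪) + 1)

theorem eisP_smul (l : Nat.Primes) (hl : (l : ℕ) ∈ Z) (x : 𝒪 ⊗[ℤ] Lam M) :
    (eisP l hl : PAlg 𝒪 Z) • x = (eisEnd M l).baseChange 𝒪 x := by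
  rw [eisP, sub_smul, xP_smul, algebraMap_smulP, eisEnd, LinearMap.baseChange_sub,
    LinearMap.sub_apply, bc_zsmul_apply, Module.End.one_eq_id, LinearMap.baseChange_id,
    LinearMap.id_apply]
  push_cast
  rfl

theorem evP_eisP (lam : Nat.Primes → 𝒪) (l : Nat.Primes) (hl : (l : ℕ) ∈ Z) :
    evP 𝒪 Z lam (eisP l hl) = lam l - (((l : ℕ) : 𝒪) + 1) := by
  rw [eisP, map_sub, evP_xP, AlgHom.commutes]
  rfl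

/-- `(x_{l'} - (l' + 1)) (x_l - (l + 1))` -/
def eis2P (l l' : Nat.Primes) (hl : (l : ℕ) ∈ Z) (hl' : (l' : ℕ) ∈ Z) : PAlg 𝒪 Z :=
  eisP l' hl' * eisP l hl

theorem eis2P_smul (l l' : Nat.Primes) (hl : (l : ℕ) ∈ Z) (hl' : (l' : ℕ) ∈ Z)
    (x : 𝒪 ⊗[ℤ] Lam M) :
    (eis2P l l' hl hl' : PAlg 𝒪 Z) • x = (eis2 M l l').baseChange 𝒪 x := by
  rw [eis2P, mul_smul, eisP_smul, eisP_smul, eis2, Module.End.mul_eq_comp, bc_comp_apply]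

theorem eis2P_notMem [IsLocalRing 𝒪] (lam : Nat.Primes → 𝒪) (l l' : Nat.Primes)
    (hl : (l : ℕ) ∈ Z) (hl' : (l' : ℕ) ∈ Z)
    (ha : IsUnit (lam l - (((l : ℕ) : 𝒪) + 1))) (ha' : IsUnit (lam l' - (((l' : ℕ) : 𝒪) + 1))) :
    (eis2P l l' hl hl' : PAlg 𝒪 Z) ∉ mP 𝒪 Z lam := by
  rw [notMem_mP_iff, eis2P, map_mul, evP_eisP, evP_eisP]
  exact ha'.mul ha

end Eis

/-! ### `β₃ ⊗ 𝒪` as a Hecke-linear map -/

section Beta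

variable {N q : ℕ} [hqF : Fact q.Prime] [NeZero N] [NeZero (N * q)] [NeZero (N * q * q)]
variable (hqN : ¬ q ∣ N) {𝒪 : Type} [CommRing 𝒪] (Z : Set ℕ) (hqZ : q ∉ Z)

/-- `(β₃)_m ⊗ 𝒪` as a `PAlg 𝒪 Z`-linear map (`q ∉ Z`) -/
def beP (m : Fin 3) : 𝒪 ⊗[ℤ] Lam (N * q * q) →ₗ[PAlg 𝒪 Z] 𝒪 ⊗[ℤ] Lam N :=
  linP (beO hqN 𝒪 m) fun l hl x =>
    beO_latT_ne hqN l (fun h => hqZ (h ▸ hl)) m x

@[simp] theorem beP_apply (m : Fin 3) (w : 𝒪 ⊗[ℤ] Lam (N * q * q)) :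
    beP hqN Z hqZ m w = beO hqN 𝒪 m w := rfl

/-- `β₃ ⊗ 𝒪` as a `PAlg 𝒪 Z`-linear map (`q ∉ Z`) -/
def beta3P : 𝒪 ⊗[ℤ] Lam (N * q * q) →ₗ[PAlg 𝒪 Z] (Fin 3 → 𝒪 ⊗[ℤ] Lam N) :=
  LinearMap.pi (beP hqN Z hqZ)

@[simp] theorem beta3P_apply (w : 𝒪 ⊗[ℤ] Lam (N * q * q)) (m : Fin 3) :
    beta3P hqN Z hqZ w m = beO hqN 𝒪 m w := rfl

theorem beta3P_eq (w : 𝒪 ⊗[ℤ] Lam (N * q * q)) :
    beta3P hqN Z hqZ w = beta3O hqN 𝒪 w := rfl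

end Beta

/-! ### the main statement -/

section Main

variable {N q : ℕ} [hqF : Fact q.Prime] [NeZero N] [NeZero (N * q)] [NeZero (N * q * q)]
variable (hqN : ¬ q ∣ N)
variable {𝒪 : Type} [CommRing 𝒪] [IsLocalRing 𝒪] [IsNoetherianRing 𝒪]
  [IsAdicComplete (maximalIdeal 𝒪) 𝒪]
variable (Z : Set ℕ) (lam : Nat.Primes → 𝒪)

/-- the prime `q` as an element of `Nat.Primes` -/
abbrev qP (q : ℕ) [hqF : Fact q.Prime] : Nat.Primes := ⟨q, hqF.out⟩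

/-- `β₁ = β₂ = 0` on the `𝔪'`-primary part upstairs (`U_q` is topologically nilpotent there and
`q` is a unit). -/
theorem beO_one_two_eq_zero_of_mem (hq𝒪 : IsUnit ((q : ℕ) : 𝒪)) (hlamq : lam (qP q) = 0)
    {y : 𝒪 ⊗[ℤ] Lam (N * q * q)}
    (hy : y ∈ locPart (mP 𝒪 (insert q Z) lam) (𝒪 ⊗[ℤ] Lam (N * q * q))) :
    beO hqN 𝒪 1 y = 0 ∧ beO hqN 𝒪 2 y = 0 := by
  have hfin' := finite_tensor_lam' 𝒪 (N * q * q)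
  have hfin := finite_tensor_lam' 𝒪 N
  have hq : q.Prime := hqF.out
  set U : Module.End 𝒪 (𝒪 ⊗[ℤ] Lam (N * q * q)) :=
    (latT (N * q * q) (qP q)).baseChange 𝒪 with hU
  set u : PAlg 𝒪 (insert q Z) := xP 𝒪 (insert q Z) (qP q) (Set.mem_insert _ _) with hu
  have hUu : ∀ x, U x = u • x := fun x => (xP_smul (qP q) _ x).symm
  have hiter : ∀ (n : ℕ) (x : 𝒪 ⊗[ℤ] Lam (N * q * q)), (U ^ n) x = u ^ n • x := by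
    intro n
    induction n with
    | zero => intro x; rw [pow_zero, pow_zero, Module.End.one_apply, one_smul]
    | succ n ih =>
      intro x
      rw [pow_succ', Module.End.mul_apply, ih, hUu, pow_succ', mul_smul]
  have humem : u ∈ mP 𝒪 (insert q Z) lam :=
    xP_mem_mP lam (qP q) _ (by rw [hlamq]; exact Ideal.zero_mem _)
  have hsep : (⨅ k : ℕ, ((maximalIdeal 𝒪) ^ k • ⊤ : Submodule 𝒪 (𝒪 ⊗[ℤ] Lam N))) = ⊥ :=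
    Ideal.iInf_pow_smul_eq_bot_of_isLocalRing _ (maximalIdeal.isMaximal 𝒪).ne_top
  refine LocSurjU.apply_one_two_eq_zero (beta3O hqN 𝒪) U
    ((latT N (qP q)).baseChange 𝒪) ((q : ℕ) : 𝒪)
    (fun w => beO_uq_one hqN hq w) (fun w => beO_uq_two hqN hq w) hq𝒪 (maximalIdeal 𝒪) hsep y ?_
  intro k
  obtain ⟨n, hn⟩ := LocTC.exists_pow_smul_mem_pow 𝒪 (X := 𝒪 ⊗[ℤ] Lam (N * q * q))
    (mP 𝒪 (insert q Z) lam) u humem k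
  refine ⟨n, ?_⟩
  rw [hiter]
  exact Submodule.smul_mono le_rfl le_top (hn y hy)

/-- `β_m` maps the `𝔪'`-primary part upstairs into the `𝔪`-primary part downstairs. -/
theorem beO_mem_locPart (hqZ : q ∉ Z) (m : Fin 3) {y : 𝒪 ⊗[ℤ] Lam (N * q * q)}
    (hy : y ∈ locPart (mP 𝒪 (insert q Z) lam) (𝒪 ⊗[ℤ] Lam (N * q * q))) :
    beO hqN 𝒪 m y ∈ locPart (mP 𝒪 Z lam) (𝒪 ⊗[ℤ] Lam N) :=
  apply_mem_locPart (beP hqN Z hqZ m) (locPart_mP_le (Set.subset_insert q Z) lam hy)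

/-- **(I-b) at the instance**: every element of the `𝔪`-primary part of `𝒪 ⊗ Λ_N` (`q`-anemic
algebra) is `β₀ y` for some `y` in the `𝔪'`-primary part of `𝒪 ⊗ Λ_{N q²}` (`U_q ↦ 0`), and
`β₁ y = β₂ y = 0`. -/
theorem exists_mem_locPart_beO (hqZ : q ∉ Z) {p : ℕ} (hp : p.Prime) (hp2 : p ≠ 2)
    (ϖ : 𝒪) (hϖ : ϖ ∈ maximalIdeal 𝒪) (hpϖ : ∃ c : 𝒪, (p : 𝒪) = ϖ * c)
    (hq𝒪 : IsUnit ((q : ℕ) : 𝒪)) (hlamq : lam (qP q) = 0)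
    (l l' : Nat.Primes) (hlZ : (l : ℕ) ∈ Z) (hl'Z : (l' : ℕ) ∈ Z)
    (hl : ¬ (l : ℕ) ∣ N * q) (hlq : ((l : ℕ) : ZMod q) = 1) (hl' : ¬ (l' : ℕ) ∣ N)
    (ha : IsUnit (lam l - (((l : ℕ) : 𝒪) + 1))) (ha' : IsUnit (lam l' - (((l' : ℕ) : 𝒪) + 1))) :
    ∀ x ∈ locPart (mP 𝒪 Z lam) (𝒪 ⊗[ℤ] Lam N),
      ∃ y ∈ locPart (mP 𝒪 (insert q Z) lam) (𝒪 ⊗[ℤ] Lam (N * q * q)),
        beO hqN 𝒪 0 y = x ∧ beO hqN 𝒪 1 y = 0 ∧ beO hqN 𝒪 2 y = 0 := by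
  have hfin' := finite_tensor_lam' 𝒪 (N * q * q)
  have hfin := finite_tensor_lam' 𝒪 N
  have hq : q.Prime := hqF.out
  set X' := 𝒪 ⊗[ℤ] Lam (N * q * q) with hX'
  set U : Module.End 𝒪 X' := (latT (N * q * q) (qP q)).baseChange 𝒪 with hU
  set u : PAlg 𝒪 (insert q Z) := xP 𝒪 (insert q Z) (qP q) (Set.mem_insert _ _) with hu
  set j : PAlg 𝒪 Z →+* PAlg 𝒪 (insert q Z) := (resP 𝒪 (Set.subset_insert q Z)).toRingHom with hj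
  have hjs : ∀ (a : PAlg 𝒪 Z) (x : X'), j a • x = a • x :=
    fun a x => resP_smul (Set.subset_insert q Z) a x
  have humem : u ∈ mP 𝒪 (insert q Z) lam :=
    xP_mem_mP lam (qP q) _ (by rw [hlamq]; exact Ideal.zero_mem _)
  have hle : (mP 𝒪 Z lam).map j ≤ mP 𝒪 (insert q Z) lam := map_mP_le _ lam
  have hgen : mP 𝒪 (insert q Z) lam ≤ (mP 𝒪 Z lam).map j ⊔ Ideal.span {u} :=
    (mP_insert_zero (qP q) lam hlamq).le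
  obtain ⟨-, -, hdec, -, -, -, honto, -, hnil⟩ :=
    LocTC.tc_package 𝒪 (X := X') j hjs (mP 𝒪 Z lam) (mP 𝒪 (insert q Z) lam) u humem hle hgen
      (fun x => U x) (fun x => (xP_smul (qP q) _ x).symm)
  have hiter : ∀ (n : ℕ) (x : X'), (U ^ n) x = (fun x => U x)^[n] x := by
    intro n x
    rw [Module.End.pow_apply]
  refine LocSurjU.exists_mem_single_of_kill 𝒪 (mP 𝒪 Z lam) (beta3P hqN Z hqZ) U
    ((latT N (qP q)).baseChange 𝒪) ((q : ℕ) : 𝒪) hq𝒪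
    (fun w => beO_uq_zero hqN hq w) (fun w => beO_uq_one hqN hq w)
    (fun w => beO_uq_two hqN hq w)
    (eis2P l l' hlZ hl'Z) (eis2P_notMem lam l l' hlZ hl'Z ha ha') ϖ hϖ ?_
    ((locPart (mP 𝒪 (insert q Z) lam) X').restrictScalars 𝒪)
    ((LocTC.compl j hjs (mP 𝒪 Z lam) (mP 𝒪 (insert q Z) lam)).restrictScalars 𝒪) ?_ ?_ ?_
  · intro z
    obtain ⟨w, z', hwz⟩ := kill_beta3O hqN hp hp2 l l' hl hlq hl' ϖ hpϖ z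
    refine ⟨w, z', ?_⟩
    rw [← beta3P_eq hqN Z hqZ] at hwz
    rw [← hwz]
    funext m
    exact eis2P_smul l l' hlZ hl'Z (z m)
  · intro x hx
    obtain ⟨y, hy, c, hc, hyc⟩ := hdec x hx
    exact Submodule.mem_sup.2 ⟨y, hy, c, hc, hyc⟩
  · intro y hy k
    obtain ⟨n, hn⟩ := hnil k
    refine ⟨n, ?_⟩
    rw [hiter]
    exact Submodule.smul_mono le_rfl le_top (hn y hy)
  · intro c hc
    obtain ⟨c', -, hc'⟩ := honto c hc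
    exact ⟨c', hc'⟩

end Main

/-! ### the transfer map of the abstract step -/

section TLoc

variable {N q : ℕ} [hqF : Fact q.Prime] [NeZero N] [NeZero (N * q)] [NeZero (N * q * q)]
variable (hqN : ¬ q ∣ N)
variable {𝒪 : Type} [CommRing 𝒪] [IsLocalRing 𝒪] [IsNoetherianRing 𝒪]
  [IsAdicComplete (maximalIdeal 𝒪) 𝒪]
variable (Z : Set ℕ) (lam : Nat.Primes → 𝒪)

/-- **the transfer map `t`** of the abstract step: `β₀ ⊗ 𝒪` from the `𝔪'`-primary part of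
`𝒪 ⊗ Λ_{N q²}` to the `𝔪`-primary part of `𝒪 ⊗ Λ_N`, Hecke-linear for the `q`-anemic algebra. -/
def tLoc (hqZ : q ∉ Z) : ↥(locPart (mP 𝒪 (insert q Z) lam) (𝒪 ⊗[ℤ] Lam (N * q * q)))
    →ₗ[𝒪] ↥(locPart (mP 𝒪 Z lam) (𝒪 ⊗[ℤ] Lam N)) where
  toFun y := ⟨beO hqN 𝒪 0 (y : 𝒪 ⊗[ℤ] Lam (N * q * q)), beO_mem_locPart hqN Z lam hqZ 0 y.2⟩
  map_add' y y' := Subtype.ext (by
    show beO hqN 𝒪 0 ((y : 𝒪 ⊗[ℤ] Lam (N * q * q)) + y') = _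
    rw [map_add]; rfl)
  map_smul' c y := Subtype.ext (by
    show beO hqN 𝒪 0 (c • (y : 𝒪 ⊗[ℤ] Lam (N * q * q))) = _
    rw [map_smul]; rfl)

@[simp] theorem coe_tLoc (hqZ : q ∉ Z) (y : ↥(locPart (mP 𝒪 (insert q Z) lam) (𝒪 ⊗[ℤ] Lam (N * q * q)))) :
    ((tLoc hqN Z lam hqZ y : ↥(locPart (mP 𝒪 Z lam) (𝒪 ⊗[ℤ] Lam N))) : 𝒪 ⊗[ℤ] Lam N)
      = beO hqN 𝒪 0 (y : 𝒪 ⊗[ℤ] Lam (N * q * q)) := rfl

/-- **`ht`** : `t` is onto. -/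
theorem tLoc_surjective (hqZ : q ∉ Z) {p : ℕ} (hp : p.Prime) (hp2 : p ≠ 2)
    (ϖ : 𝒪) (hϖ : ϖ ∈ maximalIdeal 𝒪) (hpϖ : ∃ c : 𝒪, (p : 𝒪) = ϖ * c)
    (hq𝒪 : IsUnit ((q : ℕ) : 𝒪)) (hlamq : lam (qP q) = 0)
    (l l' : Nat.Primes) (hlZ : (l : ℕ) ∈ Z) (hl'Z : (l' : ℕ) ∈ Z)
    (hl : ¬ (l : ℕ) ∣ N * q) (hlq : ((l : ℕ) : ZMod q) = 1) (hl' : ¬ (l' : ℕ) ∣ N)
    (ha : IsUnit (lam l - (((l : ℕ) : 𝒪) + 1))) (ha' : IsUnit (lam l' - (((l' : ℕ) : 𝒪) + 1))) :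
    Function.Surjective (tLoc hqN Z lam hqZ) := by
  intro x
  obtain ⟨y, hy, h0, -, -⟩ := exists_mem_locPart_beO hqN Z lam hqZ hp hp2 ϖ hϖ hpϖ hq𝒪 hlamq
    l l' hlZ hl'Z hl hlq hl' ha ha' x x.2
  exact ⟨⟨y, hy⟩, Subtype.ext h0⟩

/-- on the `𝔪'`-primary part, `t` is helper5's `tW a` for EVERY `a`. -/
theorem tLoc_eq_tW (hqZ : q ∉ Z) (hq𝒪 : IsUnit ((q : ℕ) : 𝒪)) (hlamq : lam (qP q) = 0) (a : 𝒪)
    (y : ↥(locPart (mP 𝒪 (insert q Z) lam) (𝒪 ⊗[ℤ] Lam (N * q * q)))) :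
    ((tLoc hqN Z lam hqZ y : ↥(locPart (mP 𝒪 Z lam) (𝒪 ⊗[ℤ] Lam N))) : 𝒪 ⊗[ℤ] Lam N)
      = tW hqN a (y : 𝒪 ⊗[ℤ] Lam (N * q * q)) := by
  obtain ⟨h1, h2⟩ := beO_one_two_eq_zero_of_mem hqN Z lam hq𝒪 hlamq y.2
  rw [coe_tLoc, tW_eq_beO_zero hqN a _ h1 h2]

/-- **`hadj`** : `BW' (raise3 b i) y = BW (b i) (t y)` for `y` in the `𝔪'`-primary part. -/
theorem BW_raise3_tLoc (hqZ : q ∉ Z) (hq𝒪 : IsUnit ((q : ℕ) : 𝒪)) (hlamq : lam (qP q) = 0) (a : 𝒪)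
    {d : ℕ} (b : Fin d → 𝒪 ⊗[ℤ] Lam N) (i : Fin d)
    (y : ↥(locPart (mP 𝒪 (insert q Z) lam) (𝒪 ⊗[ℤ] Lam (N * q * q)))) :
    BW (N * q * q) 𝒪 (Fermat.Agent.GE9.Eta.raise3 (alpha3O N q 𝒪) ((q : ℕ) : 𝒪) a b i)
        (y : 𝒪 ⊗[ℤ] Lam (N * q * q))
      = BW N 𝒪 (b i) ((tLoc hqN Z lam hqZ y : ↥(locPart (mP 𝒪 Z lam) (𝒪 ⊗[ℤ] Lam N))) :
          𝒪 ⊗[ℤ] Lam N) := by
  rw [tLoc_eq_tW hqN Z lam hqZ hq𝒪 hlamq a y]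
  exact BW_raise3_apply_tW hqN a b i _

/-- `t` is Hecke-linear for the `q`-anemic algebra. -/
theorem tLoc_smul (hqZ : q ∉ Z) (a : PAlg 𝒪 Z)
    (y : ↥(locPart (mP 𝒪 (insert q Z) lam) (𝒪 ⊗[ℤ] Lam (N * q * q)))) :
    beO hqN 𝒪 0 (a • (y : 𝒪 ⊗[ℤ] Lam (N * q * q)))
      = a • ((tLoc hqN Z lam hqZ y : ↥(locPart (mP 𝒪 Z lam) (𝒪 ⊗[ℤ] Lam N))) :
          𝒪 ⊗[ℤ] Lam N) :=
  (beP hqN Z hqZ 0).map_smul a _

end TLoc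

end Fermat.Agent.GE9.PNew.Inst

end
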