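/-
GATE-E / RISK-4, instance layer R4-I (helper37), slice (e1): `GE9/PNew/Inst/KNew.lean` — **the
`p`-new part and the `p`-degeneracies over `𝒪`.**

* `bp1O hpN 𝒪`, `bp2O hpN 𝒪 : 𝒪 ⊗ Λ_{N p} →ₗ[𝒪] 𝒪 ⊗ Λ_N` : `cores_p ⊗ 𝒪`, `cores_{p,δ} ⊗ 𝒪`
  (base changes of helper21's `PolyLin.bP1`, `bP2`);
* `KNew hpN 𝒪 := ker (cores_p ⊗ 𝒪) ⊓ ker (cores_{p,δ} ⊗ 𝒪)` : the `p`-new part of `𝒪 ⊗ Λ_{N p}`;
* `bp1O_latT`, `bp2O_latT` (from an equivariance hypothesis at the prime `l`),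
  `bp1O_latT_of_not_dvd`, `bp2O_latT_of_not_dvd` (`l ∤ N p`: `GM/B5.betaP_latT`);
  `bp1P`, `bp2P` : the `PAlg 𝒪 Z`-linear forms; `latT_mem_KNew`, `smulP_mem_KNew`;
* `lamCastO`, **`bp1O_beO`, `bp2O_beO`** : `cores_p ⊗ 𝒪` commutes with `(β₃)_m ⊗ 𝒪` through the level
  cast (`hcomm` of the abstract step; from `DualIhara2P.betaP_beta3`);
  `beO_lamCastO_mem_KNew` : `(β₃)_m ⊗ 𝒪` maps `KNew` at level `N q² p` into `KNew` at level `N p`;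
* `omegaCardNew hpN 𝒪 lam` : `#Ω` of the joint eigen-sublattice INSIDE `KNew` for the restriction
  of the Fricke-twisted cup form; `EtaStageNew hpN 𝒪 lam d` : helper2's `EtaStage` at level `N p`
  with all basis vectors `p`-new.
-/
import Mathlib
import Fermat.Agent.GE9.PNew.Inst.TSurj
import Fermat.Agent.GE9.PNew.Inst.PolyLin
import Fermat.Agent.GE9.Eta.ModStage

set_option autoImplicit false
set_option linter.unusedSectionVars false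
set_option linter.style.haveILetI false

noncomputable section

namespace Fermat.Agent.GE9.PNew.Inst

open TensorProduct IsLocalRing
open Fermat.Agent.GJ.J2.Lat Fermat.Agent.GB.B3.Loc Fermat.Agent.GE9.Eta Fermat.Agent.GE9.Eta.Mod
  Fermat.Agent.GE9.Eta.DualIhara2 Fermat.Agent.GE9.Mult1 Fermat.Agent.GM.B Fermat.Agent.GM.B5
  Fermat.Agent.GE9.PNew.Inst.Beta3Uq Fermat.Agent.GE9.PNew.Inst.PolyLin

/-! ### `cores_p ⊗ 𝒪`, `cores_{p,δ} ⊗ 𝒪` and the `p`-new part -/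

section AtP

variable {N p : ℕ} [hpF : Fact p.Prime] [NeZero N] [NeZero (N * p)] (hpN : ¬ p ∣ N)
  (𝒪 : Type) [CommRing 𝒪]

/-- `cores_p ⊗ 𝒪` -/
def bp1O : 𝒪 ⊗[ℤ] Lam (N * p) →ₗ[𝒪] 𝒪 ⊗[ℤ] Lam N := (bP1 hpN).baseChange 𝒪

/-- `cores_{p,δ} ⊗ 𝒪` -/
def bp2O : 𝒪 ⊗[ℤ] Lam (N * p) →ₗ[𝒪] 𝒪 ⊗[ℤ] Lam N := (bP2 hpN).baseChange 𝒪

/-- **the `p`-new part of `𝒪 ⊗ Λ_{N p}`** -/
def KNew : Submodule 𝒪 (𝒪 ⊗[ℤ] Lam (N * p)) :=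
  LinearMap.ker (bp1O hpN 𝒪) ⊓ LinearMap.ker (bp2O hpN 𝒪)

variable {𝒪}

theorem mem_KNew {x : 𝒪 ⊗[ℤ] Lam (N * p)} :
    x ∈ KNew hpN 𝒪 ↔ bp1O hpN 𝒪 x = 0 ∧ bp2O hpN 𝒪 x = 0 := by
  rw [KNew, Submodule.mem_inf, LinearMap.mem_ker, LinearMap.mem_ker]

/-- `cores_p ⊗ 𝒪` commutes with `T_l ⊗ 𝒪` as soon as `cores_p` commutes with `T_l` -/
theorem bp1O_latT (l : Nat.Primes)
    (h : ∀ z : Lam (N * p), (betaP ℤ hpN (latT (N * p) l z)).1 = latT N l (betaP ℤ hpN z).1)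
    (x : 𝒪 ⊗[ℤ] Lam (N * p)) :
    bp1O hpN 𝒪 ((latT (N * p) l).baseChange 𝒪 x) = (latT N l).baseChange 𝒪 (bp1O hpN 𝒪 x) := by
  have hc : bP1 hpN ∘ₗ latT (N * p) l = latT N l ∘ₗ bP1 hpN := LinearMap.ext fun z => h z
  unfold bp1O
  rw [← bc_comp_apply, hc, bc_comp_apply]

theorem bp2O_latT (l : Nat.Primes)
    (h : ∀ z : Lam (N * p), (betaP ℤ hpN (latT (N * p) l z)).2 = latT N l (betaP ℤ hpN z).2)
    (x : 𝒪 ⊗[ℤ] Lam (N * p)) :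
    bp2O hpN 𝒪 ((latT (N * p) l).baseChange 𝒪 x) = (latT N l).baseChange 𝒪 (bp2O hpN 𝒪 x) := by
  have hc : bP2 hpN ∘ₗ latT (N * p) l = latT N l ∘ₗ bP2 hpN := LinearMap.ext fun z => h z
  unfold bp2O
  rw [← bc_comp_apply, hc, bc_comp_apply]

theorem bp1O_latT_of_not_dvd (l : Nat.Primes) (hl : ¬ (l : ℕ) ∣ N * p)
    (x : 𝒪 ⊗[ℤ] Lam (N * p)) :
    bp1O hpN 𝒪 ((latT (N * p) l).baseChange 𝒪 x) = (latT N l).baseChange 𝒪 (bp1O hpN 𝒪 x) :=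
  bp1O_latT hpN l (fun z => by rw [betaP_latT hpN l hl z]) x

theorem bp2O_latT_of_not_dvd (l : Nat.Primes) (hl : ¬ (l : ℕ) ∣ N * p)
    (x : 𝒪 ⊗[ℤ] Lam (N * p)) :
    bp2O hpN 𝒪 ((latT (N * p) l).baseChange 𝒪 x) = (latT N l).baseChange 𝒪 (bp2O hpN 𝒪 x) :=
  bp2O_latT hpN l (fun z => by rw [betaP_latT hpN l hl z]) x

/-- the equivariance hypothesis of `β_p` on a set `Z` of primes (automatic at `l ∤ N p`;
at `l ∣ N`, `l ≠ p` it is (I-a)(a1)) -/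
def BetaPEquiv (Z : Set ℕ) : Prop :=
  ∀ l : Nat.Primes, (l : ℕ) ∈ Z → ∀ z : Lam (N * p),
    betaP ℤ hpN (latT (N * p) l z) = (latT N l (betaP ℤ hpN z).1, latT N l (betaP ℤ hpN z).2)

theorem betaPEquiv_of_good {Z : Set ℕ} (hZ : ∀ l : Nat.Primes, (l : ℕ) ∈ Z → ¬ (l : ℕ) ∣ N * p) :
    BetaPEquiv hpN Z := fun l hl z => betaP_latT hpN l (hZ l hl) z

variable {Z : Set ℕ}

/-- `cores_p ⊗ 𝒪` as a `PAlg 𝒪 Z`-linear map -/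
def bp1P (hr : BetaPEquiv hpN Z) : 𝒪 ⊗[ℤ] Lam (N * p) →ₗ[PAlg 𝒪 Z] 𝒪 ⊗[ℤ] Lam N :=
  linP (bp1O hpN 𝒪) fun l hl x => bp1O_latT hpN l (fun z => by rw [hr l hl z]) x

/-- `cores_{p,δ} ⊗ 𝒪` as a `PAlg 𝒪 Z`-linear map -/
def bp2P (hr : BetaPEquiv hpN Z) : 𝒪 ⊗[ℤ] Lam (N * p) →ₗ[PAlg 𝒪 Z] 𝒪 ⊗[ℤ] Lam N :=
  linP (bp2O hpN 𝒪) fun l hl x => bp2O_latT hpN l (fun z => by rw [hr l hl z]) x

@[simp] theorem bp1P_apply (hr : BetaPEquiv hpN Z) (x : 𝒪 ⊗[ℤ] Lam (N * p)) :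
    bp1P hpN hr x = bp1O hpN 𝒪 x := rfl

@[simp] theorem bp2P_apply (hr : BetaPEquiv hpN Z) (x : 𝒪 ⊗[ℤ] Lam (N * p)) :
    bp2P hpN hr x = bp2O hpN 𝒪 x := rfl

/-- `KNew` is stable under the algebra -/
theorem smulP_mem_KNew (hr : BetaPEquiv hpN Z) (a : PAlg 𝒪 Z) {x : 𝒪 ⊗[ℤ] Lam (N * p)}
    (hx : x ∈ KNew hpN 𝒪) : a • x ∈ KNew hpN 𝒪 := by
  rw [mem_KNew] at hx ⊢
  constructor
  · have := (bp1P (𝒪 := 𝒪) hpN hr).map_smul a x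
    rw [bp1P_apply, bp1P_apply, hx.1, smul_zero] at this
    exact this
  · have := (bp2P (𝒪 := 𝒪) hpN hr).map_smul a x
    rw [bp2P_apply, bp2P_apply, hx.2, smul_zero] at this
    exact this

/-- the `p`-degeneracies respect the `𝔪`-primary parts -/
theorem bp1O_mem_locPart [IsLocalRing 𝒪] (hr : BetaPEquiv hpN Z) (lam : Nat.Primes → 𝒪)
    {x : 𝒪 ⊗[ℤ] Lam (N * p)} (hx : x ∈ locPart (mP 𝒪 Z lam) (𝒪 ⊗[ℤ] Lam (N * p))) :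
    bp1O hpN 𝒪 x ∈ locPart (mP 𝒪 Z lam) (𝒪 ⊗[ℤ] Lam N) :=
  apply_mem_locPart (bp1P hpN hr) hx

theorem bp2O_mem_locPart [IsLocalRing 𝒪] (hr : BetaPEquiv hpN Z) (lam : Nat.Primes → 𝒪)
    {x : 𝒪 ⊗[ℤ] Lam (N * p)} (hx : x ∈ locPart (mP 𝒪 Z lam) (𝒪 ⊗[ℤ] Lam (N * p))) :
    bp2O hpN 𝒪 x ∈ locPart (mP 𝒪 Z lam) (𝒪 ⊗[ℤ] Lam N) :=
  apply_mem_locPart (bp2P hpN hr) hx

end AtP

/-! ### `hcomm` : the `p`- and `q`-transfers commute over `𝒪` -/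

section Comm

variable {N p q : ℕ} [hpF : Fact p.Prime] [hqF : Fact q.Prime]
  [NeZero N] [NeZero (N * q)] [NeZero (N * q * q)]
  [NeZero (N * p)] [NeZero (N * p * q)] [NeZero (N * p * q * q)] [NeZero (N * q * q * p)]
  (𝒪 : Type) [CommRing 𝒪]

/-- the level cast `𝒪 ⊗ Λ_{(N p) q q} → 𝒪 ⊗ Λ_{(N q q) p}` -/
def lamCastO : 𝒪 ⊗[ℤ] Lam (N * p * q * q) →ₗ[𝒪] 𝒪 ⊗[ℤ] Lam (N * q * q * p) :=
  ((lamCast (level_eq N p q) : Lam (N * p * q * q) ≃ₗ[ℤ] Lam (N * q * q * p)) :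
    Lam (N * p * q * q) →ₗ[ℤ] Lam (N * q * q * p)).baseChange 𝒪

variable {𝒪}

theorem lamCastO_latT (l : Nat.Primes) (w : 𝒪 ⊗[ℤ] Lam (N * p * q * q)) :
    lamCastO (N := N) (p := p) (q := q) 𝒪 ((latT (N * p * q * q) l).baseChange 𝒪 w)
      = (latT (N * q * q * p) l).baseChange 𝒪 (lamCastO 𝒪 w) := by
  have hc : ((lamCast (level_eq N p q) : Lam (N * p * q * q) ≃ₗ[ℤ] Lam (N * q * q * p)) :
      Lam (N * p * q * q) →ₗ[ℤ] Lam (N * q * q * p)) ∘ₗ latT (N * p * q * q) l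
      = latT (N * q * q * p) l ∘ₗ ((lamCast (level_eq N p q) :
          Lam (N * p * q * q) ≃ₗ[ℤ] Lam (N * q * q * p)) :
          Lam (N * p * q * q) →ₗ[ℤ] Lam (N * q * q * p)) :=
    LinearMap.ext fun z => (latT_lamCast (level_eq N p q) l z).symm
  unfold lamCastO
  rw [← bc_comp_apply, hc, bc_comp_apply]

/-- **`hcomm`, first component**: `cores_p ∘ (β₃^{N p})_m = (β₃^N)_m ∘ cores_p ∘ cast` over `𝒪` -/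
theorem bp1O_beO (hpN : ¬ p ∣ N) (hqN : ¬ q ∣ N) (hqNp : ¬ q ∣ N * p)
    (hpNqq : ¬ p ∣ N * q * q) (m : Fin 3) (w : 𝒪 ⊗[ℤ] Lam (N * p * q * q)) :
    bp1O hpN 𝒪 (beO hqNp 𝒪 m w) = beO hqN 𝒪 m (bp1O hpNqq 𝒪 (lamCastO 𝒪 w)) := by
  have hc : bP1 hpN ∘ₗ (LinearMap.proj m ∘ₗ beta3 hqNp)
      = (LinearMap.proj m ∘ₗ beta3 hqN) ∘ₗ (bP1 hpNqq ∘ₗ
          ((lamCast (level_eq N p q) : Lam (N * p * q * q) ≃ₗ[ℤ] Lam (N * q * q * p)) :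
            Lam (N * p * q * q) →ₗ[ℤ] Lam (N * q * q * p))) :=
    LinearMap.ext fun z => congrArg Prod.fst (betaP_beta3 hpN hqN hqNp hpNqq m z)
  unfold bp1O beO lamCastO
  rw [← bc_comp_apply (bP1 hpN) (LinearMap.proj m ∘ₗ beta3 hqNp) w, hc,
    bc_comp_apply (LinearMap.proj m ∘ₗ beta3 hqN) _ w, bc_comp_apply (bP1 hpNqq) _ w]

/-- **`hcomm`, second component** -/
theorem bp2O_beO (hpN : ¬ p ∣ N) (hqN : ¬ q ∣ N) (hqNp : ¬ q ∣ N * p)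
    (hpNqq : ¬ p ∣ N * q * q) (m : Fin 3) (w : 𝒪 ⊗[ℤ] Lam (N * p * q * q)) :
    bp2O hpN 𝒪 (beO hqNp 𝒪 m w) = beO hqN 𝒪 m (bp2O hpNqq 𝒪 (lamCastO 𝒪 w)) := by
  have hc : bP2 hpN ∘ₗ (LinearMap.proj m ∘ₗ beta3 hqNp)
      = (LinearMap.proj m ∘ₗ beta3 hqN) ∘ₗ (bP2 hpNqq ∘ₗ
          ((lamCast (level_eq N p q) : Lam (N * p * q * q) ≃ₗ[ℤ] Lam (N * q * q * p)) :
            Lam (N * p * q * q) →ₗ[ℤ] Lam (N * q * q * p))) :=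
    LinearMap.ext fun z => congrArg Prod.snd (betaP_beta3 hpN hqN hqNp hpNqq m z)
  unfold bp2O beO lamCastO
  rw [← bc_comp_apply (bP2 hpN) (LinearMap.proj m ∘ₗ beta3 hqNp) w, hc,
    bc_comp_apply (LinearMap.proj m ∘ₗ beta3 hqN) _ w, bc_comp_apply (bP2 hpNqq) _ w]

/-- `(β₃)_m ⊗ 𝒪` maps the `p`-new part (through the cast) into the `p`-new part -/
theorem beO_mem_KNew (hpN : ¬ p ∣ N) (hqN : ¬ q ∣ N) (hqNp : ¬ q ∣ N * p)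
    (hpNqq : ¬ p ∣ N * q * q) (m : Fin 3) {w : 𝒪 ⊗[ℤ] Lam (N * p * q * q)}
    (hw : lamCastO 𝒪 w ∈ KNew hpNqq 𝒪) : beO hqNp 𝒪 m w ∈ KNew hpN 𝒪 := by
  rw [mem_KNew] at hw ⊢
  rw [bp1O_beO hpN hqN hqNp hpNqq, bp2O_beO hpN hqN hqNp hpNqq, hw.1, hw.2, map_zero]
  exact ⟨rfl, rfl⟩

end Comm

/-! ### the numerical invariant of the `p`-new stage -/

section Omega

variable {N p : ℕ} [hpF : Fact p.Prime] [NeZero N] [NeZero (N * p)] (hpN : ¬ p ∣ N)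
  (𝒪 : Type) [CommRing 𝒪]

/-- the Fricke-twisted cup form restricted to the `p`-new part -/
def BWNew : ↥(KNew hpN 𝒪) →ₗ[𝒪] ↥(KNew hpN 𝒪) →ₗ[𝒪] 𝒪 :=
  (BW (N * p) 𝒪).compl₁₂ (KNew hpN 𝒪).subtype (KNew hpN 𝒪).subtype

/-- the joint eigen-sublattice inside the `p`-new part -/
def eigenNew (lam : Nat.Primes → 𝒪) : Submodule 𝒪 ↥(KNew hpN 𝒪) :=
  (eigenTensorO (N * p) 𝒪 lam).comap (KNew hpN 𝒪).subtype

/-- **`#Ω` of the `p`-new stage**: the congruence module of the joint eigen-sublattice inside the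
`p`-new part, for the restricted form (canonical: no choice of a local part) -/
def omegaCardNew (lam : Nat.Primes → 𝒪) : ℕ :=
  Nat.card (CongMod (BWNew hpN 𝒪) (eigenNew hpN 𝒪 lam))

/-- **the stage invariant of the `p`-new module side**: helper2's `EtaStage` at level `N p` with
all basis vectors `p`-new -/
def EtaStageNew (lam : Nat.Primes → 𝒪) (d : ℕ) : Prop :=
  ∃ b : Fin d → 𝒪 ⊗[ℤ] Lam (N * p), LinearIndependent 𝒪 b ∧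
    Submodule.span 𝒪 (Set.range b) = eigenTensorO (N * p) 𝒪 lam ∧
    (gram (BW (N * p) 𝒪) b).det ≠ 0 ∧ ∀ i, b i ∈ KNew hpN 𝒪

theorem EtaStageNew.etaStage {lam : Nat.Primes → 𝒪} {d : ℕ} (h : EtaStageNew hpN 𝒪 lam d) :
    EtaStage (N * p) 𝒪 lam d := by
  obtain ⟨b, h1, h2, h3, -⟩ := h
  exact ⟨b, h1, h2, h3⟩

end Omega

end Fermat.Agent.GE9.PNew.Inst

end
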