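/-
GATE-E / RISK-4, instance layer R4-F (helper21): **`Δ_q = T_q² − (q+1)²` is injective** on the
lattice `Λ_N` (`q ∤ N` prime) and on every `O ⊗[ℤ] Λ_N`, `O` a characteristic-zero domain; hence
`β_q ∘ α_q = [[q+1, T_q], [T_q, q+1]]` is injective on `Λ_N × Λ_N` — the binder `hinj` of
`GE9/Eta/KerNd.hnd_ker` / `inf_orth_eq_bot_of_comp_injective` (`K ∩ K^⊥ = 0` for `K = ker β_q`,
i.e. the non-degeneracy `hnd` of the form restricted to the `q`-new lattice).

Proof: the kernel of `Δ_q ⊗ ℂ` is stable under the commuting family `T_l ⊗ ℂ` (all `l`), so if it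
were non-zero it would contain a joint eigenvector (`GM.End.exists_common_eigenvector_mem`), whose
system would satisfy `lam q ² = (q+1)²`, contradicting helper63's `CqNeO.lam_sq_ne` (Petersson).

* `delta N q`, `delta_apply`;
* `delta_complex_injective`, **`delta_injective`**, **`delta_baseChange_injective`**;
* **`betaP_alphaP_injective`** (over `ℤ`), `delta_tensor_injective` (operator spelling over `O`);
* **`pair_injective_of_delta`** : the abstract 2×2 statement over any module, used to feed the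
  `O`-forms: `(c x + T y, T x + c y) = 0 ⟹ x = y = 0` when `T² − c²` is injective.
-/
import Mathlib
import Fermat.Agent.GE9.OldQ.CqNeO
import Fermat.Agent.GM.End.AbsLattice
import Fermat.Agent.GM.End.Plug

set_option autoImplicit false
set_option linter.unusedSectionVars false

open scoped TensorProduct

namespace Fermat.Agent.GE9.PNew.Inst.DeltaInj

open Fermat.Agent.GJ.J2.Lat Fermat.Agent.GM.B

/-! ### the abstract 2×2 statement -/

section Abstract

variable {R : Type*} [CommRing R] {V : Type*} [AddCommGroup V] [Module R V]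

/-- `(c x + T y, T x + c y) = 0 ⟹ x = 0 ∧ y = 0` when `T² − c²` is injective. -/
theorem pair_eq_zero_of_delta (T : V →ₗ[R] V) (c : R)
    (hΔ : Function.Injective fun x : V => T (T x) - (c * c) • x) {x y : V}
    (h1 : c • x + T y = 0) (h2 : T x + c • y = 0) : x = 0 ∧ y = 0 := by
  have hx : T (T x) - (c * c) • x = 0 := by
    have e1 : T (T x) = -(c • T y) := by
      have : T x = -(c • y) := eq_neg_of_add_eq_zero_left h2
      rw [this, map_neg, map_smul]
    have e2 : T y = -(c • x) := eq_neg_of_add_eq_zero_right h1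
    rw [e1, e2, smul_neg, neg_neg, mul_smul, sub_self]
  have hy : T (T y) - (c * c) • y = 0 := by
    have e1 : T (T y) = -(c • T x) := by
      have : T y = -(c • x) := eq_neg_of_add_eq_zero_right h1
      rw [this, map_neg, map_smul]
    have e2 : T x = -(c • y) := eq_neg_of_add_eq_zero_left h2
    rw [e1, e2, smul_neg, neg_neg, mul_smul, sub_self]
  have h0 : (fun x : V => T (T x) - (c * c) • x) 0 = 0 := by
    simp only [map_zero, smul_zero, sub_self]
  exact ⟨hΔ (hx.trans h0.symm), hΔ (hy.trans h0.symm)⟩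

/-- the map `(x, y) ↦ (c x + T y, T x + c y)` is injective when `T² − c²` is. -/
theorem pair_injective_of_delta (T : V →ₗ[R] V) (c : R)
    (hΔ : Function.Injective fun x : V => T (T x) - (c * c) • x) :
    Function.Injective fun u : V × V => (c • u.1 + T u.2, T u.1 + c • u.2) := by
  intro u v huv
  have h1 : c • (u.1 - v.1) + T (u.2 - v.2) = 0 := by
    have := congrArg Prod.fst huv
    simp only at this
    rw [smul_sub, map_sub, sub_add_sub_comm, this, sub_self]
  have h2 : T (u.1 - v.1) + c • (u.2 - v.2) = 0 := by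
    have := congrArg Prod.snd huv
    simp only at this
    rw [smul_sub, map_sub, sub_add_sub_comm, this, sub_self]
  obtain ⟨hx, hy⟩ := pair_eq_zero_of_delta T c hΔ h1 h2
  exact Prod.ext (sub_eq_zero.mp hx) (sub_eq_zero.mp hy)

end Abstract

/-! ### `Δ_q` on the lattice -/

section Lattice

variable (N : ℕ) [NeZero N]

/-- `Δ_q = T_q² − (q+1)²` on `Λ_N`. -/
noncomputable def delta (q : Nat.Primes) : Lam N →ₗ[ℤ] Lam N :=
  latT N q ∘ₗ latT N q - ((((q : ℕ) : ℤ) + 1) * (((q : ℕ) : ℤ) + 1)) • LinearMap.id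

variable {N}

theorem delta_apply (q : Nat.Primes) (x : Lam N) :
    delta N q x = latT N q (latT N q x) - ((((q : ℕ) : ℤ) + 1) * (((q : ℕ) : ℤ) + 1)) • x := rfl

/-- `Δ_q ⊗ O` in operator spelling. -/
theorem delta_baseChange_apply (O : Type*) [CommRing O] (q : Nat.Primes) (y : O ⊗[ℤ] Lam N) :
    (delta N q).baseChange O y
      = (latT N q).baseChange O ((latT N q).baseChange O y)
        - ((((q : ℕ) : O) + 1) * (((q : ℕ) : O) + 1)) • y := by
  have e : delta N q
      = latT N q ∘ₗ latT N q - ((((q : ℕ) : ℤ) + 1) * (((q : ℕ) : ℤ) + 1)) • LinearMap.id := rfl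
  rw [e, LinearMap.baseChange_sub, LinearMap.baseChange_comp, LinearMap.baseChange_smul,
    LinearMap.baseChange_id, LinearMap.sub_apply, LinearMap.comp_apply, LinearMap.smul_apply,
    LinearMap.id_apply, ← Int.cast_smul_eq_zsmul O]
  push_cast
  rfl

/-- `Δ_q ⊗ ℂ` is injective, `q ∤ N`. -/
theorem delta_complex_injective (q : Nat.Primes) (hqN : ¬ (q : ℕ) ∣ N) :
    Function.Injective ((delta N q).baseChange ℂ) := by
  have hfree : Module.Free ℤ (Lam N) := Fermat.Agent.GJ.J2.ZStruct.free_parabolicHoms_int N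
  have hfin : Module.Finite ℤ (Lam N) := Fermat.Agent.GJ.J2.ZStruct.finite_parabolicHoms_int N
  rw [← LinearMap.ker_eq_bot]
  by_contra hne
  let op : Nat.Primes → Module.End ℂ (ℂ ⊗[ℤ] Lam N) := fun l => (latT N l).baseChange ℂ
  have hcomm : ∀ l l' : Nat.Primes, Commute (op l) (op l') := by
    intro l l'
    show op l * op l' = op l' * op l
    have hc : latT N l ∘ₗ latT N l' = latT N l' ∘ₗ latT N l := (latT_commute N l l').eq
    change (latT N l).baseChange ℂ ∘ₗ (latT N l').baseChange ℂ
      = (latT N l').baseChange ℂ ∘ₗ (latT N l).baseChange ℂ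
    rw [← LinearMap.baseChange_comp, ← LinearMap.baseChange_comp, hc]
  have hstab : ∀ l : Nat.Primes, ∀ v ∈ LinearMap.ker ((delta N q).baseChange ℂ),
      op l v ∈ LinearMap.ker ((delta N q).baseChange ℂ) := by
    intro l v hv
    rw [LinearMap.mem_ker] at hv ⊢
    have hc : delta N q ∘ₗ latT N l = latT N l ∘ₗ delta N q := by
      refine LinearMap.ext fun x => ?_
      simp only [LinearMap.comp_apply, delta_apply, map_sub, map_zsmul]
      have h1 := congrArg (fun t : Module.End ℤ (Lam N) => t (latT N q x)) (latT_commute N q l).eq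
      have h2 := congrArg (fun t : Module.End ℤ (Lam N) => t x) (latT_commute N q l).eq
      simp only [Module.End.mul_apply] at h1 h2
      rw [h2, h1]
    show (delta N q).baseChange ℂ ((latT N l).baseChange ℂ v) = 0
    rw [← LinearMap.comp_apply, ← LinearMap.baseChange_comp, hc, LinearMap.baseChange_comp,
      LinearMap.comp_apply, hv, map_zero]
  obtain ⟨v, c, hvE, hv0, hc⟩ :=
    Fermat.Agent.GM.End.exists_common_eigenvector_mem op hcomm _ hne hstab
  have hsq := Fermat.Agent.GE9.OldQ.CqNeO.lam_sq_ne c v hv0 hc q.2 hqN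
  rw [LinearMap.mem_ker, delta_baseChange_apply] at hvE
  have hcq : (latT N q).baseChange ℂ v = c q • v := hc q
  rw [hcq, map_smul, hcq, smul_smul, ← sub_smul] at hvE
  rcases smul_eq_zero.mp hvE with h | h
  · apply hsq
    have h' := sub_eq_zero.mp h
    have e : (⟨(q : ℕ), q.2⟩ : Nat.Primes) = q := Subtype.ext rfl
    rw [e, sq, h']
    ring
  · exact hv0 h

/-- **`Δ_q` is injective on `Λ_N`**, `q ∤ N`. -/
theorem delta_injective (q : Nat.Primes) (hqN : ¬ (q : ℕ) ∣ N) :
    Function.Injective (delta N q) := by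
  have hfree : Module.Free ℤ (Lam N) := Fermat.Agent.GJ.J2.ZStruct.free_parabolicHoms_int N
  have hinc : Function.Injective fun x : Lam N => (1 : ℂ) ⊗ₜ[ℤ] x := by
    have h1 : Function.Injective ((Algebra.linearMap ℤ ℂ).rTensor (Lam N)) :=
      Module.Flat.rTensor_preserves_injective_linearMap _
        (fun a b h => Int.cast_injective (α := ℂ) (by simpa using h))
    intro x y hxy
    have h2 : (Algebra.linearMap ℤ ℂ).rTensor (Lam N) ((1 : ℤ) ⊗ₜ[ℤ] x)
        = (Algebra.linearMap ℤ ℂ).rTensor (Lam N) ((1 : ℤ) ⊗ₜ[ℤ] y) := by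
      rw [LinearMap.rTensor_tmul, LinearMap.rTensor_tmul, Algebra.linearMap_apply, map_one]
      exact hxy
    have h3 := h1 h2
    have h4 := congrArg (TensorProduct.lid ℤ (Lam N)) h3
    simpa using h4
  intro x y hxy
  apply hinc
  apply delta_complex_injective q hqN
  show (delta N q).baseChange ℂ ((1 : ℂ) ⊗ₜ[ℤ] x) = (delta N q).baseChange ℂ ((1 : ℂ) ⊗ₜ[ℤ] y)
  rw [LinearMap.baseChange_tmul, LinearMap.baseChange_tmul, hxy]

/-- **`Δ_q ⊗ O` is injective on `O ⊗[ℤ] Λ_N`**, `O` flat over `ℤ` (e.g. a char-0 domain). -/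
theorem delta_baseChange_injective (O : Type*) [CommRing O] [Module.Flat ℤ O] (q : Nat.Primes)
    (hqN : ¬ (q : ℕ) ∣ N) : Function.Injective ((delta N q).baseChange O) := by
  have h := Module.Flat.lTensor_preserves_injective_linearMap (M := O) (delta N q)
    (delta_injective q hqN)
  intro x y hxy
  apply h
  exact hxy

/-- operator spelling of `delta_baseChange_injective`. -/
theorem delta_tensor_injective (O : Type*) [CommRing O] [Module.Flat ℤ O] (q : Nat.Primes)
    (hqN : ¬ (q : ℕ) ∣ N) :
    Function.Injective fun y : O ⊗[ℤ] Lam N =>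
      (latT N q).baseChange O ((latT N q).baseChange O y)
        - ((((q : ℕ) : O) + 1) * (((q : ℕ) : O) + 1)) • y := by
  intro x y hxy
  apply delta_baseChange_injective O q hqN
  rw [delta_baseChange_apply, delta_baseChange_apply]
  exact hxy

end Lattice

/-! ### `β_q ∘ α_q` is injective -/

section BetaAlpha

variable {N q : ℕ} [hqF : Fact q.Prime] [NeZero N] [NeZero (N * q)]

/-- **`β_q ∘ α_q` is injective on `Λ_N × Λ_N`**, `q ∤ N`. -/
theorem betaP_alphaP_injective (hqN : ¬ q ∣ N) :
    Function.Injective fun u : Lam N × Lam N => betaP ℤ hqN (alphaP ℤ N q u) := by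
  have hΔ : Function.Injective fun x : Lam N =>
      latT N ⟨q, hqF.out⟩ (latT N ⟨q, hqF.out⟩ x) - ((((q : ℤ) + 1) * ((q : ℤ) + 1))) • x :=
    delta_injective ⟨q, hqF.out⟩ hqN
  have h := pair_injective_of_delta (latT N ⟨q, hqF.out⟩) ((q : ℤ) + 1) hΔ
  intro u v huv
  apply h
  have e : ∀ w : Lam N × Lam N, betaP ℤ hqN (alphaP ℤ N q w)
      = (((q : ℤ) + 1) • w.1 + latT N ⟨q, hqF.out⟩ w.2,
          latT N ⟨q, hqF.out⟩ w.1 + ((q : ℤ) + 1) • w.2) := fun w =>
    Fermat.Agent.GM.End.betaP_alphaP_latT hqN w.1 w.2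
  simp only at huv ⊢
  rw [← e u, ← e v]
  exact huv

/-- the same as a `ℤ`-linear map. -/
theorem betaP_comp_alphaP_injective (hqN : ¬ q ∣ N) :
    Function.Injective ((betaP ℤ hqN).toIntLinearMap ∘ₗ (alphaP ℤ N q).toIntLinearMap) :=
  betaP_alphaP_injective hqN

/-- **`(β_q ∘ α_q) ⊗ O` is injective on `O ⊗[ℤ] (Λ_N × Λ_N)`** (helper46's `DualIhara` spelling),
`O` flat over `ℤ`. -/
theorem betaP_comp_alphaP_baseChange_injective (O : Type*) [CommRing O] [Module.Flat ℤ O]
    (hqN : ¬ q ∣ N) :
    Function.Injective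
      (((betaP ℤ hqN).toIntLinearMap ∘ₗ (alphaP ℤ N q).toIntLinearMap).baseChange O) := by
  have h := Module.Flat.lTensor_preserves_injective_linearMap (M := O) _
    (betaP_comp_alphaP_injective hqN)
  intro x y hxy
  exact h hxy

/-- the four compositions `β_i ∘ α_j` over `O`. -/
theorem cores_res_baseChange (O : Type*) [CommRing O] (hqN : ¬ q ∣ N) (x : O ⊗[ℤ] Lam N) :
    (coresP ℤ hqN).toIntLinearMap.baseChange O ((resP ℤ N q).toIntLinearMap.baseChange O x)
      = ((q : O) + 1) • x := by
  have hc : (coresP ℤ hqN).toIntLinearMap ∘ₗ (resP ℤ N q).toIntLinearMap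
      = ((q : ℤ) + 1) • LinearMap.id := by
    refine LinearMap.ext fun y => ?_
    have h := Fermat.Agent.GM.End.betaP_alphaP_latT hqN y 0
    have h1 := congrArg Prod.fst h
    rw [alphaP_apply, betaP_apply, map_zero, add_zero, map_zero, add_zero] at h1
    exact h1
  rw [← LinearMap.comp_apply, ← LinearMap.baseChange_comp, hc, LinearMap.baseChange_smul,
    LinearMap.baseChange_id, LinearMap.smul_apply, LinearMap.id_apply,
    ← Int.cast_smul_eq_zsmul O]
  push_cast
  rfl

theorem coresD_resD_baseChange (O : Type*) [CommRing O] (hqN : ¬ q ∣ N) (x : O ⊗[ℤ] Lam N) :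
    (coresDP ℤ hqN).toIntLinearMap.baseChange O ((resDP ℤ N q).toIntLinearMap.baseChange O x)
      = ((q : O) + 1) • x := by
  have hc : (coresDP ℤ hqN).toIntLinearMap ∘ₗ (resDP ℤ N q).toIntLinearMap
      = ((q : ℤ) + 1) • LinearMap.id := by
    refine LinearMap.ext fun y => ?_
    have h := Fermat.Agent.GM.End.betaP_alphaP_latT hqN 0 y
    have h1 := congrArg Prod.snd h
    rw [alphaP_apply, betaP_apply, map_zero, zero_add, map_zero, zero_add] at h1
    exact h1
  rw [← LinearMap.comp_apply, ← LinearMap.baseChange_comp, hc, LinearMap.baseChange_smul,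
    LinearMap.baseChange_id, LinearMap.smul_apply, LinearMap.id_apply,
    ← Int.cast_smul_eq_zsmul O]
  push_cast
  rfl

theorem cores_resD_baseChange (O : Type*) [CommRing O] (hqN : ¬ q ∣ N) (x : O ⊗[ℤ] Lam N) :
    (coresP ℤ hqN).toIntLinearMap.baseChange O ((resDP ℤ N q).toIntLinearMap.baseChange O x)
      = (latT N ⟨q, hqF.out⟩).baseChange O x := by
  have hc : (coresP ℤ hqN).toIntLinearMap ∘ₗ (resDP ℤ N q).toIntLinearMap
      = latT N ⟨q, hqF.out⟩ := by
    refine LinearMap.ext fun y => ?_
    have h := Fermat.Agent.GM.End.betaP_alphaP_latT hqN 0 y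
    have h1 := congrArg Prod.fst h
    rw [alphaP_apply, betaP_apply, map_zero, zero_add, smul_zero, zero_add] at h1
    exact h1
  rw [← LinearMap.comp_apply, ← LinearMap.baseChange_comp, hc]

theorem coresD_res_baseChange (O : Type*) [CommRing O] (hqN : ¬ q ∣ N) (x : O ⊗[ℤ] Lam N) :
    (coresDP ℤ hqN).toIntLinearMap.baseChange O ((resP ℤ N q).toIntLinearMap.baseChange O x)
      = (latT N ⟨q, hqF.out⟩).baseChange O x := by
  have hc : (coresDP ℤ hqN).toIntLinearMap ∘ₗ (resP ℤ N q).toIntLinearMap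
      = latT N ⟨q, hqF.out⟩ := by
    refine LinearMap.ext fun y => ?_
    have h := Fermat.Agent.GM.End.betaP_alphaP_latT hqN y 0
    have h1 := congrArg Prod.snd h
    rw [alphaP_apply, betaP_apply, map_zero, add_zero, smul_zero, add_zero] at h1
    exact h1
  rw [← LinearMap.comp_apply, ← LinearMap.baseChange_comp, hc]

/-- **`hinj` in component spelling over `O`**: with `α^O (x, y) = res^O x + res_δ^O y` and
`β^O = (cores^O, cores_δ^O)`, `β^O ∘ α^O` is injective on `(O ⊗ Λ_N)²`. -/
theorem pairO_injective (O : Type*) [CommRing O] [Module.Flat ℤ O] (hqN : ¬ q ∣ N) :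
    Function.Injective fun u : (O ⊗[ℤ] Lam N) × (O ⊗[ℤ] Lam N) =>
      ((coresP ℤ hqN).toIntLinearMap.baseChange O
          ((resP ℤ N q).toIntLinearMap.baseChange O u.1
            + (resDP ℤ N q).toIntLinearMap.baseChange O u.2),
        (coresDP ℤ hqN).toIntLinearMap.baseChange O
          ((resP ℤ N q).toIntLinearMap.baseChange O u.1
            + (resDP ℤ N q).toIntLinearMap.baseChange O u.2)) := by
  have hΔ := delta_tensor_injective O (⟨q, hqF.out⟩ : Nat.Primes) hqN
  have h := pair_injective_of_delta ((latT N ⟨q, hqF.out⟩).baseChange O) ((q : O) + 1) hΔ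
  intro u v huv
  apply h
  simp only [map_add, cores_res_baseChange, cores_resD_baseChange, coresD_res_baseChange,
    coresD_resD_baseChange] at huv
  exact huv

end BetaAlpha

end Fermat.Agent.GE9.PNew.Inst.DeltaInj
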