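/-
GATE-E / RISK-4, instance layer R4-I, slice (e3) of helper37's table 7832 (helper21):
`GE9/PNew/Inst/FormLoc.lean` — **the forms and the eigen-families on the `𝔪`-primary parts**, in
helper37's `PolyAct` vocabulary (`PAlg 𝒪 Z`, `mP 𝒪 Z lam`, `locPart`).

One level `M`:
* `BL M Z lam` : the Fricke-twisted cup form `BW M 𝒪` restricted to
  `↥(locPart (mP 𝒪 Z lam) (𝒪 ⊗ Λ_M))` (`= Eta.Loc.BLoc`), `BL_apply`;
* `perfect_BL`, `BL_smulP` (`PAlg 𝒪 Z`-self-adjoint), `hnd_BL_of_hnd`, `hnd_BW`, `hnd_BL`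
  (right non-degenerate);
* `famLoc b hb` : a family of `𝒪 ⊗ Λ_M` lying in the primary part, as a family of the primary part;
  `gram_famLoc`, `linearIndependent_famLoc`, `card_congMod_famLoc` (`Ω` computed upstairs or in the
  primary part);
* `eigen_mem_locPart` : `eigenTensorO M 𝒪 lam₀ ⊆ locPart (mP 𝒪 Z lam)` when `lam₀ = lam` on `Z`;
* `smulP_eigen` : `hg` — `s • x = evP 𝒪 Z lam₀ s • x` on `eigenTensorO M 𝒪 lam₀` (every `Z`).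

The step `N ⟶ N q²` (`q ∤ N`, `q ∉ Z`, `lam' := lam₀[q ↦ 0]`):
* `bDown`, `bUp` : helper2's `b` (basis of `eigenTensorO N 𝒪 lam₀`) in `locPart (mP 𝒪 Z lam')` and
  his raised family `raise3 (alpha3O N q 𝒪) q (lam₀ q) b` in `locPart (mP 𝒪 (insert q Z) lam')`;
* **`step_forms`** : ONE call to `Mod.eta_mod` gives `hli`, `hli'`, `hspan'`, `hdet`, `hdet'`,
  `h : B' (b' i) (b' j) = c_q * B (b i) (b j)`, `hadj : B' (b' i) y = B (b i) (tLoc y)`,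
  `hg : s • b' i = evP s • b' i` — the modular binders of `KerHecke.card_congMod_ker_growth_hecke` /
  `StepGlueRel.card_congMod_ker_growth_of_base_rel` that live on `L`, `L'`.
-/
import Mathlib
import Fermat.Agent.GE9.PNew.Inst.TSurj
import Fermat.Agent.GE9.Eta.OmegaLoc
import Fermat.Agent.GE9.Eta.ModStage
import Fermat.Agent.GE9.NumCrit.ModForm.EtaHext

set_option autoImplicit false
set_option linter.unusedSectionVars false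
set_option linter.style.haveILetI false

open scoped TensorProduct

noncomputable section

namespace Fermat.Agent.GE9.PNew.Inst.FormLoc

open IsLocalRing Submodule
open Fermat.Agent.GJ.J2.Lat Fermat.Agent.GB.B3.Loc Fermat.Agent.GE9.Eta.Mod Fermat.Agent.GE9.Eta
  Fermat.Agent.GE9.Eta.LocLam Fermat.Agent.GE9.Mult1 Fermat.Agent.GE9.PNew.Inst

/-! ### one level -/

section Form

variable {𝒪 : Type} [CommRing 𝒪] [IsLocalRing 𝒪] [IsNoetherianRing 𝒪]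
  [IsAdicComplete (maximalIdeal 𝒪) 𝒪]
variable (M : ℕ) [NeZero M] (Z : Set ℕ) (lam : Nat.Primes → 𝒪)

/-- **the Fricke-twisted cup form on the `𝔪_Z`-primary part** of `𝒪 ⊗ Λ_M`. -/
def BL : ↥(locPart (mP 𝒪 Z lam) (𝒪 ⊗[ℤ] Lam M)) →ₗ[𝒪]
    ↥(locPart (mP 𝒪 Z lam) (𝒪 ⊗[ℤ] Lam M)) →ₗ[𝒪] 𝒪 :=
  Fermat.Agent.GE9.Eta.Loc.BLoc (mP 𝒪 Z lam) (BW M 𝒪)

variable {M Z lam}

@[simp] theorem BL_apply (x y : ↥(locPart (mP 𝒪 Z lam) (𝒪 ⊗[ℤ] Lam M))) :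
    BL M Z lam x y = BW M 𝒪 (x : 𝒪 ⊗[ℤ] Lam M) (y : 𝒪 ⊗[ℤ] Lam M) := rfl

variable (M Z lam)

/-- `BL` is perfect. -/
theorem perfect_BL : Fermat.Agent.GE9.Eta.Loc.Perfect (BL M Z lam) := by
  haveI := finite_tensor_lam' 𝒪 M
  exact Fermat.Agent.GE9.Eta.Loc.perfect_BLoc (mP 𝒪 Z lam) (BW M 𝒪)
    (fun a x y => BW_smulP a x y) (perfect_BW M 𝒪)

variable {M Z lam}

/-- `BL` is self-adjoint for the polynomial Hecke algebra. -/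
theorem BL_smulP (a : PAlg 𝒪 Z) (x y : ↥(locPart (mP 𝒪 Z lam) (𝒪 ⊗[ℤ] Lam M))) :
    BL M Z lam (a • x) y = BL M Z lam x (a • y) :=
  BW_smulP a (x : 𝒪 ⊗[ℤ] Lam M) (y : 𝒪 ⊗[ℤ] Lam M)

/-- **`hnd`** : `BL` is right non-degenerate as soon as `BW` is (the primary part is an orthogonal
direct summand). -/
theorem hnd_BL_of_hnd (hnd : ∀ w : 𝒪 ⊗[ℤ] Lam M, (∀ z, BW M 𝒪 z w = 0) → w = 0)
    (w : ↥(locPart (mP 𝒪 Z lam) (𝒪 ⊗[ℤ] Lam M))) (hw : ∀ z, BL M Z lam z w = 0) : w = 0 := by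
  haveI := finite_tensor_lam' 𝒪 M
  apply Subtype.ext
  rw [Submodule.coe_zero]
  refine hnd _ fun z => ?_
  have hcompl := isCompl_locPart_awayPart 𝒪 (L := 𝒪 ⊗[ℤ] Lam M) (mP 𝒪 Z lam)
  have hz : z ∈ locPart (mP 𝒪 Z lam) (𝒪 ⊗[ℤ] Lam M) ⊔ awayPart (mP 𝒪 Z lam) (𝒪 ⊗[ℤ] Lam M) := by
    rw [hcompl.sup_eq_top]; trivial
  obtain ⟨z₁, hz₁, z₂, hz₂, rfl⟩ := Submodule.mem_sup.1 hz
  rw [map_add, LinearMap.add_apply]
  have h1 : BW M 𝒪 z₁ (w : 𝒪 ⊗[ℤ] Lam M) = 0 := hw ⟨z₁, hz₁⟩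
  have h2 : BW M 𝒪 z₂ (w : 𝒪 ⊗[ℤ] Lam M) = 0 :=
    (Fermat.Agent.GE9.Eta.Loc.apply_eq_zero_of_mem_locPart_of_mem_awayPart (mP 𝒪 Z lam) (BW M 𝒪)
      (fun a x y => BW_smulP a x y) w.2 hz₂).2
  rw [h1, h2, add_zero]

/-- a family of `𝒪 ⊗ Λ_M` lying in the primary part, as a family of the primary part. -/
def famLoc {κ : Type*} (b : κ → 𝒪 ⊗[ℤ] Lam M)
    (hb : ∀ i, b i ∈ locPart (mP 𝒪 Z lam) (𝒪 ⊗[ℤ] Lam M)) :
    κ → ↥(locPart (mP 𝒪 Z lam) (𝒪 ⊗[ℤ] Lam M)) := fun i => ⟨b i, hb i⟩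

@[simp] theorem coe_famLoc {κ : Type*} (b : κ → 𝒪 ⊗[ℤ] Lam M)
    (hb : ∀ i, b i ∈ locPart (mP 𝒪 Z lam) (𝒪 ⊗[ℤ] Lam M)) (i : κ) :
    ((famLoc b hb i : ↥(locPart (mP 𝒪 Z lam) (𝒪 ⊗[ℤ] Lam M))) : 𝒪 ⊗[ℤ] Lam M) = b i := rfl

/-- the Gram matrix does not change. -/
theorem gram_famLoc {d : ℕ} (b : Fin d → 𝒪 ⊗[ℤ] Lam M)
    (hb : ∀ i, b i ∈ locPart (mP 𝒪 Z lam) (𝒪 ⊗[ℤ] Lam M)) :
    gram (BL M Z lam) (famLoc b hb) = gram (BW M 𝒪) b := by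
  ext i j
  rfl

/-- linear independence does not change. -/
theorem linearIndependent_famLoc {κ : Type*} (b : κ → 𝒪 ⊗[ℤ] Lam M)
    (hb : ∀ i, b i ∈ locPart (mP 𝒪 Z lam) (𝒪 ⊗[ℤ] Lam M)) (hli : LinearIndependent 𝒪 b) :
    LinearIndependent 𝒪 (famLoc b hb) := by
  have h : b = ((locPart (mP 𝒪 Z lam) (𝒪 ⊗[ℤ] Lam M)).subtype.restrictScalars 𝒪) ∘ famLoc b hb := by
    funext i
    rfl
  rw [h] at hli
  exact LinearIndependent.of_comp _ hli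

/-- the span, pushed back to `𝒪 ⊗ Λ_M`. -/
theorem map_span_famLoc {κ : Type*} (b : κ → 𝒪 ⊗[ℤ] Lam M)
    (hb : ∀ i, b i ∈ locPart (mP 𝒪 Z lam) (𝒪 ⊗[ℤ] Lam M)) :
    (span 𝒪 (Set.range (famLoc b hb))).map
        ((locPart (mP 𝒪 Z lam) (𝒪 ⊗[ℤ] Lam M)).subtype.restrictScalars 𝒪)
      = span 𝒪 (Set.range b) := by
  rw [Submodule.map_span, ← Set.range_comp]
  rfl

/-- **`Ω` computed upstairs or in the primary part.** -/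
theorem card_congMod_famLoc {κ : Type*} (b : κ → 𝒪 ⊗[ℤ] Lam M)
    (hb : ∀ i, b i ∈ locPart (mP 𝒪 Z lam) (𝒪 ⊗[ℤ] Lam M)) :
    Nat.card (CongMod (BL M Z lam) (span 𝒪 (Set.range (famLoc b hb))))
      = Nat.card (CongMod (BW M 𝒪) (span 𝒪 (Set.range b))) := by
  haveI := finite_tensor_lam' 𝒪 M
  exact (Fermat.Agent.GE9.Eta.OmegaLoc.card_congMod_of_mem_locPart (mP 𝒪 Z lam) (BW M 𝒪)
    (fun a x y => BW_smulP a x y) b hb).symm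

/-- the joint eigen-sublattice lies in the primary part (systems agreeing on `Z`). -/
theorem eigen_mem_locPart {lam₀ : Nat.Primes → 𝒪}
    (h : ∀ l : Nat.Primes, (l : ℕ) ∈ Z → lam₀ l = lam l) {x : 𝒪 ⊗[ℤ] Lam M}
    (hx : x ∈ eigenTensorO M 𝒪 lam₀) : x ∈ locPart (mP 𝒪 Z lam) (𝒪 ⊗[ℤ] Lam M) :=
  eigenTensorO_le_locPart_mP h hx

omit [IsLocalRing 𝒪] [IsNoetherianRing 𝒪] [IsAdicComplete (maximalIdeal 𝒪) 𝒪] in
/-- **`hg`** : the polynomial algebra (on ANY set of primes) acts on the joint eigen-sublattice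
through the eigencharacter. -/
theorem smulP_eigen {lam₀ : Nat.Primes → 𝒪} {x : 𝒪 ⊗[ℤ] Lam M}
    (hx : x ∈ eigenTensorO M 𝒪 lam₀) (s : PAlg 𝒪 Z) : s • x = evP 𝒪 Z lam₀ s • x :=
  smulP_eq_evP_smul (fun l _ => mem_eigenTensorO.mp hx l) s

end Form

/-! ### non-degeneracy over a DVR -/

section Nd

variable {𝒪 : Type} [CommRing 𝒪] [IsDomain 𝒪] [CharZero 𝒪] [IsDiscreteValuationRing 𝒪]
  [IsAdicComplete (maximalIdeal 𝒪) 𝒪]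
variable (M : ℕ) [NeZero M] (Z : Set ℕ) (lam : Nat.Primes → 𝒪)

omit [IsDiscreteValuationRing 𝒪] [IsAdicComplete (maximalIdeal 𝒪) 𝒪] in
/-- `BW` is right non-degenerate on `𝒪 ⊗ Λ_M`. -/
theorem hnd_BW (w : 𝒪 ⊗[ℤ] Lam M) (hw : ∀ z, BW M 𝒪 z w = 0) : w = 0 := by
  have := free_tensor_lam (O := 𝒪) M
  have := finite_tensor_lam (O := 𝒪) M
  exact Fermat.Agent.GE9.NumCrit.ModForm.hnd_of_perfect (BW M 𝒪) (perfect_BW M 𝒪) w hw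

/-- **`hnd`** : `BL` is right non-degenerate. -/
theorem hnd_BL (w : ↥(locPart (mP 𝒪 Z lam) (𝒪 ⊗[ℤ] Lam M))) (hw : ∀ z, BL M Z lam z w = 0) :
    w = 0 :=
  hnd_BL_of_hnd (hnd_BW M) w hw

end Nd

/-! ### the step `N ⟶ N q²` -/

section Step

variable {N q : ℕ} [hqF : Fact q.Prime] [NeZero N] [NeZero (N * q)] [NeZero (N * q * q)]
variable {𝒪 : Type} [CommRing 𝒪] [IsDomain 𝒪] [CharZero 𝒪] [IsDiscreteValuationRing 𝒪]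
  [IsAdicComplete (maximalIdeal 𝒪) 𝒪]
variable (Z : Set ℕ) (lam₀ : Nat.Primes → 𝒪)

/-- the eigensystem upstairs: `lam₀` with the value at `q` replaced by `0`. -/
abbrev lamUp (q : ℕ) [hqF : Fact q.Prime] (lam₀ : Nat.Primes → 𝒪) : Nat.Primes → 𝒪 :=
  Function.update lam₀ (qP q) 0

theorem lamUp_q : lamUp q lam₀ (qP q) = 0 := Function.update_self _ _ _

theorem lamUp_of_mem (hqZ : q ∉ Z) (l : Nat.Primes) (hl : (l : ℕ) ∈ Z) :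
    lam₀ l = lamUp q lam₀ l := by
  have hne : l ≠ qP q := fun h => hqZ (by rw [h] at hl; exact hl)
  exact (Function.update_of_ne hne _ _).symm

variable {lam₀}

/-- helper2's family `b` (in `eigenTensorO N 𝒪 lam₀`) as a family of the `𝔪_Z`-primary part
(for the system `lam₀[q ↦ 0]`, which has the same maximal ideal on the `q`-anemic algebra). -/
def bDown (hqZ : q ∉ Z) {d : ℕ} (b : Fin d → 𝒪 ⊗[ℤ] Lam N)
    (hb : ∀ i, b i ∈ eigenTensorO N 𝒪 lam₀) :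
    Fin d → ↥(locPart (mP 𝒪 Z (lamUp q lam₀)) (𝒪 ⊗[ℤ] Lam N)) :=
  famLoc b fun i => eigen_mem_locPart (lamUp_of_mem Z lam₀ hqZ) (hb i)

/-- the raised family is in the joint eigen-sublattice upstairs. -/
theorem raise3_mem_eigen (hqN : ¬ q ∣ N) {d : ℕ} (b : Fin d → 𝒪 ⊗[ℤ] Lam N)
    (hb : ∀ i, b i ∈ eigenTensorO N 𝒪 lam₀) (i : Fin d) :
    raise3 (alpha3O N q 𝒪) ((q : ℕ) : 𝒪) (lam₀ (qP q)) b i
      ∈ eigenTensorO (N * q * q) 𝒪 (lamUp q lam₀) :=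
  raise3O_mem_eigenTensorO hqN hqF.out lam₀ (hb i)

/-- helper2's raised family `b' = raise3 (alpha3O N q 𝒪) q (lam₀ q) b` as a family of the
`𝔪_{Z ∪ {q}}`-primary part upstairs. -/
def bUp (hqN : ¬ q ∣ N) {d : ℕ} (b : Fin d → 𝒪 ⊗[ℤ] Lam N)
    (hb : ∀ i, b i ∈ eigenTensorO N 𝒪 lam₀) :
    Fin d → ↥(locPart (mP 𝒪 (insert q Z) (lamUp q lam₀)) (𝒪 ⊗[ℤ] Lam (N * q * q))) :=
  famLoc (raise3 (alpha3O N q 𝒪) ((q : ℕ) : 𝒪) (lam₀ (qP q)) b) fun i =>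
    eigen_mem_locPart (fun _ _ => rfl) (raise3_mem_eigen hqN b hb i)

@[simp] theorem coe_bDown (hqZ : q ∉ Z) {d : ℕ} (b : Fin d → 𝒪 ⊗[ℤ] Lam N)
    (hb : ∀ i, b i ∈ eigenTensorO N 𝒪 lam₀) (i : Fin d) :
    ((bDown Z hqZ b hb i : ↥(locPart (mP 𝒪 Z (lamUp q lam₀)) (𝒪 ⊗[ℤ] Lam N))) : 𝒪 ⊗[ℤ] Lam N)
      = b i := rfl

@[simp] theorem coe_bUp (hqN : ¬ q ∣ N) {d : ℕ} (b : Fin d → 𝒪 ⊗[ℤ] Lam N)
    (hb : ∀ i, b i ∈ eigenTensorO N 𝒪 lam₀) (i : Fin d) :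
    ((bUp Z hqN b hb i : ↥(locPart (mP 𝒪 (insert q Z) (lamUp q lam₀))
        (𝒪 ⊗[ℤ] Lam (N * q * q)))) : 𝒪 ⊗[ℤ] Lam (N * q * q))
      = raise3 (alpha3O N q 𝒪) ((q : ℕ) : 𝒪) (lam₀ (qP q)) b i := rfl

/-- **`hadj`** : `B' (b' i) y = B (b i) (t y)` on the primary parts, `t = tLoc` (helper37). -/
theorem BL_bUp_tLoc (hqN : ¬ q ∣ N) (hqZ : q ∉ Z) (hq𝒪 : IsUnit ((q : ℕ) : 𝒪)) {d : ℕ}
    (b : Fin d → 𝒪 ⊗[ℤ] Lam N) (hb : ∀ i, b i ∈ eigenTensorO N 𝒪 lam₀) (i : Fin d)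
    (y : ↥(locPart (mP 𝒪 (insert q Z) (lamUp q lam₀)) (𝒪 ⊗[ℤ] Lam (N * q * q)))) :
    BL (N * q * q) (insert q Z) (lamUp q lam₀) (bUp Z hqN b hb i) y
      = BL N Z (lamUp q lam₀) (bDown Z hqZ b hb i) (tLoc hqN Z (lamUp q lam₀) hqZ y) :=
  BW_raise3_tLoc hqN Z (lamUp q lam₀) hqZ hq𝒪 (lamUp_q lam₀) (lam₀ (qP q)) b i y

/-- **`hg`** upstairs, for the polynomial algebra on ANY set `Z'` of primes. -/
theorem smulP_bUp (hqN : ¬ q ∣ N) (Z' : Set ℕ) {d : ℕ} (b : Fin d → 𝒪 ⊗[ℤ] Lam N)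
    (hb : ∀ i, b i ∈ eigenTensorO N 𝒪 lam₀) (i : Fin d) (s : PAlg 𝒪 Z') :
    s • raise3 (alpha3O N q 𝒪) ((q : ℕ) : 𝒪) (lam₀ (qP q)) b i
      = evP 𝒪 Z' (lamUp q lam₀) s • raise3 (alpha3O N q 𝒪) ((q : ℕ) : 𝒪) (lam₀ (qP q)) b i :=
  smulP_eigen (raise3_mem_eigen hqN b hb i) s

variable [Finite (ResidueField 𝒪)]

/-- Wiles' factor `c_q = (q − 1)((1 + q)² − a_q²)`, `a_q = lam₀ q`. -/
abbrev cq (q : ℕ) [hqF : Fact q.Prime] (lam₀ : Nat.Primes → 𝒪) : 𝒪 :=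
  (((q : ℕ) : 𝒪) - 1) * ((1 + ((q : ℕ) : 𝒪)) ^ 2 - lam₀ (qP q) ^ 2)

/-- **(e3), the modular binders of the step that live on `L`, `L'`** — ONE call to helper2's
`Mod.eta_mod`.  `L := locPart (mP 𝒪 Z lam') (𝒪 ⊗ Λ_N)`, `L' := locPart (mP 𝒪 (insert q Z) lam')
(𝒪 ⊗ Λ_{N q²})`, `lam' = lam₀[q ↦ 0]`, `B := BL N …`, `B' := BL (N q²) …`, `b := bDown`,
`b' := bUp`, `t := tLoc`, `c := c_q`. -/
theorem step_forms (hqN : ¬ q ∣ N) (hqZ : q ∉ Z) (hq𝒪 : IsUnit ((q : ℕ) : 𝒪))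
    {p : ℕ} (hp : p.Prime) (hp2 : p ≠ 2)
    {ϖ : 𝒪} (hϖ : Irreducible ϖ) (hpϖ : ∃ c : 𝒪, (p : 𝒪) = ϖ * c)
    (l l' : Nat.Primes) (hl : ¬ (l : ℕ) ∣ N * q) (hlq : ((l : ℕ) : ZMod q) = 1)
    (hl' : ¬ (l' : ℕ) ∣ N)
    (ha : IsUnit (lam₀ l - (((l : ℕ) : 𝒪) + 1))) (ha' : IsUnit (lam₀ l' - (((l' : ℕ) : 𝒪) + 1)))
    {d : ℕ} (hd : 2 ≤ d) (b : Fin d → 𝒪 ⊗[ℤ] Lam N) (hli : LinearIndependent 𝒪 b)
    (hspan : span 𝒪 (Set.range b) = eigenTensorO N 𝒪 lam₀)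
    (hc : cq q lam₀ ≠ 0) (hdet : (gram (BW N 𝒪) b).det ≠ 0) :
    ∃ hb : ∀ i, b i ∈ eigenTensorO N 𝒪 lam₀,
      LinearIndependent 𝒪 (bDown Z hqZ b hb) ∧
      LinearIndependent 𝒪 (bUp Z hqN b hb) ∧
      span 𝒪 (Set.range (raise3 (alpha3O N q 𝒪) ((q : ℕ) : 𝒪) (lam₀ (qP q)) b))
        = eigenTensorO (N * q * q) 𝒪 (lamUp q lam₀) ∧
      (gram (BL N Z (lamUp q lam₀)) (bDown Z hqZ b hb)).det ≠ 0 ∧
      (gram (BL (N * q * q) (insert q Z) (lamUp q lam₀)) (bUp Z hqN b hb)).det ≠ 0 ∧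
      (∀ i j, BL (N * q * q) (insert q Z) (lamUp q lam₀) (bUp Z hqN b hb i) (bUp Z hqN b hb j)
        = cq q lam₀ * BL N Z (lamUp q lam₀) (bDown Z hqZ b hb i) (bDown Z hqZ b hb j)) ∧
      (∀ i y, BL (N * q * q) (insert q Z) (lamUp q lam₀) (bUp Z hqN b hb i) y
        = BL N Z (lamUp q lam₀) (bDown Z hqZ b hb i) (tLoc hqN Z (lamUp q lam₀) hqZ y)) ∧
      (∀ (Z' : Set ℕ) (s : PAlg 𝒪 Z') (i : Fin d),
        s • raise3 (alpha3O N q 𝒪) ((q : ℕ) : 𝒪) (lam₀ (qP q)) b i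
          = evP 𝒪 Z' (lamUp q lam₀) s
            • raise3 (alpha3O N q 𝒪) ((q : ℕ) : 𝒪) (lam₀ (qP q)) b i) ∧
      Nat.card (CongMod (BL (N * q * q) (insert q Z) (lamUp q lam₀))
          (span 𝒪 (Set.range (bUp Z hqN b hb))))
        = Nat.card (CongMod (BL N Z (lamUp q lam₀)) (span 𝒪 (Set.range (bDown Z hqZ b hb))))
          * Nat.card (𝒪 ⧸ Ideal.span {cq q lam₀}) ^ d := by
  have hb : ∀ i, b i ∈ eigenTensorO N 𝒪 lam₀ := fun i => hspan ▸ subset_span ⟨i, rfl⟩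
  obtain ⟨hli', hspan', -, -, hgram⟩ :=
    eta_mod hqN hqF.out hp hp2 hϖ hpϖ lam₀ l l' hl hlq hl' ha ha' hd b hli hspan
  have hcard := card_congMod_eta_mod hqN hqF.out hp hp2 hϖ hpϖ lam₀ l l' hl hlq hl' ha ha' hd b
    hli hspan hc hdet
  refine ⟨hb, linearIndependent_famLoc _ _ hli, linearIndependent_famLoc _ _ hli', hspan', ?_, ?_,
    ?_, ?_, ?_, ?_⟩
  · rw [bDown, gram_famLoc]
    exact hdet
  · rw [bUp, gram_famLoc, det_gram_of_smul (BW N 𝒪) (BW (N * q * q) 𝒪) b _ _ hgram]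
    exact mul_ne_zero (pow_ne_zero d hc) hdet
  · intro i j
    exact hgram i j
  · intro i y
    exact BL_bUp_tLoc Z hqN hqZ hq𝒪 b hb i y
  · intro Z' s i
    exact smulP_bUp hqN Z' b hb i s
  · rw [bUp, bDown, card_congMod_famLoc, card_congMod_famLoc]
    exact hcard

end Step

end Fermat.Agent.GE9.PNew.Inst.FormLoc

end
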