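/-
GATE-E / RISK-4, instance layer R4-I / R4-F (helper21; helper37 7868 item 2):
`GE9/PNew/Inst/KNewNd.lean` — **the Fricke-twisted cup form is right non-degenerate on the
UNLOCALISED `p`-new part** `KNew hpN 𝒪 = ker (cores_p ⊗ 𝒪) ⊓ ker (cores_{p,δ} ⊗ 𝒪)`:

  `∀ w ∈ KNew hpN 𝒪, (∀ z ∈ KNew hpN 𝒪, BW (N p) 𝒪 z w = 0) → w = 0`

(`𝒪` a characteristic-zero domain).  This is the binder `hnd` of helper47's `CarrierNd` /
helper3's `CarrierK` / helper2's `FieldsAbs` at `X := ↥KNew`, and what makes `omegaCardNew` finite.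
No surjectivity of `β_p`, no localisation: a "rational" proof made integral by an adjugate.

* `exists_quasi_inverse` : an injective endomorphism `f` of a finite free module over a domain has
  `g`, `c ≠ 0` with `f ∘ g = c • id` (adjugate);
* `exists_split_int` : `∃ C c₀ ≠ 0, β_p (α_p (C y)) = c₀ • y` on `Λ_N × Λ_N`
  (`β_p α_p = [[p+1, T_p],[T_p, p+1]]`, `Δ_p = T_p² − (p+1)²` injective: `DeltaInj`);
* `twForm_cross` : a cross-lattice adjunction `B₀' (α x) (w' y) = B₀ x (w (γ y))` survives `⊗ 𝒪`;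
* `BW_resO`, `BW_resDO` : `BW_{N p} (res^𝒪 u) y = BW_N u (cores_δ^𝒪 y)`,
  `BW_{N p} (res_δ^𝒪 u) y = BW_N u (cores^𝒪 y)` (Fricke exchanges the two degeneracies);
* `exists_decomp` : `∀ z, ∃ k ∈ KNew, ∃ u₁ u₂, c₀ • z = k + res^𝒪 u₁ + res_δ^𝒪 u₂`;
* **`hnd_KNew`**, **`hnd_BWNew`**.
-/
import Mathlib
import Fermat.Agent.GE9.PNew.Inst.KNew
import Fermat.Agent.GE9.PNew.Inst.DeltaInj
import Fermat.Agent.GE9.PNew.Inst.FormLoc
import Fermat.Agent.GE9.Fricke.Basic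
import Fermat.Agent.GM.Theta.Outer
import Fermat.Agent.GM.Asm.DAsm

set_option autoImplicit false
set_option linter.unusedSectionVars false

open scoped TensorProduct

namespace Fermat.Agent.GE9.PNew.Inst.KNewNd

open Fermat.Agent.GJ.J2.Lat Fermat.Agent.GM.Asm Fermat.Agent.GM.B Fermat.Agent.GM.Theta.Outer
  Fermat.Agent.GE9.Fricke Fermat.Agent.GE9.Eta.Mod Fermat.Agent.GE9.Eta.LocLam
  Fermat.Agent.GE9.Eta.LocTw Fermat.Agent.GE9.PNew.Inst Fermat.Agent.GE9.PNew.Inst.PolyLin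

/-! ### abstract -/

section Abstract

/-- an injective endomorphism of a finite free module over a domain has a quasi-inverse:
`f ∘ g = c • id` with `c ≠ 0` (`g` = adjugate, `c` = determinant). -/
theorem exists_quasi_inverse {R : Type*} [CommRing R] [IsDomain R] {Λ : Type*} [AddCommGroup Λ]
    [Module R Λ] [Module.Free R Λ] [Module.Finite R Λ] (f : Λ →ₗ[R] Λ)
    (hf : Function.Injective f) :
    ∃ (g : Λ →ₗ[R] Λ) (c : R), c ≠ 0 ∧ f ∘ₗ g = c • LinearMap.id := by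
  classical
  let b := Module.Free.chooseBasis R Λ
  let A := LinearMap.toMatrix b b f
  refine ⟨Matrix.toLin b b A.adjugate, A.det, ?_, ?_⟩
  · intro hdet
    obtain ⟨v, hv, hAv⟩ := Matrix.exists_mulVec_eq_zero_iff.mpr hdet
    apply hv
    have h3 : (b.repr (b.equivFun.symm v) : _ → R) = v := by
      rw [← Module.Basis.equivFun_apply, LinearEquiv.apply_symm_apply]
    have h1 : f (b.equivFun.symm v) = 0 := by
      have := LinearMap.toMatrix_mulVec_repr b b f (b.equivFun.symm v)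
      apply b.repr.injective
      rw [map_zero]
      ext i
      have h2 := congrFun this i
      rw [← h2, h3]
      show (A.mulVec v) i = 0
      rw [hAv]
      rfl
    have h2 : b.equivFun.symm v = 0 := hf (h1.trans (map_zero f).symm)
    have h4 := congrArg b.equivFun h2
    rwa [LinearEquiv.apply_symm_apply, map_zero] at h4
  · have : f = Matrix.toLin b b A := (Matrix.toLin_toMatrix b b f).symm
    conv_lhs => rw [this]
    rw [← Matrix.toLin_mul b b b, Matrix.mul_adjugate, map_smul, Matrix.toLin_one]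

variable {O : Type*} [CommRing O]
variable {Λ : Type*} [AddCommGroup Λ] {Λ' : Type*} [AddCommGroup Λ']

/-- **a cross-lattice adjunction survives base change**:
`B₀' (α x) (w' y) = B₀ x (w (γ y))` over `ℤ` ⟹ the same for the twisted forms over `O`. -/
theorem twForm_cross (B₀ : Λ →ₗ[ℤ] Λ →ₗ[ℤ] ℤ) (w : Λ →ₗ[ℤ] Λ)
    (B₀' : Λ' →ₗ[ℤ] Λ' →ₗ[ℤ] ℤ) (w' : Λ' →ₗ[ℤ] Λ')
    (α : Λ →ₗ[ℤ] Λ') (γ : Λ' →ₗ[ℤ] Λ)
    (h : ∀ x y, B₀' (α x) (w' y) = B₀ x (w (γ y))) (x : O ⊗[ℤ] Λ) (y : O ⊗[ℤ] Λ') :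
    twForm O B₀' w' (α.baseChange O x) y = twForm O B₀ w x (γ.baseChange O y) := by
  rw [twForm_apply, twForm_apply]
  induction x using TensorProduct.induction_on with
  | zero => simp
  | tmul a u =>
    induction y using TensorProduct.induction_on with
    | zero => simp
    | tmul b v =>
      rw [LinearMap.baseChange_tmul, LinearMap.baseChange_tmul, LinearMap.baseChange_tmul,
        LinearMap.baseChange_tmul, bcForm_tmul, bcForm_tmul, h]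
    | add y₁ y₂ h₁ h₂ => rw [map_add, map_add, map_add, map_add, map_add, h₁, h₂]
  | add x₁ x₂ h₁ h₂ =>
    rw [map_add, map_add, map_add, LinearMap.add_apply, LinearMap.add_apply, h₁, h₂]

end Abstract

/-! ### the `ℤ`-level splitting -/

section Split

variable {N p : ℕ} [hpF : Fact p.Prime] [NeZero N] [NeZero (N * p)] (hpN : ¬ p ∣ N)

/-- **`β_p ∘ α_p` has a quasi-inverse on `Λ_N × Λ_N`.** -/
theorem exists_split_int :
    ∃ (C : (Lam N × Lam N) →ₗ[ℤ] (Lam N × Lam N)) (c₀ : ℤ), c₀ ≠ 0 ∧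
      ∀ y : Lam N × Lam N, betaP ℤ hpN (alphaP ℤ N p (C y)) = c₀ • y := by
  have hfree : Module.Free ℤ (Lam N) := Fermat.Agent.GJ.J2.ZStruct.free_parabolicHoms_int N
  have hfin : Module.Finite ℤ (Lam N) := Fermat.Agent.GJ.J2.ZStruct.finite_parabolicHoms_int N
  obtain ⟨Ψ, c₀, hc₀, hΨ⟩ := exists_quasi_inverse (DeltaInj.delta N (qP p))
    (DeltaInj.delta_injective (qP p) hpN)
  set T : Lam N →ₗ[ℤ] Lam N := latT N (qP p) with hT
  set c : ℤ := (p : ℤ) + 1 with hc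
  have hΔ : ∀ y : Lam N, T (T (Ψ y)) - (c * c) • Ψ y = c₀ • y := by
    intro y
    have := LinearMap.congr_fun hΨ y
    exact this
  -- `C y = -G' (Ψ y₁, Ψ y₂)`, `G' (a, b) = (c a − T b, −T a + c b)`
  let C : (Lam N × Lam N) →ₗ[ℤ] (Lam N × Lam N) :=
    LinearMap.prod
      (T ∘ₗ Ψ ∘ₗ LinearMap.snd ℤ (Lam N) (Lam N) - c • (Ψ ∘ₗ LinearMap.fst ℤ (Lam N) (Lam N)))
      (T ∘ₗ Ψ ∘ₗ LinearMap.fst ℤ (Lam N) (Lam N) - c • (Ψ ∘ₗ LinearMap.snd ℤ (Lam N) (Lam N)))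
  refine ⟨C, c₀, hc₀, ?_⟩
  rintro ⟨y₁, y₂⟩
  have hC : C (y₁, y₂) = (T (Ψ y₂) - c • Ψ y₁, T (Ψ y₁) - c • Ψ y₂) := rfl
  rw [hC, Fermat.Agent.GM.End.betaP_alphaP_latT hpN]
  refine Prod.ext ?_ ?_
  · show c • (T (Ψ y₂) - c • Ψ y₁) + T (T (Ψ y₁) - c • Ψ y₂) = c₀ • y₁
    rw [← hΔ y₁, map_sub, map_smul, smul_sub, mul_smul]
    abel
  · show T (T (Ψ y₂) - c • Ψ y₁) + c • (T (Ψ y₁) - c • Ψ y₂) = c₀ • y₂
    rw [← hΔ y₂, map_sub, map_smul, smul_sub, mul_smul]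
    abel

end Split

/-! ### the two adjunctions for the twisted forms -/

section Adj

variable {N p : ℕ} [hpF : Fact p.Prime] [NeZero N] [NeZero (N * p)] (hpN : ¬ p ∣ N)
  {𝒪 : Type} [CommRing 𝒪]

/-- `BW_{N p} (res^𝒪 u) y = BW_N u (cores_δ^𝒪 y)`. -/
theorem BW_resO (u : 𝒪 ⊗[ℤ] Lam N) (y : 𝒪 ⊗[ℤ] Lam (N * p)) :
    BW (N * p) 𝒪 ((Fermat.Agent.GM.B.resP ℤ N p).toIntLinearMap.baseChange 𝒪 u) y
      = BW N 𝒪 u ((coresDP ℤ hpN).toIntLinearMap.baseChange 𝒪 y) := by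
  refine twForm_cross (lamB N) (frLin N) (lamB (N * p)) (frLin (N * p))
    (Fermat.Agent.GM.B.resP ℤ N p).toIntLinearMap (coresDP ℤ hpN).toIntLinearMap ?_ u y
  intro x z
  show lamB (N * p) (Fermat.Agent.GM.B.resP ℤ N p x) (frP (N * p) ℤ z) = lamB N x (frP N ℤ (coresDP ℤ hpN z))
  rw [← lamB_frP_left, frP_resP, lamB_O1 hpN, lamB_frP_left]

/-- `BW_{N p} (res_δ^𝒪 u) y = BW_N u (cores^𝒪 y)`. -/
theorem BW_resDO (u : 𝒪 ⊗[ℤ] Lam N) (y : 𝒪 ⊗[ℤ] Lam (N * p)) :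
    BW (N * p) 𝒪 ((Fermat.Agent.GM.B.resDP ℤ N p).toIntLinearMap.baseChange 𝒪 u) y
      = BW N 𝒪 u ((coresP ℤ hpN).toIntLinearMap.baseChange 𝒪 y) := by
  refine twForm_cross (lamB N) (frLin N) (lamB (N * p)) (frLin (N * p))
    (Fermat.Agent.GM.B.resDP ℤ N p).toIntLinearMap (coresP ℤ hpN).toIntLinearMap ?_ u y
  intro x z
  show lamB (N * p) (Fermat.Agent.GM.B.resDP ℤ N p x) (frP (N * p) ℤ z) = lamB N x (frP N ℤ (coresP ℤ hpN z))
  rw [← lamB_frP_left, frP_resDP, lamB_resP_coresP hpN, lamB_frP_left]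

/-- `bP1 = cores_p`, `bP2 = cores_{p,δ}` as `ℤ`-linear maps. -/
theorem bP1_eq : bP1 hpN = (coresP ℤ hpN).toIntLinearMap := rfl

theorem bP2_eq : bP2 hpN = (coresDP ℤ hpN).toIntLinearMap := rfl

/-- the old space is `BW`-orthogonal to the `p`-new part. -/
theorem BW_old_new (u₁ u₂ : 𝒪 ⊗[ℤ] Lam N) {w : 𝒪 ⊗[ℤ] Lam (N * p)} (hw : w ∈ KNew hpN 𝒪) :
    BW (N * p) 𝒪 ((Fermat.Agent.GM.B.resP ℤ N p).toIntLinearMap.baseChange 𝒪 u₁
      + (Fermat.Agent.GM.B.resDP ℤ N p).toIntLinearMap.baseChange 𝒪 u₂) w = 0 := by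
  obtain ⟨h1, h2⟩ := (mem_KNew hpN).mp hw
  rw [bp1O, bP1_eq] at h1
  rw [bp2O, bP2_eq] at h2
  rw [map_add, LinearMap.add_apply, BW_resO hpN, BW_resDO hpN, h1, h2]
  simp only [map_zero, add_zero]

end Adj

/-! ### the decomposition and the non-degeneracy -/

section Main

variable {N p : ℕ} [hpF : Fact p.Prime] [NeZero N] [NeZero (N * p)] (hpN : ¬ p ∣ N)
  {𝒪 : Type} [CommRing 𝒪]

/-- **`c₀ • z ∈ KNew + old`** for a non-zero integer `c₀` (independent of `𝒪`). -/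
theorem exists_decomp :
    ∃ c₀ : ℤ, c₀ ≠ 0 ∧ ∀ z : 𝒪 ⊗[ℤ] Lam (N * p), ∃ k ∈ KNew hpN 𝒪, ∃ u₁ u₂ : 𝒪 ⊗[ℤ] Lam N,
      (c₀ : 𝒪) • z = k + ((Fermat.Agent.GM.B.resP ℤ N p).toIntLinearMap.baseChange 𝒪 u₁
        + (Fermat.Agent.GM.B.resDP ℤ N p).toIntLinearMap.baseChange 𝒪 u₂) := by
  obtain ⟨C, c₀, hc₀, hC⟩ := exists_split_int hpN
  refine ⟨c₀, hc₀, fun z => ?_⟩
  -- the `ℤ`-linear maps
  let β : Lam (N * p) →ₗ[ℤ] (Lam N × Lam N) := (betaP ℤ hpN).toIntLinearMap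
  let r1 : Lam N →ₗ[ℤ] Lam (N * p) := (Fermat.Agent.GM.B.resP ℤ N p).toIntLinearMap
  let r2 : Lam N →ₗ[ℤ] Lam (N * p) := (Fermat.Agent.GM.B.resDP ℤ N p).toIntLinearMap
  let U1 : Lam (N * p) →ₗ[ℤ] Lam N := LinearMap.fst ℤ (Lam N) (Lam N) ∘ₗ C ∘ₗ β
  let U2 : Lam (N * p) →ₗ[ℤ] Lam N := LinearMap.snd ℤ (Lam N) (Lam N) ∘ₗ C ∘ₗ β
  let κ : Lam (N * p) →ₗ[ℤ] Lam (N * p) := c₀ • LinearMap.id - (r1 ∘ₗ U1 + r2 ∘ₗ U2)
  have hκ : κ = c₀ • LinearMap.id - (r1 ∘ₗ U1 + r2 ∘ₗ U2) := rfl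
  have hακ : ∀ x : Lam (N * p), r1 (U1 x) + r2 (U2 x) = alphaP ℤ N p (C (β x)) := by
    intro x
    have e : C (β x) = ((C (β x)).1, (C (β x)).2) := rfl
    rw [e, alphaP_apply]
    rfl
  have hβκ : ∀ x : Lam (N * p), betaP ℤ hpN (κ x) = 0 := by
    intro x
    have e : κ x = c₀ • x - (r1 (U1 x) + r2 (U2 x)) := rfl
    rw [e, hακ, map_sub, hC, map_zsmul]
    exact sub_self _
  have h1 : bP1 hpN ∘ₗ κ = 0 := by
    refine LinearMap.ext fun x => ?_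
    rw [LinearMap.comp_apply, bP1_apply, hβκ]
    rfl
  have h2 : bP2 hpN ∘ₗ κ = 0 := by
    refine LinearMap.ext fun x => ?_
    rw [LinearMap.comp_apply, bP2_apply, hβκ]
    rfl
  refine ⟨κ.baseChange 𝒪 z, ?_, U1.baseChange 𝒪 z, U2.baseChange 𝒪 z, ?_⟩
  · rw [mem_KNew]
    constructor
    · rw [bp1O, ← LinearMap.comp_apply, ← LinearMap.baseChange_comp, h1,
        LinearMap.baseChange_zero, LinearMap.zero_apply]
    · rw [bp2O, ← LinearMap.comp_apply, ← LinearMap.baseChange_comp, h2,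
        LinearMap.baseChange_zero, LinearMap.zero_apply]
  · have e : κ + (r1 ∘ₗ U1 + r2 ∘ₗ U2) = c₀ • LinearMap.id := by
      rw [hκ]
      abel
    have e' := congrArg (fun f : Lam (N * p) →ₗ[ℤ] Lam (N * p) => f.baseChange 𝒪 z) e
    simp only [LinearMap.baseChange_add, LinearMap.add_apply, LinearMap.baseChange_comp,
      LinearMap.comp_apply, LinearMap.baseChange_smul, LinearMap.baseChange_id,
      LinearMap.smul_apply, LinearMap.id_apply] at e'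
    rw [← Int.cast_smul_eq_zsmul 𝒪] at e'
    exact e'.symm

variable [IsDomain 𝒪] [CharZero 𝒪]

/-- **`hnd` on the unlocalised `p`-new part.** -/
theorem hnd_KNew {w : 𝒪 ⊗[ℤ] Lam (N * p)} (hw : w ∈ KNew hpN 𝒪)
    (h : ∀ z ∈ KNew hpN 𝒪, BW (N * p) 𝒪 z w = 0) : w = 0 := by
  obtain ⟨c₀, hc₀, hdec⟩ := exists_decomp (𝒪 := 𝒪) hpN
  refine FormLoc.hnd_BW (N * p) w fun z => ?_
  obtain ⟨k, hk, u₁, u₂, hz⟩ := hdec z
  have h1 : (c₀ : 𝒪) * BW (N * p) 𝒪 z w = 0 := by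
    have : BW (N * p) 𝒪 ((c₀ : 𝒪) • z) w = 0 := by
      rw [hz, map_add, LinearMap.add_apply, h k hk, BW_old_new hpN u₁ u₂ hw, add_zero]
    rwa [map_smul, LinearMap.smul_apply, smul_eq_mul] at this
  have hc : (c₀ : 𝒪) ≠ 0 := Int.cast_ne_zero.mpr hc₀
  exact (mul_eq_zero.mp h1).resolve_left hc

/-- **`hnd` for `BWNew`** (helper37's spelling). -/
theorem hnd_BWNew (w : ↥(KNew hpN 𝒪)) (h : ∀ z : ↥(KNew hpN 𝒪), BWNew hpN 𝒪 z w = 0) : w = 0 := by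
  apply Subtype.ext
  rw [Submodule.coe_zero]
  exact hnd_KNew hpN w.2 fun z hz => h ⟨z, hz⟩

end Main

end Fermat.Agent.GE9.PNew.Inst.KNewNd
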