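/-
GATE-E / RISK-4, instance layer R4-I, ETA-BASE-NEW (helper2): **the ETA fields of the `p`-new base
record** — the instance of `GE9/Eta/Base/FieldsAbs.base_fields_abs` at the ambient module
`X := ↥(KNew hpN 𝒪)` (helper37 `KNew.lean`) with the restricted Fricke-twisted cup form `BWNew`.

`new_fields` : for ANY model `ι : L → 𝒪 ⊗ Lam (N p)` with values in `KNew`, `L` free over a
commutative `𝒪`-algebra `T'` generated by `g k` acting through `ι` as `T_{pl k}` (`pl k` a prime at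
which `KNew` is Hecke-stable, `hstab`), `range ι` an orthogonal direct factor of `KNew`
(`L₂ ≤ KNew`, `htop`, `horth`), `BW` non-degenerate on `KNew` (`hndK`, helper21 `KerNd`), the point
`πO` with `πO (g k) = lam (pl k)`, `hin : eigenTensorO (N p) 𝒪 lam ≤ range ι` and `hold`:

  `pullBW ι` is `T'`-adjoint and right non-degenerate, `L[𝔭]` has an `𝒪`-basis of EXACTLY TWO
  vectors, `#Ω_L = omegaCardNew hpN 𝒪 lam = etaCard πO ^ 2`, and `EtaStageNew hpN 𝒪 lam 2`.
-/
import Mathlib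
import Fermat.Agent.GE9.Eta.Base.FieldsAbs
import Fermat.Agent.GE9.Eta.Base.Fields
import Fermat.Agent.GE9.PNew.Inst.KNew
import Fermat.Agent.GE9.PNew.Inst.KNewNd
import Fermat.Agent.GE9.Eta.Loc

set_option autoImplicit false
set_option linter.unusedSectionVars false
set_option linter.style.haveILetI false

open scoped TensorProduct

namespace Fermat.Agent.GE9.PNew.Inst.BaseNewFields

open Fermat.Agent.GJ.J2.Lat Fermat.Agent.GE9.Fricke
  Fermat.Agent.GE9.Eta Fermat.Agent.GE9.Eta.Mod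
  Fermat.Agent.GE9.Mult1 Fermat.Agent.GE9.NumCrit Fermat.Agent.GE9.NumCrit.ModForm
  Fermat.Agent.GE9 Fermat.Agent.GE9.Eta.Base Fermat.Agent.GE9.Eta.Base.FieldsAbs
  Fermat.Agent.GE9.PNew.Inst Submodule

variable {O : Type} [CommRing O] [IsDomain O] [CharZero O] [IsDiscreteValuationRing O]
  {N p : ℕ} [hpF : Fact p.Prime] [NeZero N] [NeZero (N * p)] (hpN : ¬ p ∣ N)
  {T' : Type} [CommRing T'] [Algebra O T'] [NoZeroSMulDivisors O T']
  {L : Type} [AddCommGroup L] [Module O L] [Module T' L] [IsScalarTower O T' L]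

/-- **the ETA fields of the `p`-new base record and the base of the `p`-new module-side
induction.** -/
theorem new_fields [Module.Free T' L] [Module.Finite O L] [Nontrivial L]
    (hndK : ∀ w ∈ KNew hpN O, (∀ z ∈ KNew hpN O, BW (N * p) O z w = 0) → w = 0)
    (πO : T' →ₐ[O] O) (hη : etaIdeal πO ≠ ⊥)
    (ι : L →ₗ[O] O ⊗[ℤ] Lam (N * p)) (hι : Function.Injective ι)
    (hιK : ∀ y : L, ι y ∈ KNew hpN O)
    (L₂ : Submodule O (O ⊗[ℤ] Lam (N * p))) (hL₂ : L₂ ≤ KNew hpN O)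
    (htop : ∀ x ∈ KNew hpN O, x ∈ LinearMap.range ι ⊔ L₂)
    (horth : ∀ (x : L) (y : O ⊗[ℤ] Lam (N * p)), y ∈ L₂ → BW (N * p) O (ι x) y = 0)
    {κ : Type*} (g : κ → T') (hG : Algebra.adjoin O (Set.range g) = ⊤) (pl : κ → Nat.Primes)
    (hstab : ∀ k, ∀ x ∈ KNew hpN O, (latT (N * p) (pl k)).baseChange O x ∈ KNew hpN O)
    (hact : ∀ k x, ι (g k • x) = (latT (N * p) (pl k)).baseChange O (ι x))
    (lam : Nat.Primes → O) (hlam : ∀ k, πO (g k) = lam (pl k))
    (hin : eigenTensorO (N * p) O lam ≤ LinearMap.range ι)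
    (hold : ∀ x : L, (∀ k, (latT (N * p) (pl k)).baseChange O (ι x) = lam (pl k) • ι x) →
      ι x ∈ eigenTensorO (N * p) O lam) :
    (∀ (t : T') (x y : L), pullBW ι (t • x) y = pullBW ι x (t • y)) ∧
    (∀ w : L, (∀ z : L, pullBW ι z w = 0) → w = 0) ∧
    ∃ b : Fin 2 → L, LinearIndependent O b ∧ span O (Set.range b) = torPO πO L ∧
      Nat.card (CongMod (pullBW ι) (span O (Set.range b))) = omegaCardNew hpN O lam ∧
      Nat.card (CongMod (pullBW ι) (span O (Set.range b))) = Ind.etaCard πO ^ 2 ∧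
      EtaStageNew hpN O lam 2 := by
  have htfX := torsionFree_tensor_lam (O := O) (N * p)
  have htfK : Module.IsTorsionFree O ↥(KNew hpN O) :=
    (Subtype.val_injective).moduleIsTorsionFree (KNew hpN O).subtype (fun c x => rfl)
  -- the model inside `KNew`
  let ι' : L →ₗ[O] ↥(KNew hpN O) := ι.codRestrict (KNew hpN O) hιK
  have hι' : Function.Injective ι' := fun a b hab => hι (congrArg Subtype.val hab)
  let op : κ → Module.End O ↥(KNew hpN O) := fun k =>
    ((latT (N * p) (pl k)).baseChange O).restrict (hstab k)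
  have hKle : eigenTensorO (N * p) O lam ≤ KNew hpN O := by
    intro x hx
    obtain ⟨y, rfl⟩ := hin hx
    exact hιK y
  -- the rank bound
  have hP2 : Module.finrank O ↥(eigenNew hpN O lam) ≤ 2 := by
    have hmap : (eigenNew hpN O lam).map (KNew hpN O).subtype = eigenTensorO (N * p) O lam := by
      rw [eigenNew, Submodule.map_comap_eq, Submodule.range_subtype]
      exact inf_eq_right.2 hKle
    have e := Submodule.equivMapOfInjective (KNew hpN O).subtype Subtype.val_injective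
      (eigenNew hpN O lam)
    rw [e.finrank_eq, hmap]
    exact finrank_eigenTensorO_le_two (N := N * p) (O := O) lam
  obtain ⟨hadj, hnd, b, hli, hspan, hc1, hc2, hli', hspan', hdet⟩ :=
    base_fields_abs (BWNew hpN O)
      (fun x y => BW_skew (N * p) O (x : O ⊗[ℤ] Lam (N * p)) (y : O ⊗[ℤ] Lam (N * p)))
      (fun w hw => Subtype.ext (hndK w w.2 fun z hz => hw ⟨z, hz⟩))
      πO hη ι' hι' (L₂.comap (KNew hpN O).subtype)
      (by
        rw [eq_top_iff]
        rintro ⟨x, hx⟩ -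
        obtain ⟨_, ⟨y, rfl⟩, x₂, hx₂, hsum⟩ := Submodule.mem_sup.1 (htop x hx)
        refine Submodule.mem_sup.2 ⟨ι' y, ⟨y, rfl⟩, ⟨x₂, hL₂ hx₂⟩, hx₂, ?_⟩
        exact Subtype.ext hsum)
      (fun x y hy => horth x (y : O ⊗[ℤ] Lam (N * p)) hy)
      g hG op
      (fun k x y => BW_latT (pl k) (x : O ⊗[ℤ] Lam (N * p)) (y : O ⊗[ℤ] Lam (N * p)))
      (fun k x => Subtype.ext (hact k x))
      (fun k => lam (pl k)) hlam (eigenNew hpN O lam) hP2
      (fun y hy k => Subtype.ext ((mem_eigenTensorO.1 hy) (pl k)))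
      (by
        rintro ⟨x, hxK⟩ hx
        obtain ⟨y, hy⟩ := hin hx
        exact ⟨y, Subtype.ext hy⟩)
      (fun x hx => hold x fun k => congrArg Subtype.val (hx k))
  have hpull : pullX (BWNew hpN O) ι' = pullBW ι := rfl
  rw [hpull] at hadj hnd hc1 hc2
  refine ⟨hadj, hnd, b, hli, hspan, hc1, hc2, ι ∘ b, ?_, ?_, ?_, fun i => hιK (b i)⟩
  · exact OmegaLoc.linearIndependent_comp ι hι hli
  · have h1 : (ι ∘ b) = (KNew hpN O).subtype ∘ (ι' ∘ b) := rfl
    rw [h1, Set.range_comp, ← Submodule.map_span, hspan', eigenNew, Submodule.map_comap_eq,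
      Submodule.range_subtype]
    exact inf_eq_right.2 hKle
  · have hg : gram (BW (N * p) O) (ι ∘ b) = gram (BWNew hpN O) (ι' ∘ b) := by
      ext i j
      rfl
    rw [hg]
    exact hdet

/-- `new_fields` with `hndK` discharged by helper21's `KNewNd.hnd_KNew`. -/
theorem new_fields' [Module.Free T' L] [Module.Finite O L] [Nontrivial L]
    (πO : T' →ₐ[O] O) (hη : etaIdeal πO ≠ ⊥)
    (ι : L →ₗ[O] O ⊗[ℤ] Lam (N * p)) (hι : Function.Injective ι)
    (hιK : ∀ y : L, ι y ∈ KNew hpN O)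
    (L₂ : Submodule O (O ⊗[ℤ] Lam (N * p))) (hL₂ : L₂ ≤ KNew hpN O)
    (htop : ∀ x ∈ KNew hpN O, x ∈ LinearMap.range ι ⊔ L₂)
    (horth : ∀ (x : L) (y : O ⊗[ℤ] Lam (N * p)), y ∈ L₂ → BW (N * p) O (ι x) y = 0)
    {κ : Type*} (g : κ → T') (hG : Algebra.adjoin O (Set.range g) = ⊤) (pl : κ → Nat.Primes)
    (hstab : ∀ k, ∀ x ∈ KNew hpN O, (latT (N * p) (pl k)).baseChange O x ∈ KNew hpN O)
    (hact : ∀ k x, ι (g k • x) = (latT (N * p) (pl k)).baseChange O (ι x))
    (lam : Nat.Primes → O) (hlam : ∀ k, πO (g k) = lam (pl k))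
    (hin : eigenTensorO (N * p) O lam ≤ LinearMap.range ι)
    (hold : ∀ x : L, (∀ k, (latT (N * p) (pl k)).baseChange O (ι x) = lam (pl k) • ι x) →
      ι x ∈ eigenTensorO (N * p) O lam) :
    (∀ (t : T') (x y : L), pullBW ι (t • x) y = pullBW ι x (t • y)) ∧
    (∀ w : L, (∀ z : L, pullBW ι z w = 0) → w = 0) ∧
    ∃ b : Fin 2 → L, LinearIndependent O b ∧ span O (Set.range b) = torPO πO L ∧
      Nat.card (CongMod (pullBW ι) (span O (Set.range b))) = omegaCardNew hpN O lam ∧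
      Nat.card (CongMod (pullBW ι) (span O (Set.range b))) = Ind.etaCard πO ^ 2 ∧
      EtaStageNew hpN O lam 2 :=
  new_fields hpN (fun _ hw h => Fermat.Agent.GE9.PNew.Inst.KNewNd.hnd_KNew hpN hw h)
    πO hη ι hι hιK L₂ hL₂ htop horth g hG pl hstab hact lam hlam hin hold

/-! ### the Lam-model `K_∅ = KNew ⊓ locPart 𝔪` in the `PolyAct` vocabulary -/

section LocPart

open IsLocalRing Fermat.Agent.GB.B3.Loc Fermat.Agent.GE9.Eta.Loc

variable [IsAdicComplete (maximalIdeal O) O] (Z : Set ℕ) (lam : Nat.Primes → O)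

/-- **the Lam-model of the `p`-new base**: the `𝔪`-primary part of the `p`-new part,
`K_∅ = KNew ⊓ locPart (mP O Z lam) (O ⊗ Lam (N p))`. -/
noncomputable def KLoc : Submodule O (O ⊗[ℤ] Lam (N * p)) :=
  KNew hpN O ⊓ (locPart (mP O Z lam) (O ⊗[ℤ] Lam (N * p))).restrictScalars O

theorem mem_KLoc {x : O ⊗[ℤ] Lam (N * p)} :
    x ∈ KLoc hpN Z lam ↔
      x ∈ KNew hpN O ∧ x ∈ locPart (mP O Z lam) (O ⊗[ℤ] Lam (N * p)) := Iff.rfl

/-- **the ETA fields of the `p`-new base record on the Lam-model `K_∅`**, for any commutative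
`O`-algebra `T'` acting on `K_∅` through generators `g k` which act as `T_{pl k}`, `pl k ∈ Z`. -/
theorem new_fields_KLoc (hr : BetaPEquiv hpN Z)
    [Module T' ↥(KLoc hpN Z lam)] [IsScalarTower O T' ↥(KLoc hpN Z lam)]
    [Module.Free T' ↥(KLoc hpN Z lam)] [Nontrivial ↥(KLoc hpN Z lam)]
    (πO : T' →ₐ[O] O) (hη : etaIdeal πO ≠ ⊥)
    {κ : Type*} (g : κ → T') (hG : Algebra.adjoin O (Set.range g) = ⊤) (pl : κ → Nat.Primes)
    (hplZ : ∀ k, ((pl k : Nat.Primes) : ℕ) ∈ Z)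
    (hact : ∀ k (x : ↥(KLoc hpN Z lam)),
      ((g k • x : ↥(KLoc hpN Z lam)) : O ⊗[ℤ] Lam (N * p))
        = (latT (N * p) (pl k)).baseChange O (x : O ⊗[ℤ] Lam (N * p)))
    (hlam : ∀ k, πO (g k) = lam (pl k))
    (hnew : eigenTensorO (N * p) O lam ≤ KNew hpN O)
    (hold : ∀ x ∈ KLoc hpN Z lam,
      (∀ k, (latT (N * p) (pl k)).baseChange O x = lam (pl k) • x) →
        x ∈ eigenTensorO (N * p) O lam) :
    (∀ (t : T') (x y : ↥(KLoc hpN Z lam)),
      pullBW (KLoc hpN Z lam).subtype (t • x) y = pullBW (KLoc hpN Z lam).subtype x (t • y)) ∧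
    (∀ w : ↥(KLoc hpN Z lam), (∀ z, pullBW (KLoc hpN Z lam).subtype z w = 0) → w = 0) ∧
    ∃ b : Fin 2 → ↥(KLoc hpN Z lam), LinearIndependent O b ∧
      span O (Set.range b) = torPO πO ↥(KLoc hpN Z lam) ∧
      Nat.card (CongMod (pullBW (KLoc hpN Z lam).subtype) (span O (Set.range b)))
        = omegaCardNew hpN O lam ∧
      Nat.card (CongMod (pullBW (KLoc hpN Z lam).subtype) (span O (Set.range b)))
        = Ind.etaCard πO ^ 2 ∧
      EtaStageNew hpN O lam 2 := by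
  have hfinX := finite_tensor_lam (O := O) (N * p)
  haveI : IsNoetherian O (O ⊗[ℤ] Lam (N * p)) := isNoetherian_of_isNoetherianRing_of_finite O _
  haveI : Module.Finite O ↥(KLoc hpN Z lam) := inferInstance
  obtain ⟨s₀, hs₀, hidem, hloc, haway⟩ :=
    parts_eq O (L := O ⊗[ℤ] Lam (N * p)) (mP O Z lam)
  refine new_fields' hpN πO hη (KLoc hpN Z lam).subtype Subtype.val_injective
    (fun y => y.2.1)
    (KNew hpN O ⊓ (awayPart (mP O Z lam) (O ⊗[ℤ] Lam (N * p))).restrictScalars O)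
    inf_le_left ?_ ?_ g hG pl ?_ hact lam hlam ?_ ?_
  · -- `htop`
    intro x hx
    have h1 : s₀ • x ∈ KLoc hpN Z lam := by
      refine ⟨smulP_mem_KNew hpN hr s₀ hx, ?_⟩
      show s₀ • x ∈ locPart (mP O Z lam) (O ⊗[ℤ] Lam (N * p))
      rw [hloc]
      exact ⟨x, rfl⟩
    have h2 : x - s₀ • x ∈ KNew hpN O ⊓
        (awayPart (mP O Z lam) (O ⊗[ℤ] Lam (N * p))).restrictScalars O := by
      refine ⟨Submodule.sub_mem _ hx (smulP_mem_KNew hpN hr s₀ hx), ?_⟩
      show x - s₀ • x ∈ awayPart (mP O Z lam) (O ⊗[ℤ] Lam (N * p))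
      rw [haway, LinearMap.mem_ker]
      show s₀ • (x - s₀ • x) = 0
      rw [smul_sub, hidem, sub_self]
    refine Submodule.mem_sup.2 ⟨s₀ • x, ⟨⟨s₀ • x, h1⟩, rfl⟩, x - s₀ • x, h2, by abel⟩
  · -- `horth`
    intro x y hy
    exact (apply_eq_zero_of_mem_locPart_of_mem_awayPart (mP O Z lam) (BW (N * p) O)
      (fun a u v => BW_smulP a u v) x.2.2 hy.2).1
  · -- `hstab`
    intro k x hx
    rw [← xP_smul (pl k) (hplZ k)]
    exact smulP_mem_KNew hpN hr _ hx
  · -- `hin`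
    intro x hx
    exact ⟨⟨x, hnew hx, eigenTensorO_le_locPart_mP (fun _ _ => rfl) hx⟩, rfl⟩
  · -- `hold`
    intro x hx
    exact hold x x.2 hx

end LocPart

end Fermat.Agent.GE9.PNew.Inst.BaseNewFields
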