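/-
GATE-E / RISK-4, instance layer R4-I, ETA-BASE-NEW (helper2): **a full eigenvector of a `p`-new
system is `p`-new** — the binder `hnew` of `BaseNewFields.new_fields_KLoc`.

* `anemic_eq_zero_core` / `eq_zero_of_nonOccAtLvl` : if the anemic system `lam₀` (off `B`) does not
  occur among the cusp forms of level `N` (`BaseLvl.NonOccAtLvl`), then `O ⊗[ℤ] Lam N` has no
  nonzero anemic eigenvector (a nonzero anemic eigenvector over `O` gives a nonzero anemic
  eigenclass over `ℂ`, whose anemic eigenspace contains a full eigenform: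
  `CohBase.exists_full_form`);
* **`eigenTensorO_le_KNew`** : `lam p ^ 2 = 1` ⟹ `eigenTensorO (N p) O lam ≤ KNew hpN O`
  (`cores_p x`, `cores_{p,δ} x` are anemic eigenvectors at the level `N` prime to `p`; the anemic
  system of a `p`-new full eigenvector does not occur there: helper63's `nonOccAt_of_sq_eq_one`).
-/
import Mathlib
import Fermat.Agent.GE9.OldQ.NonOccNew
import Fermat.Agent.GE9.OldQ.BaseLvl
import Fermat.Agent.GE9.PNew.Inst.KNew

set_option autoImplicit false
set_option linter.unusedSectionVars false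

open scoped MatrixGroups TensorProduct
open CongruenceSubgroup ModularCurve ModularCurve.Period CuspForm ModularFormClass

namespace Fermat.Agent.GE9.PNew.Inst.EigenNew

open Fermat.Agent.S16_helper49 Fermat.Agent.GJ.J2.Lat Fermat.Agent.GE9.Mult1
open Fermat.Agent.GE9.OldQ.Transfer Fermat.Agent.GM.End Fermat.Agent.GE9.OldQ.Consumer
open Fermat.Agent.GE9.OldQ.BaseLvl Fermat.Agent.GE9.PNew.Inst

section Core

variable {N : ℕ} [NeZero N] {ι : Type*} [Fintype ι] [DecidableEq ι]
variable {O : Type*} [CommRing O] [IsDomain O] [CharZero O]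
variable (K : Type*) [Field K] [Algebra O K] [IsFractionRing O K] [CharZero K]

include K in
/-- matrix form: no nonzero anemic eigenvector when the anemic system does not occur among the
forms of the level. -/
theorem anemic_eq_zero_core (B : Finset ℕ) (β : Module.Basis ι ℤ (Lam N)) (lam₀ : Nat.Primes → O)
    (hno : NonOccAtLvl O B lam₀ N) (c₁ : ι → O)
    (hc₁ : ∀ l : Nat.Primes, (l : ℕ) ∉ B →
      ((latMat β l).map (Int.cast : ℤ → O)).mulVec c₁ = lam₀ l • c₁) : c₁ = 0 := by
  classical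
  by_contra hc₁0
  have hint₀ : ∀ l : Nat.Primes, (l : ℕ) ∉ B → IsIntegral ℤ (lam₀ l) := fun l hl =>
    integral_of_eigen K (latMat β l) c₁ hc₁0 (lam₀ l) (hc₁ l hl)
  set lamF : {l : Nat.Primes // (l : ℕ) ∉ B} → FF K :=
    fun s => toF O K ⟨lam₀ s.1, hint₀ s.1 s.2⟩ with hlamF
  have hlamK : ∀ s, algebraMap (FF K) K (lamF s) = algebraMap O K (lam₀ s.1) := fun s => rfl
  obtain ⟨x, hx0, hxe⟩ := exists_ne_zero_eigen (F := FF K) (K := K)
    (fun s : {l : Nat.Primes // (l : ℕ) ∉ B} => latMat β s.1) lamF (cK K c₁) (cK_ne_zero K hc₁0)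
    (fun s => by
      rw [hlamK]
      exact cK_eigen K _ _ _ (hc₁ s.1 s.2))
  set μ₀ : Nat.Primes → ℂ := fun l =>
    if h : (l : ℕ) ∉ B then tau O K ⟨lam₀ l, hint₀ l h⟩ else 0 with hμ₀
  have hμ₀F : ∀ s : {l : Nat.Primes // (l : ℕ) ∉ B}, (sig K).toRingHom (lamF s) = μ₀ s.1 := by
    intro s
    rw [hμ₀]
    simp only [dif_pos s.2]
    rfl
  have hz0 : (fun i => (sig K).toRingHom (x i)) ≠ 0 := by
    intro h
    apply hx0
    funext i
    have := congrFun h i
    rw [Pi.zero_apply] at this ⊢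
    exact (sig K).toRingHom.injective (this.trans (map_zero _).symm)
  have hze := map_eigen (sig K).toRingHom _ lamF x hxe
  obtain ⟨μ, f₀, hμ, ha, hf₀e⟩ := exists_full_form B μ₀
    (toC β (fun i => (sig K).toRingHom (x i))) (toC_mem β _) (toC_ne_zero β hz0)
    (fun l hl => by
      rw [← hμ₀F ⟨l, hl⟩]
      exact toC_eigen β _ l _ (hze ⟨l, hl⟩))
  have hf₀ : f₀ = 0 := by
    refine hno hint₀ (tau O K) (tau_injective O K) f₀ (fun l hl => ?_)
    rw [hf₀e l, hμ l hl, hμ₀]
    simp only [dif_pos hl]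
  apply ha
  rw [hf₀]
  exact Fermat.Agent.GE9.OldQ.Deplete.qCoeff_zero' 1

end Core

section Tensor

variable {N : ℕ} [NeZero N] {O : Type*} [CommRing O] [IsDomain O] [CharZero O]

/-- **no nonzero anemic eigenvector in `O ⊗[ℤ] Lam N`** when the anemic system does not occur among
the cusp forms of level `N`. -/
theorem eq_zero_of_nonOccAtLvl (B : Finset ℕ) (lam₀ : Nat.Primes → O)
    (hno : NonOccAtLvl O B lam₀ N) (y : O ⊗[ℤ] Lam N)
    (hy : ∀ l : Nat.Primes, (l : ℕ) ∉ B → (latT N l).baseChange O y = lam₀ l • y) : y = 0 := by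
  classical
  obtain ⟨ι, _, β, β', j, hj, hT'⟩ := exists_tensor_coords N O
  apply (crd β').injective
  rw [map_zero]
  exact anemic_eq_zero_core (FractionRing O) B β lam₀ hno (crd β' y)
    (fun l hl => crd_eigen β β' j hj (fun l => (latT N l).baseChange O) hT' l y _ (hy l hl))

end Tensor

section New

variable {N p : ℕ} [hpF : Fact p.Prime] [NeZero N] [NeZero (N * p)] (hpN : ¬ p ∣ N)
  {O : Type} [CommRing O] [IsDomain O] [CharZero O]

/-- **a full eigenvector of a `p`-new system (`lam p ^ 2 = 1`) is `p`-new.** -/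
theorem eigenTensorO_le_KNew (lam : Nat.Primes → O)
    (hu : lam (⟨p, hpF.out⟩ : Nat.Primes) ^ 2 = 1) :
    eigenTensorO (N * p) O lam ≤ KNew hpN O := by
  intro x hx
  by_cases hx0 : x = 0
  · rw [hx0]
    exact Submodule.zero_mem _
  have hxe := mem_eigenTensorO.1 hx
  -- the bad set: the primes of `N p`
  set B : Finset ℕ := (N * p).primeFactors with hB
  have hBl : ∀ l : Nat.Primes, (l : ℕ) ∉ B → ¬ (l : ℕ) ∣ N * p := fun l hl h =>
    hl (Nat.mem_primeFactors.2 ⟨l.2, h, NeZero.ne (N * p)⟩)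
  have hno : NonOccAt O B (⟨p, hpF.out⟩ : Nat.Primes) lam :=
    nonOccAt_of_sq_eq_one hpF.out rfl hpN B lam x hx0 hxe hu lam (fun _ _ => rfl)
  have hlvl : NonOccAtLvl O B lam N := nonOccAtLvl_of_nonOccAt hno N hpN
  rw [mem_KNew]
  constructor
  · refine eq_zero_of_nonOccAtLvl B lam hlvl _ fun l hl => ?_
    rw [← bp1O_latT_of_not_dvd hpN l (hBl l hl), hxe l, map_smul]
  · refine eq_zero_of_nonOccAtLvl B lam hlvl _ fun l hl => ?_
    rw [← bp2O_latT_of_not_dvd hpN l (hBl l hl), hxe l, map_smul]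

end New

end Fermat.Agent.GE9.PNew.Inst.EigenNew
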