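/-
GATE-E / RISK-4, instance layer R4-I, ETA-BASE-NEW (helper2): **the ETA fields of the `p`-new base
record with `hnew` and `hold` discharged.**

`new_fields_KLoc_pnew` = `BaseNewFields.new_fields_KLoc` where
* `hnew : eigenTensorO (N p) O lam ≤ KNew` comes from `EigenNew.eigenTensorO_le_KNew` (`lam p² = 1`);
* `hold` comes from helper63's `Consumer.hold_stage_pnew` at `Sg = ∅`, `Lp = ⊤` (no cofactor
  hypothesis at `Sg = ∅`): reference `y₁ ≠ 0` (a full eigenvector of the `p`-new system), the types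
  `hbad` of the bad primes `≠ p`, and generators `g k` covering every prime off `S` (`hplS`).
-/
import Mathlib
import Fermat.Agent.GE9.PNew.Inst.BaseNewFields
import Fermat.Agent.GE9.PNew.Inst.EigenNew
import Fermat.Agent.GE9.OldQ.HoldNew

set_option autoImplicit false
set_option linter.unusedSectionVars false
set_option linter.style.haveILetI false

open scoped TensorProduct

namespace Fermat.Agent.GE9.PNew.Inst.BaseNewFinal

open IsLocalRing Fermat.Agent.GJ.J2.Lat Fermat.Agent.GE9.Fricke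
  Fermat.Agent.GE9.Eta Fermat.Agent.GE9.Eta.Mod
  Fermat.Agent.GE9.Mult1 Fermat.Agent.GE9.NumCrit Fermat.Agent.GE9.NumCrit.ModForm
  Fermat.Agent.GE9 Fermat.Agent.GE9.Eta.Base
  Fermat.Agent.GE9.PNew.Inst Fermat.Agent.GE9.PNew.Inst.BaseNewFields
  Fermat.Agent.GE9.PNew.Inst.EigenNew Fermat.Agent.GE9.OldQ.Consumer Submodule

variable {O : Type} [CommRing O] [IsDomain O] [CharZero O] [IsDiscreteValuationRing O]
  [IsAdicComplete (maximalIdeal O) O]
  {N p : ℕ} [hpF : Fact p.Prime] [NeZero N] [NeZero (N * p)] (hpN : ¬ p ∣ N)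
  {T' : Type} [CommRing T'] [Algebra O T'] [NoZeroSMulDivisors O T']
  (Z : Set ℕ) (lam : Nat.Primes → O)

include hpN in
/-- **`hold` at the `p`-new base** (`Sg = ∅`): an anemic (off `S`) eigenvector of
`O ⊗[ℤ] Lam (N p)` for the `p`-new system `lam` is a full eigenvector. -/
theorem hold_base_pnew (S : Finset ℕ)
    (y₁ : O ⊗[ℤ] Lam (N * p)) (hy₁ : y₁ ≠ 0)
    (hy₁e : ∀ l : Nat.Primes, (latT (N * p) l).baseChange O y₁ = lam l • y₁)
    (hu : lam (⟨p, hpF.out⟩ : Nat.Primes) ^ 2 = 1)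
    (hbad : ∀ b : Nat.Primes, (b : ℕ) ∈ S → (b : ℕ) ≠ p →
      ¬ (b : ℕ) ∣ N ∨ ((b : ℕ) ∣ N ∧ ¬ (b : ℕ) ^ 2 ∣ N ∧ NonOccAt O S b lam))
    (x : O ⊗[ℤ] Lam (N * p))
    (hx : ∀ l : Nat.Primes, (l : ℕ) ∉ S → (latT (N * p) l).baseChange O x = lam l • x) :
    x ∈ eigenTensorO (N * p) O lam := by
  rw [mem_eigenTensorO]
  intro l
  have h := hold_stage_pnew (M := N) (p := p) (N := N * p) hpF.out hpN S ∅
    (by rw [Finset.prod_empty, mul_one])
    (fun q hq => absurd hq (Finset.notMem_empty q)) (Finset.empty_subset S)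
    lam y₁ hy₁ hy₁e hu (fun b hbS _ hbp => hbad b hbS hbp) ⊤
    (fun _ _ _ => Submodule.mem_top)
    (fun q hq => absurd hq (Finset.notMem_empty _)) x Submodule.mem_top hx l
  rw [h, stageLam, if_neg (Finset.notMem_empty _)]

/-- **the ETA fields of the `p`-new base record on the Lam-model `K_∅ = KLoc`, final form.** -/
theorem new_fields_KLoc_pnew (hr : BetaPEquiv hpN Z)
    [Module T' ↥(KLoc hpN Z lam)] [IsScalarTower O T' ↥(KLoc hpN Z lam)]
    [Module.Free T' ↥(KLoc hpN Z lam)] [Nontrivial ↥(KLoc hpN Z lam)]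
    (πO : T' →ₐ[O] O) (hη : etaIdeal πO ≠ ⊥)
    {κ : Type*} (g : κ → T') (hG : Algebra.adjoin O (Set.range g) = ⊤) (pl : κ → Nat.Primes)
    (hplZ : ∀ k, ((pl k : Nat.Primes) : ℕ) ∈ Z)
    (hact : ∀ k (x : ↥(KLoc hpN Z lam)),
      ((g k • x : ↥(KLoc hpN Z lam)) : O ⊗[ℤ] Lam (N * p))
        = (latT (N * p) (pl k)).baseChange O (x : O ⊗[ℤ] Lam (N * p)))
    (hlam : ∀ k, πO (g k) = lam (pl k))
    (S : Finset ℕ) (hplS : ∀ l : Nat.Primes, (l : ℕ) ∉ S → ∃ k, pl k = l)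
    (y₁ : O ⊗[ℤ] Lam (N * p)) (hy₁ : y₁ ≠ 0)
    (hy₁e : ∀ l : Nat.Primes, (latT (N * p) l).baseChange O y₁ = lam l • y₁)
    (hu : lam (⟨p, hpF.out⟩ : Nat.Primes) ^ 2 = 1)
    (hbad : ∀ b : Nat.Primes, (b : ℕ) ∈ S → (b : ℕ) ≠ p →
      ¬ (b : ℕ) ∣ N ∨ ((b : ℕ) ∣ N ∧ ¬ (b : ℕ) ^ 2 ∣ N ∧ NonOccAt O S b lam)) :
    (∀ (t : T') (x y : ↥(KLoc hpN Z lam)),
      pullBW (KLoc hpN Z lam).subtype (t • x) y = pullBW (KLoc hpN Z lam).subtype x (t • y)) ∧
    (∀ w : ↥(KLoc hpN Z lam), (∀ z, pullBW (KLoc hpN Z lam).subtype z w = 0) → w = 0) ∧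
    ∃ b : Fin 2 → ↥(KLoc hpN Z lam), LinearIndependent O b ∧
      span O (Set.range b) = torPO πO ↥(KLoc hpN Z lam) ∧
      Nat.card (CongMod (pullBW (KLoc hpN Z lam).subtype) (span O (Set.range b)))
        = omegaCardNew hpN O lam ∧
      Nat.card (CongMod (pullBW (KLoc hpN Z lam).subtype) (span O (Set.range b)))
        = Ind.etaCard πO ^ 2 ∧
      EtaStageNew hpN O lam 2 :=
  new_fields_KLoc hpN Z lam hr πO hη g hG pl hplZ hact hlam
    (eigenTensorO_le_KNew hpN lam hu)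
    (fun x _ hx => hold_base_pnew hpN lam S y₁ hy₁ hy₁e hu hbad x fun l hl => by
      obtain ⟨k, rfl⟩ := hplS l hl
      exact hx k)

end Fermat.Agent.GE9.PNew.Inst.BaseNewFinal
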