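/-
GATE-E / RISK-4, instance layer R4-I, slice (e5), K-INSTANCE (helper3; abstract half = helper47's
`GE9/Stage/CarrierNd.exists_carrier_nd`; plan helper37 7832):
**the stage carrier on a Hecke-stable submodule `K ≤ 𝒪 ⊗ Λ_M`** (in the application `K = KNew`, the
`p`-new part, on which the Fricke-twisted cup form `BW` is non-degenerate but NOT perfect).

`K` is an `𝒪`-submodule of `𝒪 ⊗[ℤ] Lam M` stable under the `T_l ⊗ 𝒪`, `l ∈ Z` (`Z ⊇` the primes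
outside the Hecke set `S`).  The commutative `𝒪`-algebra

  `AfK := (𝒪 ⊗[ℤ] heckeAlgebra M 2 S) ⊗[𝒪] PAlg 𝒪 Z`

acts on `𝒪 ⊗ Lam M` through `psiK : AfK →ₐ[𝒪] AfLam M 𝒪` (`iotaLam` on the first factor, `x_l ↦ T_l`
on the second), hence on `↥K` (restricted action); it receives the anemic algebra
(`iotaK : heckeAlgebra M 2 S →+* AfK`) AND the polynomial algebra cutting out the local parts of the
instance layer, so that the `𝔪`-primary part of `↥K` sits inside `K ⊓ locPart (mP 𝒪 Z lam) (𝒪 ⊗ Λ_M)`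
— the module `K_Sg` of helper37's model.

* `stableModule`, `stable_isScalarTower`  : the restricted action on a stable `𝒪`-submodule;
* `phiP : PAlg 𝒪 Z →ₐ[𝒪] AfLam M 𝒪`, `phiP_smul`, `chiLam_phiP`;
* `mem_of_latAct`, `mem_of_iotaO`, `mem_of_smulP`, `mem_of_psiK` : stability of `K`;
* **`exists_carrier_K`** : `exists_carrier_nd` at `M := ↥K` — the carrier `(T', π', hgen, πO')` over
  `heckeAlgebra M 2 S`, `πO' (π' T_ℓ) = lam ℓ`, `η ≠ 0`,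
  **(M1)** `#CongMod (BW|K) (span b) ≤ etaCard πO' ^ d`, and the kill clause
  `t₀ kills K ⟹ twO π' t₀ = 0`;
* **`exists_carrier_KNew`** : the corollary at `K := KNew hpN 𝒪` in helper37's vocabulary
  (`EtaStageNew`, `omegaCardNew`, `BWNew`, `BetaPEquiv`).
-/
import Mathlib
import Fermat.Agent.GE9.Stage.CarrierNd
import Fermat.Agent.GE9.Stage.CarrierLam
import Fermat.Agent.GE9.PNew.Inst.KNew

set_option autoImplicit false
set_option linter.unusedSectionVars false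
set_option linter.unusedVariables false
set_option linter.style.haveILetI false

noncomputable section

namespace Fermat.Agent.GE9.PNew.Inst.CarrierK

open TensorProduct IsLocalRing Submodule CuspForm
open Fermat.Agent.GJ.J2.Lat Fermat.Agent.GJ.J2.LatAct Fermat.Agent.GB.B3.Loc
  Fermat.Agent.GB.B4.Datum.ImageRing Fermat.Agent.GE9.Eta Fermat.Agent.GE9.Eta.Loc
  Fermat.Agent.GE9.Eta.Mod Fermat.Agent.GE9.Mult1 Fermat.Agent.GE9.NumCrit Fermat.Agent.GE9.Ind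
  Fermat.Agent.GE9.Stage.CarrierAbs Fermat.Agent.GE9.Stage.CarrierNd
  Fermat.Agent.GE9.Stage.CarrierLam Fermat.Agent.GE9.PNew.Inst

/-! ### the restricted action on a stable submodule -/

section Stable

variable {𝒪 : Type} [CommRing 𝒪] {Af : Type} [CommRing Af] [Algebra 𝒪 Af]
  {X : Type} [AddCommGroup X] [Module 𝒪 X] [Module Af X] [IsScalarTower 𝒪 Af X]
  (K : Submodule 𝒪 X) (hK : ∀ (a : Af), ∀ x ∈ K, a • x ∈ K)

/-- the restricted scalar multiplication on a stable `𝒪`-submodule -/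
@[reducible] def stableSMul : SMul Af ↥K := ⟨fun a x => ⟨a • (x : X), hK a x x.2⟩⟩

/-- **the restricted action on a stable `𝒪`-submodule** -/
@[reducible] def stableModule : Module Af ↥K :=
  letI := stableSMul K hK
  Function.Injective.module Af K.subtype.toAddMonoidHom Subtype.val_injective (fun _ _ => rfl)

theorem stable_isScalarTower :
    @IsScalarTower 𝒪 Af ↥K _ (stableModule K hK).toSMul _ :=
  letI := stableModule K hK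
  ⟨fun c a x => Subtype.ext (smul_assoc c a (x : X))⟩

end Stable

/-! ### the polynomial algebra inside the full algebra of the lattice -/

section Phi

variable {𝒪 : Type} [CommRing 𝒪] {Z : Set ℕ} {M : ℕ} [NeZero M]

/-- `x_l ↦ T_l` : the polynomial Hecke algebra maps to the full algebra of the lattice -/
def phiP : PAlg 𝒪 Z →ₐ[𝒪] AfLam M 𝒪 :=
  (MvPolynomial.aeval fun l : PIdx Z => gen M 𝒪 l.1).comp (toPoly 𝒪 Z : PAlg 𝒪 Z →ₐ[𝒪] _)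

@[simp] theorem phiP_xP (l : Nat.Primes) (hl : (l : ℕ) ∈ Z) :
    (phiP (𝒪 := 𝒪) (Z := Z) (M := M)) (xP 𝒪 Z l hl) = gen M 𝒪 l := by
  show MvPolynomial.aeval (fun l : PIdx Z => gen M 𝒪 l.1)
    (toPoly 𝒪 Z ((toPoly 𝒪 Z).symm (MvPolynomial.X (⟨l, hl⟩ : PIdx Z)))) = _
  rw [AlgEquiv.apply_symm_apply, MvPolynomial.aeval_X]

/-- the two actions on `𝒪 ⊗ Lam M` agree -/
theorem phiP_smul (a : PAlg 𝒪 Z) (x : 𝒪 ⊗[ℤ] Lam M) :
    (phiP (𝒪 := 𝒪) (Z := Z) (M := M)) a • x = a • x := by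
  revert x
  refine pAlg_induction 𝒪 Z a
    (motive := fun a => ∀ x : 𝒪 ⊗[ℤ] Lam M, (phiP (𝒪 := 𝒪) (Z := Z) (M := M)) a • x = a • x)
    ?_ ?_ ?_
  · intro c x
    rw [AlgHom.commutes, algebraMap_smul, algebraMap_smulP]
  · intro a b ha hb x
    rw [map_add, add_smul, add_smul, ha, hb]
  · intro a l hl ha x
    rw [map_mul, mul_smul, mul_smul, ha, phiP_xP, gen_smul, xP_smul]

end Phi

/-! ### induction on the Hecke algebra of forms -/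

section HeckeInd

variable {M : ℕ} [NeZero M] {S : Set ℕ}

/-- induction on the Hecke algebra of forms away from `S` (generators `T_ℓ`, `U_q`) -/
theorem hecke_ind {motive : ↥(heckeAlgebra M 2 S) → Prop}
    (hT : ∀ (ℓ : ℕ) (hℓ : ℓ.Prime) (hℓM : ¬ ℓ ∣ M) (hℓS : ℓ ∉ S),
      motive (heckeAlgebra.T hℓ hℓM hℓS))
    (hU : ∀ (q : ℕ) (hq : q.Prime) (hqM : q ∣ M) (hqS : q ∉ S),
      motive (heckeAlgebra.U hq hqM hqS))
    (hint : ∀ n : ℤ, motive (algebraMap ℤ ↥(heckeAlgebra M 2 S) n))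
    (hadd : ∀ a b, motive a → motive b → motive (a + b))
    (hmul : ∀ a b, motive a → motive b → motive (a * b))
    (t : ↥(heckeAlgebra M 2 S)) : motive t := by
  obtain ⟨t, ht⟩ := t
  refine Algebra.adjoin_induction
    (p := fun t ht => motive (⟨t, ht⟩ : ↥(heckeAlgebra M 2 S))) ?_ ?_ ?_ ?_ ht
  · rintro _ (⟨ℓ, hℓ, hℓM, hℓS, rfl⟩ | ⟨q, hqM, hq, hqS, rfl⟩)
    · exact hT ℓ hℓ hℓM hℓS
    · exact hU q hq hqM hqS
  · intro n
    exact hint n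
  · intro a b ha hb ha' hb'
    exact hadd _ _ ha' hb'
  · intro a b ha hb ha' hb'
    exact hmul _ _ ha' hb'

end HeckeInd

/-! ### stability of `K` -/

section Stab

variable {𝒪 : Type} [CommRing 𝒪] {M : ℕ} [NeZero M] {S Z : Set ℕ}
  (hZS : ∀ l : ℕ, l.Prime → l ∉ S → l ∈ Z)
  (K : Submodule 𝒪 (𝒪 ⊗[ℤ] Lam M))
  (hK : ∀ l : Nat.Primes, (l : ℕ) ∈ Z → ∀ x ∈ K, (latT M l).baseChange 𝒪 x ∈ K)

include hK in
/-- `K` is stable under the polynomial Hecke algebra -/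
theorem mem_of_smulP (a : PAlg 𝒪 Z) {x : 𝒪 ⊗[ℤ] Lam M} (hx : x ∈ K) : a • x ∈ K := by
  revert x
  refine pAlg_induction 𝒪 Z a (motive := fun a => ∀ {x : 𝒪 ⊗[ℤ] Lam M}, x ∈ K → a • x ∈ K)
    ?_ ?_ ?_
  · intro c x hx
    rw [algebraMap_smulP]
    exact K.smul_mem c hx
  · intro a b ha hb x hx
    rw [add_smul]
    exact K.add_mem (ha hx) (hb hx)
  · intro a l hl ha x hx
    rw [mul_smul, xP_smul]
    exact ha (hK l hl x hx)

include hZS hK in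
/-- `K` is stable under the Hecke algebra of forms away from `S` -/
theorem mem_of_latAct (t : ↥(heckeAlgebra M 2 S)) {x : 𝒪 ⊗[ℤ] Lam M} (hx : x ∈ K) :
    (latAct M S t).baseChange 𝒪 x ∈ K := by
  revert x
  refine hecke_ind (motive := fun t => ∀ {x : 𝒪 ⊗[ℤ] Lam M}, x ∈ K →
      (latAct M S t).baseChange 𝒪 x ∈ K) ?_ ?_ ?_ ?_ ?_ t
  · intro ℓ hℓ hℓN hℓS x hx
    rw [latAct_T]
    exact hK ⟨ℓ, hℓ⟩ (hZS ℓ hℓ hℓS) x hx
  · intro q hq hqN hqS x hx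
    rw [latAct_U]
    exact hK ⟨q, hq⟩ (hZS q hq hqS) x hx
  · intro n x hx
    have h1 : latAct M S (algebraMap ℤ ↥(heckeAlgebra M 2 S) n)
        = algebraMap ℤ (Module.End ℤ (Lam M)) n := (latActAlg M S).commutes n
    rw [h1, baseChange_algebraMap_int]
    exact K.smul_mem _ hx
  · intro a b ha hb x hx
    rw [map_add, LinearMap.baseChange_add, LinearMap.add_apply]
    exact K.add_mem (ha hx) (hb hx)
  · intro a b ha hb x hx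
    rw [map_mul, Module.End.mul_eq_comp, LinearMap.baseChange_comp, LinearMap.comp_apply]
    exact ha (hb hx)

include hZS hK in
/-- `K` is stable under `𝒪 ⊗ heckeAlgebra`, acting through the full algebra of the lattice -/
theorem mem_of_iotaO [IsLocalRing 𝒪] (u : 𝒪 ⊗[ℤ] ↥(heckeAlgebra M 2 S)) {x : 𝒪 ⊗[ℤ] Lam M} (hx : x ∈ K) :
    iotaO (iotaLam M 𝒪 S) u • x ∈ K := by
  induction u using TensorProduct.induction_on with
  | zero =>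
    rw [map_zero, zero_smul]
    exact K.zero_mem
  | tmul c t =>
    rw [iotaO_tmul, smul_assoc, iotaLam_smul]
    exact K.smul_mem c (mem_of_latAct hZS K hK t hx)
  | add a b ha hb =>
    rw [map_add, add_smul]
    exact K.add_mem ha hb

end Stab

/-! ### the algebra `AfS` -/

section Alg

variable (𝒪 : Type) [CommRing 𝒪] [IsLocalRing 𝒪] (M : ℕ) [NeZero M] (S Z : Set ℕ)

/-- the algebra acting on `K`: the subalgebra of the full algebra of the lattice generated by the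
anemic algebra of forms (`iotaLam`) AND the `T_l`, `l ∈ Z` (the polynomial algebra of the instance
layer) -/
def AfS : Subalgebra 𝒪 (AfLam M 𝒪) :=
  Algebra.adjoin 𝒪 (Set.range (iotaO (𝒪 := 𝒪) (iotaLam M 𝒪 S)) ∪
    Set.range (phiP (𝒪 := 𝒪) (Z := Z) (M := M)))

variable {𝒪 M S Z}

theorem iotaO_mem_AfS (u : 𝒪 ⊗[ℤ] ↥(heckeAlgebra M 2 S)) :
    iotaO (iotaLam M 𝒪 S) u ∈ AfS 𝒪 M S Z :=
  Algebra.subset_adjoin (Or.inl ⟨u, rfl⟩)

theorem phiP_mem_AfS (s : PAlg 𝒪 Z) : (phiP (𝒪 := 𝒪) (Z := Z) (M := M)) s ∈ AfS 𝒪 M S Z :=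
  Algebra.subset_adjoin (Or.inr ⟨s, rfl⟩)

theorem iotaLam_mem_AfS (t : ↥(heckeAlgebra M 2 S)) : iotaLam M 𝒪 S t ∈ AfS 𝒪 M S Z := by
  have h := iotaO_mem_AfS (Z := Z) ((1 : 𝒪) ⊗ₜ[ℤ] t)
  rwa [iotaO_tmul, one_smul] at h

variable (𝒪 M S Z)

/-- the anemic algebra of forms inside `AfS` -/
def iotaS : ↥(heckeAlgebra M 2 S) →+* ↥(AfS 𝒪 M S Z) :=
  (iotaLam M 𝒪 S).codRestrict (AfS 𝒪 M S Z) fun t => iotaLam_mem_AfS t

variable {𝒪 M S Z}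

@[simp] theorem coe_iotaS (t : ↥(heckeAlgebra M 2 S)) :
    ((iotaS 𝒪 M S Z t : ↥(AfS 𝒪 M S Z)) : AfLam M 𝒪) = iotaLam M 𝒪 S t := rfl

theorem coe_iotaO_iotaS (u : 𝒪 ⊗[ℤ] ↥(heckeAlgebra M 2 S)) :
    ((iotaO (iotaS 𝒪 M S Z) u : ↥(AfS 𝒪 M S Z)) : AfLam M 𝒪) = iotaO (iotaLam M 𝒪 S) u := by
  induction u using TensorProduct.induction_on with
  | zero => rw [map_zero, map_zero]; rfl
  | tmul c t => rw [iotaO_tmul, iotaO_tmul]; rfl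
  | add a b ha hb => rw [map_add, map_add, ← ha, ← hb]; rfl

variable {hZS : ∀ l : ℕ, l.Prime → l ∉ S → l ∈ Z} {K : Submodule 𝒪 (𝒪 ⊗[ℤ] Lam M)}
  {hK : ∀ l : Nat.Primes, (l : ℕ) ∈ Z → ∀ x ∈ K, (latT M l).baseChange 𝒪 x ∈ K}

include hZS hK in
/-- `K` is stable under `AfS` -/
theorem mem_of_AfS {a : AfLam M 𝒪} (ha : a ∈ AfS 𝒪 M S Z) {x : 𝒪 ⊗[ℤ] Lam M} (hx : x ∈ K) :
    a • x ∈ K := by
  revert x
  refine Algebra.adjoin_induction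
    (p := fun a _ => ∀ {x : 𝒪 ⊗[ℤ] Lam M}, x ∈ K → a • x ∈ K) ?_ ?_ ?_ ?_ ha
  · rintro _ (⟨u, rfl⟩ | ⟨s, rfl⟩) x hx
    · exact mem_of_iotaO hZS K hK u hx
    · rw [phiP_smul]
      exact mem_of_smulP K hK s hx
  · intro c x hx
    rw [algebraMap_smul]
    exact K.smul_mem c hx
  · intro a b _ _ ha hb x hx
    rw [add_smul]
    exact K.add_mem (ha hx) (hb hx)
  · intro a b _ _ ha hb x hx
    rw [mul_smul]
    exact ha (hb hx)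

end Alg

/-! ### the carrier on `K` -/

section Carrier

variable {𝒪 : Type} [CommRing 𝒪] [IsDomain 𝒪] [IsDiscreteValuationRing 𝒪]
  [IsAdicComplete (maximalIdeal 𝒪) 𝒪] [Finite (ResidueField 𝒪)] [CharZero 𝒪]
  {M : ℕ} [NeZero M]

/-- the eigenvalue of the polynomial algebra on the joint eigen-sublattice -/
theorem chiLam_phiP {Z : Set ℕ} {lam : Nat.Primes → 𝒪} {x : 𝒪 ⊗[ℤ] Lam M}
    (hx : x ∈ eigenTensorO M 𝒪 lam) (hx0 : x ≠ 0) (s : PAlg 𝒪 Z) :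
    chiLam M 𝒪 lam ((phiP (𝒪 := 𝒪) (Z := Z) (M := M)) s) = evP 𝒪 Z lam s := by
  refine chiLam_eq_of_smul hx hx0 _ ?_
  rw [phiP_smul]
  exact smulP_eq_evP_smul (fun l _ => mem_eigenTensorO.mp hx l) s

/-- **The stage carrier on a Hecke-stable submodule `K ≤ 𝒪 ⊗ Λ_M`** (slice (e5), K-instance):
`CarrierNd.exists_carrier_nd` at `M := ↥K` with the restricted action of `AfS`.  `K` is stable under
the `T_l ⊗ 𝒪`, `l ∈ Z` (`Z ⊇` the primes outside `S`), the restricted Fricke-twisted cup form is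
right non-degenerate (`hnd`, e.g. `KerNd.hnd_compl`), `b : Fin d → ↥K` is an independent family of
FULL eigenvectors, and (OldQ on `K`, `hold`) an ANEMIC eigenvector in `K ⊓ locPart (mP 𝒪 Z lam)`
lies in `span b`.  Output: the carrier over `heckeAlgebra M 2 S`, `η ≠ 0`, **(M1)** for the
restricted form, and the kill clause (`t₀` kills `K` ⟹ `t₀ = 0` in the carrier). -/
theorem exists_carrier_K (S : Set ℕ) (hMS : ∀ r : ℕ, r.Prime → r ∣ M → r ∈ S)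
    (Z : Set ℕ) (hZS : ∀ l : ℕ, l.Prime → l ∉ S → l ∈ Z)
    (K : Submodule 𝒪 (𝒪 ⊗[ℤ] Lam M))
    (hK : ∀ l : Nat.Primes, (l : ℕ) ∈ Z → ∀ x ∈ K, (latT M l).baseChange 𝒪 x ∈ K)
    (hnd : ∀ w : ↥K, (∀ z : ↥K, (BW M 𝒪).compl₁₂ K.subtype K.subtype z w = 0) → w = 0)
    (lam : Nat.Primes → 𝒪) {d : ℕ} (hd : d ≠ 0) (b : Fin d → ↥K)
    (hli : LinearIndependent 𝒪 b)
    (hbE : ∀ i, ((b i : ↥K) : 𝒪 ⊗[ℤ] Lam M) ∈ eigenTensorO M 𝒪 lam)
    (hold : ∀ x ∈ K, x ∈ locPart (mP 𝒪 Z lam) (𝒪 ⊗[ℤ] Lam M) →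
      (∀ (ℓ : ℕ) (hℓ : ℓ.Prime), ¬ ℓ ∣ M → ℓ ∉ S →
        (latT M (⟨ℓ, hℓ⟩ : Nat.Primes)).baseChange 𝒪 x = lam ⟨ℓ, hℓ⟩ • x) →
      x ∈ span 𝒪 (Set.range fun i => ((b i : ↥K) : 𝒪 ⊗[ℤ] Lam M))) :
    ∃ (T' : Type) (_ : CommRing T') (_ : IsLocalRing T') (_ : Algebra 𝒪 T')
      (_ : Module.Finite 𝒪 T') (_ : Module.Free 𝒪 T')
      (π' : ↥(heckeAlgebra M 2 S) →+* T') (πO' : T' →ₐ[𝒪] 𝒪),
      Algebra.adjoin 𝒪 (Set.range π') = ⊤ ∧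
      (∀ (ℓ : ℕ) (hℓ : ℓ.Prime) (hℓN : ¬ ℓ ∣ M) (hℓS : ℓ ∉ S),
        πO' (π' (heckeAlgebra.T hℓ hℓN hℓS)) = lam ⟨ℓ, hℓ⟩) ∧
      etaIdeal πO' ≠ ⊥ ∧
      Nat.card (CongMod ((BW M 𝒪).compl₁₂ K.subtype K.subtype) (span 𝒪 (Set.range b)))
        ≤ etaCard πO' ^ d ∧
      ∀ t₀ : 𝒪 ⊗[ℤ] ↥(heckeAlgebra M 2 S),
        (∀ x ∈ K, iotaO (iotaLam M 𝒪 S) t₀ • x = 0) →
        (Algebra.TensorProduct.lift (Algebra.ofId 𝒪 T') π'.toIntAlgHom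
          (fun _ _ => Commute.all _ _) : 𝒪 ⊗[ℤ] ↥(heckeAlgebra M 2 S) →ₐ[𝒪] T') t₀ = 0 := by
  classical
  have hfin := finite_tensor_lam (O := 𝒪) M
  have hfree := free_tensor_lam (O := 𝒪) M
  have htf := torsionFree_tensor_lam (O := 𝒪) M
  haveI : IsReduced ↥(heckeAlgebra M 2 S) :=
    Fermat.Agent.GS.Pet.isReduced_heckeAlgebra M 2 S hMS
  set i0 : Fin d := ⟨0, Nat.pos_of_ne_zero hd⟩ with hi0
  have hx0K : b i0 ≠ 0 := hli.ne_zero i0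
  have hx0 : ((b i0 : ↥K) : 𝒪 ⊗[ℤ] Lam M) ≠ 0 := fun h => hx0K (Subtype.ext h)
  have hxE := hbE i0
  -- the restricted action of `AfS` on `K`
  have hKst : ∀ (a : ↥(AfS 𝒪 M S Z)), ∀ x ∈ K, a • x ∈ K := fun a x hx =>
    mem_of_AfS (hZS := hZS) (hK := hK) a.2 hx
  letI modK : Module ↥(AfS 𝒪 M S Z) ↥K := stableModule K hKst
  haveI towerK : IsScalarTower 𝒪 ↥(AfS 𝒪 M S Z) ↥K := stable_isScalarTower K hKst
  have hcoe : ∀ (a : ↥(AfS 𝒪 M S Z)) (x : ↥K),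
      ((a • x : ↥K) : 𝒪 ⊗[ℤ] Lam M) = (a : AfLam M 𝒪) • (x : 𝒪 ⊗[ℤ] Lam M) := fun _ _ => rfl
  haveI : Module.Finite 𝒪 ↥K := inferInstance
  haveI : Module.Free 𝒪 ↥K := inferInstance
  -- the character and the maximal ideal
  let χ : ↥(AfS 𝒪 M S Z) → 𝒪 := fun a => chiLam M 𝒪 lam (a : AfLam M 𝒪)
  let χh : ↥(AfS 𝒪 M S Z) →ₐ[𝒪] 𝒪 := (chiHom hxE hx0).comp (AfS 𝒪 M S Z).val
  have hχhχ : ∀ a, χh a = χ a := fun _ => rfl
  let 𝔪 : Ideal ↥(AfS 𝒪 M S Z) :=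
    RingHom.ker ((residue 𝒪).comp (χh : ↥(AfS 𝒪 M S Z) →+* 𝒪))
  have h𝔪def : 𝔪 = RingHom.ker ((residue 𝒪).comp (χh : ↥(AfS 𝒪 M S Z) →+* 𝒪)) := rfl
  haveI hmax : 𝔪.IsMaximal := by
    refine RingHom.ker_isMaximal_of_surjective _ fun y => ?_
    obtain ⟨c, rfl⟩ := residue_surjective y
    exact ⟨algebraMap 𝒪 ↥(AfS 𝒪 M S Z) c, by
      rw [RingHom.comp_apply, RingHom.coe_coe, AlgHom.commutes]
      rfl⟩
  have h𝔪 : ∀ a : ↥(AfS 𝒪 M S Z), a ∉ 𝔪 → IsUnit (χ a) := by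
    intro a ha
    rw [h𝔪def, RingHom.mem_ker, RingHom.comp_apply, RingHom.coe_coe, hχhχ,
      residue_eq_zero_iff, mem_maximalIdeal, mem_nonunits_iff, not_not] at ha
    exact ha
  have hb : ∀ (a : ↥(AfS 𝒪 M S Z)) (i : Fin d), a • b i = χ a • b i := by
    intro a i
    apply Subtype.ext
    rw [hcoe]
    exact chiLam_spec M 𝒪 lam (a : AfLam M 𝒪) (hbE i)
  -- the form
  have hsa : ∀ (a : ↥(AfS 𝒪 M S Z)) (x y : ↥K),
      (BW M 𝒪).compl₁₂ K.subtype K.subtype (a • x) y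
        = (BW M 𝒪).compl₁₂ K.subtype K.subtype x (a • y) := by
    intro a x y
    exact BW_smul M 𝒪 (a : AfLam M 𝒪) (x : 𝒪 ⊗[ℤ] Lam M) (y : 𝒪 ⊗[ℤ] Lam M)
  -- the values of the character on the anemic algebra
  have hχT : ∀ (ℓ : ℕ) (hℓ : ℓ.Prime) (hℓN : ¬ ℓ ∣ M) (hℓS : ℓ ∉ S),
      χ (iotaS 𝒪 M S Z (heckeAlgebra.T hℓ hℓN hℓS)) = lam ⟨ℓ, hℓ⟩ := by
    intro ℓ hℓ hℓN hℓS
    show chiLam M 𝒪 lam (iotaLam M 𝒪 S (heckeAlgebra.T hℓ hℓN hℓS)) = _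
    refine chiLam_eq_of_smul hxE hx0 _ ?_
    rw [iotaLam_T_smul]
    exact mem_eigenTensorO.mp hxE _
  -- OldQ in the spelling of `exists_carrier_nd`
  have hold' : ∀ x ∈ locPart 𝔪 ↥K,
      (∀ t : ↥(heckeAlgebra M 2 S), iotaS 𝒪 M S Z t • x = χ (iotaS 𝒪 M S Z t) • x) →
      x ∈ span 𝒪 (Set.range b) := by
    intro x hx hxe
    have h1 : (x : 𝒪 ⊗[ℤ] Lam M) ∈ locPart (mP 𝒪 Z lam) (𝒪 ⊗[ℤ] Lam M) := by
      rw [mem_locPart] at hx ⊢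
      intro s hs
      have hs' : (⟨phiP s, phiP_mem_AfS s⟩ : ↥(AfS 𝒪 M S Z)) ∉ 𝔪 := by
        rw [h𝔪def, RingHom.mem_ker, RingHom.comp_apply, RingHom.coe_coe, hχhχ,
          residue_eq_zero_iff, mem_maximalIdeal, mem_nonunits_iff, not_not]
        show IsUnit (chiLam M 𝒪 lam (phiP s))
        rw [chiLam_phiP hxE hx0]
        exact (notMem_mP_iff s).mp hs
      obtain ⟨y, hy⟩ := hx _ hs'
      refine ⟨(y : 𝒪 ⊗[ℤ] Lam M), ?_⟩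
      have h2 := congrArg (fun z : ↥K => (z : 𝒪 ⊗[ℤ] Lam M)) hy
      simp only [hcoe] at h2
      rw [← h2, phiP_smul]
    have h2 : ∀ (ℓ : ℕ) (hℓ : ℓ.Prime), ¬ ℓ ∣ M → ℓ ∉ S →
        (latT M (⟨ℓ, hℓ⟩ : Nat.Primes)).baseChange 𝒪 (x : 𝒪 ⊗[ℤ] Lam M)
          = lam ⟨ℓ, hℓ⟩ • (x : 𝒪 ⊗[ℤ] Lam M) := by
      intro ℓ hℓ hℓN hℓS
      have h3 := congrArg (fun z : ↥K => (z : 𝒪 ⊗[ℤ] Lam M))
        (hxe (heckeAlgebra.T hℓ hℓN hℓS))
      simp only [hcoe, coe_iotaS, hχT] at h3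
      rw [iotaLam_T_smul] at h3
      exact h3
    have h3 := hold (x : 𝒪 ⊗[ℤ] Lam M) x.2 h1 h2
    have h4 : span 𝒪 (Set.range fun i => ((b i : ↥K) : 𝒪 ⊗[ℤ] Lam M))
        = (span 𝒪 (Set.range b)).map K.subtype := by
      rw [Submodule.map_span, ← Set.range_comp]
      rfl
    rw [h4] at h3
    obtain ⟨y, hy, hyx⟩ := h3
    have : y = x := Subtype.ext hyx
    rwa [← this]
  obtain ⟨T', i1, i2, i3, i4, i5, π', πO', hgen, hpt, hη, hM1, hkill⟩ :=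
    exists_carrier_nd 𝔪 (iotaS 𝒪 M S Z) ((BW M 𝒪).compl₁₂ K.subtype K.subtype) hnd hsa hd b hli
      χ hb h𝔪 hold'
  refine ⟨T', i1, i2, i3, i4, i5, π', πO', hgen, fun ℓ hℓ hℓN hℓS => ?_, hη, hM1, ?_⟩
  · rw [hpt, hχT]
  · intro t₀ ht₀
    refine hkill t₀ fun x _ => ?_
    apply Subtype.ext
    rw [hcoe, coe_iotaO_iotaS]
    exact ht₀ (x : 𝒪 ⊗[ℤ] Lam M) x.2

end Carrier

/-! ### the corollary at `K = KNew` -/

section AtKNew

variable {𝒪 : Type} [CommRing 𝒪] [IsDomain 𝒪] [IsDiscreteValuationRing 𝒪]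
  [IsAdicComplete (maximalIdeal 𝒪) 𝒪] [Finite (ResidueField 𝒪)] [CharZero 𝒪]
  {N p : ℕ} [hpF : Fact p.Prime] [NeZero N] [NeZero (N * p)] (hpN : ¬ p ∣ N)

/-- the span of a family of `K` is the pull-back of the span of its image -/
theorem span_range_eq_comap {X : Type*} [AddCommGroup X] [Module 𝒪 X] (K : Submodule 𝒪 X)
    {d : ℕ} (b : Fin d → ↥K) :
    span 𝒪 (Set.range b) = (span 𝒪 (Set.range fun i => ((b i : ↥K) : X))).comap K.subtype := by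
  have h4 : span 𝒪 (Set.range fun i => ((b i : ↥K) : X))
      = (span 𝒪 (Set.range b)).map K.subtype := by
    rw [Submodule.map_span, ← Set.range_comp]
    rfl
  rw [h4, Submodule.comap_map_eq_of_injective K.injective_subtype]

/-- **The stage carrier on the `p`-new part** (slice (e5) at `K := KNew hpN 𝒪`, helper37's
vocabulary): from the module-side invariant `EtaStageNew hpN 𝒪 lam d`, the equivariance of `β_p`
on `Z`, the non-degeneracy of `BWNew` and OldQ on `KNew` (`hold`, slice (e6)) — the carrier over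
`heckeAlgebra (N p) 2 S` with `πO' (π' T_ℓ) = lam ℓ`, `η ≠ 0`,
**(M1)** `omegaCardNew hpN 𝒪 lam ≤ etaCard πO' ^ d` and the kill clause on `KNew`. -/
theorem exists_carrier_KNew (S : Set ℕ) (hMS : ∀ r : ℕ, r.Prime → r ∣ N * p → r ∈ S)
    (Z : Set ℕ) (hZS : ∀ l : ℕ, l.Prime → l ∉ S → l ∈ Z) (hr : BetaPEquiv hpN Z)
    (hnd : ∀ w : ↥(KNew hpN 𝒪), (∀ z : ↥(KNew hpN 𝒪), BWNew hpN 𝒪 z w = 0) → w = 0)
    (lam : Nat.Primes → 𝒪) {d : ℕ} (hd : d ≠ 0) (hst : EtaStageNew hpN 𝒪 lam d)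
    (hold : ∀ x ∈ KNew hpN 𝒪, x ∈ locPart (mP 𝒪 Z lam) (𝒪 ⊗[ℤ] Lam (N * p)) →
      (∀ (ℓ : ℕ) (hℓ : ℓ.Prime), ¬ ℓ ∣ N * p → ℓ ∉ S →
        (latT (N * p) (⟨ℓ, hℓ⟩ : Nat.Primes)).baseChange 𝒪 x = lam ⟨ℓ, hℓ⟩ • x) →
      x ∈ eigenTensorO (N * p) 𝒪 lam) :
    ∃ (T' : Type) (_ : CommRing T') (_ : IsLocalRing T') (_ : Algebra 𝒪 T')
      (_ : Module.Finite 𝒪 T') (_ : Module.Free 𝒪 T')
      (π' : ↥(heckeAlgebra (N * p) 2 S) →+* T') (πO' : T' →ₐ[𝒪] 𝒪),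
      Algebra.adjoin 𝒪 (Set.range π') = ⊤ ∧
      (∀ (ℓ : ℕ) (hℓ : ℓ.Prime) (hℓN : ¬ ℓ ∣ N * p) (hℓS : ℓ ∉ S),
        πO' (π' (heckeAlgebra.T hℓ hℓN hℓS)) = lam ⟨ℓ, hℓ⟩) ∧
      etaIdeal πO' ≠ ⊥ ∧
      omegaCardNew hpN 𝒪 lam ≤ etaCard πO' ^ d ∧
      ∀ t₀ : 𝒪 ⊗[ℤ] ↥(heckeAlgebra (N * p) 2 S),
        (∀ x ∈ KNew hpN 𝒪, iotaO (iotaLam (N * p) 𝒪 S) t₀ • x = 0) →
        (Algebra.TensorProduct.lift (Algebra.ofId 𝒪 T') π'.toIntAlgHom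
          (fun _ _ => Commute.all _ _) : 𝒪 ⊗[ℤ] ↥(heckeAlgebra (N * p) 2 S) →ₐ[𝒪] T') t₀ = 0 := by
  obtain ⟨b, hli, hspan, -, hbK⟩ := hst
  set bK : Fin d → ↥(KNew hpN 𝒪) := fun i => ⟨b i, hbK i⟩ with hbKdef
  have hliK : LinearIndependent 𝒪 bK :=
    LinearIndependent.of_comp (KNew hpN 𝒪).subtype hli
  have hbE : ∀ i, ((bK i : ↥(KNew hpN 𝒪)) : 𝒪 ⊗[ℤ] Lam (N * p)) ∈ eigenTensorO (N * p) 𝒪 lam := by
    intro i
    rw [← hspan]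
    exact subset_span ⟨i, rfl⟩
  have hK : ∀ l : Nat.Primes, (l : ℕ) ∈ Z → ∀ x ∈ KNew hpN 𝒪,
      (latT (N * p) l).baseChange 𝒪 x ∈ KNew hpN 𝒪 := by
    intro l hl x hx
    rw [← xP_smul (𝒪 := 𝒪) (Z := Z) l hl]
    exact smulP_mem_KNew hpN hr _ hx
  have hcoe : (fun i => ((bK i : ↥(KNew hpN 𝒪)) : 𝒪 ⊗[ℤ] Lam (N * p))) = b := rfl
  obtain ⟨T', i1, i2, i3, i4, i5, π', πO', hgen, hpt, hη, hM1, hkill⟩ :=
    exists_carrier_K S hMS Z hZS (KNew hpN 𝒪) hK hnd lam hd bK hliK hbE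
      (fun x hxK hxL hxe => by
        rw [hcoe, hspan]
        exact hold x hxK hxL hxe)
  refine ⟨T', i1, i2, i3, i4, i5, π', πO', hgen, hpt, hη, ?_, hkill⟩
  have hP : span 𝒪 (Set.range bK) = eigenNew hpN 𝒪 lam := by
    rw [span_range_eq_comap, hcoe, hspan]
    rfl
  rw [hP] at hM1
  exact hM1

end AtKNew

end Fermat.Agent.GE9.PNew.Inst.CarrierK

end
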