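/-
GATE-E / RISK-4 (PNEW-STAGE), leaf R4-F "hann for image carriers" (helper39, author of
`GB/B10/L/{GalPkgSO,GalPkgSOImg}`; assignment helper80 7793): **the binder `hann` of
`GE9/Stage/RawSO` / `StepSO` / `GalPkgSO.exists_galRep_strict_of_ann` for a carrier acting FAITHFULLY
on a Hecke-stable piece of `ker (β_p ⊗ 𝒪) ⊆ 𝒪 ⊗ Lam (N₀ p)`.**

  `hann : ∀ t₀ : 𝒪 ⊗ 𝕋, (∀ a, ∀ x ∈ LamNew, heckeTensor 𝒪 t₀ (a ⊗ₜ x) = 0) → GalPkgSO.twO π' t₀ = 0`.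

§1 (Mathlib only, `𝒪` flat over `ℤ`):
* `tmulSpan 𝒪 Λ'` : the `𝒪`-span of the pure tensors `a ⊗ x`, `x ∈ Λ'` (= the image of `𝒪 ⊗ Λ'`);
* `mem_tmulSpan_of_baseChange_eq_zero` : `(f ⊗ 𝒪) y = 0 ⟹ y ∈ tmulSpan 𝒪 (ker f)` (flatness);
* `mem_tmulSpan_of_baseChange_pair`    : the same for two maps (`ker f₁ ∩ ker f₂`).
§2 (the `p`-new lattice):
* `newSpan 𝒪 hpN₀ := tmulSpan 𝒪 (LamNew hpN₀)`;
* `mem_newSpan_of_betaP`  : `((betaP ℤ hpN₀).toIntLinearMap ⊗ 𝒪) y = 0 ⟹ y ∈ newSpan`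
  (helper46's spelling, `GE8/RaiseP/DualIhara.dual_ihara_baseChange`);
* `mem_newSpan_of_pair`   : `(f₁ ⊗ 𝒪) y = 0 = (f₂ ⊗ 𝒪) y` for ANY `f₁ f₂` with `(f₁ x).1 = cores x`,
  `(f₂ x).1 = coresD x` (helper21's `PolyLin.bP1`, `bP2`: hypotheses by `rfl`);
* `hTens N S 𝒪` (= `heckeTensor 𝒪` spelled on `Lam`, `heckeTensor_eq_hTens` by `rfl`),
  `hTens_eq_zero_of_mem_newSpan` : a `t₀` killing the pure tensors kills `newSpan`.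
§3 (the three consumer forms):
* `hAnn_of_intertwiner` : MODULE-level (ANN) — the binder `hAnn` of
  `GalPkgSOImg.exists_galRep_TQ_strict`, `GE6/Inst/PsiPkgMinSO`, `Deside/G3` — for ANY `𝒪`-module `Mod`
  with a Hecke action `tw` and an injective intertwiner `j : Mod → 𝒪 ⊗ Lam (N₀ p)` into `newSpan`
  (e.g. `Mod = locPart 𝔪 K`, `K = ker (β_p ⊗ 𝒪)`, `j` = inclusion);
* `hann_TQ`             : `hann` for the image carrier `T' = ImageRing.TQ 𝒪 θ tw`, `π' = chi 𝒪 θ tw`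
  (what `CarrierAbs.exists_carrier` builds);
* `hann_of_faithful`    : `hann` for ANY carrier `T'` with `π' : 𝕋 →+* T'`, `act : T' →ₐ[𝒪] End Mod`
  FAITHFUL (`act` injective), `act (π' t) = tw t`.
-/
import Mathlib
import Fermat.Agent.GB.B10.L.GalPkgSOImg
import Fermat.Agent.GB.B10.L.ThetaNew
import Fermat.Agent.GM.B.Main

set_option autoImplicit false
set_option linter.unusedSectionVars false
set_option linter.unusedVariables false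
set_option linter.style.haveILetI false

noncomputable section

namespace Fermat.Agent.GE9.PNew.Inst.HannImg

open TensorProduct CuspForm IsLocalRing CongruenceSubgroup
open Fermat.Agent.GJ.J2.Lat Fermat.Agent.GJ.J2.LatAct Fermat.Agent.GM.B
open Fermat.Agent.GJ.Tate Fermat.Agent.GJ.Tate.Lim
open Fermat.Agent.GB.B4.Datum.ImageRing
open Fermat.Agent.GB.B10.KumLevelHecke Fermat.Agent.GB.B10.L.ThetaNew

/-! ## 1. flatness: the kernel of a base-changed map -/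

section Flat

variable (O : Type*) [CommRing O] {Λ X X' : Type*} [AddCommGroup Λ] [AddCommGroup X]
  [AddCommGroup X']

/-- the `O`-span of the pure tensors `a ⊗ x`, `x ∈ Λ'` (the image of `O ⊗ Λ'` in `O ⊗ Λ`). -/
def tmulSpan (Λ' : AddSubgroup Λ) : Submodule O (O ⊗[ℤ] Λ) :=
  Submodule.span O {z | ∃ (a : O) (x : Λ), x ∈ Λ' ∧ z = a ⊗ₜ[ℤ] x}

variable {O}

theorem tmul_mem_tmulSpan {Λ' : AddSubgroup Λ} (a : O) {x : Λ} (hx : x ∈ Λ') :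
    a ⊗ₜ[ℤ] x ∈ tmulSpan O Λ' :=
  Submodule.subset_span ⟨a, x, hx, rfl⟩

theorem tmulSpan_mono {Λ₁ Λ₂ : AddSubgroup Λ} (h : Λ₁ ≤ Λ₂) : tmulSpan O Λ₁ ≤ tmulSpan O Λ₂ :=
  Submodule.span_mono (by rintro _ ⟨a, x, hx, rfl⟩; exact ⟨a, x, h hx, rfl⟩)

/-- an `O`-linear endomorphism (or map) killing the pure tensors over `Λ'` kills `tmulSpan`. -/
theorem eq_zero_of_mem_tmulSpan {Y : Type*} [AddCommGroup Y] [Module O Y]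
    (E : (O ⊗[ℤ] Λ) →ₗ[O] Y) {Λ' : AddSubgroup Λ}
    (hE : ∀ (a : O), ∀ x ∈ Λ', E (a ⊗ₜ[ℤ] x) = 0) {y : O ⊗[ℤ] Λ} (hy : y ∈ tmulSpan O Λ') :
    E y = 0 := by
  have hle : tmulSpan O Λ' ≤ LinearMap.ker E := by
    refine Submodule.span_le.mpr ?_
    rintro _ ⟨a, x, hx, rfl⟩
    exact LinearMap.mem_ker.mpr (hE a x hx)
  exact LinearMap.mem_ker.mp (hle hy)

variable [Module.Flat ℤ O]

/-- **flatness**: the kernel of `f ⊗ O` is spanned by the pure tensors over `ker f`. -/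
theorem mem_tmulSpan_of_baseChange_eq_zero (f : Λ →ₗ[ℤ] X) (Λ' : AddSubgroup Λ)
    (hf : ∀ x, f x = 0 → x ∈ Λ') (y : O ⊗[ℤ] Λ) (hy : f.baseChange O y = 0) :
    y ∈ tmulSpan O Λ' := by
  have hex : Function.Exact ((LinearMap.ker f).subtype.lTensor O) (f.lTensor O) :=
    Module.Flat.lTensor_exact O (LinearMap.exact_subtype_ker_map f)
  have hy' : f.lTensor O y = 0 := hy
  obtain ⟨z, rfl⟩ := (hex y).mp hy'
  clear hy hy'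
  induction z using TensorProduct.induction_on with
  | zero => rw [map_zero]; exact Submodule.zero_mem _
  | tmul a x =>
    rw [LinearMap.lTensor_tmul]
    exact tmul_mem_tmulSpan a (hf _ (LinearMap.mem_ker.mp x.2))
  | add z₁ z₂ h₁ h₂ => rw [map_add]; exact Submodule.add_mem _ h₁ h₂

/-- the two-map form: `(f₁ ⊗ O) y = 0 = (f₂ ⊗ O) y ⟹ y ∈ O ⊗ (ker f₁ ∩ ker f₂)`. -/
theorem mem_tmulSpan_of_baseChange_pair (f₁ : Λ →ₗ[ℤ] X) (f₂ : Λ →ₗ[ℤ] X') (Λ' : AddSubgroup Λ)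
    (hf : ∀ x, f₁ x = 0 → f₂ x = 0 → x ∈ Λ') (y : O ⊗[ℤ] Λ)
    (h₁ : f₁.baseChange O y = 0) (h₂ : f₂.baseChange O y = 0) : y ∈ tmulSpan O Λ' := by
  refine mem_tmulSpan_of_baseChange_eq_zero (f₁.prod f₂) Λ' (fun x hx => ?_) y ?_
  · have hx' : (f₁ x, f₂ x) = 0 := hx
    exact hf x (congrArg Prod.fst hx') (congrArg Prod.snd hx')
  · have key : ∀ y : O ⊗[ℤ] Λ, TensorProduct.prodRight ℤ ℤ O X X' ((f₁.prod f₂).baseChange O y)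
        = (f₁.baseChange O y, f₂.baseChange O y) := by
      intro y
      induction y using TensorProduct.induction_on with
      | zero => simp only [map_zero]; rfl
      | tmul a x =>
        rw [LinearMap.baseChange_tmul, LinearMap.baseChange_tmul, LinearMap.baseChange_tmul]
        exact TensorProduct.prodRight_tmul ℤ ℤ O X X' a (f₁ x, f₂ x)
      | add z₁ z₂ e₁ e₂ => simp only [map_add, e₁, e₂, Prod.mk_add_mk]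
    apply (TensorProduct.prodRight ℤ ℤ O X X').injective
    rw [key, h₁, h₂, map_zero]
    rfl

end Flat

/-! ## 2. the `p`-new lattice inside `𝒪 ⊗ Lam (N₀ p)` -/

section New

variable {N₀ p : ℕ} [NeZero N₀] [Fact p.Prime] (𝒪 : Type) [CommRing 𝒪]

/-- **`𝒪 ⊗ LamNew` inside `𝒪 ⊗ Lam (N₀ p)`**: the `𝒪`-span of the pure tensors over the `p`-new
lattice. -/
def newSpan (hpN₀ : ¬ p ∣ N₀) : Submodule 𝒪 (𝒪 ⊗[ℤ] Lam (N₀ * p)) :=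
  tmulSpan 𝒪 (LamNew hpN₀)

variable {𝒪}

theorem tmul_mem_newSpan (hpN₀ : ¬ p ∣ N₀) (a : 𝒪) {x : Lam (N₀ * p)} (hx : x ∈ LamNew hpN₀) :
    a ⊗ₜ[ℤ] x ∈ newSpan 𝒪 hpN₀ :=
  tmul_mem_tmulSpan a hx

/-- membership in `LamNew` through the parabolic transfers `coresP`, `coresDP` of `GM/B/Main`. -/
theorem mem_lamNew_of_coresP (hpN₀ : ¬ p ∣ N₀) (x : Lam (N₀ * p))
    (h1 : coresP ℤ hpN₀ x = 0) (h2 : coresDP ℤ hpN₀ x = 0) : x ∈ LamNew hpN₀ := by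
  refine mem_lamNew.mpr ⟨?_, ?_⟩
  · have e : ((coresP ℤ hpN₀ x : Lam N₀) : Additive (Gamma0 N₀) →+ ℤ) = 0 := by rw [h1]; rfl
    rwa [coresP_coe] at e
  · have e : ((coresDP ℤ hpN₀ x : Lam N₀) : Additive (Gamma0 N₀) →+ ℤ) = 0 := by rw [h2]; rfl
    rwa [coresDP_coe] at e

variable [Module.Flat ℤ 𝒪]

/-- **`ker (β_p ⊗ 𝒪) ⊆ 𝒪 ⊗ LamNew`**, `β_p = (cores_p, cores_{p,δ})` in the spelling of
`GE8/RaiseP/DualIhara.dual_ihara_baseChange`. -/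
theorem mem_newSpan_of_betaP (hpN₀ : ¬ p ∣ N₀) (y : 𝒪 ⊗[ℤ] Lam (N₀ * p))
    (hy : (betaP ℤ hpN₀).toIntLinearMap.baseChange 𝒪 y = 0) : y ∈ newSpan 𝒪 hpN₀ := by
  refine mem_tmulSpan_of_baseChange_eq_zero (betaP ℤ hpN₀).toIntLinearMap (LamNew hpN₀)
    (fun x hx => ?_) y hy
  have hx' : betaP ℤ hpN₀ x = 0 := hx
  rw [betaP_apply] at hx'
  exact mem_lamNew_of_coresP hpN₀ x (congrArg Prod.fst hx') (congrArg Prod.snd hx')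

/-- **the two-map form**: any `ℤ`-linear `f₁ f₂ : Lam (N₀ p) → Lam N₀` whose underlying classes are
`cores`, `coresD` (e.g. helper21's `PolyLin.bP1`, `bP2`, or `coresP`, `coresDP` as `ℤ`-linear
maps). -/
theorem mem_newSpan_of_pair (hpN₀ : ¬ p ∣ N₀) (f₁ f₂ : Lam (N₀ * p) →ₗ[ℤ] Lam N₀)
    (hf₁ : ∀ x, f₁ x = coresP ℤ hpN₀ x) (hf₂ : ∀ x, f₂ x = coresDP ℤ hpN₀ x)
    (y : 𝒪 ⊗[ℤ] Lam (N₀ * p))
    (h₁ : f₁.baseChange 𝒪 y = 0) (h₂ : f₂.baseChange 𝒪 y = 0) : y ∈ newSpan 𝒪 hpN₀ :=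
  mem_tmulSpan_of_baseChange_pair f₁ f₂ (LamNew hpN₀)
    (fun x e₁ e₂ => mem_lamNew_of_coresP hpN₀ x ((hf₁ x).symm.trans e₁) ((hf₂ x).symm.trans e₂))
    y h₁ h₂

end New

/-! ## 3. the consumer forms of `hann` -/

section Hann

variable {N₀ p : ℕ} [NeZero N₀] [Fact p.Prime] {S0 : Finset ℕ}
  (hpS : p ∈ S0) (hNS : ∀ r : ℕ, r.Prime → r ∣ N₀ * p → r ∈ S0) (hpN₀ : ¬ p ∣ N₀)
  {𝒪 : Type} [CommRing 𝒪]

/-- the action of `𝒪 ⊗ 𝕋` on `𝒪 ⊗ Lam (N₀ p)`, spelled out on `Lam` (definitionally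
`(levelData p (N₀ p) hpS hNS).heckeTensor 𝒪`, see `heckeTensor_eq_hTens`). -/
def hTens (N : ℕ) [NeZero N] (S : Set ℕ) (𝒪 : Type) [CommRing 𝒪] :
    𝒪 ⊗[ℤ] heckeAlgebra N 2 S →ₐ[𝒪] Module.End 𝒪 (𝒪 ⊗[ℤ] Lam N) :=
  tensorEndAlg 𝒪 (latAct N S).toIntAlgHom

theorem hTens_tmul (N : ℕ) [NeZero N] (S : Set ℕ) (r : 𝒪) (t : heckeAlgebra N 2 S) :
    hTens N S 𝒪 (r ⊗ₜ[ℤ] t) = r • (latAct N S t).baseChange 𝒪 :=
  tensorEndAlg_tmul 𝒪 (latAct N S).toIntAlgHom r t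

theorem heckeTensor_eq_hTens (t₀ : 𝒪 ⊗[ℤ] heckeAlgebra (N₀ * p) 2 (↑S0 : Set ℕ)) :
    (levelData p (N₀ * p) hpS hNS).heckeTensor 𝒪 t₀ = hTens (N₀ * p) (↑S0 : Set ℕ) 𝒪 t₀ := rfl

/-- the killing hypothesis of `hann`, in the `hTens` spelling. -/
theorem hTens_kills_of_heckeTensor
    (t₀ : 𝒪 ⊗[ℤ] heckeAlgebra (N₀ * p) 2 (↑S0 : Set ℕ))
    (ht₀ : ∀ (a : 𝒪), ∀ x ∈ (LamNew hpN₀ : AddSubgroup (levelData p (N₀ * p) hpS hNS).Λ),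
      (levelData p (N₀ * p) hpS hNS).heckeTensor 𝒪 t₀ (a ⊗ₜ[ℤ] x) = 0) :
    ∀ (a : 𝒪), ∀ x ∈ LamNew hpN₀, hTens (N₀ * p) (↑S0 : Set ℕ) 𝒪 t₀ (a ⊗ₜ[ℤ] x) = 0 :=
  fun a x hx => ht₀ a x hx

/-- a Hecke operator killing the pure tensors over `LamNew` kills `newSpan`. -/
theorem hTens_eq_zero_of_mem_newSpan
    (t₀ : 𝒪 ⊗[ℤ] heckeAlgebra (N₀ * p) 2 (↑S0 : Set ℕ))
    (ht₀ : ∀ (a : 𝒪), ∀ x ∈ LamNew hpN₀, hTens (N₀ * p) (↑S0 : Set ℕ) 𝒪 t₀ (a ⊗ₜ[ℤ] x) = 0)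
    {y : 𝒪 ⊗[ℤ] Lam (N₀ * p)} (hy : y ∈ newSpan 𝒪 hpN₀) :
    hTens (N₀ * p) (↑S0 : Set ℕ) 𝒪 t₀ y = 0 :=
  eq_zero_of_mem_tmulSpan (hTens (N₀ * p) (↑S0 : Set ℕ) 𝒪 t₀) ht₀ hy

variable {Mod : Type} [AddCommGroup Mod] [Module 𝒪 Mod]

/-- an intertwiner `j : Mod → 𝒪 ⊗ Lam N` intertwines the `𝒪`-linear extension `twO 𝒪 tw` with
`hTens`. -/
theorem intertwine_hTens [IsLocalRing 𝒪] {N : ℕ} [NeZero N] {S : Set ℕ}
    (tw : heckeAlgebra N 2 S →+* Module.End 𝒪 Mod)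
    (j : Mod →ₗ[𝒪] 𝒪 ⊗[ℤ] Lam N)
    (hjtw : ∀ (t : heckeAlgebra N 2 S) (m : Mod),
      j (tw t m) = (latAct N S t).baseChange 𝒪 (j m))
    (t₀ : 𝒪 ⊗[ℤ] heckeAlgebra N 2 S) (m : Mod) :
    j (twO 𝒪 tw t₀ m) = hTens N S 𝒪 t₀ (j m) := by
  induction t₀ using TensorProduct.induction_on with
  | zero => rw [map_zero, map_zero, LinearMap.zero_apply, LinearMap.zero_apply, map_zero]
  | add a b ha hb =>
    rw [map_add, map_add, LinearMap.add_apply, LinearMap.add_apply, map_add, ha, hb]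
  | tmul o t =>
    rw [twO_tmul, hTens_tmul, LinearMap.smul_apply, LinearMap.smul_apply, map_smul, hjtw]

/-- **MODULE-level (ANN)** for any `𝒪`-module with a Hecke action and an injective intertwiner into
`newSpan ⊆ 𝒪 ⊗ Lam (N₀ p)` — the binder `hAnn` of `GalPkgSOImg.exists_galRep_TQ_strict`,
`GE8/Deside/G3.exists_psi_TQ_strict_noSide`, `GE6/Inst/PsiPkgMinSO`. -/
theorem hAnn_of_intertwiner [IsLocalRing 𝒪]
    (tw : heckeAlgebra (N₀ * p) 2 (↑S0 : Set ℕ) →+* Module.End 𝒪 Mod)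
    (j : Mod →ₗ[𝒪] 𝒪 ⊗[ℤ] Lam (N₀ * p)) (hj : Function.Injective j)
    (hjtw : ∀ (t : heckeAlgebra (N₀ * p) 2 (↑S0 : Set ℕ)) (m : Mod),
      j (tw t m) = (latAct (N₀ * p) (↑S0 : Set ℕ) t).baseChange 𝒪 (j m))
    (hnew : ∀ m : Mod, j m ∈ newSpan 𝒪 hpN₀) :
    ∀ t₀ : 𝒪 ⊗[ℤ] heckeAlgebra (N₀ * p) 2 (↑S0 : Set ℕ),
      (∀ (a : 𝒪), ∀ x ∈ (LamNew hpN₀ : AddSubgroup (levelData p (N₀ * p) hpS hNS).Λ),
        (levelData p (N₀ * p) hpS hNS).heckeTensor 𝒪 t₀ (a ⊗ₜ[ℤ] x) = 0) →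
      ∀ m : Mod, twO 𝒪 tw t₀ m = 0 := by
  intro t₀ ht₀ m
  apply hj
  rw [intertwine_hTens tw j hjtw t₀ m, map_zero]
  exact hTens_eq_zero_of_mem_newSpan hpN₀ t₀
    (hTens_kills_of_heckeTensor hpS hNS hpN₀ t₀ ht₀) (hnew m)

/-- **`hann` for the image carrier** `T' = ImageRing.TQ 𝒪 θ tw`, `π' = chi 𝒪 θ tw`. -/
theorem hann_TQ [IsLocalRing 𝒪]
    {θ : heckeAlgebra (N₀ * p) 2 (↑S0 : Set ℕ) →+* ResidueField 𝒪}
    (tw : heckeAlgebra (N₀ * p) 2 (↑S0 : Set ℕ) →+* Module.End 𝒪 Mod)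
    (j : Mod →ₗ[𝒪] 𝒪 ⊗[ℤ] Lam (N₀ * p)) (hj : Function.Injective j)
    (hjtw : ∀ (t : heckeAlgebra (N₀ * p) 2 (↑S0 : Set ℕ)) (m : Mod),
      j (tw t m) = (latAct (N₀ * p) (↑S0 : Set ℕ) t).baseChange 𝒪 (j m))
    (hnew : ∀ m : Mod, j m ∈ newSpan 𝒪 hpN₀) :
    ∀ t₀ : 𝒪 ⊗[ℤ] heckeAlgebra (N₀ * p) 2 (↑S0 : Set ℕ),
      (∀ (a : 𝒪), ∀ x ∈ (LamNew hpN₀ : AddSubgroup (levelData p (N₀ * p) hpS hNS).Λ),
        (levelData p (N₀ * p) hpS hNS).heckeTensor 𝒪 t₀ (a ⊗ₜ[ℤ] x) = 0) →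
      Fermat.Agent.GB.B10.L.GalPkgSO.twO (𝒪 := 𝒪) (chi 𝒪 θ tw) t₀ = 0 :=
  Fermat.Agent.GB.B10.L.GalPkgSOImg.hann_of_module (θ := θ) tw _
    (hAnn_of_intertwiner hpS hNS hpN₀ tw j hj hjtw hnew)

/-- **`hann` for ANY carrier acting faithfully**: `π' : 𝕋 →+* T'`, `act : T' →ₐ[𝒪] End_𝒪 Mod`
injective with `act (π' t) = tw t`. -/
theorem hann_of_faithful [IsLocalRing 𝒪]
    {T' : Type} [CommRing T'] [Algebra 𝒪 T']
    (π' : heckeAlgebra (N₀ * p) 2 (↑S0 : Set ℕ) →+* T')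
    (tw : heckeAlgebra (N₀ * p) 2 (↑S0 : Set ℕ) →+* Module.End 𝒪 Mod)
    (act : T' →ₐ[𝒪] Module.End 𝒪 Mod) (hact : Function.Injective act)
    (hactπ : ∀ t, act (π' t) = tw t)
    (j : Mod →ₗ[𝒪] 𝒪 ⊗[ℤ] Lam (N₀ * p)) (hj : Function.Injective j)
    (hjtw : ∀ (t : heckeAlgebra (N₀ * p) 2 (↑S0 : Set ℕ)) (m : Mod),
      j (tw t m) = (latAct (N₀ * p) (↑S0 : Set ℕ) t).baseChange 𝒪 (j m))
    (hnew : ∀ m : Mod, j m ∈ newSpan 𝒪 hpN₀) :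
    ∀ t₀ : 𝒪 ⊗[ℤ] heckeAlgebra (N₀ * p) 2 (↑S0 : Set ℕ),
      (∀ (a : 𝒪), ∀ x ∈ (LamNew hpN₀ : AddSubgroup (levelData p (N₀ * p) hpS hNS).Λ),
        (levelData p (N₀ * p) hpS hNS).heckeTensor 𝒪 t₀ (a ⊗ₜ[ℤ] x) = 0) →
      Fermat.Agent.GB.B10.L.GalPkgSO.twO (𝒪 := 𝒪) π' t₀ = 0 := by
  intro t₀ ht₀
  apply hact
  rw [map_zero]
  have key : ∀ t₁ : 𝒪 ⊗[ℤ] heckeAlgebra (N₀ * p) 2 (↑S0 : Set ℕ),
      act (Fermat.Agent.GB.B10.L.GalPkgSO.twO (𝒪 := 𝒪) π' t₁) = twO 𝒪 tw t₁ := by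
    intro t₁
    induction t₁ using TensorProduct.induction_on with
    | zero => rw [map_zero, map_zero, map_zero]
    | add a b ha hb => rw [map_add, map_add, map_add, ha, hb]
    | tmul o t =>
      rw [Fermat.Agent.GB.B10.L.GalPkgSO.twO_tmul, twO_tmul, map_mul, AlgHom.commutes, hactπ,
        Algebra.algebraMap_eq_smul_one, smul_mul_assoc, one_mul]
  rw [key]
  exact LinearMap.ext fun m => hAnn_of_intertwiner hpS hNS hpN₀ tw j hj hjtw hnew t₀ ht₀ m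

end Hann

end Fermat.Agent.GE9.PNew.Inst.HannImg
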