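/-
GATE-E / RISK-4 PNEW-STAGE, instance layer (I-a) of helper37 7832 (helper5): **`β_p ⊗ 𝒪 =
(cores_p, cores_{p,δ}) ⊗ 𝒪` is Hecke-linear for EVERY prime `l ≠ p` and ONTO on the `𝔪`-primary
parts.**

* (a1) `resP_latT_ne` / `resDP_latT_ne` : `res_p`, `res_{p,δ}` commute with `latT l`, every prime
  `l ≠ p` (`U_r`, `r ∣ N`, included); **`betaP_latT_ne`** : so does `β_p` (adjoint, via
  `T_l^† = W T_l W`, `Beta3Uq.lamB_latT_right`); `bP1_latT_ne` / `bP2_latT_ne` = the binder `hr` of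
  helper21's `PolyLin.bP1_actLam`; `bP1P` / `bP2P` / `betaPP` : the `PAlg 𝒪 Z`-linear maps (`p ∉ Z`);
* (a2) **`betaPO_kill`** : dual Ihara (helper46 `GE8/RaiseP/DualIhara.dual_ihara`, level-raising prime
  `p`) in pair spelling over `𝒪`;
* (a3) **`exists_mem_locPart_betaPO`** : `∀ x y ∈ locPart 𝔪 (𝒪 ⊗ Λ_N), ∃ w ∈ locPart 𝔪 (𝒪 ⊗ Λ_{N p}),
  cores_p w = x ∧ cores_{p,δ} w = y` (`hβ'` of the abstract step), by
  `LocSurj.exists_locPart_of_kill` on `X × X`.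
-/
import Mathlib
import Fermat.Agent.GE9.PNew.Inst.TSurj
import Fermat.Agent.GE9.PNew.Inst.PolyLin
import Fermat.Agent.GE9.PNew.Inst.LocSurj
import Fermat.Agent.GE8.RaiseP.DualIhara
import Fermat.Agent.GE9.Adj3U.EquivDvd
import Fermat.Agent.GM.B5.EquivLat

set_option autoImplicit false
set_option linter.unusedSectionVars false

open scoped TensorProduct

namespace Fermat.Agent.GE9.PNew.Inst.BetaPOnto

open Fermat.Agent.GJ.J2.Lat Fermat.Agent.GM.Asm Fermat.Agent.GM.Theta.Outer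
  Fermat.Agent.GM.B Fermat.Agent.GM.B5 Fermat.Agent.GE9.Fricke
  Fermat.Agent.GE9.Adj3U Fermat.Agent.GE9.Eta.KPlug Fermat.Agent.GE9.Eta.LocLamU
  Fermat.Agent.GE8.RaiseP.DualIhara
  Fermat.Agent.GE9.PNew.Inst Fermat.Agent.GE9.PNew.Inst.Beta3Uq
  Fermat.Agent.GE9.PNew.Inst.PolyLin
  Fermat.Agent.GB.B3.Loc
  Fermat.Agent.S16_helper49 Fermat.Agent.GM.Amalgam

/-! ### (a1) Hecke-equivariance at every prime `l ≠ p` -/

section Equiv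

variable {N p : ℕ} [hpF : Fact p.Prime] [NeZero N] [NeZero (N * p)]

/-- `res_p` commutes with `latT l`, every prime `l ≠ p`. -/
theorem resP_latT_ne (hpN : ¬ p ∣ N) (l : Nat.Primes) (hlp : (l : ℕ) ≠ p) (x : Lam N) :
    Fermat.Agent.GM.B.resP ℤ N p (latT N l x) = latT (N * p) l (Fermat.Agent.GM.B.resP ℤ N p x) := by
  have : Fact (l : ℕ).Prime := ⟨l.2⟩
  by_cases hlN : (l : ℕ) ∣ N
  · have hl1 : (l : ℕ) ∣ N * p := Dvd.dvd.mul_right hlN p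
    apply Subtype.ext
    rw [coe_latT_eq_cohU l hl1]
    show res ℤ N p ((latT N l x : Lam N) : Additive (CongruenceSubgroup.Gamma0 N) →+ ℤ)
      = cohU hl1 ℤ (res ℤ N p x.1)
    rw [coe_latT_eq_cohU l hlN, ← res_cohU_gen hlN hl1]
  · have hl : ¬ (l : ℕ) ∣ N * p := by
      intro h
      rcases (Nat.Prime.dvd_mul l.2).mp h with h1 | h1
      · exact hlN h1
      · exact hlp ((Nat.prime_dvd_prime_iff_eq l.2 hpF.out).mp h1)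
    have h := alphaP_latT hpN l hl x 0
    rw [alphaP_apply, alphaP_apply, map_zero, map_zero, add_zero, add_zero] at h
    exact h

/-- `res_{p,δ}` commutes with `latT l`, every prime `l ≠ p`. -/
theorem resDP_latT_ne (hpN : ¬ p ∣ N) (l : Nat.Primes) (hlp : (l : ℕ) ≠ p) (x : Lam N) :
    resDP ℤ N p (latT N l x) = latT (N * p) l (resDP ℤ N p x) := by
  have : Fact (l : ℕ).Prime := ⟨l.2⟩
  by_cases hlN : (l : ℕ) ∣ N
  · have hl1 : (l : ℕ) ∣ N * p := Dvd.dvd.mul_right hlN p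
    have hpl : (p : ZMod (l : ℕ)) ≠ 0 := by
      intro h0
      have h1 : (l : ℕ) ∣ p := (ZMod.natCast_eq_zero_iff p l).mp h0
      exact hlp ((Nat.prime_dvd_prime_iff_eq l.2 hpF.out).mp h1)
    apply Subtype.ext
    rw [coe_latT_eq_cohU l hl1]
    show resD ℤ N p ((latT N l x : Lam N) : Additive (CongruenceSubgroup.Gamma0 N) →+ ℤ)
      = cohU hl1 ℤ (resD ℤ N p x.1)
    rw [coe_latT_eq_cohU l hlN, ← resD_cohU_gen hlN hl1 hpl]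
  · have hl : ¬ (l : ℕ) ∣ N * p := by
      intro h
      rcases (Nat.Prime.dvd_mul l.2).mp h with h1 | h1
      · exact hlN h1
      · exact hlp ((Nat.prime_dvd_prime_iff_eq l.2 hpF.out).mp h1)
    have h := alphaP_latT hpN l hl 0 x
    rw [alphaP_apply, alphaP_apply, map_zero, map_zero, zero_add, zero_add] at h
    exact h

/-- `W T_l W res_p = res_p W T_l W`. -/
theorem wtw_resP (hpN : ¬ p ∣ N) (l : Nat.Primes) (hlp : (l : ℕ) ≠ p) (x : Lam N) :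
    frP (N * p) ℤ (latT (N * p) l (frP (N * p) ℤ (Fermat.Agent.GM.B.resP ℤ N p x)))
      = Fermat.Agent.GM.B.resP ℤ N p (frP N ℤ (latT N l (frP N ℤ x))) := by
  rw [frP_resP, ← resDP_latT_ne hpN l hlp, frP_resDP]

/-- `W T_l W res_{p,δ} = res_{p,δ} W T_l W`. -/
theorem wtw_resDP (hpN : ¬ p ∣ N) (l : Nat.Primes) (hlp : (l : ℕ) ≠ p) (x : Lam N) :
    frP (N * p) ℤ (latT (N * p) l (frP (N * p) ℤ (resDP ℤ N p x)))
      = resDP ℤ N p (frP N ℤ (latT N l (frP N ℤ x))) := by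
  rw [frP_resDP, ← resP_latT_ne hpN l hlp, frP_resP]

/-- `cores_p` commutes with `latT l`, every prime `l ≠ p`. -/
theorem coresP_latT_ne (hpN : ¬ p ∣ N) (l : Nat.Primes) (hlp : (l : ℕ) ≠ p) (z : Lam (N * p)) :
    coresP ℤ hpN (latT (N * p) l z) = latT N l (coresP ℤ hpN z) := by
  rw [← sub_eq_zero]
  refine lamB_right_inj N _ fun x => ?_
  rw [map_sub, sub_eq_zero, ← lamB_resP_coresP hpN, lamB_latT_right l (Fermat.Agent.GM.B.resP ℤ N p x) z,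
    wtw_resP hpN l hlp, lamB_resP_coresP hpN, ← lamB_latT_right]

/-- `cores_{p,δ}` commutes with `latT l`, every prime `l ≠ p`. -/
theorem coresDP_latT_ne (hpN : ¬ p ∣ N) (l : Nat.Primes) (hlp : (l : ℕ) ≠ p) (z : Lam (N * p)) :
    coresDP ℤ hpN (latT (N * p) l z) = latT N l (coresDP ℤ hpN z) := by
  rw [← sub_eq_zero]
  refine lamB_right_inj N _ fun x => ?_
  rw [map_sub, sub_eq_zero, ← lamB_O1 hpN, lamB_latT_right l (resDP ℤ N p x) z,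
    wtw_resDP hpN l hlp, lamB_O1 hpN, ← lamB_latT_right]

/-- **`β_p` commutes with `latT l` for EVERY prime `l ≠ p`** (`U_r`, `r ∣ N`, included). -/
theorem betaP_latT_ne (hpN : ¬ p ∣ N) (l : Nat.Primes) (hlp : (l : ℕ) ≠ p) (z : Lam (N * p)) :
    betaP ℤ hpN (latT (N * p) l z)
      = (latT N l (betaP ℤ hpN z).1, latT N l (betaP ℤ hpN z).2) := by
  rw [betaP_apply, betaP_apply, coresP_latT_ne hpN l hlp, coresDP_latT_ne hpN l hlp]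

/-- the binder `hr` of `PolyLin.bP1_actLam`. -/
theorem bP1_latT_ne (hpN : ¬ p ∣ N) (l : Nat.Primes) (hlp : (l : ℕ) ≠ p) (z : Lam (N * p)) :
    bP1 hpN (latT (N * p) l z) = latT N l (bP1 hpN z) := by
  rw [bP1_apply, bP1_apply, betaP_latT_ne hpN l hlp]

theorem bP2_latT_ne (hpN : ¬ p ∣ N) (l : Nat.Primes) (hlp : (l : ℕ) ≠ p) (z : Lam (N * p)) :
    bP2 hpN (latT (N * p) l z) = latT N l (bP2 hpN z) := by
  rw [bP2_apply, bP2_apply, betaP_latT_ne hpN l hlp]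

end Equiv

/-! ### the `PAlg`-linear maps -/

section PLin

variable {N p : ℕ} [hpF : Fact p.Prime] [NeZero N] [NeZero (N * p)]
variable (hpN : ¬ p ∣ N) (𝒪 : Type) [CommRing 𝒪] (Z : Set ℕ)

/-- `cores_p ⊗ 𝒪` as a `PAlg 𝒪 Z`-linear map (`p ∉ Z`). -/
noncomputable def bP1P (hpZ : p ∉ Z) :
    (𝒪 ⊗[ℤ] Lam (N * p)) →ₗ[PAlg 𝒪 Z] (𝒪 ⊗[ℤ] Lam N) :=
  baseChangeP (𝒪 := 𝒪) (Z := Z) (bP1 hpN)
    (fun l hl z => bP1_latT_ne hpN l (fun h => hpZ (h ▸ hl)) z)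

/-- `cores_{p,δ} ⊗ 𝒪` as a `PAlg 𝒪 Z`-linear map (`p ∉ Z`). -/
noncomputable def bP2P (hpZ : p ∉ Z) :
    (𝒪 ⊗[ℤ] Lam (N * p)) →ₗ[PAlg 𝒪 Z] (𝒪 ⊗[ℤ] Lam N) :=
  baseChangeP (𝒪 := 𝒪) (Z := Z) (bP2 hpN)
    (fun l hl z => bP2_latT_ne hpN l (fun h => hpZ (h ▸ hl)) z)

/-- **`β_p ⊗ 𝒪`** as a `PAlg 𝒪 Z`-linear map into the product (`p ∉ Z`). -/
noncomputable def betaPP (hpZ : p ∉ Z) :
    (𝒪 ⊗[ℤ] Lam (N * p)) →ₗ[PAlg 𝒪 Z] ((𝒪 ⊗[ℤ] Lam N) × (𝒪 ⊗[ℤ] Lam N)) :=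
  (bP1P hpN 𝒪 Z hpZ).prod (bP2P hpN 𝒪 Z hpZ)

theorem bP1P_apply (hpZ : p ∉ Z) (w : 𝒪 ⊗[ℤ] Lam (N * p)) :
    bP1P hpN 𝒪 Z hpZ w = (bP1 hpN).baseChange 𝒪 w := rfl

theorem bP2P_apply (hpZ : p ∉ Z) (w : 𝒪 ⊗[ℤ] Lam (N * p)) :
    bP2P hpN 𝒪 Z hpZ w = (bP2 hpN).baseChange 𝒪 w := rfl

theorem betaPP_apply (hpZ : p ∉ Z) (w : 𝒪 ⊗[ℤ] Lam (N * p)) :
    betaPP hpN 𝒪 Z hpZ w = ((bP1 hpN).baseChange 𝒪 w, (bP2 hpN).baseChange 𝒪 w) := rfl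

/-- raw form of the linearity. -/
theorem bP1_smulP (hpZ : p ∉ Z) (s : PAlg 𝒪 Z) (w : 𝒪 ⊗[ℤ] Lam (N * p)) :
    (bP1 hpN).baseChange 𝒪 (s • w) = s • (bP1 hpN).baseChange 𝒪 w :=
  (bP1P hpN 𝒪 Z hpZ).map_smul s w

theorem bP2_smulP (hpZ : p ∉ Z) (s : PAlg 𝒪 Z) (w : 𝒪 ⊗[ℤ] Lam (N * p)) :
    (bP2 hpN).baseChange 𝒪 (s • w) = s • (bP2 hpN).baseChange 𝒪 w :=
  (bP2P hpN 𝒪 Z hpZ).map_smul s w

end PLin

/-! ### (a2) the kill hypothesis, pair spelling -/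

section Kill

variable {N p : ℕ} [hpF : Fact p.Prime] [NeZero N] [NeZero (N * p)]

theorem eisE_eq_eisEnd (M : ℕ) [NeZero M] (l : Nat.Primes) : eisE M l = eisEnd M l := rfl

/-- base change of a pointwise factorisation `f ∘ C + n • D = G`. -/
theorem bc_factor {Λ₁ Λ₂ Λ₃ : Type*} [AddCommGroup Λ₁] [AddCommGroup Λ₂] [AddCommGroup Λ₃]
    (O : Type*) [CommRing O]
    (f : Λ₂ →ₗ[ℤ] Λ₃) (C : Λ₁ →ₗ[ℤ] Λ₂) (D G : Λ₁ →ₗ[ℤ] Λ₃) (n : ℤ) (ϖ c : O)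
    (hn : ((n : ℤ) : O) = ϖ * c) (h : ∀ x, f (C x) + n • D x = G x) (u : O ⊗[ℤ] Λ₁) :
    f.baseChange O (C.baseChange O u) + ϖ • (c • D.baseChange O u) = G.baseChange O u := by
  have hG : G = f ∘ₗ C + n • D := LinearMap.ext fun x => (h x).symm
  rw [hG, LinearMap.baseChange_add, LinearMap.add_apply, LinearMap.baseChange_comp,
    LinearMap.comp_apply, LinearMap.baseChange_smul, LinearMap.smul_apply,
    ← Int.cast_smul_eq_zsmul O, hn, mul_smul]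

set_option maxHeartbeats 400000 in
/-- **dual Ihara at `p` over `O`, pair spelling** (`ℓ` any odd prime with `ϖ ∣ ℓ`; in the instance
`ℓ` = the residue characteristic). -/
theorem betaPO_kill (hpN : ¬ p ∣ N) {ℓ : ℕ} (hℓ : ℓ.Prime) (hℓ2 : ℓ ≠ 2)
    (l0 : Nat.Primes) (hl0 : ¬ (l0 : ℕ) ∣ N)
    (O : Type*) [CommRing O] (ϖ : O) (hpϖ : ∃ c : O, (ℓ : O) = ϖ * c)
    (z : (O ⊗[ℤ] Lam N) × (O ⊗[ℤ] Lam N)) :
    ∃ (w : O ⊗[ℤ] Lam (N * p)) (z' : (O ⊗[ℤ] Lam N) × (O ⊗[ℤ] Lam N)),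
      ((eisEnd N l0).baseChange O z.1, (eisEnd N l0).baseChange O z.2)
        = ((bP1 hpN).baseChange O w, (bP2 hpN).baseChange O w) + ϖ • z' := by
  obtain ⟨C', D', h⟩ := dual_ihara hpN hℓ hℓ2 l0 hl0
  obtain ⟨c, hc⟩ := hpϖ
  have hc' : (((ℓ : ℤ) : ℤ) : O) = ϖ * c := by rw [Int.cast_natCast, hc]
  -- opaque components with pointwise specifications
  obtain ⟨C1, hC1⟩ : ∃ C1 : Lam N →ₗ[ℤ] Lam (N * p), ∀ x, C1 x = C' (x, 0) :=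
    ⟨C' ∘ₗ LinearMap.inl ℤ (Lam N) (Lam N), fun _ => rfl⟩
  obtain ⟨C2, hC2⟩ : ∃ C2 : Lam N →ₗ[ℤ] Lam (N * p), ∀ y, C2 y = C' (0, y) :=
    ⟨C' ∘ₗ LinearMap.inr ℤ (Lam N) (Lam N), fun _ => rfl⟩
  obtain ⟨D11, hD11⟩ : ∃ D : Lam N →ₗ[ℤ] Lam N, ∀ x, D x = (D' (x, 0)).1 :=
    ⟨LinearMap.fst ℤ (Lam N) (Lam N) ∘ₗ D' ∘ₗ LinearMap.inl ℤ (Lam N) (Lam N), fun _ => rfl⟩
  obtain ⟨D21, hD21⟩ : ∃ D : Lam N →ₗ[ℤ] Lam N, ∀ x, D x = (D' (x, 0)).2 :=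
    ⟨LinearMap.snd ℤ (Lam N) (Lam N) ∘ₗ D' ∘ₗ LinearMap.inl ℤ (Lam N) (Lam N), fun _ => rfl⟩
  obtain ⟨D12, hD12⟩ : ∃ D : Lam N →ₗ[ℤ] Lam N, ∀ y, D y = (D' (0, y)).1 :=
    ⟨LinearMap.fst ℤ (Lam N) (Lam N) ∘ₗ D' ∘ₗ LinearMap.inr ℤ (Lam N) (Lam N), fun _ => rfl⟩
  obtain ⟨D22, hD22⟩ : ∃ D : Lam N →ₗ[ℤ] Lam N, ∀ y, D y = (D' (0, y)).2 :=
    ⟨LinearMap.snd ℤ (Lam N) (Lam N) ∘ₗ D' ∘ₗ LinearMap.inr ℤ (Lam N) (Lam N), fun _ => rfl⟩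
  -- the factorisation, pointwise
  have hx : ∀ x : Lam N, (eisE N l0 x, (0 : Lam N))
      = betaP ℤ hpN (C' (x, 0)) + (ℓ : ℤ) • D' (x, 0) := by
    intro x
    have h1 := LinearMap.congr_fun h (x, 0)
    rw [LinearMap.prodMap_apply, map_zero] at h1
    exact h1
  have hy : ∀ y : Lam N, ((0 : Lam N), eisE N l0 y)
      = betaP ℤ hpN (C' (0, y)) + (ℓ : ℤ) • D' (0, y) := by
    intro y
    have h1 := LinearMap.congr_fun h (0, y)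
    rw [LinearMap.prodMap_apply, map_zero] at h1
    exact h1
  have e11 : ∀ x, bP1 hpN (C1 x) + (ℓ : ℤ) • D11 x = eisEnd N l0 x := by
    intro x
    have h1 := congrArg Prod.fst (hx x)
    rw [Prod.fst_add, Prod.smul_fst] at h1
    rw [bP1_apply, hC1, hD11]
    exact h1.symm
  have e21 : ∀ x, bP2 hpN (C1 x) + (ℓ : ℤ) • D21 x = (0 : Lam N →ₗ[ℤ] Lam N) x := by
    intro x
    have h1 := congrArg Prod.snd (hx x)
    rw [Prod.snd_add, Prod.smul_snd] at h1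
    rw [bP2_apply, hC1, hD21, LinearMap.zero_apply]
    exact h1.symm
  have e12 : ∀ y, bP1 hpN (C2 y) + (ℓ : ℤ) • D12 y = (0 : Lam N →ₗ[ℤ] Lam N) y := by
    intro y
    have h1 := congrArg Prod.fst (hy y)
    rw [Prod.fst_add, Prod.smul_fst] at h1
    rw [bP1_apply, hC2, hD12, LinearMap.zero_apply]
    exact h1.symm
  have e22 : ∀ y, bP2 hpN (C2 y) + (ℓ : ℤ) • D22 y = eisEnd N l0 y := by
    intro y
    have h1 := congrArg Prod.snd (hy y)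
    rw [Prod.snd_add, Prod.smul_snd] at h1
    rw [bP2_apply, hC2, hD22]
    exact h1.symm
  have f11 := bc_factor O (bP1 hpN) C1 D11 (eisEnd N l0) (ℓ : ℤ) ϖ c hc' e11 z.1
  have f21 := bc_factor O (bP2 hpN) C1 D21 0 (ℓ : ℤ) ϖ c hc' e21 z.1
  have f12 := bc_factor O (bP1 hpN) C2 D12 0 (ℓ : ℤ) ϖ c hc' e12 z.2
  have f22 := bc_factor O (bP2 hpN) C2 D22 (eisEnd N l0) (ℓ : ℤ) ϖ c hc' e22 z.2
  rw [LinearMap.baseChange_zero, LinearMap.zero_apply] at f21 f12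
  refine ⟨C1.baseChange O z.1 + C2.baseChange O z.2,
    (c • D11.baseChange O z.1 + c • D12.baseChange O z.2,
      c • D21.baseChange O z.1 + c • D22.baseChange O z.2), ?_⟩
  refine Prod.ext ?_ ?_
  · show (eisEnd N l0).baseChange O z.1
      = (bP1 hpN).baseChange O (C1.baseChange O z.1 + C2.baseChange O z.2)
        + ϖ • (c • D11.baseChange O z.1 + c • D12.baseChange O z.2)
    have e : (bP1 hpN).baseChange O (C1.baseChange O z.1 + C2.baseChange O z.2)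
        + ϖ • (c • D11.baseChange O z.1 + c • D12.baseChange O z.2)
        = ((bP1 hpN).baseChange O (C1.baseChange O z.1) + ϖ • (c • D11.baseChange O z.1))
          + ((bP1 hpN).baseChange O (C2.baseChange O z.2) + ϖ • (c • D12.baseChange O z.2)) := by
      rw [map_add, smul_add ϖ (c • D11.baseChange O z.1) (c • D12.baseChange O z.2)]
      abel
    rw [e, f11, f12, add_zero]
  · show (eisEnd N l0).baseChange O z.2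
      = (bP2 hpN).baseChange O (C1.baseChange O z.1 + C2.baseChange O z.2)
        + ϖ • (c • D21.baseChange O z.1 + c • D22.baseChange O z.2)
    have e : (bP2 hpN).baseChange O (C1.baseChange O z.1 + C2.baseChange O z.2)
        + ϖ • (c • D21.baseChange O z.1 + c • D22.baseChange O z.2)
        = ((bP2 hpN).baseChange O (C1.baseChange O z.1) + ϖ • (c • D21.baseChange O z.1))
          + ((bP2 hpN).baseChange O (C2.baseChange O z.2) + ϖ • (c • D22.baseChange O z.2)) := by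
      rw [map_add, smul_add ϖ (c • D21.baseChange O z.1) (c • D22.baseChange O z.2)]
      abel
    rw [e, f21, f22, zero_add]

end Kill

/-! ### (a3) `β_p ⊗ 𝒪` is onto on the `𝔪`-primary parts -/

section Onto

variable (𝒪 : Type) [CommRing 𝒪] [IsLocalRing 𝒪] [IsNoetherianRing 𝒪]
  [IsAdicComplete (IsLocalRing.maximalIdeal 𝒪) 𝒪]
variable {N p : ℕ} [hpF : Fact p.Prime] [NeZero N] [NeZero (N * p)]
variable (hpN : ¬ p ∣ N) (Z : Set ℕ)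

omit [IsNoetherianRing 𝒪] [IsAdicComplete (IsLocalRing.maximalIdeal 𝒪) 𝒪] hpF [NeZero (N * p)] in
/-- a pair of `𝔪`-primary vectors is `𝔪`-primary in the product. -/
theorem pair_mem_locPart (lam : Nat.Primes → 𝒪) {x y : 𝒪 ⊗[ℤ] Lam N}
    (hx : x ∈ locPart (mP 𝒪 Z lam) (𝒪 ⊗[ℤ] Lam N))
    (hy : y ∈ locPart (mP 𝒪 Z lam) (𝒪 ⊗[ℤ] Lam N)) :
    ((x, y) : (𝒪 ⊗[ℤ] Lam N) × (𝒪 ⊗[ℤ] Lam N))
      ∈ locPart (mP 𝒪 Z lam) ((𝒪 ⊗[ℤ] Lam N) × (𝒪 ⊗[ℤ] Lam N)) := by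
  rw [mem_locPart] at hx hy ⊢
  intro s hs
  obtain ⟨x', hx'⟩ := hx s hs
  obtain ⟨y', hy'⟩ := hy s hs
  exact ⟨(x', y'), by rw [Prod.smul_mk, hx', hy']⟩

/-- **(I-a) = `hβ'`** : `(cores_p, cores_{p,δ}) ⊗ 𝒪` maps the `𝔪`-primary part of `𝒪 ⊗ Λ_{N p}` ONTO
the square of the `𝔪`-primary part of `𝒪 ⊗ Λ_N` (`p ∉ Z`, `ℓ` = the residue characteristic, odd;
`l0 ∈ Z`, `l0 ∤ N`, non-Eisenstein at `l0`). -/
theorem exists_mem_locPart_betaPO (hpZ : p ∉ Z) (lam : Nat.Primes → 𝒪)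
    {ℓ : ℕ} (hℓ : ℓ.Prime) (hℓ2 : ℓ ≠ 2) (hℓO : (ℓ : 𝒪) ∈ IsLocalRing.maximalIdeal 𝒪)
    (l0 : Nat.Primes) (hl0Z : (l0 : ℕ) ∈ Z) (hl0 : ¬ (l0 : ℕ) ∣ N)
    (hE : IsUnit (lam l0 - (((l0 : ℕ) : 𝒪) + 1))) :
    ∀ x ∈ locPart (mP 𝒪 Z lam) (𝒪 ⊗[ℤ] Lam N), ∀ y ∈ locPart (mP 𝒪 Z lam) (𝒪 ⊗[ℤ] Lam N),
      ∃ w ∈ locPart (mP 𝒪 Z lam) (𝒪 ⊗[ℤ] Lam (N * p)),
        (bP1 hpN).baseChange 𝒪 w = x ∧ (bP2 hpN).baseChange 𝒪 w = y := by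
  have : Module.Finite 𝒪 (𝒪 ⊗[ℤ] Lam N) := finite_tensor_lam' 𝒪 N
  have : Module.Finite 𝒪 (𝒪 ⊗[ℤ] Lam (N * p)) := finite_tensor_lam' 𝒪 (N * p)
  intro x hx y hy
  have hEm : (eisP l0 hl0Z : PAlg 𝒪 Z) ∉ mP 𝒪 Z lam := by
    rw [notMem_mP_iff, evP_eisP]
    exact hE
  obtain ⟨w, hw, hwxy⟩ := exists_locPart_of_kill 𝒪 (mP 𝒪 Z lam) (betaPP hpN 𝒪 Z hpZ)
    (eisP l0 hl0Z : PAlg 𝒪 Z) hEm (ℓ : 𝒪) hℓO
    (fun z => by
      obtain ⟨w, z', hwz⟩ := betaPO_kill hpN hℓ hℓ2 l0 hl0 𝒪 (ℓ : 𝒪) ⟨1, (mul_one _).symm⟩ z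
      refine ⟨w, z', ?_⟩
      rw [betaPP_apply, ← hwz, Prod.smul_def, eisP_smul, eisP_smul])
    (x, y) (pair_mem_locPart 𝒪 Z lam hx hy)
  rw [betaPP_apply] at hwxy
  exact ⟨w, hw, congrArg Prod.fst hwxy, congrArg Prod.snd hwxy⟩

end Onto

end Fermat.Agent.GE9.PNew.Inst.BetaPOnto
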