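/-
GATE-E / RISK-4, instance layer R4-I (helper37), slice (e10) part 1:
`GE9/PNew/Inst/StepMaps.lean` — **the bundled maps of the `p`-new stage step on the local parts,
and the action of `𝕋 = 𝒪[X_l : l ∉ S0]`.**

* `TIdx S0 = {l : ℕ // l.Prime ∧ l ∉ S0}` (= `DepthPlug.PIdx S0`), `ttHom S0 Z hZ :
  MvPolynomial (TIdx S0) 𝒪 →ₐ[𝒪] PAlg 𝒪 Z` (`X_l ↦ x_l`), `ttModule` (the `compHom` structure on
  any `PAlg 𝒪 Z`-module), `tt_smul_def`, `tt_isScalarTower`, `ttHom_X_smul`, `coe_tt_X_smul`;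
* `betaLoc hpN hr lam : L → A₀ × A₀` (`(cores_p, cores_{p,δ}) ⊗ 𝒪` on the `𝔪`-primary parts),
  `castLoc`, `betaLoc' : L' → A₀' × A₀'` (through the level cast), `coe_betaLoc_fst/snd`,
  `betaLoc_tLoc` (**`hcomm`**), `mem_ker_betaLoc_iff` (`ker betaLoc = KNew ⊓ L`).
-/
import Mathlib
import Fermat.Agent.GE9.PNew.Inst.KNew

set_option autoImplicit false
set_option linter.unusedSectionVars false
set_option linter.style.haveILetI false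

noncomputable section

namespace Fermat.Agent.GE9.PNew.Inst

open TensorProduct IsLocalRing
open Fermat.Agent.GJ.J2.Lat Fermat.Agent.GB.B3.Loc Fermat.Agent.GE9.Eta Fermat.Agent.GE9.Eta.Mod
  Fermat.Agent.GE9.Eta.DualIhara2 Fermat.Agent.GM.B
  Fermat.Agent.GE9.PNew.Inst.Beta3Uq Fermat.Agent.GE9.PNew.Inst.PolyLin

/-! ### the action of `𝕋 = 𝒪[X_l : l ∉ S0]` through the polynomial Hecke algebra -/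

section TT

variable (𝒪 : Type) [CommRing 𝒪] (S0 : Finset ℕ) (Z : Set ℕ)
  (hZ : ∀ l : ℕ, l.Prime → l ∉ S0 → l ∈ Z)

/-- the symbols of `𝕋`: the primes outside `S0` (= `DepthPlug.PIdx S0`) -/
abbrev TIdx : Type := {l : ℕ // l.Prime ∧ l ∉ S0}

/-- a symbol of `𝕋` as a prime -/
def tPrime (l : TIdx S0) : Nat.Primes := ⟨l.1, l.2.1⟩

@[simp] theorem coe_tPrime (l : TIdx S0) : ((tPrime S0 l : Nat.Primes) : ℕ) = l.1 := rfl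

include hZ in
theorem tPrime_mem (l : TIdx S0) : ((tPrime S0 l : Nat.Primes) : ℕ) ∈ Z := hZ l.1 l.2.1 l.2.2

/-- `𝕋 → PAlg 𝒪 Z`, `X_l ↦ x_l` -/
def ttHom : MvPolynomial (TIdx S0) 𝒪 →ₐ[𝒪] PAlg 𝒪 Z :=
  MvPolynomial.aeval fun l : TIdx S0 =>
    xP 𝒪 Z (tPrime S0 l) (tPrime_mem S0 Z hZ l)

@[simp] theorem ttHom_X (l : TIdx S0) :
    ttHom 𝒪 S0 Z hZ (MvPolynomial.X l)
      = xP 𝒪 Z (tPrime S0 l) (tPrime_mem S0 Z hZ l) := by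
  rw [ttHom, MvPolynomial.aeval_X]

variable {Z}
variable (Y : Type*) [AddCommGroup Y] [Module (PAlg 𝒪 Z) Y]

/-- the `𝕋`-module structure of a `PAlg 𝒪 Z`-module (NOT an instance: use `letI`) -/
abbrev ttModule : Module (MvPolynomial (TIdx S0) 𝒪) Y :=
  Module.compHom Y (ttHom 𝒪 S0 Z hZ).toRingHom

theorem tt_smul_def (s : MvPolynomial (TIdx S0) 𝒪) (y : Y) :
    letI := ttModule 𝒪 S0 hZ Y
    s • y = ttHom 𝒪 S0 Z hZ s • y := rfl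

theorem tt_isScalarTower [Module 𝒪 Y] [IsScalarTower 𝒪 (PAlg 𝒪 Z) Y] :
    letI := ttModule 𝒪 S0 hZ Y
    IsScalarTower 𝒪 (MvPolynomial (TIdx S0) 𝒪) Y := by
  letI := ttModule 𝒪 S0 hZ Y
  refine ⟨fun c s y => ?_⟩
  show ttHom 𝒪 S0 Z hZ (c • s) • y = c • (ttHom 𝒪 S0 Z hZ s • y)
  rw [map_smul, smul_assoc]

/-- the generators act as the Hecke operators, on `𝒪 ⊗ Λ_M` -/
theorem tt_X_smul {M : ℕ} [NeZero M] (l : TIdx S0) (y : 𝒪 ⊗[ℤ] Lam M) :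
    letI := ttModule 𝒪 S0 hZ (𝒪 ⊗[ℤ] Lam M)
    (MvPolynomial.X l : MvPolynomial (TIdx S0) 𝒪) • y
      = (latT M (tPrime S0 l)).baseChange 𝒪 y := by
  letI := ttModule 𝒪 S0 hZ (𝒪 ⊗[ℤ] Lam M)
  show ttHom 𝒪 S0 Z hZ (MvPolynomial.X l) • y = _
  rw [ttHom_X, xP_smul]

/-- the generators act as the Hecke operators, on a `PAlg 𝒪 Z`-submodule of `𝒪 ⊗ Λ_M` -/
theorem coe_tt_X_smul {M : ℕ} [NeZero M] (V : Submodule (PAlg 𝒪 Z) (𝒪 ⊗[ℤ] Lam M))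
    (l : TIdx S0) (y : ↥V) :
    letI := ttModule 𝒪 S0 hZ ↥V
    (((MvPolynomial.X l : MvPolynomial (TIdx S0) 𝒪) • y : ↥V) : 𝒪 ⊗[ℤ] Lam M)
      = (latT M (tPrime S0 l)).baseChange 𝒪 (y : 𝒪 ⊗[ℤ] Lam M) := by
  letI := ttModule 𝒪 S0 hZ ↥V
  show ((ttHom 𝒪 S0 Z hZ (MvPolynomial.X l) • y : ↥V) : 𝒪 ⊗[ℤ] Lam M) = _
  rw [ttHom_X, Submodule.coe_smul, xP_smul]

/-- the action of `𝕋` on a submodule is the restriction of the action on `𝒪 ⊗ Λ_M` -/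
theorem coe_tt_smul {M : ℕ} [NeZero M] (V : Submodule (PAlg 𝒪 Z) (𝒪 ⊗[ℤ] Lam M))
    (s : MvPolynomial (TIdx S0) 𝒪) (y : ↥V) :
    letI := ttModule 𝒪 S0 hZ ↥V
    ((s • y : ↥V) : 𝒪 ⊗[ℤ] Lam M) = ttHom 𝒪 S0 Z hZ s • (y : 𝒪 ⊗[ℤ] Lam M) := rfl

end TT

/-! ### `β_p` on the local parts -/

section BetaLoc

variable {N p : ℕ} [hpF : Fact p.Prime] [NeZero N] [NeZero (N * p)] (hpN : ¬ p ∣ N)
  {𝒪 : Type} [CommRing 𝒪] [IsLocalRing 𝒪] {Z : Set ℕ} (hr : BetaPEquiv hpN Z)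
  (lam : Nat.Primes → 𝒪)

/-- **`β = (cores_p, cores_{p,δ}) ⊗ 𝒪` on the `𝔪`-primary parts** -/
def betaLoc : ↥(locPart (mP 𝒪 Z lam) (𝒪 ⊗[ℤ] Lam (N * p))) →ₗ[𝒪]
    ↥(locPart (mP 𝒪 Z lam) (𝒪 ⊗[ℤ] Lam N)) × ↥(locPart (mP 𝒪 Z lam) (𝒪 ⊗[ℤ] Lam N)) where
  toFun y := (⟨bp1O hpN 𝒪 (y : 𝒪 ⊗[ℤ] Lam (N * p)), bp1O_mem_locPart hpN hr lam y.2⟩,
    ⟨bp2O hpN 𝒪 (y : 𝒪 ⊗[ℤ] Lam (N * p)), bp2O_mem_locPart hpN hr lam y.2⟩)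
  map_add' y y' := Prod.ext (Subtype.ext (by
      show bp1O hpN 𝒪 ((y : 𝒪 ⊗[ℤ] Lam (N * p)) + (y' : 𝒪 ⊗[ℤ] Lam (N * p))) = _
      rw [map_add]; rfl)) (Subtype.ext (by
      show bp2O hpN 𝒪 ((y : 𝒪 ⊗[ℤ] Lam (N * p)) + (y' : 𝒪 ⊗[ℤ] Lam (N * p))) = _
      rw [map_add]; rfl))
  map_smul' c y := Prod.ext (Subtype.ext (by
      show bp1O hpN 𝒪 (c • (y : 𝒪 ⊗[ℤ] Lam (N * p))) = _
      rw [map_smul]; rfl)) (Subtype.ext (by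
      show bp2O hpN 𝒪 (c • (y : 𝒪 ⊗[ℤ] Lam (N * p))) = _
      rw [map_smul]; rfl))

@[simp] theorem coe_betaLoc_fst (y : ↥(locPart (mP 𝒪 Z lam) (𝒪 ⊗[ℤ] Lam (N * p)))) :
    (((betaLoc hpN hr lam y).1 : ↥(locPart (mP 𝒪 Z lam) (𝒪 ⊗[ℤ] Lam N))) : 𝒪 ⊗[ℤ] Lam N)
      = bp1O hpN 𝒪 (y : 𝒪 ⊗[ℤ] Lam (N * p)) := rfl

@[simp] theorem coe_betaLoc_snd (y : ↥(locPart (mP 𝒪 Z lam) (𝒪 ⊗[ℤ] Lam (N * p)))) :
    (((betaLoc hpN hr lam y).2 : ↥(locPart (mP 𝒪 Z lam) (𝒪 ⊗[ℤ] Lam N))) : 𝒪 ⊗[ℤ] Lam N)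
      = bp2O hpN 𝒪 (y : 𝒪 ⊗[ℤ] Lam (N * p)) := rfl

/-- `ker β = KNew ⊓ L` -/
theorem mem_ker_betaLoc_iff (y : ↥(locPart (mP 𝒪 Z lam) (𝒪 ⊗[ℤ] Lam (N * p)))) :
    y ∈ LinearMap.ker (betaLoc hpN hr lam) ↔ (y : 𝒪 ⊗[ℤ] Lam (N * p)) ∈ KNew hpN 𝒪 := by
  rw [LinearMap.mem_ker, mem_KNew, Prod.ext_iff]
  constructor
  · rintro ⟨h1, h2⟩
    exact ⟨congrArg Subtype.val h1, congrArg Subtype.val h2⟩
  · rintro ⟨h1, h2⟩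
    exact ⟨Subtype.ext h1, Subtype.ext h2⟩

/-- `β` commutes with the algebra -/
theorem betaLoc_smulP (a : PAlg 𝒪 Z) (y : ↥(locPart (mP 𝒪 Z lam) (𝒪 ⊗[ℤ] Lam (N * p)))) :
    betaLoc hpN hr lam (a • y) = (a • (betaLoc hpN hr lam y).1, a • (betaLoc hpN hr lam y).2) :=
  Prod.ext (Subtype.ext ((bp1P (𝒪 := 𝒪) hpN hr).map_smul a _))
    (Subtype.ext ((bp2P (𝒪 := 𝒪) hpN hr).map_smul a _))

end BetaLoc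

/-! ### the upper level: `β'` through the level cast, and `hcomm` -/

section Comm

variable {N p q : ℕ} [hpF : Fact p.Prime] [hqF : Fact q.Prime]
  [NeZero N] [NeZero (N * q)] [NeZero (N * q * q)]
  [NeZero (N * p)] [NeZero (N * p * q)] [NeZero (N * p * q * q)] [NeZero (N * q * q * p)]
  {𝒪 : Type} [CommRing 𝒪] [IsLocalRing 𝒪] {Z' : Set ℕ} (lam : Nat.Primes → 𝒪)

/-- the level cast is linear for the whole algebra -/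
def castP : 𝒪 ⊗[ℤ] Lam (N * p * q * q) →ₗ[PAlg 𝒪 Z'] 𝒪 ⊗[ℤ] Lam (N * q * q * p) :=
  linP (lamCastO (N := N) (p := p) (q := q) 𝒪) fun l _ x => lamCastO_latT l x

/-- the level cast on the `𝔪'`-primary parts -/
def castLoc : ↥(locPart (mP 𝒪 Z' lam) (𝒪 ⊗[ℤ] Lam (N * p * q * q))) →ₗ[𝒪]
    ↥(locPart (mP 𝒪 Z' lam) (𝒪 ⊗[ℤ] Lam (N * q * q * p))) where
  toFun y := ⟨lamCastO 𝒪 (y : 𝒪 ⊗[ℤ] Lam (N * p * q * q)),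
    apply_mem_locPart (castP (N := N) (p := p) (q := q) (Z' := Z')) y.2⟩
  map_add' y y' := Subtype.ext (by
    show lamCastO 𝒪 ((y : 𝒪 ⊗[ℤ] Lam (N * p * q * q)) + (y' : 𝒪 ⊗[ℤ] Lam (N * p * q * q))) = _
    rw [map_add]; rfl)
  map_smul' c y := Subtype.ext (by
    show lamCastO 𝒪 (c • (y : 𝒪 ⊗[ℤ] Lam (N * p * q * q))) = _
    rw [map_smul]; rfl)

@[simp] theorem coe_castLoc (y : ↥(locPart (mP 𝒪 Z' lam) (𝒪 ⊗[ℤ] Lam (N * p * q * q)))) :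
    ((castLoc lam y : ↥(locPart (mP 𝒪 Z' lam) (𝒪 ⊗[ℤ] Lam (N * q * q * p)))) :
      𝒪 ⊗[ℤ] Lam (N * q * q * p)) = lamCastO 𝒪 (y : 𝒪 ⊗[ℤ] Lam (N * p * q * q)) := rfl

variable (hpNqq : ¬ p ∣ N * q * q) (hr' : BetaPEquiv hpNqq Z')

/-- **`β'`** : `(cores_p, cores_{p,δ}) ⊗ 𝒪` at the upper level, through the level cast -/
def betaLoc' : ↥(locPart (mP 𝒪 Z' lam) (𝒪 ⊗[ℤ] Lam (N * p * q * q))) →ₗ[𝒪]
    ↥(locPart (mP 𝒪 Z' lam) (𝒪 ⊗[ℤ] Lam (N * q * q)))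
      × ↥(locPart (mP 𝒪 Z' lam) (𝒪 ⊗[ℤ] Lam (N * q * q))) :=
  betaLoc hpNqq hr' lam ∘ₗ castLoc lam

theorem coe_betaLoc'_fst (y : ↥(locPart (mP 𝒪 Z' lam) (𝒪 ⊗[ℤ] Lam (N * p * q * q)))) :
    (((betaLoc' lam hpNqq hr' y).1 : ↥(locPart (mP 𝒪 Z' lam) (𝒪 ⊗[ℤ] Lam (N * q * q)))) :
      𝒪 ⊗[ℤ] Lam (N * q * q))
      = bp1O hpNqq 𝒪 (lamCastO 𝒪 (y : 𝒪 ⊗[ℤ] Lam (N * p * q * q))) := rfl

theorem coe_betaLoc'_snd (y : ↥(locPart (mP 𝒪 Z' lam) (𝒪 ⊗[ℤ] Lam (N * p * q * q)))) :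
    (((betaLoc' lam hpNqq hr' y).2 : ↥(locPart (mP 𝒪 Z' lam) (𝒪 ⊗[ℤ] Lam (N * q * q)))) :
      𝒪 ⊗[ℤ] Lam (N * q * q))
      = bp2O hpNqq 𝒪 (lamCastO 𝒪 (y : 𝒪 ⊗[ℤ] Lam (N * p * q * q))) := rfl

/-- `ker β' = cast⁻¹ KNew ⊓ L'` -/
theorem mem_ker_betaLoc'_iff (y : ↥(locPart (mP 𝒪 Z' lam) (𝒪 ⊗[ℤ] Lam (N * p * q * q)))) :
    y ∈ LinearMap.ker (betaLoc' lam hpNqq hr') ↔
      lamCastO 𝒪 (y : 𝒪 ⊗[ℤ] Lam (N * p * q * q)) ∈ KNew hpNqq 𝒪 := by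
  rw [betaLoc', LinearMap.mem_ker, LinearMap.comp_apply, ← LinearMap.mem_ker,
    mem_ker_betaLoc_iff]
  rfl

end Comm

section HComm

variable {N p q : ℕ} [hpF : Fact p.Prime] [hqF : Fact q.Prime]
  [NeZero N] [NeZero (N * q)] [NeZero (N * q * q)]
  [NeZero (N * p)] [NeZero (N * p * q)] [NeZero (N * p * q * q)] [NeZero (N * q * q * p)]
  {𝒪 : Type} [CommRing 𝒪] [IsLocalRing 𝒪] [IsNoetherianRing 𝒪]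
  [IsAdicComplete (maximalIdeal 𝒪) 𝒪]
  (Z : Set ℕ) (lam : Nat.Primes → 𝒪) (hqZ : q ∉ Z)
  (hpN : ¬ p ∣ N) (hqN : ¬ q ∣ N) (hqNp : ¬ q ∣ N * p) (hpNqq : ¬ p ∣ N * q * q)
  (hr : BetaPEquiv hpN Z) (hr' : BetaPEquiv hpNqq (insert q Z))

/-- **`hcomm`** : `β (t y) = (t_N (β' y).1, t_N (β' y).2)`. -/
theorem betaLoc_tLoc
    (y : ↥(locPart (mP 𝒪 (insert q Z) lam) (𝒪 ⊗[ℤ] Lam (N * p * q * q)))) :
    betaLoc hpN hr lam (tLoc hqNp Z lam hqZ y)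
      = (tLoc hqN Z lam hqZ (betaLoc' lam hpNqq hr' y).1,
         tLoc hqN Z lam hqZ (betaLoc' lam hpNqq hr' y).2) := by
  refine Prod.ext (Subtype.ext ?_) (Subtype.ext ?_)
  · show bp1O hpN 𝒪 (beO hqNp 𝒪 0 (y : 𝒪 ⊗[ℤ] Lam (N * p * q * q)))
      = beO hqN 𝒪 0 (bp1O hpNqq 𝒪 (lamCastO 𝒪 (y : 𝒪 ⊗[ℤ] Lam (N * p * q * q))))
    exact bp1O_beO hpN hqN hqNp hpNqq 0 _
  · show bp2O hpN 𝒪 (beO hqNp 𝒪 0 (y : 𝒪 ⊗[ℤ] Lam (N * p * q * q)))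
      = beO hqN 𝒪 0 (bp2O hpNqq 𝒪 (lamCastO 𝒪 (y : 𝒪 ⊗[ℤ] Lam (N * p * q * q))))
    exact bp2O_beO hpN hqN hqNp hpNqq 0 _

end HComm

end Fermat.Agent.GE9.PNew.Inst

end
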