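/-
GATE-E / RISK-4, instance layer R4-I, slice (e10) (helper16): `GE9/PNew/Inst/OmegaK.lean` —
**the stage invariant `omegaCardNew` (congruence module of the joint eigen-sublattice inside the
UNLOCALISED `p`-new part `KNew`) computed on the kernel of `betaLoc` in the `𝔪`-primary part.**

The growth theorem of the `p`-new step (`StepNewFinal.card_congMod_ker_growth_of_flModules`) ends in
the spelling `#CongMod (B.compl₁₂ ι ι) (span bK)` with `ι : K₀ → L`, `range ι = ker β`, where at the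
instance `L = locPart (mP 𝒪 Z lam) (𝒪 ⊗ Λ_{N p})`, `B = FormLoc.BL`, `β = betaLoc`.  The invariant of
record is `omegaCardNew hpN 𝒪 lam₀` on `↥KNew`.  They agree:

* `exists_add_of_mem_KNew` : the `𝔪`-primary and the away components of a `p`-new element are `p`-new
  (`β_p ⊗ 𝒪` is linear for the polynomial Hecke algebra);
* `kerIncl ι hι : K₀ →ₗ[𝒪] ↥KNew`, `coe_kerIncl`, `range_kerIncl_sup`, `BWNew_kerIncl_away`;
* `eigenNew_eq_span` : `eigenNew = span` of a `p`-new basis of the joint eigen-sublattice;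
* **`omegaCardNew_eq_card_ker`** : `omegaCardNew hpN 𝒪 lam₀ = #CongMod ((BL …).compl₁₂ ι ι) (span bK)`;
* the level cast `castO (h : M = M')` over `𝒪` (`castO_castO`, `BW_castO`, `castO_latT`,
  `castO_mem_eigen_iff`, `castO_mem_locPart`), `lamCastO_eq_castO`, `omegaCardNew_congr`;
* **`omegaCardNew_eq_card_ker_cast`** : the same at the upper level `Λ_{N p q q}` through the level
  cast, for the kernel of `betaLoc'`.
-/
import Mathlib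
import Fermat.Agent.GE9.PNew.Inst.StepMaps
import Fermat.Agent.GE9.PNew.Inst.FormLoc
import Fermat.Agent.GE9.Eta.OmegaLoc

set_option autoImplicit false
set_option linter.unusedSectionVars false
set_option linter.style.haveILetI false

open scoped TensorProduct

noncomputable section

namespace Fermat.Agent.GE9.PNew.Inst.OmegaK

open IsLocalRing Submodule
open Fermat.Agent.GJ.J2.Lat Fermat.Agent.GB.B3.Loc Fermat.Agent.GE9.Eta.Mod Fermat.Agent.GE9.Eta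
  Fermat.Agent.GE9.Eta.LocLam Fermat.Agent.GE9.Mult1 Fermat.Agent.GE9.PNew.Inst
  Fermat.Agent.GE9.PNew.Inst.FormLoc Fermat.Agent.GE9.Eta.DualIhara2

/-! ### the primary and the away components of a `p`-new element -/

section Decomp

variable {N p : ℕ} [hpF : Fact p.Prime] [NeZero N] [NeZero (N * p)] (hpN : ¬ p ∣ N)
  {𝒪 : Type} [CommRing 𝒪] [IsLocalRing 𝒪] [IsNoetherianRing 𝒪]
  [IsAdicComplete (maximalIdeal 𝒪) 𝒪]
  {Z : Set ℕ} (hr : BetaPEquiv hpN Z) (lam : Nat.Primes → 𝒪)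

/-- a linear map for the polynomial algebra that kills `x₁ + x₂` (`x₁` primary, `x₂` away) kills
both. -/
theorem eq_zero_of_add {M M' : ℕ} [NeZero M] [NeZero M']
    (f : 𝒪 ⊗[ℤ] Lam M →ₗ[PAlg 𝒪 Z] 𝒪 ⊗[ℤ] Lam M') {x₁ x₂ : 𝒪 ⊗[ℤ] Lam M}
    (h₁ : x₁ ∈ locPart (mP 𝒪 Z lam) (𝒪 ⊗[ℤ] Lam M))
    (h₂ : x₂ ∈ awayPart (mP 𝒪 Z lam) (𝒪 ⊗[ℤ] Lam M)) (h : f (x₁ + x₂) = 0) :
    f x₁ = 0 ∧ f x₂ = 0 := by
  haveI := finite_tensor_lam' 𝒪 M'
  have hcompl := isCompl_locPart_awayPart 𝒪 (L := 𝒪 ⊗[ℤ] Lam M') (mP 𝒪 Z lam)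
  have hf₁ : f x₁ ∈ locPart (mP 𝒪 Z lam) (𝒪 ⊗[ℤ] Lam M') := apply_mem_locPart f h₁
  have hf₂ : f x₂ ∈ awayPart (mP 𝒪 Z lam) (𝒪 ⊗[ℤ] Lam M') := apply_mem_awayPart f h₂
  rw [map_add] at h
  have h12 : f x₁ = -f x₂ := eq_neg_of_add_eq_zero_left h
  have hmem : f x₁ ∈ locPart (mP 𝒪 Z lam) (𝒪 ⊗[ℤ] Lam M') ⊓
      awayPart (mP 𝒪 Z lam) (𝒪 ⊗[ℤ] Lam M') :=
    ⟨hf₁, by rw [h12]; exact Submodule.neg_mem _ hf₂⟩
  rw [hcompl.inf_eq_bot, Submodule.mem_bot] at hmem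
  refine ⟨hmem, ?_⟩
  rw [hmem, zero_add] at h
  exact h

include hr in
/-- **the primary and the away components of a `p`-new element are `p`-new.** -/
theorem exists_add_of_mem_KNew {k : 𝒪 ⊗[ℤ] Lam (N * p)} (hk : k ∈ KNew hpN 𝒪) :
    ∃ k₁ k₂ : 𝒪 ⊗[ℤ] Lam (N * p),
      k₁ ∈ locPart (mP 𝒪 Z lam) (𝒪 ⊗[ℤ] Lam (N * p)) ∧
      k₂ ∈ awayPart (mP 𝒪 Z lam) (𝒪 ⊗[ℤ] Lam (N * p)) ∧
      k₁ ∈ KNew hpN 𝒪 ∧ k₂ ∈ KNew hpN 𝒪 ∧ k₁ + k₂ = k := by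
  haveI := finite_tensor_lam' 𝒪 (N * p)
  have hcompl := isCompl_locPart_awayPart 𝒪 (L := 𝒪 ⊗[ℤ] Lam (N * p)) (mP 𝒪 Z lam)
  have hk' : k ∈ locPart (mP 𝒪 Z lam) (𝒪 ⊗[ℤ] Lam (N * p)) ⊔
      awayPart (mP 𝒪 Z lam) (𝒪 ⊗[ℤ] Lam (N * p)) := by
    rw [hcompl.sup_eq_top]; trivial
  obtain ⟨k₁, hk₁, k₂, hk₂, rfl⟩ := Submodule.mem_sup.1 hk'
  rw [mem_KNew] at hk
  have h1 := eq_zero_of_add lam (bp1P hpN hr) hk₁ hk₂ (by rw [bp1P_apply]; exact hk.1)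
  have h2 := eq_zero_of_add lam (bp2P hpN hr) hk₁ hk₂ (by rw [bp2P_apply]; exact hk.2)
  refine ⟨k₁, k₂, hk₁, hk₂, ?_, ?_, rfl⟩
  · rw [mem_KNew]
    exact ⟨h1.1, h2.1⟩
  · rw [mem_KNew]
    exact ⟨h1.2, h2.2⟩

end Decomp

/-! ### the kernel of `betaLoc` inside the unlocalised `p`-new part -/

section Ker

variable {N p : ℕ} [hpF : Fact p.Prime] [NeZero N] [NeZero (N * p)] (hpN : ¬ p ∣ N)
  {𝒪 : Type} [CommRing 𝒪] [IsLocalRing 𝒪] [IsNoetherianRing 𝒪]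
  [IsAdicComplete (maximalIdeal 𝒪) 𝒪]
  {Z : Set ℕ} (hr : BetaPEquiv hpN Z) (lam : Nat.Primes → 𝒪)
  {K₀ : Type*} [AddCommGroup K₀] [Module 𝒪 K₀]
  (ι : K₀ →ₗ[𝒪] ↥(locPart (mP 𝒪 Z lam) (𝒪 ⊗[ℤ] Lam (N * p))))
  (hι : LinearMap.range ι = LinearMap.ker (betaLoc hpN hr lam))

include hι in
theorem coe_mem_KNew (k : K₀) :
    ((ι k : ↥(locPart (mP 𝒪 Z lam) (𝒪 ⊗[ℤ] Lam (N * p)))) : 𝒪 ⊗[ℤ] Lam (N * p)) ∈ KNew hpN 𝒪 := by
  rw [← mem_ker_betaLoc_iff hpN hr lam, ← hι]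
  exact ⟨k, rfl⟩

/-- a presentation `ι : K₀ → L` of the kernel of `betaLoc`, as a map into the unlocalised `p`-new
part. -/
def kerIncl : K₀ →ₗ[𝒪] ↥(KNew hpN 𝒪) :=
  LinearMap.codRestrict (KNew hpN 𝒪)
    (((locPart (mP 𝒪 Z lam) (𝒪 ⊗[ℤ] Lam (N * p))).subtype.restrictScalars 𝒪) ∘ₗ ι)
    (fun k => coe_mem_KNew hpN hr lam ι hι k)

@[simp] theorem coe_kerIncl (k : K₀) :
    ((kerIncl hpN hr lam ι hι k : ↥(KNew hpN 𝒪)) : 𝒪 ⊗[ℤ] Lam (N * p))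
      = ((ι k : ↥(locPart (mP 𝒪 Z lam) (𝒪 ⊗[ℤ] Lam (N * p)))) : 𝒪 ⊗[ℤ] Lam (N * p)) := rfl

/-- the away part of the unlocalised `p`-new part -/
def awayNew : Submodule 𝒪 ↥(KNew hpN 𝒪) :=
  ((awayPart (mP 𝒪 Z lam) (𝒪 ⊗[ℤ] Lam (N * p))).restrictScalars 𝒪).comap (KNew hpN 𝒪).subtype

theorem mem_awayNew (k : ↥(KNew hpN 𝒪)) :
    k ∈ awayNew hpN (Z := Z) lam ↔
      (k : 𝒪 ⊗[ℤ] Lam (N * p)) ∈ awayPart (mP 𝒪 Z lam) (𝒪 ⊗[ℤ] Lam (N * p)) := Iff.rfl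

/-- `KNew = (KNew ⊓ L) ⊕ (KNew ⊓ away)` -/
theorem range_kerIncl_sup :
    LinearMap.range (kerIncl hpN hr lam ι hι) ⊔ awayNew hpN (Z := Z) lam = ⊤ := by
  rw [eq_top_iff]
  rintro ⟨k, hk⟩ -
  obtain ⟨k₁, k₂, hk₁, hk₂, hk₁K, hk₂K, rfl⟩ := exists_add_of_mem_KNew hpN hr lam hk
  have hker : (⟨k₁, hk₁⟩ : ↥(locPart (mP 𝒪 Z lam) (𝒪 ⊗[ℤ] Lam (N * p))))
      ∈ LinearMap.ker (betaLoc hpN hr lam) := by
    rw [mem_ker_betaLoc_iff]
    exact hk₁K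
  rw [← hι] at hker
  obtain ⟨k₀, hk₀⟩ := hker
  have h1 : (⟨k₁, hk₁K⟩ : ↥(KNew hpN 𝒪)) ∈ LinearMap.range (kerIncl hpN hr lam ι hι) := by
    refine ⟨k₀, Subtype.ext ?_⟩
    rw [coe_kerIncl, hk₀]
  have h2 : (⟨k₂, hk₂K⟩ : ↥(KNew hpN 𝒪)) ∈ awayNew hpN (Z := Z) lam := hk₂
  have hsum : (⟨k₁ + k₂, hk⟩ : ↥(KNew hpN 𝒪)) = ⟨k₁, hk₁K⟩ + ⟨k₂, hk₂K⟩ := rfl
  rw [hsum]
  exact Submodule.add_mem _ (Submodule.mem_sup_left h1) (Submodule.mem_sup_right h2)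

/-- the two summands are orthogonal -/
theorem BWNew_kerIncl_away (x : K₀) (y : ↥(KNew hpN 𝒪)) (hy : y ∈ awayNew hpN (Z := Z) lam) :
    BWNew hpN 𝒪 (kerIncl hpN hr lam ι hι x) y = 0 := by
  haveI := finite_tensor_lam' 𝒪 (N * p)
  exact (Fermat.Agent.GE9.Eta.Loc.apply_eq_zero_of_mem_locPart_of_mem_awayPart (mP 𝒪 Z lam)
    (BW (N * p) 𝒪) (fun a x y => BW_smulP a x y) (ι x).2 hy).1

/-- the restricted form is the form of the primary part -/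
theorem BWNew_kerIncl (x y : K₀) :
    ((BL (N * p) Z lam).compl₁₂ ι ι) x y
      = BWNew hpN 𝒪 (kerIncl hpN hr lam ι hι x) (kerIncl hpN hr lam ι hι y) := rfl

end Ker

/-! ### the joint eigen-sublattice inside the `p`-new part -/

section Eigen

variable {N p : ℕ} [hpF : Fact p.Prime] [NeZero N] [NeZero (N * p)] (hpN : ¬ p ∣ N)
  {𝒪 : Type} [CommRing 𝒪]

/-- `eigenNew` is the span of a `p`-new basis of the joint eigen-sublattice. -/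
theorem eigenNew_eq_span (lam₀ : Nat.Primes → 𝒪) {κ : Type*} (b : κ → 𝒪 ⊗[ℤ] Lam (N * p))
    (hspan : span 𝒪 (Set.range b) = eigenTensorO (N * p) 𝒪 lam₀)
    (bN : κ → ↥(KNew hpN 𝒪)) (hbN : ∀ i, ((bN i : ↥(KNew hpN 𝒪)) : 𝒪 ⊗[ℤ] Lam (N * p)) = b i) :
    eigenNew hpN 𝒪 lam₀ = span 𝒪 (Set.range bN) := by
  have hmap : (span 𝒪 (Set.range bN)).map (KNew hpN 𝒪).subtype = span 𝒪 (Set.range b) := by
    rw [Submodule.map_span, ← Set.range_comp]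
    congr 2
    funext i
    exact hbN i
  rw [eigenNew, ← hspan, ← hmap,
    Submodule.comap_map_eq_of_injective (KNew hpN 𝒪).injective_subtype]

end Eigen

/-! ### `omegaCardNew` on the kernel of `betaLoc` -/

section Main

variable {N p : ℕ} [hpF : Fact p.Prime] [NeZero N] [NeZero (N * p)] (hpN : ¬ p ∣ N)
  {𝒪 : Type} [CommRing 𝒪] [IsLocalRing 𝒪] [IsNoetherianRing 𝒪]
  [IsAdicComplete (maximalIdeal 𝒪) 𝒪]
  {Z : Set ℕ} (hr : BetaPEquiv hpN Z) (lam : Nat.Primes → 𝒪)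
  {K₀ : Type*} [AddCommGroup K₀] [Module 𝒪 K₀]

/-- **the stage invariant of the `p`-new module side, computed on the kernel of `betaLoc`**:
`omegaCardNew hpN 𝒪 lam₀ = #CongMod ((BL (N p) Z lam).compl₁₂ ι ι) (span bK)` for any presentation
`ι : K₀ → L` of `ker betaLoc` and any family `bK` lifting a basis `b` of the joint eigen-sublattice
`eigenTensorO (N p) 𝒪 lam₀`. -/
theorem omegaCardNew_eq_card_ker (lam₀ : Nat.Primes → 𝒪) {κ : Type*}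
    (b : κ → 𝒪 ⊗[ℤ] Lam (N * p))
    (hspan : span 𝒪 (Set.range b) = eigenTensorO (N * p) 𝒪 lam₀)
    (ι : K₀ →ₗ[𝒪] ↥(locPart (mP 𝒪 Z lam) (𝒪 ⊗[ℤ] Lam (N * p))))
    (hι : LinearMap.range ι = LinearMap.ker (betaLoc hpN hr lam))
    (bK : κ → K₀)
    (hbK : ∀ i, ((ι (bK i) : ↥(locPart (mP 𝒪 Z lam) (𝒪 ⊗[ℤ] Lam (N * p)))) :
      𝒪 ⊗[ℤ] Lam (N * p)) = b i) :
    omegaCardNew hpN 𝒪 lam₀
      = Nat.card (CongMod ((BL (N * p) Z lam).compl₁₂ ι ι) (span 𝒪 (Set.range bK))) := by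
  have h1 : eigenNew hpN 𝒪 lam₀ = span 𝒪 (Set.range (kerIncl hpN hr lam ι hι ∘ bK)) :=
    eigenNew_eq_span hpN lam₀ b hspan (kerIncl hpN hr lam ι hι ∘ bK) (fun i => by
      rw [Function.comp_apply, coe_kerIncl, hbK])
  rw [omegaCardNew, h1]
  exact Fermat.Agent.GE9.Eta.OmegaLoc.card_congMod_span (BWNew hpN 𝒪)
    ((BL (N * p) Z lam).compl₁₂ ι ι) (kerIncl hpN hr lam ι hι) (awayNew hpN (Z := Z) lam)
    (range_kerIncl_sup hpN hr lam ι hι)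
    (fun x y hy => BWNew_kerIncl_away hpN hr lam ι hι x y hy)
    (fun x y => BWNew_kerIncl hpN hr lam ι hι x y) bK

end Main

/-! ### the level cast over `𝒪` -/

section Cast

variable (𝒪 : Type) [CommRing 𝒪]

/-- the level cast over `𝒪`, along any equality of levels -/
def castO {M M' : ℕ} (h : M = M') : 𝒪 ⊗[ℤ] Lam M →ₗ[𝒪] 𝒪 ⊗[ℤ] Lam M' :=
  ((lamCast h : Lam M ≃ₗ[ℤ] Lam M') : Lam M →ₗ[ℤ] Lam M').baseChange 𝒪

variable {𝒪}

theorem castO_rfl {M : ℕ} (x : 𝒪 ⊗[ℤ] Lam M) : castO 𝒪 (rfl : M = M) x = x := by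
  show (LinearMap.id : Lam M →ₗ[ℤ] Lam M).baseChange 𝒪 x = x
  rw [LinearMap.baseChange_id]
  rfl

theorem lamCastO_eq_castO {N p q : ℕ} (x : 𝒪 ⊗[ℤ] Lam (N * p * q * q)) :
    lamCastO (N := N) (p := p) (q := q) 𝒪 x = castO 𝒪 (level_eq N p q) x := rfl

theorem castO_castO {M M' : ℕ} (h : M = M') (h' : M' = M) (x : 𝒪 ⊗[ℤ] Lam M) :
    castO 𝒪 h' (castO 𝒪 h x) = x := by
  subst h
  rw [castO_rfl, castO_rfl]

theorem BW_castO {M M' : ℕ} [NeZero M] [NeZero M'] (h : M = M') (x y : 𝒪 ⊗[ℤ] Lam M) :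
    BW M' 𝒪 (castO 𝒪 h x) (castO 𝒪 h y) = BW M 𝒪 x y := by
  subst h
  rw [castO_rfl, castO_rfl]

theorem castO_latT {M M' : ℕ} [NeZero M] [NeZero M'] (h : M = M') (l : Nat.Primes)
    (x : 𝒪 ⊗[ℤ] Lam M) :
    castO 𝒪 h ((latT M l).baseChange 𝒪 x) = (latT M' l).baseChange 𝒪 (castO 𝒪 h x) := by
  subst h
  rw [castO_rfl, castO_rfl]

theorem castO_mem_eigen_iff {M M' : ℕ} [NeZero M] [NeZero M'] (h : M = M')
    (lam₀ : Nat.Primes → 𝒪) (x : 𝒪 ⊗[ℤ] Lam M) :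
    castO 𝒪 h x ∈ eigenTensorO M' 𝒪 lam₀ ↔ x ∈ eigenTensorO M 𝒪 lam₀ := by
  subst h
  rw [castO_rfl]

theorem map_castO_eigen {M M' : ℕ} [NeZero M] [NeZero M'] (h : M = M')
    (lam₀ : Nat.Primes → 𝒪) :
    (eigenTensorO M 𝒪 lam₀).map (castO 𝒪 h) = eigenTensorO M' 𝒪 lam₀ := by
  ext y
  constructor
  · rintro ⟨x, hx, rfl⟩
    exact (castO_mem_eigen_iff h lam₀ x).2 hx
  · intro hy
    refine ⟨castO 𝒪 h.symm y, (castO_mem_eigen_iff h lam₀ _).1 ?_, castO_castO h.symm h y⟩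
    rw [castO_castO h.symm h]
    exact hy

theorem castO_mem_locPart [IsLocalRing 𝒪] {M M' : ℕ} [NeZero M] [NeZero M'] (h : M = M')
    (Z : Set ℕ) (lam : Nat.Primes → 𝒪) {x : 𝒪 ⊗[ℤ] Lam M}
    (hx : x ∈ locPart (mP 𝒪 Z lam) (𝒪 ⊗[ℤ] Lam M)) :
    castO 𝒪 h x ∈ locPart (mP 𝒪 Z lam) (𝒪 ⊗[ℤ] Lam M') := by
  subst h
  rw [castO_rfl]
  exact hx

/-- the invariant does not see the spelling of the level -/
theorem omegaCardNew_congr {N N' p : ℕ} [hpF : Fact p.Prime] [NeZero N] [NeZero (N * p)]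
    [NeZero N'] [NeZero (N' * p)] (h : N = N') (hpN : ¬ p ∣ N) (hpN' : ¬ p ∣ N')
    (lam₀ : Nat.Primes → 𝒪) : omegaCardNew hpN 𝒪 lam₀ = omegaCardNew hpN' 𝒪 lam₀ := by
  subst h
  rfl

end Cast

/-! ### the upper level, through the level cast -/

section Upper

variable {N p q : ℕ} [hpF : Fact p.Prime] [hqF : Fact q.Prime]
  [NeZero N] [NeZero (N * q)] [NeZero (N * q * q)]
  [NeZero (N * p)] [NeZero (N * p * q)] [NeZero (N * p * q * q)] [NeZero (N * q * q * p)]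
  {𝒪 : Type} [CommRing 𝒪] [IsLocalRing 𝒪] [IsNoetherianRing 𝒪]
  [IsAdicComplete (maximalIdeal 𝒪) 𝒪]
  {Z' : Set ℕ} (lam : Nat.Primes → 𝒪) (hpNqq : ¬ p ∣ N * q * q) (hr' : BetaPEquiv hpNqq Z')
  {K₀' : Type*} [AddCommGroup K₀'] [Module 𝒪 K₀']

/-- the level cast is onto on the primary parts -/
theorem castLoc_surjective :
    Function.Surjective (castLoc (N := N) (p := p) (q := q) (Z' := Z') lam) := by
  rintro ⟨y, hy⟩
  refine ⟨⟨castO 𝒪 (level_eq N p q).symm y,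
    castO_mem_locPart (level_eq N p q).symm Z' lam hy⟩, Subtype.ext ?_⟩
  rw [coe_castLoc, lamCastO_eq_castO]
  exact castO_castO (level_eq N p q).symm (level_eq N p q) y

/-- **the stage invariant at the upper level `N q² p`, computed on the kernel of `betaLoc'`** inside
the `𝔪`-primary part of `𝒪 ⊗ Λ_{N p q q}` (the level literal of the step at level `N p`). -/
theorem omegaCardNew_eq_card_ker_cast (lam₀ : Nat.Primes → 𝒪) {κ : Type*}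
    (b' : κ → 𝒪 ⊗[ℤ] Lam (N * p * q * q))
    (hspan' : span 𝒪 (Set.range b') = eigenTensorO (N * p * q * q) 𝒪 lam₀)
    (ι' : K₀' →ₗ[𝒪] ↥(locPart (mP 𝒪 Z' lam) (𝒪 ⊗[ℤ] Lam (N * p * q * q))))
    (hι' : LinearMap.range ι' = LinearMap.ker (betaLoc' lam hpNqq hr'))
    (bK' : κ → K₀')
    (hbK' : ∀ i, ((ι' (bK' i) : ↥(locPart (mP 𝒪 Z' lam) (𝒪 ⊗[ℤ] Lam (N * p * q * q)))) :
      𝒪 ⊗[ℤ] Lam (N * p * q * q)) = b' i) :
    omegaCardNew hpNqq 𝒪 lam₀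
      = Nat.card (CongMod ((BL (N * p * q * q) Z' lam).compl₁₂ ι' ι')
          (span 𝒪 (Set.range bK'))) := by
  have hspan : span 𝒪 (Set.range (fun i => lamCastO (N := N) (p := p) (q := q) 𝒪 (b' i)))
      = eigenTensorO (N * q * q * p) 𝒪 lam₀ := by
    have h1 : (fun i => lamCastO (N := N) (p := p) (q := q) 𝒪 (b' i))
        = castO 𝒪 (level_eq N p q) ∘ b' := rfl
    rw [h1, Set.range_comp, ← Submodule.map_span, hspan', map_castO_eigen]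
  have hι : LinearMap.range (castLoc (N := N) (p := p) (q := q) (Z' := Z') lam ∘ₗ ι')
      = LinearMap.ker (betaLoc hpNqq hr' lam) := by
    rw [LinearMap.range_comp, hι', betaLoc', LinearMap.ker_comp,
      Submodule.map_comap_eq_of_surjective (castLoc_surjective lam)]
  have hform : (BL (N * q * q * p) Z' lam).compl₁₂
        (castLoc (N := N) (p := p) (q := q) (Z' := Z') lam ∘ₗ ι')
        (castLoc (N := N) (p := p) (q := q) (Z' := Z') lam ∘ₗ ι')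
      = (BL (N * p * q * q) Z' lam).compl₁₂ ι' ι' := by
    refine LinearMap.ext fun x => LinearMap.ext fun y => ?_
    show BW (N * q * q * p) 𝒪 (castO 𝒪 (level_eq N p q) _) (castO 𝒪 (level_eq N p q) _) = _
    rw [BW_castO]
    rfl
  rw [omegaCardNew_eq_card_ker hpNqq hr' lam lam₀
    (fun i => lamCastO (N := N) (p := p) (q := q) 𝒪 (b' i)) hspan
    (castLoc (N := N) (p := p) (q := q) (Z' := Z') lam ∘ₗ ι') hι bK'
    (fun i => by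
      rw [LinearMap.comp_apply, coe_castLoc, hbK']),
    hform]

end Upper

end Fermat.Agent.GE9.PNew.Inst.OmegaK

end
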