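/-
GATE-E / RISK-4, instance layer R4-I, slice (e10) (helper73, with helper37): **the carrier +
numerics of ONE step of the induction over `Σ`, STRICT-ORDINARY case, branch (b) (`p ∤ M`, the
`p`-new quotient at the level `M p`), for an ABSTRACT stage** — the `Pkg`-free body of helper33's
`GE/Engine/StepSO.StepSupplySO` at the `p`-new carrier; SO(b) twin of `GE9/Stage/Supply`.

`Y : RTNum ρbar 𝒟 d` is a stage at the level `Y.rt.N = N₁ p` (`N₁ = M ∏_{x ∈ Sg} x²`) with the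
CONSTANT Hecke set `↑S0`, `#Ω = omegaCardNew hpN₁ 𝒪 lam₁` and the eigenvalues `lam ℓ` at its modular
point; the next stage lives at the level `N p` (`N = N₁ q²`) with the system `lam'`.  From

* helper3 `CarrierK.exists_carrier_KNew` : the carrier `T'` on the `p`-new part with (M1) and the
  kill clause; `hnd` from helper21's `KNewNd.hnd_BWNew`;
* helper39 `HannImg` : `KNew ⊆ 𝒪 ⊗ LamNew`, so the kill clause is `hann` VERBATIM;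
* `Stage/SupplyFrob.frobAt` (helper11's `FrobQ`) with the full system of the stage invariant :
  `f₀.trace = Y.πO (tr ρ_T(Frob_q))` for `f₀ := !![lam q, 0; 0, 0]`;
* helper63 `CqNeO.cq_ne_zero_of_eigen` : `c_q ≠ 0`.

Binders left: the module-side invariants `EtaStageNew` at the two stages, the growth `hgrow` of
`omegaCardNew` (helper37/helper16 `StepNew`), the equivariance `hr : BetaPEquiv hpN Z` (helper5) and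
`hold` (OldQ on `KNew ⊓ locPart`, helper63 `HoldNew`).

* `etaStage_cast` : `EtaStage` along an equality of levels;
* `actO_eq_hTens'`, `mem_newSpan_of_mem_KNew`, `hann_of_kill` : the kill clause on `KNew` gives
  `hann` in the `LamNew` / `levelData.heckeTensor` / `GalPkgSO.twO` spelling;
* **`exists_supplySOb_core`** : the supply.
-/
import Mathlib
import Fermat.Agent.GE9.PNew.Inst.CarrierK
import Fermat.Agent.GE9.PNew.Inst.KNewNd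
import Fermat.Agent.GE9.PNew.Inst.HannImg
import Fermat.Agent.GE9.Stage.SupplyFrob
import Fermat.Agent.GE9.Stage.CarrierFaith

set_option autoImplicit false
set_option linter.unusedSectionVars false
set_option linter.unusedVariables false
set_option linter.style.haveILetI false

noncomputable section

namespace Fermat.Agent.GE9.PNew.Inst.SupplySOb

open TensorProduct IsLocalRing Submodule CuspForm
open Fermat.Agent.GJ.J2.Lat Fermat.Agent.GJ.J2.LatAct Fermat.Agent.GB.B3.Loc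
open Fermat.Agent.GE.Graph Fermat.Agent.GE9.Ind Fermat.Agent.GE9.Asm Fermat.Agent.GE9.NumCrit
  Fermat.Agent.GE9.TanGrow
open Fermat.Agent.GE9.Eta Fermat.Agent.GE9.Eta.Mod Fermat.Agent.GE9.Eta.Chain Fermat.Agent.GE9.Mult1
open Fermat.Agent.GE9.Stage.CarrierAbs Fermat.Agent.GE9.Stage.CarrierLam
  Fermat.Agent.GE9.Stage.CarrierFaith
  Fermat.Agent.GE9.Stage.Supply Fermat.Agent.GE9.Stage.SupplyFrob
open Fermat.Agent.GE9.PNew.Inst Fermat.Agent.GE9.PNew.Inst.PolyLin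
  Fermat.Agent.GE9.PNew.Inst.HannImg Fermat.Agent.GE9.PNew.Inst.CarrierK
open Fermat.Agent.GK.AL
open Fermat.Agent.GB.B10.KumLevelHecke Fermat.Agent.GB.B10.L.NewInst
open Fermat.Agent.GB.B10.L.ThetaNew Fermat.Agent.GM.B

local notation "GQ" => (AlgebraicClosure ℚ ≃ₐ[ℚ] AlgebraicClosure ℚ)
local notation "Qb" => AlgebraicClosure ℚ

/-! ### transport of the stage invariant along an equality of levels -/

section Cast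

variable {𝒪 : Type} [CommRing 𝒪]

/-- `EtaStage` along an equality of levels. -/
theorem etaStage_cast {A B : ℕ} [NeZero A] [NeZero B] (h : A = B) (lam : Nat.Primes → 𝒪) {d : ℕ}
    (hst : EtaStage A 𝒪 lam d) : EtaStage B 𝒪 lam d := by
  subst h
  exact hst

end Cast

/-! ### the kill clause on `KNew` is `hann` VERBATIM -/

section Hann

variable {𝒪 : Type} [CommRing 𝒪] [IsLocalRing 𝒪]

/-- the two spellings of the action of `𝒪 ⊗ 𝕋` on `𝒪 ⊗ Lam N` agree -/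
theorem actO_eq_hTens' (N : ℕ) [NeZero N] (S : Set ℕ) :
    actO N 𝒪 S = hTens N S 𝒪 := by
  refine Algebra.TensorProduct.ext' fun c t => ?_
  refine LinearMap.ext fun x => ?_
  rw [actO_tmul, hTens_tmul, LinearMap.smul_apply]

variable {N p : ℕ} [hpF : Fact p.Prime] [NeZero N] [NeZero (N * p)] (hpN : ¬ p ∣ N)

/-- **`KNew ⊆ 𝒪 ⊗ LamNew`** (flat coefficients). -/
theorem mem_newSpan_of_mem_KNew [Module.Flat ℤ 𝒪] {x : 𝒪 ⊗[ℤ] Lam (N * p)}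
    (hx : x ∈ KNew hpN 𝒪) : x ∈ newSpan 𝒪 hpN := by
  rw [mem_KNew] at hx
  exact mem_newSpan_of_pair hpN (bP1 hpN) (bP2 hpN) (fun _ => rfl) (fun _ => rfl) x hx.1 hx.2

/-- **`hann`, VERBATIM, from the kill clause on `KNew`**. -/
theorem hann_of_kill [Module.Flat ℤ 𝒪] {S0 : Finset ℕ}
    (hpS : p ∈ S0) (hNS : ∀ r : ℕ, r.Prime → r ∣ N * p → r ∈ S0)
    {T' : Type} [CommRing T'] [Algebra 𝒪 T']
    (π' : ↥(heckeAlgebra (N * p) 2 (↑S0 : Set ℕ)) →+* T')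
    (hkill : ∀ t₀ : 𝒪 ⊗[ℤ] ↥(heckeAlgebra (N * p) 2 (↑S0 : Set ℕ)),
      (∀ x ∈ KNew hpN 𝒪, iotaO (iotaLam (N * p) 𝒪 (↑S0 : Set ℕ)) t₀ • x = 0) →
      (Algebra.TensorProduct.lift (Algebra.ofId 𝒪 T') π'.toIntAlgHom
        (fun _ _ => Commute.all _ _) :
          𝒪 ⊗[ℤ] ↥(heckeAlgebra (N * p) 2 (↑S0 : Set ℕ)) →ₐ[𝒪] T') t₀ = 0) :
    ∀ t₀ : 𝒪 ⊗[ℤ] heckeAlgebra (N * p) 2 (↑S0 : Set ℕ),
      (∀ (a : 𝒪), ∀ x ∈ (LamNew hpN : AddSubgroup (levelData p (N * p) hpS hNS).Λ),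
        (levelData p (N * p) hpS hNS).heckeTensor 𝒪 t₀ (a ⊗ₜ[ℤ] x) = 0) →
      Fermat.Agent.GB.B10.L.GalPkgSO.twO (𝒪 := 𝒪) π' t₀ = 0 := by
  intro t₀ ht₀
  refine hkill t₀ fun x hx => ?_
  rw [← actO_apply, actO_eq_hTens']
  exact hTens_eq_zero_of_mem_newSpan hpN t₀
    (hTens_kills_of_heckeTensor hpS hNS hpN t₀ ht₀) (mem_newSpan_of_mem_KNew hpN hx)

end Hann

/-! ### the supply -/

section Supply

variable {𝒪 : Type} [CommRing 𝒪] [IsDomain 𝒪] [IsDiscreteValuationRing 𝒪]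
  [IsAdicComplete (maximalIdeal 𝒪) 𝒪] [Finite (ResidueField 𝒪)] [CharZero 𝒪]
  {ρbar : ResidualGaloisRep (ResidueField 𝒪)} {𝒟 : DefCondE 𝒪} {d : ℕ}

/-- **The carrier + numerics of ONE step, strict-ordinary case (b), abstract stage.**  `Y` is a
stage at the level `N₁ p` with the constant Hecke set `↑S0`, `#Ω = omegaCardNew hpN₁ 𝒪 lam₁` and the
eigenvalues `lam ℓ`; the next stage is at the level `N p` with the system `lam'`; `q ∤ N₁ p` is the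
new prime. -/
theorem exists_supplySOb_core (Y : RTNum ρbar 𝒟 d) (p : ℕ) [hpF : Fact p.Prime]
    (hp𝒪 : (p : 𝒪) ∈ maximalIdeal 𝒪) (lam : Nat.Primes → 𝒪) (hd : d ≠ 0)
    {q : ℕ} (hq : q.Prime) (hqp : q ≠ p) (S0 : Finset ℕ) (hpS0 : p ∈ S0)
    {N₁ N : ℕ} [NeZero N₁] [NeZero (N₁ * p)] [NeZero N] [NeZero (N * p)]
    (hpN₁ : ¬ p ∣ N₁) (hpN : ¬ p ∣ N) (hqN₁ : ¬ q ∣ N₁ * p)
    (hNS : ∀ r : ℕ, r.Prime → r ∣ N * p → r ∈ S0)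
    (lam₁ lam' : Nat.Primes → 𝒪)
    (hlam₁ : ∀ (ℓ : ℕ) (hℓ : ℓ.Prime), ¬ ℓ ∣ N₁ * p → lam₁ ⟨ℓ, hℓ⟩ = lam ⟨ℓ, hℓ⟩)
    (hlam' : ∀ (ℓ : ℕ) (hℓ : ℓ.Prime), ¬ ℓ ∣ N * p → lam' ⟨ℓ, hℓ⟩ = lam ⟨ℓ, hℓ⟩)
    (hYN : Y.rt.N = N₁ * p) (hYS : Y.rt.S = (↑S0 : Set ℕ))
    (hYw : Y.w = omegaCardNew hpN₁ 𝒪 lam₁)
    (hYχ : ∀ (ℓ : ℕ) (hℓ : ℓ.Prime) (hℓN : ¬ ℓ ∣ Y.rt.N) (hℓS : ℓ ∉ Y.rt.S),
      pointChar Y (heckeAlgebra.T hℓ hℓN hℓS) = lam ⟨ℓ, hℓ⟩)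
    (hst : EtaStageNew hpN₁ 𝒪 lam₁ d) (hst' : EtaStageNew hpN 𝒪 lam' d)
    (hgrow : omegaCardNew hpN 𝒪 lam' = omegaCardNew hpN₁ 𝒪 lam₁ *
      Nat.card (𝒪 ⧸ Ideal.span {(((q : ℕ) : 𝒪) - 1) *
        ((1 + ((q : ℕ) : 𝒪)) ^ 2 - lam (⟨q, hq⟩ : Nat.Primes) ^ 2)}) ^ d)
    (Z : Set ℕ) (hZS : ∀ l : ℕ, l.Prime → l ∉ (↑S0 : Set ℕ) → l ∈ Z) (hr : BetaPEquiv hpN Z)
    (hold : ∀ x ∈ KNew hpN 𝒪, x ∈ locPart (mP 𝒪 Z lam') (𝒪 ⊗[ℤ] Lam (N * p)) →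
      (∀ (ℓ : ℕ) (hℓ : ℓ.Prime), ¬ ℓ ∣ N * p → ℓ ∉ (↑S0 : Set ℕ) →
        (latT (N * p) (⟨ℓ, hℓ⟩ : Nat.Primes)).baseChange 𝒪 x = lam' ⟨ℓ, hℓ⟩ • x) →
      x ∈ eigenTensorO (N * p) 𝒪 lam') :
    ∃ (T' : Type) (_ : CommRing T') (_ : IsLocalRing T') (_ : Algebra 𝒪 T')
      (_ : Module.Finite 𝒪 T') (_ : Module.Free 𝒪 T')
      (π' : ↥(heckeAlgebra (N * p) 2 (↑S0 : Set ℕ)) →+* T')
      (πO' : T' →ₐ[𝒪] 𝒪) (f₀ : Matrix (Fin 2) (Fin 2) 𝒪),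
      Algebra.adjoin 𝒪 (Set.range π') = ⊤ ∧
      (∀ t₀ : 𝒪 ⊗[ℤ] heckeAlgebra (N * p) 2 (↑S0 : Set ℕ),
        (∀ (a : 𝒪), ∀ x ∈ (LamNew hpN : AddSubgroup (levelData p (N * p) hpS0 hNS).Λ),
          (levelData p (N * p) hpS0 hNS).heckeTensor 𝒪 t₀ (a ⊗ₜ[ℤ] x) = 0) →
        Fermat.Agent.GB.B10.L.GalPkgSO.twO (𝒪 := 𝒪) π' t₀ = 0) ∧
      (∀ (ℓ : ℕ) (hℓ : ℓ.Prime) (hℓN' : ¬ ℓ ∣ N * p) (hℓS' : ℓ ∉ (↑S0 : Set ℕ)),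
        πO' (π' (heckeAlgebra.T hℓ hℓN' hℓS')) = lam ⟨ℓ, hℓ⟩) ∧
      (∀ Pq : ValuationSubring Qb, Pq.LiesOverPrime q →
        ∀ φ : GQ, Pq.IsFrobeniusAt φ q → f₀.trace = Y.πO (Y.rt.ρT.trace φ)) ∧
      wilesFactor f₀ ((q : ℕ) : 𝒪) ≠ 0 ∧
      Y.w * Nat.card (𝒪 ⧸ Ideal.span {wilesFactor f₀ ((q : ℕ) : 𝒪)}) ^ d
        ≤ omegaCardNew hpN 𝒪 lam' ∧
      omegaCardNew hpN 𝒪 lam' ≤ etaCard πO' ^ d := by
  have hp : p.Prime := Fact.out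
  -- the module side at the level of `Y`
  have hstE : EtaStage (N₁ * p) 𝒪 lam₁ d := hst.etaStage
  have hstY : EtaStage Y.rt.N 𝒪 lam₁ d := etaStage_cast hYN.symm lam₁ hstE
  have hqNY : ¬ q ∣ Y.rt.N := by
    rw [hYN]
    exact hqN₁
  -- the matrix `f₀` and `c_q ≠ 0`
  let f₀ : Matrix (Fin 2) (Fin 2) 𝒪 := !![lam (⟨q, hq⟩ : Nat.Primes), 0; 0, 0]
  have hf₀ : f₀.trace = lam (⟨q, hq⟩ : Nat.Primes) := by
    simp [f₀, Matrix.trace_fin_two]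
  have hwf : wilesFactor f₀ ((q : ℕ) : 𝒪) = (((q : ℕ) : 𝒪) - 1) *
      ((1 + ((q : ℕ) : 𝒪)) ^ 2 - lam (⟨q, hq⟩ : Nat.Primes) ^ 2) := by
    rw [wilesFactor, hf₀]
  have hcf : wilesFactor f₀ ((q : ℕ) : 𝒪) ≠ 0 := by
    rw [hwf, ← hlam₁ q hq hqN₁]
    obtain ⟨b₁, hli₁, hspan₁, -⟩ := hstE
    have hy₁m : b₁ ⟨0, Nat.pos_of_ne_zero hd⟩ ∈ eigenTensorO (N₁ * p) 𝒪 lam₁ := by
      rw [← hspan₁]
      exact subset_span ⟨_, rfl⟩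
    exact Fermat.Agent.GE9.OldQ.CqNeO.cq_ne_zero_of_eigen lam₁ (b₁ ⟨0, Nat.pos_of_ne_zero hd⟩)
      (hli₁.ne_zero _) (mem_eigenTensorO.mp hy₁m) q hq hqN₁
  -- the carrier of the next stage
  have hNS' : ∀ r : ℕ, r.Prime → r ∣ N * p → r ∈ (↑S0 : Set ℕ) :=
    fun r hr hrN => Finset.mem_coe.mpr (hNS r hr hrN)
  obtain ⟨T', i1, i2, i3, i4, i5, π', πO', hgen, hpt, hη, hM1, hkill⟩ :=
    exists_carrier_KNew hpN (↑S0 : Set ℕ) hNS' Z hZS hr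
      (Fermat.Agent.GE9.PNew.Inst.KNewNd.hnd_BWNew hpN) lam' hd hst' hold
  -- the full-at-`q` eigensystem at the level of `Y` and ES at `q`
  have hqS1 : q ∉ (↑((Y.rt.N).primeFactors ∪ {p}) : Set ℕ) := by
    intro h
    rcases Finset.mem_union.mp (Finset.mem_coe.mp h) with h | h
    · exact hqNY (Nat.mem_primeFactors.mp h).2.1
    · exact hqp (Finset.mem_singleton.mp h)
  obtain ⟨χ₁, hχ₁⟩ := exists_fullSystem lam₁ hd hstY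
    (↑((Y.rt.N).primeFactors ∪ {p}) : Set ℕ)
  have hlamY : ∀ (ℓ : ℕ) (hℓ : ℓ.Prime), ¬ ℓ ∣ Y.rt.N → lam₁ ⟨ℓ, hℓ⟩ = lam ⟨ℓ, hℓ⟩ := by
    intro ℓ hℓ hℓN
    refine hlam₁ ℓ hℓ fun h => hℓN ?_
    rw [hYN]
    exact h
  have hfrobY : FrobAt Y p q := frobAt Y p hp𝒪 q S0 hYS.subset
  have hfrob : ∀ Pq : ValuationSubring Qb, Pq.LiesOverPrime q →
      ∀ φ : GQ, Pq.IsFrobeniusAt φ q → f₀.trace = Y.πO (Y.rt.ρT.trace φ) := by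
    intro Pq hPq φ hφ
    rw [hf₀, hfrobY χ₁ ?_ hq hqNY hqS1 Pq hPq φ hφ, hχ₁, hlamY q hq hqNY]
    intro ℓ hℓ hℓN hℓS hℓS1
    rw [hχ₁, hlamY ℓ hℓ hℓN, ← hYχ ℓ hℓ hℓN hℓS]
    rfl
  refine ⟨T', i1, i2, i3, i4, i5, π', πO', f₀, hgen, ?_, fun ℓ hℓ hℓN' hℓS' => ?_, hfrob, hcf,
    ?_, hM1⟩
  · exact hann_of_kill hpN hpS0 hNS π' hkill
  · rw [hpt, hlam' ℓ hℓ hℓN']
  · rw [hgrow, hYw, hwf]

/-- **The carrier + numerics of ONE step, strict-ordinary case (b), abstract stage, in the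
vocabulary of the engine** (GENERIC level literals): bundle level `Mp` (`p ∥ Mp`), the current stage
`Sg` at the level `N₁ p = Mp ∏_{x ∈ Sg} x²`, the next stage `insert q Sg` at the level
`N₀ p = Mp ∏_{x ∈ insert q Sg} x²`, systems `lamAt lam Sg`, `lamAt lam (insert q Sg)`.  Conclusion =
the `∃`-body of `StepSupplySO` at the level literal `N₀ * p`. -/
theorem exists_supplySOb (Y : RTNum ρbar 𝒟 d) (p : ℕ) [hpF : Fact p.Prime]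
    (hp𝒪 : (p : 𝒪) ∈ maximalIdeal 𝒪) {Mp : ℕ} (lam : Nat.Primes → 𝒪) (hd : d ≠ 0)
    (Sg : Finset ℕ) (hSg : ∀ x ∈ Sg, x.Prime ∧ ¬ x ∣ Mp ∧ x ≠ p)
    {q : ℕ} (hq : q.Prime) (hqS : q ∉ Sg) (hqM : ¬ q ∣ Mp) (hqp : q ≠ p)
    (S0 : Finset ℕ) (hpS0 : p ∈ S0)
    {N₁ N₀ : ℕ} [NeZero N₁] [NeZero (N₁ * p)] [NeZero N₀] [NeZero (N₀ * p)]
    (hpN₁ : ¬ p ∣ N₁) (hpN₀ : ¬ p ∣ N₀)
    (hN₁ : N₁ * p = Mp * ∏ x ∈ Sg, x ^ 2)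
    (hN₀ : N₀ * p = Mp * ∏ x ∈ insert q Sg, x ^ 2)
    (hNS : ∀ r : ℕ, r.Prime → r ∣ N₀ * p → r ∈ S0)
    (hYN : Y.rt.N = Mp * ∏ x ∈ Sg, x ^ 2) (hYS : Y.rt.S = (↑S0 : Set ℕ))
    (hYw : Y.w = omegaCardNew hpN₁ 𝒪 (lamAt lam Sg))
    (hYχ : ∀ (ℓ : ℕ) (hℓ : ℓ.Prime) (hℓN : ¬ ℓ ∣ Y.rt.N) (hℓS : ℓ ∉ Y.rt.S),
      pointChar Y (heckeAlgebra.T hℓ hℓN hℓS) = lam ⟨ℓ, hℓ⟩)
    (hst : EtaStageNew hpN₁ 𝒪 (lamAt lam Sg) d)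
    (hst' : EtaStageNew hpN₀ 𝒪 (lamAt lam (insert q Sg)) d)
    (hgrow : omegaCardNew hpN₀ 𝒪 (lamAt lam (insert q Sg)) =
      omegaCardNew hpN₁ 𝒪 (lamAt lam Sg) *
        Nat.card (𝒪 ⧸ Ideal.span {(((q : ℕ) : 𝒪) - 1) *
          ((1 + ((q : ℕ) : 𝒪)) ^ 2 - lam (⟨q, hq⟩ : Nat.Primes) ^ 2)}) ^ d)
    (Z : Set ℕ) (hZS : ∀ l : ℕ, l.Prime → l ∉ (↑S0 : Set ℕ) → l ∈ Z) (hr : BetaPEquiv hpN₀ Z)
    (hold : ∀ x ∈ KNew hpN₀ 𝒪,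
      x ∈ locPart (mP 𝒪 Z (lamAt lam (insert q Sg))) (𝒪 ⊗[ℤ] Lam (N₀ * p)) →
      (∀ (ℓ : ℕ) (hℓ : ℓ.Prime), ¬ ℓ ∣ N₀ * p → ℓ ∉ (↑S0 : Set ℕ) →
        (latT (N₀ * p) (⟨ℓ, hℓ⟩ : Nat.Primes)).baseChange 𝒪 x
          = lamAt lam (insert q Sg) ⟨ℓ, hℓ⟩ • x) →
      x ∈ eigenTensorO (N₀ * p) 𝒪 (lamAt lam (insert q Sg))) :
    ∃ (T' : Type) (_ : CommRing T') (_ : IsLocalRing T') (_ : Algebra 𝒪 T')
      (_ : Module.Finite 𝒪 T') (_ : Module.Free 𝒪 T')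
      (π' : ↥(heckeAlgebra (N₀ * p) 2 (↑S0 : Set ℕ)) →+* T')
      (πO' : T' →ₐ[𝒪] 𝒪) (f₀ : Matrix (Fin 2) (Fin 2) 𝒪),
      Algebra.adjoin 𝒪 (Set.range π') = ⊤ ∧
      (∀ t₀ : 𝒪 ⊗[ℤ] heckeAlgebra (N₀ * p) 2 (↑S0 : Set ℕ),
        (∀ (a : 𝒪), ∀ x ∈ (LamNew hpN₀ : AddSubgroup (levelData p (N₀ * p) hpS0 hNS).Λ),
          (levelData p (N₀ * p) hpS0 hNS).heckeTensor 𝒪 t₀ (a ⊗ₜ[ℤ] x) = 0) →
        Fermat.Agent.GB.B10.L.GalPkgSO.twO (𝒪 := 𝒪) π' t₀ = 0) ∧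
      (∀ (ℓ : ℕ) (hℓ : ℓ.Prime) (hℓN' : ¬ ℓ ∣ N₀ * p) (hℓS' : ℓ ∉ (↑S0 : Set ℕ)),
        πO' (π' (heckeAlgebra.T hℓ hℓN' hℓS')) = lam ⟨ℓ, hℓ⟩) ∧
      (∀ Pq : ValuationSubring Qb, Pq.LiesOverPrime q →
        ∀ φ : GQ, Pq.IsFrobeniusAt φ q → f₀.trace = Y.πO (Y.rt.ρT.trace φ)) ∧
      wilesFactor f₀ ((q : ℕ) : 𝒪) ≠ 0 ∧
      Y.w * Nat.card (𝒪 ⧸ Ideal.span {wilesFactor f₀ ((q : ℕ) : 𝒪)}) ^ d
        ≤ omegaCardNew hpN₀ 𝒪 (lamAt lam (insert q Sg)) ∧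
      omegaCardNew hpN₀ 𝒪 (lamAt lam (insert q Sg)) ≤ etaCard πO' ^ d := by
  have hSgP : ∀ x ∈ Sg, x.Prime := fun x hx => (hSg x hx).1
  have hqN₁ : ¬ q ∣ N₁ * p := by
    rw [hN₁]
    exact Fermat.Agent.GE.Engine.LevArith.not_dvd_lev hSgP hq hqM hqS
  have hlam₁ : ∀ (ℓ : ℕ) (hℓ : ℓ.Prime), ¬ ℓ ∣ N₁ * p →
      lamAt lam Sg ⟨ℓ, hℓ⟩ = lam ⟨ℓ, hℓ⟩ := by
    intro ℓ hℓ hℓN
    refine lamAt_of_notMem lam fun h => hℓN ?_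
    rw [hN₁]
    exact Fermat.Agent.GE.Engine.LevArith.dvd_lev_of_mem h
  have hlam' : ∀ (ℓ : ℕ) (hℓ : ℓ.Prime), ¬ ℓ ∣ N₀ * p →
      lamAt lam (insert q Sg) ⟨ℓ, hℓ⟩ = lam ⟨ℓ, hℓ⟩ := by
    intro ℓ hℓ hℓN
    refine lamAt_of_notMem lam fun h => hℓN ?_
    rw [hN₀]
    exact Fermat.Agent.GE.Engine.LevArith.dvd_lev_of_mem h
  exact exists_supplySOb_core Y p hp𝒪 lam hd hq hqp S0 hpS0 hpN₁ hpN₀ hqN₁ hNS
    (lamAt lam Sg) (lamAt lam (insert q Sg)) hlam₁ hlam' (hYN.trans hN₁.symm) hYS hYw hYχ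
    hst hst' hgrow Z hZS hr hold

end Supply

end Fermat.Agent.GE9.PNew.Inst.SupplySOb

end
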