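/-
GATE-E / RISK-4 PNEW-STAGE, instance layer R4-I, slice (e4) of helper37's table (board 7832)
(helper25): **the `p`-transfers commute with the `q`-degeneracies `α_m`** (`p ≠ q` primes,
`p ∤ N q²`):

  `β_p^{N q²} ∘ cast ∘ α_m^{N p, q} = (α_m^{N, q} × α_m^{N, q}) ∘ β_p^{N}`        (`betaP_alm`)

with `β_p = (cores_p, cores_{p,δ})` (`GM/B.betaP`), `α_m ∈ {res' res, res' res_δ, res_δ' res_δ}`
(`GE9/Adj3.al0/al1/al2`, `DualIhara2.alm`, `LocLam.alComp`) and the level cast
`lamCast (level_eq N p q) : Λ_{(N p) q q} ≃ Λ_{(N q q) p}` of `DualIhara2P`.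

This is the `α`–`cores` half (helper37's `DualIhara2P.lamCast_alm_resP/resDP` is the `α`–`res` half);
it is two applications of helper41's one-step Mackey lemmas `GE8/RaiseP/DegComm.cores_res_comm`,
`cores_resD_comm`, `coresD_res_comm`, `coresD_resD_comm` (levels `N → N q → N q²`) plus naturality
of `res_q`, `resD_q` for the level casts.

CONSEQUENCE (the binder `hbK'` of the stage step on the `p`-new kernel): over any commutative ring
`O`, with `KNew = ker (bP1ᴼ, bP2ᴼ)`: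

* `bP1_alCompO`, `bP2_alCompO`   : `bP_iᴼ ∘ castᴼ ∘ α_mᴼ = α_mᴼ ∘ bP_iᴼ`;
* `bP1_alpha3O`, `bP2_alpha3O`   : the same for `α₃ᴼ`;
* **`raise3_mem_kerO`**          : `bP1ᴼ (b i) = 0 ∧ bP2ᴼ (b i) = 0` ⟹ the same for
  `castᴼ (raise3 α₃ᴼ q a b i)` at level `N q² p`.
-/
import Mathlib
import Fermat.Agent.GE8.RaiseP.DegComm
import Fermat.Agent.GE9.Eta.DualIhara2P
import Fermat.Agent.GE9.Eta.LocLamU
import Fermat.Agent.GE9.Eta.Three
import Fermat.Agent.GE9.PNew.Inst.PolyLin

set_option autoImplicit false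
set_option linter.unusedSectionVars false

open scoped MatrixGroups TensorProduct

namespace Fermat.Agent.GE9.PNew.Inst.BetaPAlpha

open CongruenceSubgroup Matrix Matrix.SpecialLinearGroup ModularCurve.Period
open Fermat.Agent.S16_helper49 Fermat.Agent.GM.Amalgam
open Fermat.Agent.GM.B Fermat.Agent.GJ.J2.Lat Fermat.Agent.GM.Asm
open Fermat.Agent.GE9.Adj3 Fermat.Agent.GE9.Eta.DualIhara2
open Fermat.Agent.GE8.Deside.ResNew Fermat.Agent.GE8.RaiseP.DegComm
open Fermat.Agent.GE9.Eta.LocLam Fermat.Agent.GE9.Eta.LocLamU Fermat.Agent.GE9.Eta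
open Fermat.Agent.GE9.PNew.Inst.PolyLin

/-! ### naturality of `res_q`, `resD_q` for the level casts -/

section Nat

variable {A : Type*} [AddCommGroup A] {q : ℕ}

theorem res_resLe_eq {M M' : ℕ} (h : M = M') (h' : M * q ∣ M' * q)
    (χ : Additive (Gamma0 M) →+ A) :
    res A M' q (resLe A (dvd_of_eq h) χ) = resLe A h' (res A M q χ) := by
  subst h
  rw [resLe_refl, resLe_refl]

theorem resD_resLe_eq [Fact q.Prime] {M M' : ℕ} (h : M = M') (h' : M * q ∣ M' * q)
    (χ : Additive (Gamma0 M) →+ A) :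
    resD A M' q (resLe A (dvd_of_eq h) χ) = resLe A h' (resD A M q χ) := by
  subst h
  rw [resLe_refl, resLe_refl]

end Nat

/-! ### two steps, abstractly -/

section TwoStep

variable {A : Type*} [AddCommGroup A] {N p q : ℕ}

/-- **two Mackey steps**: from the one-step commutations at the levels `N` and `N q` and the
naturality of the second degeneracy for the level cast. -/
theorem two_step
    (κN : (Additive (Gamma0 (N * p)) →+ A) →+ (Additive (Gamma0 N) →+ A))
    (κNq : (Additive (Gamma0 (N * q * p)) →+ A) →+ (Additive (Gamma0 (N * q)) →+ A))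
    (κNqq : (Additive (Gamma0 (N * q * q * p)) →+ A) →+ (Additive (Gamma0 (N * q * q)) →+ A))
    (ρ₁ ρ₂ : ∀ M : ℕ, (Additive (Gamma0 M) →+ A) →+ (Additive (Gamma0 (M * q)) →+ A))
    (nat₂ : ∀ {M M' : ℕ} (h : M = M') (h' : M * q ∣ M' * q) (χ : Additive (Gamma0 M) →+ A),
      ρ₂ M' (resLe A (dvd_of_eq h) χ) = resLe A h' (ρ₂ M χ))
    (comm₁ : ∀ ψ : Additive (Gamma0 (N * p)) →+ A,
      κNq (resLe A (dvd_of_eq (level_comm N p q)) (ρ₁ (N * p) ψ)) = ρ₁ N (κN ψ))
    (comm₂ : ∀ ψ₁ : Additive (Gamma0 (N * q * p)) →+ A,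
      κNqq (resLe A (dvd_of_eq (level_comm (N * q) p q)) (ρ₂ (N * q * p) ψ₁))
        = ρ₂ (N * q) (κNq ψ₁))
    (ψ : Additive (Gamma0 (N * p)) →+ A) :
    κNqq (resLe A (dvd_of_eq (level_eq N p q)) (ρ₂ (N * p * q) (ρ₁ (N * p) ψ)))
      = ρ₂ (N * q) (ρ₁ N (κN ψ)) := by
  have hc : N * p * q * q ∣ N * q * p * q := dvd_of_eq (by ring)
  have e1 : resLe A (dvd_of_eq (level_eq N p q)) (ρ₂ (N * p * q) (ρ₁ (N * p) ψ))
      = resLe A (dvd_of_eq (level_comm (N * q) p q))
          (ρ₂ (N * q * p) (resLe A (dvd_of_eq (level_comm N p q)) (ρ₁ (N * p) ψ))) := by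
    rw [nat₂ (level_comm N p q) hc, resLe_resLe]
  rw [e1, comm₂, comm₁]

end TwoStep

/-! ### on `Hom(Γ₀(·), A)` -/

section Hom

variable {A : Type*} [AddCommGroup A] {N p q : ℕ} [hpF : Fact p.Prime] [hqF : Fact q.Prime]

/-- `cores_p ∘ cast ∘ (res' res) = (res' res) ∘ cores_p`. -/
theorem cores_res_res (hpNqq : ¬ p ∣ N * q * q) (ψ : Additive (Gamma0 (N * p)) →+ A) :
    cores A hpNqq (resLe A (dvd_of_eq (level_eq N p q))
        (res A (N * p * q) q (res A (N * p) q ψ)))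
      = res A (N * q) q (res A N q (cores A (not_dvd_left (not_dvd_left hpNqq)) ψ)) :=
  two_step (cores A (not_dvd_left (not_dvd_left hpNqq))) (cores A (not_dvd_left hpNqq))
    (cores A hpNqq) (fun M => res A M q) (fun M => res A M q)
    (fun h h' χ => res_resLe_eq h h' χ)
    (fun ψ => cores_res_comm (not_dvd_left hpNqq) ψ)
    (fun ψ₁ => cores_res_comm hpNqq ψ₁) ψ

/-- `cores_p ∘ cast ∘ (res' res_δ) = (res' res_δ) ∘ cores_p`. -/
theorem cores_res_resD (hpNqq : ¬ p ∣ N * q * q) (ψ : Additive (Gamma0 (N * p)) →+ A) :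
    cores A hpNqq (resLe A (dvd_of_eq (level_eq N p q))
        (res A (N * p * q) q (resD A (N * p) q ψ)))
      = res A (N * q) q (resD A N q (cores A (not_dvd_left (not_dvd_left hpNqq)) ψ)) :=
  two_step (cores A (not_dvd_left (not_dvd_left hpNqq))) (cores A (not_dvd_left hpNqq))
    (cores A hpNqq) (fun M => resD A M q) (fun M => res A M q)
    (fun h h' χ => res_resLe_eq h h' χ)
    (fun ψ => cores_resD_comm (not_dvd_left hpNqq) ψ)
    (fun ψ₁ => cores_res_comm hpNqq ψ₁) ψ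

/-- `cores_p ∘ cast ∘ (res_δ' res_δ) = (res_δ' res_δ) ∘ cores_p`. -/
theorem cores_resD_resD (hpNqq : ¬ p ∣ N * q * q) (ψ : Additive (Gamma0 (N * p)) →+ A) :
    cores A hpNqq (resLe A (dvd_of_eq (level_eq N p q))
        (resD A (N * p * q) q (resD A (N * p) q ψ)))
      = resD A (N * q) q (resD A N q (cores A (not_dvd_left (not_dvd_left hpNqq)) ψ)) :=
  two_step (cores A (not_dvd_left (not_dvd_left hpNqq))) (cores A (not_dvd_left hpNqq))
    (cores A hpNqq) (fun M => resD A M q) (fun M => resD A M q)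
    (fun h h' χ => resD_resLe_eq h h' χ)
    (fun ψ => cores_resD_comm (not_dvd_left hpNqq) ψ)
    (fun ψ₁ => cores_resD_comm hpNqq ψ₁) ψ

/-- `coresD_p ∘ cast ∘ (res' res) = (res' res) ∘ coresD_p`. -/
theorem coresD_res_res (hpNqq : ¬ p ∣ N * q * q) (ψ : Additive (Gamma0 (N * p)) →+ A) :
    coresD A hpNqq (resLe A (dvd_of_eq (level_eq N p q))
        (res A (N * p * q) q (res A (N * p) q ψ)))
      = res A (N * q) q (res A N q (coresD A (not_dvd_left (not_dvd_left hpNqq)) ψ)) :=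
  two_step (coresD A (not_dvd_left (not_dvd_left hpNqq))) (coresD A (not_dvd_left hpNqq))
    (coresD A hpNqq) (fun M => res A M q) (fun M => res A M q)
    (fun h h' χ => res_resLe_eq h h' χ)
    (fun ψ => coresD_res_comm (not_dvd_left hpNqq) ψ)
    (fun ψ₁ => coresD_res_comm hpNqq ψ₁) ψ

/-- `coresD_p ∘ cast ∘ (res' res_δ) = (res' res_δ) ∘ coresD_p`. -/
theorem coresD_res_resD (hpNqq : ¬ p ∣ N * q * q) (ψ : Additive (Gamma0 (N * p)) →+ A) :
    coresD A hpNqq (resLe A (dvd_of_eq (level_eq N p q))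
        (res A (N * p * q) q (resD A (N * p) q ψ)))
      = res A (N * q) q (resD A N q (coresD A (not_dvd_left (not_dvd_left hpNqq)) ψ)) :=
  two_step (coresD A (not_dvd_left (not_dvd_left hpNqq))) (coresD A (not_dvd_left hpNqq))
    (coresD A hpNqq) (fun M => resD A M q) (fun M => res A M q)
    (fun h h' χ => res_resLe_eq h h' χ)
    (fun ψ => coresD_resD_comm (not_dvd_left hpNqq) ψ)
    (fun ψ₁ => coresD_res_comm hpNqq ψ₁) ψ

/-- `coresD_p ∘ cast ∘ (res_δ' res_δ) = (res_δ' res_δ) ∘ coresD_p`. -/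
theorem coresD_resD_resD (hpNqq : ¬ p ∣ N * q * q) (ψ : Additive (Gamma0 (N * p)) →+ A) :
    coresD A hpNqq (resLe A (dvd_of_eq (level_eq N p q))
        (resD A (N * p * q) q (resD A (N * p) q ψ)))
      = resD A (N * q) q (resD A N q (coresD A (not_dvd_left (not_dvd_left hpNqq)) ψ)) :=
  two_step (coresD A (not_dvd_left (not_dvd_left hpNqq))) (coresD A (not_dvd_left hpNqq))
    (coresD A hpNqq) (fun M => resD A M q) (fun M => resD A M q)
    (fun h h' χ => resD_resLe_eq h h' χ)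
    (fun ψ => coresD_resD_comm (not_dvd_left hpNqq) ψ)
    (fun ψ₁ => coresD_resD_comm hpNqq ψ₁) ψ

end Hom

/-! ### on the parabolic lattices -/

section Lat

variable {N p q : ℕ} [hpF : Fact p.Prime] [hqF : Fact q.Prime]

/-- the level cast on the underlying homomorphism is `resLe` along the equality. -/
theorem lamCast_coe {M M' : ℕ} (h : M = M') (x : Lam M) :
    ((lamCast h x : Lam M') : Additive (Gamma0 M') →+ ℤ) = resLe ℤ (dvd_of_eq h) x.1 := by
  subst h
  rw [resLe_refl]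
  rfl

/-- **`cores_p ∘ cast ∘ α_m = α_m ∘ cores_p`.** -/
theorem coresP_alm (hpN : ¬ p ∣ N) (hpNqq : ¬ p ∣ N * q * q) (m : Fin 3) (x : Lam (N * p)) :
    coresP ℤ hpNqq (lamCast (level_eq N p q) (alm (N * p) q m x))
      = alm N q m (coresP ℤ hpN x) := by
  apply Subtype.ext
  rw [coresP_coe, lamCast_coe]
  fin_cases m
  · exact cores_res_res hpNqq x.1
  · exact cores_res_resD hpNqq x.1
  · exact cores_resD_resD hpNqq x.1

/-- **`cores_{p,δ} ∘ cast ∘ α_m = α_m ∘ cores_{p,δ}`.** -/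
theorem coresDP_alm (hpN : ¬ p ∣ N) (hpNqq : ¬ p ∣ N * q * q) (m : Fin 3) (x : Lam (N * p)) :
    coresDP ℤ hpNqq (lamCast (level_eq N p q) (alm (N * p) q m x))
      = alm N q m (coresDP ℤ hpN x) := by
  apply Subtype.ext
  rw [coresDP_coe, lamCast_coe]
  fin_cases m
  · exact coresD_res_res hpNqq x.1
  · exact coresD_res_resD hpNqq x.1
  · exact coresD_resD_resD hpNqq x.1

/-- **(e4)**: `β_p^{N q²} ∘ cast ∘ α_m^{N p} = (α_m^{N} × α_m^{N}) ∘ β_p^{N}`. -/
theorem betaP_alm (hpN : ¬ p ∣ N) (hpNqq : ¬ p ∣ N * q * q) (m : Fin 3) (x : Lam (N * p)) :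
    betaP ℤ hpNqq (lamCast (level_eq N p q) (alm (N * p) q m x))
      = (alm N q m (betaP ℤ hpN x).1, alm N q m (betaP ℤ hpN x).2) := by
  rw [betaP_apply, betaP_apply, coresP_alm hpN hpNqq, coresDP_alm hpN hpNqq]

/-- `alComp` is `alm`. -/
theorem alComp_eq_alm {M : ℕ} [NeZero M] [NeZero (M * q)] [NeZero (M * q * q)] (m : Fin 3)
    (x : Lam M) : alComp M q m x = alm M q m x := by
  fin_cases m
  · show alpha3 M q (Pi.single 0 x) = al0 M q x
    rw [alpha3_apply]
    simp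
  · show alpha3 M q (Pi.single 1 x) = al1 M q x
    rw [alpha3_apply]
    simp
  · show alpha3 M q (Pi.single 2 x) = al2 M q x
    rw [alpha3_apply]
    simp

/-- **(e4)** in helper37's spelling (`LocLam.alComp`). -/
theorem betaP_alComp [NeZero N] [NeZero (N * q)] [NeZero (N * q * q)] [NeZero (N * p)]
    [NeZero (N * p * q)] [NeZero (N * p * q * q)]
    (hpN : ¬ p ∣ N) (hpNqq : ¬ p ∣ N * q * q) (m : Fin 3) (x : Lam (N * p)) :
    betaP ℤ hpNqq (lamCast (level_eq N p q) (alComp (N * p) q m x))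
      = (alComp N q m (betaP ℤ hpN x).1, alComp N q m (betaP ℤ hpN x).2) := by
  rw [alComp_eq_alm, alComp_eq_alm, alComp_eq_alm]
  exact betaP_alm hpN hpNqq m x

end Lat

/-! ### over `O` -/

section OverO

variable {N p q : ℕ} [hpF : Fact p.Prime] [hqF : Fact q.Prime]
  [NeZero N] [NeZero (N * q)] [NeZero (N * q * q)] [NeZero (N * p)] [NeZero (N * p * q)]
  [NeZero (N * p * q * q)] [NeZero (N * q * q * p)]
variable (O : Type*) [CommRing O]

/-- the `ℤ`-linear identity behind `bP1_alCompO`. -/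
theorem bP1_comp_alComp (hpN : ¬ p ∣ N) (hpNqq : ¬ p ∣ N * q * q) (m : Fin 3) :
    (bP1 hpNqq ∘ₗ (lamCast (level_eq N p q)).toLinearMap) ∘ₗ alComp (N * p) q m
      = alComp N q m ∘ₗ bP1 hpN := by
  refine LinearMap.ext fun x => ?_
  show (betaP ℤ hpNqq (lamCast (level_eq N p q) (alComp (N * p) q m x))).1
    = alComp N q m (betaP ℤ hpN x).1
  rw [betaP_alComp hpN hpNqq]

theorem bP2_comp_alComp (hpN : ¬ p ∣ N) (hpNqq : ¬ p ∣ N * q * q) (m : Fin 3) :
    (bP2 hpNqq ∘ₗ (lamCast (level_eq N p q)).toLinearMap) ∘ₗ alComp (N * p) q m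
      = alComp N q m ∘ₗ bP2 hpN := by
  refine LinearMap.ext fun x => ?_
  show (betaP ℤ hpNqq (lamCast (level_eq N p q) (alComp (N * p) q m x))).2
    = alComp N q m (betaP ℤ hpN x).2
  rw [betaP_alComp hpN hpNqq]

/-- **`bP1ᴼ ∘ castᴼ ∘ α_mᴼ = α_mᴼ ∘ bP1ᴼ`.** -/
theorem bP1_alCompO (hpN : ¬ p ∣ N) (hpNqq : ¬ p ∣ N * q * q) (m : Fin 3)
    (x : O ⊗[ℤ] Lam (N * p)) :
    (bP1 hpNqq).baseChange O ((lamCast (level_eq N p q)).toLinearMap.baseChange O
        ((alComp (N * p) q m).baseChange O x))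
      = (alComp N q m).baseChange O ((bP1 hpN).baseChange O x) := by
  rw [← LinearMap.comp_apply, ← LinearMap.comp_apply, ← LinearMap.baseChange_comp,
    ← LinearMap.baseChange_comp, bP1_comp_alComp hpN hpNqq, LinearMap.baseChange_comp,
    LinearMap.comp_apply]

/-- **`bP2ᴼ ∘ castᴼ ∘ α_mᴼ = α_mᴼ ∘ bP2ᴼ`.** -/
theorem bP2_alCompO (hpN : ¬ p ∣ N) (hpNqq : ¬ p ∣ N * q * q) (m : Fin 3)
    (x : O ⊗[ℤ] Lam (N * p)) :
    (bP2 hpNqq).baseChange O ((lamCast (level_eq N p q)).toLinearMap.baseChange O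
        ((alComp (N * p) q m).baseChange O x))
      = (alComp N q m).baseChange O ((bP2 hpN).baseChange O x) := by
  rw [← LinearMap.comp_apply, ← LinearMap.comp_apply, ← LinearMap.baseChange_comp,
    ← LinearMap.baseChange_comp, bP2_comp_alComp hpN hpNqq, LinearMap.baseChange_comp,
    LinearMap.comp_apply]

/-- the same for `α₃ᴼ`. -/
theorem bP1_alpha3O (hpN : ¬ p ∣ N) (hpNqq : ¬ p ∣ N * q * q)
    (u : Fin 3 → O ⊗[ℤ] Lam (N * p)) :
    (bP1 hpNqq).baseChange O ((lamCast (level_eq N p q)).toLinearMap.baseChange O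
        (alpha3O (N * p) q O u))
      = alpha3O N q O (fun m => (bP1 hpN).baseChange O (u m)) := by
  rw [alpha3O_apply, alpha3O_apply, map_sum, map_sum]
  exact Finset.sum_congr rfl fun m _ => bP1_alCompO O hpN hpNqq m (u m)

theorem bP2_alpha3O (hpN : ¬ p ∣ N) (hpNqq : ¬ p ∣ N * q * q)
    (u : Fin 3 → O ⊗[ℤ] Lam (N * p)) :
    (bP2 hpNqq).baseChange O ((lamCast (level_eq N p q)).toLinearMap.baseChange O
        (alpha3O (N * p) q O u))
      = alpha3O N q O (fun m => (bP2 hpN).baseChange O (u m)) := by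
  rw [alpha3O_apply, alpha3O_apply, map_sum, map_sum]
  exact Finset.sum_congr rfl fun m _ => bP2_alCompO O hpN hpNqq m (u m)

/-- **`hbK'`**: the raised family stays in the `p`-new kernel: if `bP1ᴼ (b i) = bP2ᴼ (b i) = 0`
then `bP_iᴼ (castᴼ (raise3 α₃ᴼ c a b i)) = 0` at the level `N q² p`. -/
theorem raise3_mem_kerO (hpN : ¬ p ∣ N) (hpNqq : ¬ p ∣ N * q * q) (c a : O) {d : ℕ}
    (b : Fin d → O ⊗[ℤ] Lam (N * p)) (i : Fin d)
    (h1 : (bP1 hpN).baseChange O (b i) = 0) (h2 : (bP2 hpN).baseChange O (b i) = 0) :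
    (bP1 hpNqq).baseChange O ((lamCast (level_eq N p q)).toLinearMap.baseChange O
        (raise3 (alpha3O (N * p) q O) c a b i)) = 0 ∧
    (bP2 hpNqq).baseChange O ((lamCast (level_eq N p q)).toLinearMap.baseChange O
        (raise3 (alpha3O (N * p) q O) c a b i)) = 0 := by
  constructor
  · show (bP1 hpNqq).baseChange O ((lamCast (level_eq N p q)).toLinearMap.baseChange O
        (alpha3O (N * p) q O fun m => v3 c a m • b i)) = 0
    rw [bP1_alpha3O O hpN hpNqq]
    have : (fun m => (bP1 hpN).baseChange O (v3 c a m • b i)) = fun _ => 0 := by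
      funext m
      rw [map_smul, h1, smul_zero]
    rw [this]
    exact map_zero _
  · show (bP2 hpNqq).baseChange O ((lamCast (level_eq N p q)).toLinearMap.baseChange O
        (alpha3O (N * p) q O fun m => v3 c a m • b i)) = 0
    rw [bP2_alpha3O O hpN hpNqq]
    have : (fun m => (bP2 hpN).baseChange O (v3 c a m • b i)) = fun _ => 0 := by
      funext m
      rw [map_smul, h2, smul_zero]
    rw [this]
    exact map_zero _

end OverO

end Fermat.Agent.GE9.PNew.Inst.BetaPAlpha
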