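/-
GATE-E / RISK-4 PNEW-STAGE, instance layer R4-I, slice (e4) in `KNew` vocabulary (helper25):
**the `q`-degeneracies `α_m ⊗ 𝒪` map the `p`-new part `KNew` at level `N p` into the `p`-new part
at level `N q² p` (through the level cast)** — the binder `hbK'` of the stage step on the `p`-new
kernel, in the exact spelling of helper37's `Inst/KNew.lean` / `Inst/StepMaps.lean`:

* `bp1O_alCompO`, `bp2O_alCompO`     : `bp_iO ∘ lamCastO ∘ α_mᴼ = α_mᴼ ∘ bp_iO`;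
* `alCompO_mem_KNew`                 : `x ∈ KNew hpN 𝒪 → lamCastO 𝒪 (α_mᴼ x) ∈ KNew hpNqq 𝒪`;
* `alpha3O_mem_KNew`                 : the same for `α₃ᴼ u`, `∀ m, u m ∈ KNew`;
* **`raise3_mem_KNew`**              : `(∀ i, b i ∈ KNew hpN 𝒪) →
                                         lamCastO 𝒪 (raise3 α₃ᴼ c a b i) ∈ KNew hpNqq 𝒪`;
* `raise3_mem_ker_betaLoc'`          : the same as membership in `ker (betaLoc' …)` for a family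
                                         given in the `𝔪'`-primary part.

All from `Inst/BetaPAlpha.lean` (`bP1_alCompO`, …).
-/
import Mathlib
import Fermat.Agent.GE9.PNew.Inst.BetaPAlpha
import Fermat.Agent.GE9.PNew.Inst.StepMaps

set_option autoImplicit false
set_option linter.unusedSectionVars false

open scoped TensorProduct

namespace Fermat.Agent.GE9.PNew.Inst.BetaPAlphaK

open Fermat.Agent.GJ.J2.Lat Fermat.Agent.GB.B3.Loc Fermat.Agent.GE9.Eta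
  Fermat.Agent.GE9.Eta.DualIhara2 Fermat.Agent.GE9.Eta.LocLam Fermat.Agent.GE9.Eta.LocLamU
  Fermat.Agent.GE9.Eta.Mod
  Fermat.Agent.GE9.PNew.Inst Fermat.Agent.GE9.PNew.Inst.PolyLin
  Fermat.Agent.GE9.PNew.Inst.BetaPAlpha

section K

variable {N p q : ℕ} [hpF : Fact p.Prime] [hqF : Fact q.Prime]
  [NeZero N] [NeZero (N * q)] [NeZero (N * q * q)]
  [NeZero (N * p)] [NeZero (N * p * q)] [NeZero (N * p * q * q)] [NeZero (N * q * q * p)]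
  {𝒪 : Type} [CommRing 𝒪]

/-- `cores_p ⊗ 𝒪` commutes with `α_m ⊗ 𝒪` through the level cast. -/
theorem bp1O_alCompO (hpN : ¬ p ∣ N) (hpNqq : ¬ p ∣ N * q * q) (m : Fin 3)
    (x : 𝒪 ⊗[ℤ] Lam (N * p)) :
    bp1O hpNqq 𝒪 (lamCastO 𝒪 ((alComp (N * p) q m).baseChange 𝒪 x))
      = (alComp N q m).baseChange 𝒪 (bp1O hpN 𝒪 x) :=
  bP1_alCompO 𝒪 hpN hpNqq m x

/-- `cores_{p,δ} ⊗ 𝒪` commutes with `α_m ⊗ 𝒪` through the level cast. -/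
theorem bp2O_alCompO (hpN : ¬ p ∣ N) (hpNqq : ¬ p ∣ N * q * q) (m : Fin 3)
    (x : 𝒪 ⊗[ℤ] Lam (N * p)) :
    bp2O hpNqq 𝒪 (lamCastO 𝒪 ((alComp (N * p) q m).baseChange 𝒪 x))
      = (alComp N q m).baseChange 𝒪 (bp2O hpN 𝒪 x) :=
  bP2_alCompO 𝒪 hpN hpNqq m x

/-- the same for `α₃ ⊗ 𝒪`. -/
theorem bp1O_alpha3O (hpN : ¬ p ∣ N) (hpNqq : ¬ p ∣ N * q * q)
    (u : Fin 3 → 𝒪 ⊗[ℤ] Lam (N * p)) :
    bp1O hpNqq 𝒪 (lamCastO 𝒪 (alpha3O (N * p) q 𝒪 u))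
      = alpha3O N q 𝒪 (fun m => bp1O hpN 𝒪 (u m)) :=
  bP1_alpha3O 𝒪 hpN hpNqq u

theorem bp2O_alpha3O (hpN : ¬ p ∣ N) (hpNqq : ¬ p ∣ N * q * q)
    (u : Fin 3 → 𝒪 ⊗[ℤ] Lam (N * p)) :
    bp2O hpNqq 𝒪 (lamCastO 𝒪 (alpha3O (N * p) q 𝒪 u))
      = alpha3O N q 𝒪 (fun m => bp2O hpN 𝒪 (u m)) :=
  bP2_alpha3O 𝒪 hpN hpNqq u

/-- **`α_m ⊗ 𝒪` maps `KNew` (level `N p`) into `KNew` (level `N q² p`) through the cast.** -/
theorem alCompO_mem_KNew (hpN : ¬ p ∣ N) (hpNqq : ¬ p ∣ N * q * q) (m : Fin 3)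
    {x : 𝒪 ⊗[ℤ] Lam (N * p)} (hx : x ∈ KNew hpN 𝒪) :
    lamCastO 𝒪 ((alComp (N * p) q m).baseChange 𝒪 x) ∈ KNew hpNqq 𝒪 := by
  rw [mem_KNew] at hx ⊢
  rw [bp1O_alCompO hpN hpNqq, bp2O_alCompO hpN hpNqq, hx.1, hx.2, map_zero]
  exact ⟨rfl, rfl⟩

/-- the same for `α₃ ⊗ 𝒪`. -/
theorem alpha3O_mem_KNew (hpN : ¬ p ∣ N) (hpNqq : ¬ p ∣ N * q * q)
    {u : Fin 3 → 𝒪 ⊗[ℤ] Lam (N * p)} (hu : ∀ m, u m ∈ KNew hpN 𝒪) :
    lamCastO 𝒪 (alpha3O (N * p) q 𝒪 u) ∈ KNew hpNqq 𝒪 := by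
  rw [mem_KNew, bp1O_alpha3O hpN hpNqq, bp2O_alpha3O hpN hpNqq]
  have h1 : (fun m => bp1O hpN 𝒪 (u m)) = fun _ => 0 := by
    funext m
    exact ((mem_KNew hpN).1 (hu m)).1
  have h2 : (fun m => bp2O hpN 𝒪 (u m)) = fun _ => 0 := by
    funext m
    exact ((mem_KNew hpN).1 (hu m)).2
  rw [h1, h2]
  exact ⟨map_zero _, map_zero _⟩

/-- **`hbK'`**: the raised family of a `p`-new family is `p`-new (through the cast). -/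
theorem raise3_mem_KNew (hpN : ¬ p ∣ N) (hpNqq : ¬ p ∣ N * q * q) (c a : 𝒪) {d : ℕ}
    {b : Fin d → 𝒪 ⊗[ℤ] Lam (N * p)} (hb : ∀ i, b i ∈ KNew hpN 𝒪) (i : Fin d) :
    lamCastO 𝒪 (raise3 (alpha3O (N * p) q 𝒪) c a b i) ∈ KNew hpNqq 𝒪 := by
  rw [mem_KNew]
  exact raise3_mem_kerO 𝒪 hpN hpNqq c a b i ((mem_KNew hpN).1 (hb i)).1
    ((mem_KNew hpN).1 (hb i)).2

end K

section Loc

variable {N p q : ℕ} [hpF : Fact p.Prime] [hqF : Fact q.Prime]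
  [NeZero N] [NeZero (N * q)] [NeZero (N * q * q)]
  [NeZero (N * p)] [NeZero (N * p * q)] [NeZero (N * p * q * q)] [NeZero (N * q * q * p)]
  {𝒪 : Type} [CommRing 𝒪] [IsLocalRing 𝒪] {Z' : Set ℕ} (lam : Nat.Primes → 𝒪)

/-- **`hbK'` in `ker β'` form**: if the raised vector lies in the `𝔪'`-primary part, it lies in
`ker (betaLoc' …)`. -/
theorem raise3_mem_ker_betaLoc' (hpN : ¬ p ∣ N) (hpNqq : ¬ p ∣ N * q * q)
    (hr' : BetaPEquiv hpNqq Z') (c a : 𝒪) {d : ℕ}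
    {b : Fin d → 𝒪 ⊗[ℤ] Lam (N * p)} (hb : ∀ i, b i ∈ KNew hpN 𝒪) (i : Fin d)
    (y : ↥(locPart (mP 𝒪 Z' lam) (𝒪 ⊗[ℤ] Lam (N * p * q * q))))
    (hy : (y : 𝒪 ⊗[ℤ] Lam (N * p * q * q)) = raise3 (alpha3O (N * p) q 𝒪) c a b i) :
    y ∈ LinearMap.ker (betaLoc' lam hpNqq hr') := by
  rw [mem_ker_betaLoc'_iff, hy]
  exact raise3_mem_KNew hpN hpNqq c a hb i

end Loc

end Fermat.Agent.GE9.PNew.Inst.BetaPAlphaK
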