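/-
GATE-E / RISK-4, instance layer R4-I (helper21): `GE9/PNew/Inst/EtaStageNewStep.lean` —
**one step `Σ ⟶ Σ ∪ {q}` of the `p`-new module-side invariant** `EtaStageNew` (helper37 `KNew.lean`):

  `EtaStageNew hpN 𝒪 lam₀ d ⟹ EtaStageNew hpNqq 𝒪 lam₀[q ↦ 0] d`   (level `N p ⟶ (N q²) p`),

with the raised family EXPOSED: the new basis is the level cast of helper2's raised family
`raise3 (alpha3O (N p) q 𝒪) q (lam₀ q) b` (so that `FormLoc.step_forms` / `OmegaNew` / `StepNew`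
speak about the same family).

* `castOG_linearIndependent`, `gram_castOG`, `span_castOG_eq` : transport of `hli`, Gram matrix, span
  along helper37's level cast `OmegaNew.castOG`;
* **`etaStageNew_next_of_basis`** : the explicit-family form;
* **`etaStageNew_next`** : the `Prop` form (`EtaStageNew ⟹ EtaStageNew`), the module-side induction step
  of the SO(b) engine (twin of helper2's `ModStage.etaStage_next`).
-/
import Mathlib
import Fermat.Agent.GE9.PNew.Inst.OmegaNew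
import Fermat.Agent.GE9.PNew.Inst.BetaPAlphaK

set_option autoImplicit false
set_option linter.unusedSectionVars false

open scoped TensorProduct

namespace Fermat.Agent.GE9.PNew.Inst.EtaStageNewStep

open IsLocalRing Submodule
open Fermat.Agent.GJ.J2.Lat Fermat.Agent.GE9.Eta Fermat.Agent.GE9.Eta.Mod
  Fermat.Agent.GE9.Eta.LocLam Fermat.Agent.GE9.Eta.DualIhara2 Fermat.Agent.GE9.Mult1
  Fermat.Agent.GE9.PNew.Inst

/-! ### transport along the level cast -/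

section Cast

variable {𝒪 : Type} [CommRing 𝒪] {M M' : ℕ} [NeZero M] [NeZero M'] (h : M = M')

theorem castOG_linearIndependent {κ : Type*} {b : κ → 𝒪 ⊗[ℤ] Lam M}
    (hli : LinearIndependent 𝒪 b) : LinearIndependent 𝒪 (castOG 𝒪 h ∘ b) :=
  hli.map' (castOG 𝒪 h) (LinearMap.ker_eq_bot.mpr (castOG_injective h))

theorem gram_castOG {d : ℕ} (b : Fin d → 𝒪 ⊗[ℤ] Lam M) :
    gram (BW M' 𝒪) (castOG 𝒪 h ∘ b) = gram (BW M 𝒪) b := by
  ext i j
  exact BW_castOG h (b i) (b j)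

/-- the level cast carries the joint eigen-sublattice onto the joint eigen-sublattice (no hypothesis
on `𝒪`; helper37's `OmegaNew.map_castOG_eigenTensorO` without the section instances). -/
theorem map_castOG_eigen (lam : Nat.Primes → 𝒪) :
    (eigenTensorO M 𝒪 lam).map (castOG 𝒪 h) = eigenTensorO M' 𝒪 lam := by
  ext y
  constructor
  · rintro ⟨x, hx, rfl⟩
    exact (castOG_mem_eigenTensorO h lam).2 hx
  · intro hy
    refine ⟨castOG 𝒪 h.symm y, ?_, castOG_castOG h.symm h y⟩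
    show castOG 𝒪 h.symm y ∈ eigenTensorO M 𝒪 lam
    rw [← castOG_mem_eigenTensorO h lam, castOG_castOG h.symm h y]
    exact hy

theorem span_castOG_eq {κ : Type*} (b : κ → 𝒪 ⊗[ℤ] Lam M) (lam : Nat.Primes → 𝒪)
    (hspan : span 𝒪 (Set.range b) = eigenTensorO M 𝒪 lam) :
    span 𝒪 (Set.range (castOG 𝒪 h ∘ b)) = eigenTensorO M' 𝒪 lam := by
  rw [Set.range_comp, ← Submodule.map_span, hspan, map_castOG_eigen]

end Cast

/-! ### the step -/

section Step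

variable {N p q : ℕ} [hpF : Fact p.Prime] [hqF : Fact q.Prime]
  [NeZero N] [NeZero (N * q)] [NeZero (N * q * q)]
  [NeZero (N * p)] [NeZero (N * p * q)] [NeZero (N * p * q * q)] [NeZero (N * q * q * p)]
variable {𝒪 : Type} [CommRing 𝒪] [IsDomain 𝒪] [CharZero 𝒪] [IsDiscreteValuationRing 𝒪]
  [Finite (ResidueField 𝒪)]

/-- **the `p`-new module-side step, explicit family.**  `b` an `𝒪`-basis of the joint
eigen-sublattice at level `N p` with non-degenerate twisted Gram matrix, all `b i` `p`-new; then the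
level cast of helper2's raised family is such a basis at level `(N q²) p` for `lam₀[q ↦ 0]`. -/
theorem etaStageNew_next_of_basis (hpN : ¬ p ∣ N) (hpNqq : ¬ p ∣ N * q * q) (hqNp : ¬ q ∣ N * p)
    {ℓ : ℕ} (hℓ : ℓ.Prime) (hℓ2 : ℓ ≠ 2)
    {ϖ : 𝒪} (hϖ : Irreducible ϖ) (hℓϖ : ∃ c : 𝒪, (ℓ : 𝒪) = ϖ * c)
    (lam₀ : Nat.Primes → 𝒪)
    (l l' : Nat.Primes) (hl : ¬ (l : ℕ) ∣ N * p * q) (hlq : ((l : ℕ) : ZMod q) = 1)
    (hl' : ¬ (l' : ℕ) ∣ N * p)
    (ha : IsUnit (lam₀ l - (((l : ℕ) : 𝒪) + 1))) (ha' : IsUnit (lam₀ l' - (((l' : ℕ) : 𝒪) + 1)))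
    {d : ℕ} (hd : 2 ≤ d) (b : Fin d → 𝒪 ⊗[ℤ] Lam (N * p)) (hli : LinearIndependent 𝒪 b)
    (hspan : span 𝒪 (Set.range b) = eigenTensorO (N * p) 𝒪 lam₀)
    (hdet : (gram (BW (N * p) 𝒪) b).det ≠ 0) (hbK : ∀ i, b i ∈ KNew hpN 𝒪)
    (hc : FormLoc.cq q lam₀ ≠ 0) :
    LinearIndependent 𝒪 (fun i => lamCastO (N := N) (p := p) (q := q) 𝒪
        (raise3 (alpha3O (N * p) q 𝒪) ((q : ℕ) : 𝒪) (lam₀ (qP q)) b i)) ∧
      span 𝒪 (Set.range fun i => lamCastO (N := N) (p := p) (q := q) 𝒪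
        (raise3 (alpha3O (N * p) q 𝒪) ((q : ℕ) : 𝒪) (lam₀ (qP q)) b i))
        = eigenTensorO (N * q * q * p) 𝒪 (FormLoc.lamUp q lam₀) ∧
      (gram (BW (N * q * q * p) 𝒪) fun i => lamCastO (N := N) (p := p) (q := q) 𝒪
        (raise3 (alpha3O (N * p) q 𝒪) ((q : ℕ) : 𝒪) (lam₀ (qP q)) b i)).det ≠ 0 ∧
      ∀ i, lamCastO (N := N) (p := p) (q := q) 𝒪
        (raise3 (alpha3O (N * p) q 𝒪) ((q : ℕ) : 𝒪) (lam₀ (qP q)) b i) ∈ KNew hpNqq 𝒪 := by
  obtain ⟨hli', hspan', -, -, hgram⟩ :=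
    eta_mod hqNp hqF.out hℓ hℓ2 hϖ hℓϖ lam₀ l l' hl hlq hl' ha ha' hd b hli hspan
  have hdet' : (gram (BW (N * p * q * q) 𝒪)
      (raise3 (alpha3O (N * p) q 𝒪) ((q : ℕ) : 𝒪) (lam₀ (qP q)) b)).det ≠ 0 := by
    rw [det_gram_of_smul (BW (N * p) 𝒪) (BW (N * p * q * q) 𝒪) b _ _ hgram]
    exact mul_ne_zero (pow_ne_zero d hc) hdet
  refine ⟨?_, ?_, ?_, ?_⟩
  · exact castOG_linearIndependent (level_eq N p q) hli'
  · exact span_castOG_eq (level_eq N p q) _ _ hspan'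
  · have := gram_castOG (𝒪 := 𝒪) (level_eq N p q)
      (raise3 (alpha3O (N * p) q 𝒪) ((q : ℕ) : 𝒪) (lam₀ (qP q)) b)
    rw [← this] at hdet'
    exact hdet'
  · intro i
    exact BetaPAlphaK.raise3_mem_KNew hpN hpNqq _ _ hbK i

/-- **ONE STEP of the `p`-new module side of the induction `Σ ⟶ Σ ∪ {q}`** (`Prop` form; twin of
helper2's `ModStage.etaStage_next` at level `N p`, keeping `p`-newness). -/
theorem etaStageNew_next (hpN : ¬ p ∣ N) (hpNqq : ¬ p ∣ N * q * q) (hqNp : ¬ q ∣ N * p)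
    {ℓ : ℕ} (hℓ : ℓ.Prime) (hℓ2 : ℓ ≠ 2)
    {ϖ : 𝒪} (hϖ : Irreducible ϖ) (hℓϖ : ∃ c : 𝒪, (ℓ : 𝒪) = ϖ * c)
    (lam₀ : Nat.Primes → 𝒪)
    (l l' : Nat.Primes) (hl : ¬ (l : ℕ) ∣ N * p * q) (hlq : ((l : ℕ) : ZMod q) = 1)
    (hl' : ¬ (l' : ℕ) ∣ N * p)
    (ha : IsUnit (lam₀ l - (((l : ℕ) : 𝒪) + 1))) (ha' : IsUnit (lam₀ l' - (((l' : ℕ) : 𝒪) + 1)))
    {d : ℕ} (hd : 2 ≤ d) (hc : FormLoc.cq q lam₀ ≠ 0)
    (h : EtaStageNew hpN 𝒪 lam₀ d) :
    EtaStageNew hpNqq 𝒪 (FormLoc.lamUp q lam₀) d := by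
  obtain ⟨b, hli, hspan, hdet, hbK⟩ := h
  obtain ⟨h1, h2, h3, h4⟩ := etaStageNew_next_of_basis hpN hpNqq hqNp hℓ hℓ2 hϖ hℓϖ lam₀ l l' hl
    hlq hl' ha ha' hd b hli hspan hdet hbK hc
  exact ⟨_, h1, h2, h3, h4⟩

end Step

end Fermat.Agent.GE9.PNew.Inst.EtaStageNewStep
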