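/-
GATE-E / RISK-4, instance layer R4-I (helper21): `GE9/PNew/Inst/EtaStageNewChain.lean` —
**the `p`-new module-side invariant `EtaStageNew` at EVERY stage level** `N_Σ p`,
`N_Σ = M ∏_{q ∈ Σ} q²` (twin of helper2's `GE9/Eta/Chain.etaStage_lev`, keeping `p`-newness):

* `etaStageNew_congr_level`, `omegaCardNew_congr_level` : transport along an equality of the
  prime-to-`p` levels (independent `hpN`, `hpN'` and `NeZero` instances);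
* `stepNew_lev` : one step `Σ ⟶ Σ ∪ {q}` at GENERIC level literals (one call of
  `EtaStageNewStep.etaStageNew_next`);
* **`etaStageNew_lev`** : `EtaStageNew hpM 𝒪 lam d ⟹ EtaStageNew hpN 𝒪 (lamAt lam Σ) d` for ANY `N`
  with `N = M ∏_{x ∈ Σ} x²`;
* `etaStageNew_lev_mulp` : the same with the level equation in the shape
  `N * p = Mp * ∏ x ∈ Σ, x ^ 2`, `Mp = M * p` (the binders of `SupplySOb.exists_supplySOb`).

The non-Eisenstein input is the binder `hne` of `GE9/Eta/Chain.etaStage_lev`, VERBATIM.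
-/
import Mathlib
import Fermat.Agent.GE9.PNew.Inst.EtaStageNewStep
import Fermat.Agent.GE9.Eta.Chain

set_option autoImplicit false
set_option linter.unusedSectionVars false

open scoped TensorProduct

namespace Fermat.Agent.GE9.PNew.Inst.EtaStageNewChain

open IsLocalRing Submodule
open Fermat.Agent.GJ.J2.Lat Fermat.Agent.GE9.Eta Fermat.Agent.GE9.Eta.Mod
  Fermat.Agent.GE9.Mult1 Fermat.Agent.GE9.PNew.Inst Fermat.Agent.GE9.Eta.Chain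
  Fermat.Agent.GE.Engine.LevArith

/-! ### transport along an equality of levels -/

section Congr

variable {𝒪 : Type} [CommRing 𝒪] {p : ℕ} [hpF : Fact p.Prime]

theorem etaStageNew_congr_level {N N' : ℕ} [NeZero N] [NeZero (N * p)] [NeZero N']
    [NeZero (N' * p)] (h : N = N') (hpN : ¬ p ∣ N) (hpN' : ¬ p ∣ N')
    {lam : Nat.Primes → 𝒪} {d : ℕ} (hst : EtaStageNew hpN 𝒪 lam d) :
    EtaStageNew hpN' 𝒪 lam d := by
  subst h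
  exact hst

theorem omegaCardNew_congr_level {N N' : ℕ} [NeZero N] [NeZero (N * p)] [NeZero N']
    [NeZero (N' * p)] (h : N = N') (hpN : ¬ p ∣ N) (hpN' : ¬ p ∣ N')
    (lam : Nat.Primes → 𝒪) : omegaCardNew hpN 𝒪 lam = omegaCardNew hpN' 𝒪 lam := by
  subst h
  rfl

end Congr

/-! ### the chain -/

section Chain

variable {𝒪 : Type} [CommRing 𝒪] [IsDomain 𝒪] [CharZero 𝒪] [IsDiscreteValuationRing 𝒪]
  [Finite (ResidueField 𝒪)]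
variable {M p : ℕ} [hpF : Fact p.Prime] [NeZero M]

/-- **one step at the stage levels**: from `Sg` to `insert q Sg`, GENERIC level literals. -/
theorem stepNew_lev {ℓ : ℕ} (hℓ : ℓ.Prime) (hℓ2 : ℓ ≠ 2)
    {ϖ : 𝒪} (hϖ : Irreducible ϖ) (hℓϖ : ∃ c : 𝒪, (ℓ : 𝒪) = ϖ * c)
    (lam : Nat.Primes → 𝒪)
    (hne : ∀ (F : Finset ℕ) (q : ℕ), q.Prime → ∃ l : Nat.Primes, (l : ℕ) ∉ F ∧
      (((l : ℕ) : ZMod q) = 1) ∧ IsUnit (lam l - (((l : ℕ) : 𝒪) + 1)))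
    {d : ℕ} (hd : 2 ≤ d)
    (Sg : Finset ℕ) (hSg : ∀ x ∈ Sg, x.Prime)
    {q : ℕ} (hq : q.Prime) (hqS : q ∉ Sg) (hqM : ¬ q ∣ M * p)
    (hc : (((q : ℕ) : 𝒪) - 1) * ((1 + ((q : ℕ) : 𝒪)) ^ 2 - lam (⟨q, hq⟩ : Nat.Primes) ^ 2) ≠ 0)
    {N N' : ℕ} [NeZero N] [NeZero (N * p)] [NeZero N'] [NeZero (N' * p)]
    (hpN : ¬ p ∣ N) (hpN' : ¬ p ∣ N')
    (hN : N = M * ∏ x ∈ Sg, x ^ 2) (hN' : N' = M * ∏ x ∈ insert q Sg, x ^ 2)
    (hst : EtaStageNew hpN 𝒪 (lamAt lam Sg) d) :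
    EtaStageNew hpN' 𝒪 (lamAt lam (insert q Sg)) d := by
  have hp : p.Prime := hpF.out
  have hN'eq : N' = N * q * q := by rw [hN', hN, lev_insert' hqS]
  have hqM' : ¬ q ∣ M := fun h => hqM (Dvd.dvd.mul_right h p)
  have hqp : q ≠ p := fun h => hqM (h ▸ Dvd.intro_left M rfl)
  have hqN : ¬ q ∣ N := by
    rw [hN]
    exact not_dvd_lev hSg hq hqM' hqS
  have hqNp : ¬ q ∣ N * p := fun h =>
    (hq.dvd_mul.1 h).elim hqN fun h' => hqp ((Nat.prime_dvd_prime_iff_eq hq hp).1 h')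
  have : Fact q.Prime := ⟨hq⟩
  have hN0 : N ≠ 0 := NeZero.ne N
  have hq0 : q ≠ 0 := hq.ne_zero
  have hp0 : p ≠ 0 := hp.ne_zero
  have : NeZero (N * q) := ⟨mul_ne_zero hN0 hq0⟩
  have : NeZero (N * q * q) := ⟨mul_ne_zero (mul_ne_zero hN0 hq0) hq0⟩
  have : NeZero (N * p * q) := ⟨mul_ne_zero (mul_ne_zero hN0 hp0) hq0⟩
  have : NeZero (N * p * q * q) := ⟨mul_ne_zero (mul_ne_zero (mul_ne_zero hN0 hp0) hq0) hq0⟩
  have : NeZero (N * q * q * p) := ⟨mul_ne_zero (mul_ne_zero (mul_ne_zero hN0 hq0) hq0) hp0⟩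
  have hpNqq : ¬ p ∣ N * q * q := by rw [← hN'eq]; exact hpN'
  -- the auxiliary prime
  obtain ⟨l, hlF, hlq, hlu⟩ := hne ((N * p * q).primeFactors ∪ Sg) q hq
  have hl : ¬ (l : ℕ) ∣ N * p * q := fun h => hlF (Finset.mem_union_left _
    (Nat.mem_primeFactors.mpr ⟨l.2, h, mul_ne_zero (mul_ne_zero hN0 hp0) hq0⟩))
  have hlS : (l : ℕ) ∉ Sg := fun h => hlF (Finset.mem_union_right _ h)
  have hl' : ¬ (l : ℕ) ∣ N * p := fun h => hl (Dvd.dvd.mul_right h q)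
  have ha : IsUnit (lamAt lam Sg l - (((l : ℕ) : 𝒪) + 1)) := by
    rw [lamAt_of_notMem lam hlS]; exact hlu
  have hlamq : lamAt lam Sg (qP q) = lam (⟨q, hq⟩ : Nat.Primes) :=
    lamAt_of_notMem lam (show ((qP q : Nat.Primes) : ℕ) ∉ Sg from hqS)
  have hc' : FormLoc.cq q (lamAt lam Sg) ≠ 0 := by
    show (((q : ℕ) : 𝒪) - 1) * ((1 + ((q : ℕ) : 𝒪)) ^ 2 - lamAt lam Sg (qP q) ^ 2) ≠ 0
    rw [hlamq]
    exact hc
  have h1 := EtaStageNewStep.etaStageNew_next hpN hpNqq hqNp hℓ hℓ2 hϖ hℓϖ (lamAt lam Sg) l l hl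
    hlq hl' ha ha hd hc' hst
  have hlam : FormLoc.lamUp q (lamAt lam Sg) = lamAt lam (insert q Sg) :=
    (lamAt_insert lam Sg hq).symm
  rw [hlam] at h1
  exact etaStageNew_congr_level hN'eq.symm hpNqq hpN' h1

/-- **`EtaStageNew` at every stage level** (`N = M ∏_{x ∈ Sg} x²`, ANY such literal `N`). -/
theorem etaStageNew_lev [NeZero (M * p)] (hpM : ¬ p ∣ M)
    {ℓ : ℕ} (hℓ : ℓ.Prime) (hℓ2 : ℓ ≠ 2)
    {ϖ : 𝒪} (hϖ : Irreducible ϖ) (hℓϖ : ∃ c : 𝒪, (ℓ : 𝒪) = ϖ * c)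
    (lam : Nat.Primes → 𝒪)
    (hne : ∀ (F : Finset ℕ) (q : ℕ), q.Prime → ∃ l : Nat.Primes, (l : ℕ) ∉ F ∧
      (((l : ℕ) : ZMod q) = 1) ∧ IsUnit (lam l - (((l : ℕ) : 𝒪) + 1)))
    {d : ℕ} (hd : 2 ≤ d) (hbase : EtaStageNew hpM 𝒪 lam d)
    (Sg : Finset ℕ) (hSg : ∀ x ∈ Sg, x.Prime ∧ ¬ x ∣ M * p)
    (hc : ∀ (q : ℕ) (hq : q.Prime), q ∈ Sg →
      (((q : ℕ) : 𝒪) - 1) * ((1 + ((q : ℕ) : 𝒪)) ^ 2 - lam (⟨q, hq⟩ : Nat.Primes) ^ 2) ≠ 0)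
    {N : ℕ} [NeZero N] [NeZero (N * p)] (hpN : ¬ p ∣ N) (hN : N = M * ∏ x ∈ Sg, x ^ 2) :
    EtaStageNew hpN 𝒪 (lamAt lam Sg) d := by
  have hp : p.Prime := hpF.out
  induction Sg using Finset.induction_on generalizing N with
  | empty =>
    rw [lamAt_empty]
    have hNM : N = M := by rw [hN, Finset.prod_empty, mul_one]
    exact etaStageNew_congr_level hNM.symm hpM hpN hbase
  | insert q Sg hqS ih =>
    have hq : q.Prime := (hSg q (Finset.mem_insert_self _ _)).1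
    have hqM : ¬ q ∣ M * p := (hSg q (Finset.mem_insert_self _ _)).2
    have hSg' : ∀ x ∈ Sg, x.Prime ∧ ¬ x ∣ M * p := fun x hx =>
      hSg x (Finset.mem_insert_of_mem hx)
    have hSgP : ∀ x ∈ Sg, x.Prime := fun x hx => (hSg' x hx).1
    have hN₀ : M * ∏ x ∈ Sg, x ^ 2 ≠ 0 := lev_ne_zero (NeZero.ne M) hSgP
    have : NeZero (M * ∏ x ∈ Sg, x ^ 2) := ⟨hN₀⟩
    have : NeZero ((M * ∏ x ∈ Sg, x ^ 2) * p) := ⟨mul_ne_zero hN₀ hp.ne_zero⟩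
    have hpN₀ : ¬ p ∣ M * ∏ x ∈ Sg, x ^ 2 := by
      refine not_dvd_lev hSgP hp hpM fun hpS => ?_
      exact (hSg' p hpS).2 (Dvd.intro_left M rfl)
    have hst := ih hSg' (fun x hx hxS => hc x hx (Finset.mem_insert_of_mem hxS)) hpN₀ rfl
    exact stepNew_lev hℓ hℓ2 hϖ hℓϖ lam hne hd Sg hSgP hq hqS hqM
      (hc q hq (Finset.mem_insert_self _ _)) hpN₀ hpN rfl hN hst

/-- **`EtaStageNew` at every stage level, level equation in the shape `N * p = Mp * ∏ x²`**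
(`Mp = M * p` the bundle level; the binders `hN₁` / `hN₀` of `SupplySOb.exists_supplySOb`). -/
theorem etaStageNew_lev_mulp [NeZero (M * p)] (hpM : ¬ p ∣ M)
    {ℓ : ℕ} (hℓ : ℓ.Prime) (hℓ2 : ℓ ≠ 2)
    {ϖ : 𝒪} (hϖ : Irreducible ϖ) (hℓϖ : ∃ c : 𝒪, (ℓ : 𝒪) = ϖ * c)
    (lam : Nat.Primes → 𝒪)
    (hne : ∀ (F : Finset ℕ) (q : ℕ), q.Prime → ∃ l : Nat.Primes, (l : ℕ) ∉ F ∧
      (((l : ℕ) : ZMod q) = 1) ∧ IsUnit (lam l - (((l : ℕ) : 𝒪) + 1)))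
    {d : ℕ} (hd : 2 ≤ d) (hbase : EtaStageNew hpM 𝒪 lam d)
    {Mp : ℕ} (hMp : Mp = M * p)
    (Sg : Finset ℕ) (hSg : ∀ x ∈ Sg, x.Prime ∧ ¬ x ∣ Mp ∧ x ≠ p)
    (hc : ∀ (q : ℕ) (hq : q.Prime), q ∈ Sg →
      (((q : ℕ) : 𝒪) - 1) * ((1 + ((q : ℕ) : 𝒪)) ^ 2 - lam (⟨q, hq⟩ : Nat.Primes) ^ 2) ≠ 0)
    {N : ℕ} [NeZero N] [NeZero (N * p)] (hpN : ¬ p ∣ N)
    (hN : N * p = Mp * ∏ x ∈ Sg, x ^ 2) :
    EtaStageNew hpN 𝒪 (lamAt lam Sg) d := by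
  have hp : p.Prime := hpF.out
  have hN' : N = M * ∏ x ∈ Sg, x ^ 2 := by
    apply Nat.eq_of_mul_eq_mul_right hp.pos
    rw [hN, hMp]
    ring
  exact etaStageNew_lev hpM hℓ hℓ2 hϖ hℓϖ lam hne hd hbase Sg
    (fun x hx => ⟨(hSg x hx).1, hMp ▸ (hSg x hx).2.1⟩) hc hpN hN'

end Chain

end Fermat.Agent.GE9.PNew.Inst.EtaStageNewChain
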