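/-
GATE-E (S59) / RISK-4 (e9) (helper31): **one flat stage at its TARGET MODULE**
`A := ↥(locPart (mP 𝒪 Z lam) (𝒪 ⊗[ℤ] Lam N'))` (helper37's `PolyAct` vocabulary) — the per-stage
CARRIER binders of helper16's `StepNewCore.card_congMod_ker_growth_of_flStages` (= the inputs of
`StageFreeRT.stage_free_of_rtNum`) at the concrete image carrier of the ANEMIC Hecke algebra
`heckeAlgebra N' 2 ↑S0` acting on `A`.

* `afLam_smulP_comm`, `afLin`, `afLam_smul_mem_locPart` : the full algebra `AfLam N' 𝒪` of the lattice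
  commutes with the polynomial Hecke algebra `PAlg 𝒪 Z`, hence stabilises every `𝔪`-primary part;
* `actLoc lam : AfLam N' 𝒪 →ₐ[𝒪] End_𝒪 A`, `twZ lam S0 := actLoc ∘ iotaLam` (the anemic action),
  `coe_twZ`, `coe_twZ_T`, `twO_twZ`;
* `exists_pAlg_of_afLam_hecke`, `exists_pAlg_of_hecke` : the image of `𝒪 ⊗ heckeAlgebra N' 2 ↑S0` in
  `End (𝒪 ⊗ Lam N')` lies in the image of `PAlg 𝒪 Z` (when `Z ⊇ {l ∉ S0}`, `primes(N') ⊆ S0`);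
* `finite_locPartZ`, `free_locPartZ`, `nontrivial_locPartZ`, **`locHyp_twZ`** : the instance binders;
* `tt_X_smul_eq_chi_smul` : **`hX`** — `X_l • y = chi (T_l) • y` (`ttModule` vs `moduleTQ`);
* **`exists_flStage_fields_inst`** : the binders
  `(ρT hcp φ hφ φ_local φ_ρ πO hη γ hγ Bad hBad heig Bf hadj bA hli hspan hw hX)` of `StepNewCore` at
  `T := TQ 𝒪 θ (twZ lam S0)`, `π := chi 𝒪 θ (twZ lam S0)` (`hgen := adjoin_range_chi`),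
  `Bf := FormLoc.BL N' Z lam` (`hnd := FormLoc.hnd_BL`), `bA := FormLoc.famLoc b hbL`,
  `Bad := badSet S0 N'`; `hrank` (R4-J) is not needed here and passes through.
-/
import Mathlib
import Fermat.Agent.GE9.Stage.RawFLGen
import Fermat.Agent.GE9.PNew.CarrierExp
import Fermat.Agent.GE9.PNew.DepthCarrier
import Fermat.Agent.GE9.PNew.Inst.FormLoc
import Fermat.Agent.GE9.PNew.Inst.StepMaps
import Fermat.Agent.GE9.Stage.CarrierLam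

set_option autoImplicit false
set_option linter.unusedSectionVars false
set_option linter.unusedVariables false
set_option linter.style.haveILetI false

noncomputable section

namespace Fermat.Agent.GE9.PNew.Inst.FLStageInst

open TensorProduct IsLocalRing Submodule CuspForm Polynomial
open Fermat.Agent.GJ.J2.Lat Fermat.Agent.GJ.J2.LatAct Fermat.Agent.GB.B3.Loc
  Fermat.Agent.GB.B4.Datum.ImageRing Fermat.Agent.GB.B4.Datum.Carrier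
  Fermat.Agent.GE9.Eta Fermat.Agent.GE9.Eta.Mod Fermat.Agent.GE9.Mult1
  Fermat.Agent.GE9.Stage.CarrierLam Fermat.Agent.GE9.Stage.CarrierAbs
  Fermat.Agent.GE9.PNew.Inst Fermat.Agent.GE9.PNew.Inst.FormLoc
  Fermat.Agent.GE9.PNew.CarrierExp

local notation "GQ" => (AlgebraicClosure ℚ ≃ₐ[ℚ] AlgebraicClosure ℚ)
local notation "Qb" => AlgebraicClosure ℚ

/-! ### the full algebra commutes with the polynomial Hecke algebra -/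

section Comm

variable {N : ℕ} [NeZero N] {𝒪 : Type} [CommRing 𝒪] {Z : Set ℕ}

/-- the full algebra of the lattice commutes with the polynomial Hecke algebra. -/
theorem afLam_smulP_comm (a : AfLam N 𝒪) (P : PAlg 𝒪 Z) (x : 𝒪 ⊗[ℤ] Lam N) :
    a • (P • x) = P • (a • x) := by
  revert x
  refine pAlg_induction 𝒪 Z P (motive := fun P => ∀ x : 𝒪 ⊗[ℤ] Lam N, a • (P • x) = P • (a • x))
    ?_ ?_ ?_
  · intro c x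
    rw [algebraMap_smulP, algebraMap_smulP, smul_comm]
  · intro P Q hP hQ x
    rw [add_smul, add_smul, smul_add, hP, hQ]
  · intro P l hl hP x
    have key : ∀ y : 𝒪 ⊗[ℤ] Lam N, a • (xP 𝒪 Z l hl • y) = xP 𝒪 Z l hl • (a • y) := by
      intro y
      rw [xP_smul, xP_smul, ← gen_smul N 𝒪 l, ← gen_smul N 𝒪 l, ← mul_smul, ← mul_smul, mul_comm]
    rw [mul_smul, mul_smul, hP, key]

/-- the action of an element of the full algebra, as a `PAlg 𝒪 Z`-linear map. -/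
def afLin (a : AfLam N 𝒪) : 𝒪 ⊗[ℤ] Lam N →ₗ[PAlg 𝒪 Z] 𝒪 ⊗[ℤ] Lam N where
  toFun x := a • x
  map_add' := smul_add a
  map_smul' P x := afLam_smulP_comm a P x

@[simp] theorem afLin_apply (a : AfLam N 𝒪) (x : 𝒪 ⊗[ℤ] Lam N) :
    afLin (Z := Z) a x = a • x := rfl

end Comm

/-! ### the `𝒪`-linear extension of a composite action (generic) -/

section Generic

variable {𝒪 : Type} [CommRing 𝒪] [IsLocalRing 𝒪] {A : Type} [CommRing A]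
  {Af : Type} [CommRing Af] [Algebra 𝒪 Af] {M : Type} [AddCommGroup M] [Module 𝒪 M]

/-- the `𝒪`-linear extension of `act ∘ ι` is `act ∘ iotaO ι`. -/
theorem twO_comp_ringHom (act : Af →ₐ[𝒪] Module.End 𝒪 M) (ι : A →+* Af) (a : 𝒪 ⊗[ℤ] A) :
    twO 𝒪 ((act : Af →+* Module.End 𝒪 M).comp ι) a = act (iotaO ι a) := by
  have h : twO 𝒪 ((act : Af →+* Module.End 𝒪 M).comp ι) = act.comp (iotaO ι) := by
    apply Algebra.TensorProduct.ext'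
    intro x t
    rw [twO_tmul, AlgHom.comp_apply, iotaO_tmul, map_smul]
    rfl
  rw [h]
  rfl

end Generic

/-! ### the action of the full algebra on the primary part, and the anemic action -/

section Act

variable {N : ℕ} [NeZero N] {𝒪 : Type} [CommRing 𝒪] [IsLocalRing 𝒪] {Z : Set ℕ}
  (lam : Nat.Primes → 𝒪)

/-- the full algebra stabilises the `𝔪_Z`-primary part. -/
theorem afLam_smul_mem_locPart (a : AfLam N 𝒪) {x : 𝒪 ⊗[ℤ] Lam N}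
    (hx : x ∈ locPart (mP 𝒪 Z lam) (𝒪 ⊗[ℤ] Lam N)) :
    a • x ∈ locPart (mP 𝒪 Z lam) (𝒪 ⊗[ℤ] Lam N) :=
  apply_mem_locPart (afLin (Z := Z) a) hx

/-- the operator of an element of the full algebra on the `𝔪_Z`-primary part. -/
def actLocFun (a : AfLam N 𝒪) : Module.End 𝒪 ↥(locPart (mP 𝒪 Z lam) (𝒪 ⊗[ℤ] Lam N)) where
  toFun x := ⟨a • (x : 𝒪 ⊗[ℤ] Lam N), afLam_smul_mem_locPart lam a x.2⟩
  map_add' x y := Subtype.ext (by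
    show a • ((x : 𝒪 ⊗[ℤ] Lam N) + (y : 𝒪 ⊗[ℤ] Lam N)) = a • (x : 𝒪 ⊗[ℤ] Lam N) + a • y
    rw [smul_add])
  map_smul' c x := Subtype.ext (by
    show a • (c • (x : 𝒪 ⊗[ℤ] Lam N)) = c • (a • (x : 𝒪 ⊗[ℤ] Lam N))
    rw [smul_comm])

/-- **the action of the full algebra of the lattice on the `𝔪_Z`-primary part.** -/
def actLoc : AfLam N 𝒪 →ₐ[𝒪] Module.End 𝒪 ↥(locPart (mP 𝒪 Z lam) (𝒪 ⊗[ℤ] Lam N)) where
  toFun := actLocFun lam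
  map_one' := LinearMap.ext fun x => Subtype.ext (by
    show (1 : AfLam N 𝒪) • (x : 𝒪 ⊗[ℤ] Lam N) = x
    rw [one_smul])
  map_mul' a b := LinearMap.ext fun x => Subtype.ext (by
    show (a * b) • (x : 𝒪 ⊗[ℤ] Lam N) = a • (b • (x : 𝒪 ⊗[ℤ] Lam N))
    rw [mul_smul])
  map_zero' := LinearMap.ext fun x => Subtype.ext (by
    show (0 : AfLam N 𝒪) • (x : 𝒪 ⊗[ℤ] Lam N) = 0
    rw [zero_smul])
  map_add' a b := LinearMap.ext fun x => Subtype.ext (by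
    show (a + b) • (x : 𝒪 ⊗[ℤ] Lam N) = a • (x : 𝒪 ⊗[ℤ] Lam N) + b • (x : 𝒪 ⊗[ℤ] Lam N)
    rw [add_smul])
  commutes' c := LinearMap.ext fun x => Subtype.ext (by
    show algebraMap 𝒪 (AfLam N 𝒪) c • (x : 𝒪 ⊗[ℤ] Lam N) = c • (x : 𝒪 ⊗[ℤ] Lam N)
    rw [algebraMap_smul])

@[simp] theorem coe_actLoc (a : AfLam N 𝒪) (x : ↥(locPart (mP 𝒪 Z lam) (𝒪 ⊗[ℤ] Lam N))) :
    ((actLoc lam a x : ↥(locPart (mP 𝒪 Z lam) (𝒪 ⊗[ℤ] Lam N))) : 𝒪 ⊗[ℤ] Lam N)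
      = a • (x : 𝒪 ⊗[ℤ] Lam N) := rfl

variable (S0 : Finset ℕ)

/-- **the anemic action** of `heckeAlgebra N 2 ↑S0` on the `𝔪_Z`-primary part (through
`LatAct.latAct`). -/
def twZ : ↥(heckeAlgebra N 2 (↑S0 : Set ℕ)) →+*
    Module.End 𝒪 ↥(locPart (mP 𝒪 Z lam) (𝒪 ⊗[ℤ] Lam N)) :=
  ((actLoc (Z := Z) lam : AfLam N 𝒪 →ₐ[𝒪] _) : AfLam N 𝒪 →+* _).comp
    (iotaLam N 𝒪 (↑S0 : Set ℕ))

theorem coe_twZ (t : ↥(heckeAlgebra N 2 (↑S0 : Set ℕ)))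
    (x : ↥(locPart (mP 𝒪 Z lam) (𝒪 ⊗[ℤ] Lam N))) :
    ((twZ lam S0 t x : ↥(locPart (mP 𝒪 Z lam) (𝒪 ⊗[ℤ] Lam N))) : 𝒪 ⊗[ℤ] Lam N)
      = iotaLam N 𝒪 (↑S0 : Set ℕ) t • (x : 𝒪 ⊗[ℤ] Lam N) := rfl

theorem coe_twZ_T {ℓ : ℕ} (hℓ : ℓ.Prime) (hℓN : ¬ ℓ ∣ N) (hℓS : ℓ ∉ (↑S0 : Set ℕ))
    (x : ↥(locPart (mP 𝒪 Z lam) (𝒪 ⊗[ℤ] Lam N))) :
    ((twZ lam S0 (heckeAlgebra.T hℓ hℓN hℓS) x :
        ↥(locPart (mP 𝒪 Z lam) (𝒪 ⊗[ℤ] Lam N))) : 𝒪 ⊗[ℤ] Lam N)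
      = (latT N (⟨ℓ, hℓ⟩ : Nat.Primes)).baseChange 𝒪 (x : 𝒪 ⊗[ℤ] Lam N) := by
  rw [coe_twZ, iotaLam_T_smul]

/-- the `𝒪`-linear extension of the anemic action factors through the full algebra. -/
theorem twO_twZ (a : 𝒪 ⊗[ℤ] ↥(heckeAlgebra N 2 (↑S0 : Set ℕ))) :
    twO 𝒪 (twZ (Z := Z) lam S0) a
      = actLoc lam (iotaO (iotaLam N 𝒪 (↑S0 : Set ℕ)) a) :=
  twO_comp_ringHom (actLoc (Z := Z) lam) (iotaLam N 𝒪 (↑S0 : Set ℕ)) a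

end Act

/-! ### the image of the anemic algebra lies in the image of the polynomial algebra -/

section Image

variable {N : ℕ} [NeZero N] {𝒪 : Type} [CommRing 𝒪] [IsDomain 𝒪] [IsDiscreteValuationRing 𝒪]
  [IsAdicComplete (maximalIdeal 𝒪) 𝒪] {Z : Set ℕ} (S0 : Finset ℕ)
  (hNS : ∀ r : ℕ, r.Prime → r ∣ N → r ∈ S0) (hZ : ∀ l : ℕ, l.Prime → l ∉ S0 → l ∈ Z)

include hNS hZ in
/-- every anemic Hecke operator acts on `𝒪 ⊗ Lam N` as an element of `PAlg 𝒪 Z`. -/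
theorem exists_pAlg_of_afLam_hecke (t : ↥(heckeAlgebra N 2 (↑S0 : Set ℕ))) :
    ∃ P : PAlg 𝒪 Z, ∀ y : 𝒪 ⊗[ℤ] Lam N, iotaLam N 𝒪 (↑S0 : Set ℕ) t • y = P • y := by
  have hS : ∀ l : ℕ, l.Prime → l ∉ S0 → ¬ l ∣ N ∧ l ∉ (↑S0 : Set ℕ) := fun l hl hl0 =>
    ⟨fun h => hl0 (hNS l hl h), fun h => hl0 (Finset.mem_coe.mp h)⟩
  have hmem := Fermat.Agent.GE9.PNew.DepthCarrier.map_mem_adjoin_T (𝒪 := 𝒪)
    (iotaLam N 𝒪 (↑S0 : Set ℕ)) S0 hS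
    (fun l _ _ hlS h0 => hlS (Finset.mem_coe.mpr h0))
    (fun r hr hrN => Finset.mem_coe.mpr (hNS r hr hrN)) t
  refine Algebra.adjoin_induction
    (p := fun (a : AfLam N 𝒪) _ => ∃ P : PAlg 𝒪 Z, ∀ y : 𝒪 ⊗[ℤ] Lam N, a • y = P • y)
    ?_ ?_ ?_ ?_ hmem
  · rintro _ ⟨l, rfl⟩
    refine ⟨xP 𝒪 Z (tPrime S0 l) (hZ l.1 l.2.1 l.2.2), fun y => ?_⟩
    exact (iotaLam_T_smul N 𝒪 (↑S0 : Set ℕ) l.2.1 _ _ y).trans
      (xP_smul (tPrime S0 l) (hZ l.1 l.2.1 l.2.2) y).symm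
  · intro c
    exact ⟨algebraMap 𝒪 (PAlg 𝒪 Z) c, fun y => by rw [algebraMap_smul, algebraMap_smulP]⟩
  · rintro a a' _ _ ⟨P, hP⟩ ⟨P', hP'⟩
    exact ⟨P + P', fun y => by rw [add_smul, add_smul, hP, hP']⟩
  · rintro a a' _ _ ⟨P, hP⟩ ⟨P', hP'⟩
    exact ⟨P * P', fun y => by rw [mul_smul, mul_smul, hP', hP]⟩

include hNS hZ in
/-- the whole of `𝒪 ⊗ heckeAlgebra N 2 ↑S0` acts on `𝒪 ⊗ Lam N` through `PAlg 𝒪 Z`. -/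
theorem exists_pAlg_of_hecke (a : 𝒪 ⊗[ℤ] ↥(heckeAlgebra N 2 (↑S0 : Set ℕ))) :
    ∃ P : PAlg 𝒪 Z, ∀ y : 𝒪 ⊗[ℤ] Lam N,
      iotaO (iotaLam N 𝒪 (↑S0 : Set ℕ)) a • y = P • y := by
  induction a using TensorProduct.induction_on with
  | zero => exact ⟨0, fun y => by rw [map_zero, zero_smul, zero_smul]⟩
  | tmul c t =>
    obtain ⟨P, hP⟩ := exists_pAlg_of_afLam_hecke (𝒪 := 𝒪) (Z := Z) S0 hNS hZ t
    refine ⟨algebraMap 𝒪 (PAlg 𝒪 Z) c * P, fun y => ?_⟩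
    rw [iotaO_tmul, smul_assoc, hP, mul_smul, algebraMap_smulP]
  | add a a' ha ha' =>
    obtain ⟨P, hP⟩ := ha
    obtain ⟨P', hP'⟩ := ha'
    exact ⟨P + P', fun y => by rw [map_add, add_smul, add_smul, hP, hP']⟩

end Image

/-! ### the instance binders of the carrier -/

section Inst

variable {N : ℕ} [NeZero N] {𝒪 : Type} [CommRing 𝒪] [IsDomain 𝒪] [IsDiscreteValuationRing 𝒪]
  [IsAdicComplete (maximalIdeal 𝒪) 𝒪] [CharZero 𝒪] (Z : Set ℕ) (lam : Nat.Primes → 𝒪)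

theorem finite_locPartZ : Module.Finite 𝒪 ↥(locPart (mP 𝒪 Z lam) (𝒪 ⊗[ℤ] Lam N)) := by
  haveI := finite_tensor_lam (O := 𝒪) N
  exact finite_locPart 𝒪 (mP 𝒪 Z lam)

theorem free_locPartZ : Module.Free 𝒪 ↥(locPart (mP 𝒪 Z lam) (𝒪 ⊗[ℤ] Lam N)) := by
  haveI := finite_tensor_lam (O := 𝒪) N
  haveI := free_tensor_lam (O := 𝒪) N
  exact free_locPart 𝒪 (mP 𝒪 Z lam)

variable {Z lam}

theorem nontrivial_locPartZ {x : 𝒪 ⊗[ℤ] Lam N}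
    (hx : x ∈ locPart (mP 𝒪 Z lam) (𝒪 ⊗[ℤ] Lam N)) (hx0 : x ≠ 0) :
    Nontrivial ↥(locPart (mP 𝒪 Z lam) (𝒪 ⊗[ℤ] Lam N)) :=
  ⟨⟨⟨x, hx⟩, 0, fun h => hx0 (congrArg Subtype.val h)⟩⟩

variable (S0 : Finset ℕ)

/-- **(LOC)** for the anemic action on the `𝔪_Z`-primary part: the residual character is the one of
any nonzero vector of the joint eigen-sublattice. -/
theorem locHyp_twZ (hNS : ∀ r : ℕ, r.Prime → r ∣ N → r ∈ S0)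
    (hZ : ∀ l : ℕ, l.Prime → l ∉ S0 → l ∈ Z) {x : 𝒪 ⊗[ℤ] Lam N}
    (hx : x ∈ eigenTensorO N 𝒪 lam) (hx0 : x ≠ 0) :
    LocHyp 𝒪 (thetaRes (iotaLam N 𝒪 (↑S0 : Set ℕ)) (chiHom hx hx0))
      (twZ (Z := Z) lam S0) := by
  intro a ha
  rw [thetaO_thetaRes] at ha
  have hu : IsUnit (chiLam N 𝒪 lam (iotaO (iotaLam N 𝒪 (↑S0 : Set ℕ)) a)) := by
    by_contra hnu
    exact ha ((residue_eq_zero_iff _).mpr ((mem_maximalIdeal _).mpr hnu))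
  obtain ⟨P, hP⟩ := exists_pAlg_of_hecke (𝒪 := 𝒪) (Z := Z) S0 hNS hZ a
  have hev : evP 𝒪 Z lam P = chiLam N 𝒪 lam (iotaO (iotaLam N 𝒪 (↑S0 : Set ℕ)) a) := by
    have h1 : P • x = evP 𝒪 Z lam P • x :=
      smulP_eq_evP_smul (fun l _ => mem_eigenTensorO.mp hx l) P
    have h2 := chiLam_spec N 𝒪 lam (iotaO (iotaLam N 𝒪 (↑S0 : Set ℕ)) a) hx
    exact scalar_cancel hx0 (h1.symm.trans ((hP x).symm.trans h2))
  have hPm : P ∉ mP 𝒪 Z lam := (notMem_mP_iff P).mpr (by rw [hev]; exact hu)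
  haveI := finite_tensor_lam (O := 𝒪) N
  have hbij := bijective_smul_locPart 𝒪 (L := 𝒪 ⊗[ℤ] Lam N) (mP 𝒪 Z lam) hPm
  have hfun : (twO 𝒪 (twZ (Z := Z) lam S0) a :
      ↥(locPart (mP 𝒪 Z lam) (𝒪 ⊗[ℤ] Lam N)) → ↥(locPart (mP 𝒪 Z lam) (𝒪 ⊗[ℤ] Lam N)))
      = fun y => P • y := by
    funext y
    apply Subtype.ext
    rw [twO_twZ]
    exact hP y
  rw [hfun]
  exact hbij

end Inst

/-! ### the link between the two module structures -/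

section Link

variable {N : ℕ} [NeZero N] {𝒪 : Type} [CommRing 𝒪] [IsLocalRing 𝒪] {Z : Set ℕ}
  (lam : Nat.Primes → 𝒪) (S0 : Finset ℕ) (hZ : ∀ l : ℕ, l.Prime → l ∉ S0 → l ∈ Z)
  (θ : ↥(heckeAlgebra N 2 (↑S0 : Set ℕ)) →+* ResidueField 𝒪)

/-- **`hX`** : the generator `X_l` of `𝕋 = 𝒪[X_l : l ∉ S0]` (acting through `PAlg 𝒪 Z`) and the
Hecke operator `chi (T_l)` of the image carrier act in the same way on the primary part. -/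
theorem tt_X_smul_eq_chi_smul (l : TIdx S0) (hlN : ¬ l.1 ∣ N) (hlS : l.1 ∉ (↑S0 : Set ℕ))
    (y : ↥(locPart (mP 𝒪 Z lam) (𝒪 ⊗[ℤ] Lam N))) :
    letI := ttModule 𝒪 S0 hZ ↥(locPart (mP 𝒪 Z lam) (𝒪 ⊗[ℤ] Lam N))
    letI := moduleTQ 𝒪 θ (twZ (Z := Z) lam S0)
    (MvPolynomial.X l : MvPolynomial (TIdx S0) 𝒪) • y
      = chi 𝒪 θ (twZ (Z := Z) lam S0) (heckeAlgebra.T l.2.1 hlN hlS) • y := by
  letI := ttModule 𝒪 S0 hZ ↥(locPart (mP 𝒪 Z lam) (𝒪 ⊗[ℤ] Lam N))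
  letI := moduleTQ 𝒪 θ (twZ (Z := Z) lam S0)
  apply Subtype.ext
  rw [coe_tt_X_smul 𝒪 S0 hZ (locPart (mP 𝒪 Z lam) (𝒪 ⊗[ℤ] Lam N)) l y,
    chi_smul 𝒪 θ (twZ (Z := Z) lam S0), coe_twZ_T]
  rfl

end Link

/-! ### the module-side binders of the carrier -/

section Core

variable {N : ℕ} [NeZero N] {𝒪 : Type} [CommRing 𝒪] [IsDomain 𝒪] [IsDiscreteValuationRing 𝒪]
  [IsAdicComplete (maximalIdeal 𝒪) 𝒪] [CharZero 𝒪] {Z : Set ℕ} (lam : Nat.Primes → 𝒪)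
  (S0 : Finset ℕ)

/-- the character of the anemic algebra on the joint eigen-sublattice. -/
def chiZ (t : ↥(heckeAlgebra N 2 (↑S0 : Set ℕ))) : 𝒪 :=
  chiLam N 𝒪 lam (iotaLam N 𝒪 (↑S0 : Set ℕ) t)

variable {lam}

theorem chiZ_T {x : 𝒪 ⊗[ℤ] Lam N} (hx : x ∈ eigenTensorO N 𝒪 lam) (hx0 : x ≠ 0)
    {ℓ : ℕ} (hℓ : ℓ.Prime) (hℓN : ¬ ℓ ∣ N) (hℓS : ℓ ∉ (↑S0 : Set ℕ)) :
    chiZ lam S0 (heckeAlgebra.T hℓ hℓN hℓS) = lam (⟨ℓ, hℓ⟩ : Nat.Primes) := by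
  refine chiLam_eq_of_smul hx hx0 _ ?_
  rw [iotaLam_T_smul]
  exact mem_eigenTensorO.mp hx _

/-- the joint eigenvectors are eigenvectors of the anemic action. -/
theorem twZ_eigen {x : 𝒪 ⊗[ℤ] Lam N} (hx : x ∈ eigenTensorO N 𝒪 lam)
    (hxL : x ∈ locPart (mP 𝒪 Z lam) (𝒪 ⊗[ℤ] Lam N))
    (t : ↥(heckeAlgebra N 2 (↑S0 : Set ℕ))) :
    twZ (Z := Z) lam S0 t ⟨x, hxL⟩
      = chiZ lam S0 t • (⟨x, hxL⟩ : ↥(locPart (mP 𝒪 Z lam) (𝒪 ⊗[ℤ] Lam N))) := by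
  apply Subtype.ext
  rw [coe_twZ]
  exact chiLam_spec N 𝒪 lam _ hx

/-- the anemic action is self-adjoint for the Fricke-twisted cup form on the primary part. -/
theorem BL_twZ (t : ↥(heckeAlgebra N 2 (↑S0 : Set ℕ)))
    (x y : ↥(locPart (mP 𝒪 Z lam) (𝒪 ⊗[ℤ] Lam N))) :
    BL N Z lam (twZ (Z := Z) lam S0 t x) y = BL N Z lam x (twZ (Z := Z) lam S0 t y) := by
  rw [BL_apply, BL_apply, coe_twZ, coe_twZ]
  exact BW_smul N 𝒪 _ _ _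

/-- **OldQ in the shape of `CarrierExp.exposed_fields`**. -/
theorem hold_famLoc (hNS : ∀ r : ℕ, r.Prime → r ∣ N → r ∈ S0) {d : ℕ}
    (b : Fin d → 𝒪 ⊗[ℤ] Lam N) (hbL : ∀ i, b i ∈ locPart (mP 𝒪 Z lam) (𝒪 ⊗[ℤ] Lam N))
    (hspanE : span 𝒪 (Set.range b) = eigenTensorO N 𝒪 lam)
    {x₀ : 𝒪 ⊗[ℤ] Lam N} (hx₀ : x₀ ∈ eigenTensorO N 𝒪 lam) (hx₀0 : x₀ ≠ 0)
    (hold : ∀ x ∈ locPart (mP 𝒪 Z lam) (𝒪 ⊗[ℤ] Lam N),
      (∀ l : Nat.Primes, (l : ℕ) ∉ S0 → (latT N l).baseChange 𝒪 x = lam l • x) →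
        ∀ l : Nat.Primes, (latT N l).baseChange 𝒪 x = lam l • x)
    (x : ↥(locPart (mP 𝒪 Z lam) (𝒪 ⊗[ℤ] Lam N)))
    (hxe : ∀ t : ↥(heckeAlgebra N 2 (↑S0 : Set ℕ)),
      twZ (Z := Z) lam S0 t x = chiZ lam S0 t • x) :
    x ∈ span 𝒪 (Set.range (famLoc b hbL)) := by
  have h1 : ∀ l : Nat.Primes, (l : ℕ) ∉ S0 →
      (latT N l).baseChange 𝒪 (x : 𝒪 ⊗[ℤ] Lam N) = lam l • (x : 𝒪 ⊗[ℤ] Lam N) := by
    intro l hl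
    have hlN : ¬ (l : ℕ) ∣ N := fun h => hl (hNS l l.2 h)
    have hlS : (l : ℕ) ∉ (↑S0 : Set ℕ) := fun h => hl (Finset.mem_coe.mp h)
    have h2 := congrArg Subtype.val (hxe (heckeAlgebra.T l.2 hlN hlS))
    rw [coe_twZ_T, chiZ_T S0 hx₀ hx₀0] at h2
    exact h2
  have h3 : (x : 𝒪 ⊗[ℤ] Lam N) ∈ span 𝒪 (Set.range b) := by
    rw [hspanE]
    exact mem_eigenTensorO.mpr (hold _ x.2 h1)
  rw [← map_span_famLoc b hbL] at h3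
  obtain ⟨y, hy, hyx⟩ := h3
  have : y = x := Subtype.ext hyx
  rwa [← this]

end Core

/-! ### the fields of one flat stage at the target module -/

section Fields

open Fermat.Agent.GE.Graph Fermat.Agent.GE9.Ind Fermat.Agent.GE9.NumCrit
  Fermat.Agent.GE9.NumCrit.ModForm Fermat.Agent.GE9.Stage.RawFL GaloisRep

variable {𝒪 : Type} [CommRing 𝒪] [IsDomain 𝒪] [IsDiscreteValuationRing 𝒪]
  [IsAdicComplete (maximalIdeal 𝒪) 𝒪] [Finite (ResidueField 𝒪)] [CharZero 𝒪]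
  {ρbar : ResidualGaloisRep (ResidueField 𝒪)} {p : ℕ} [Fact p.Prime]
  [Algebra (ZMod p) (ResidueField 𝒪)]
  {Smin Sig : Finset ℕ} {d : ℕ}

set_option maxHeartbeats 1000000 in
/-- **one flat stage at its target module** `A := ↥(locPart (mP 𝒪 Z lam) (𝒪 ⊗ Lam N'))`: every
per-stage binder of `StepNewCore.card_congMod_ker_growth_of_flStages` except `hrank` (R4-J), at
`T := TQ 𝒪 θ (twZ lam S0)`, `π := chi 𝒪 θ (twZ lam S0)`, `Bf := BL N' Z lam`,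
`bA := famLoc b hbL`, `Bad := badSet S0 N'`. -/
theorem exists_flStage_fields_inst (hd : d ≠ 0) (Y : RTNum ρbar (condFL 𝒪 p Smin Sig) d)
    (hp2 : p ≠ 2) (hp𝒪 : (p : 𝒪) ∈ maximalIdeal 𝒪) (hpSmin : p ∈ Smin)
    (hmin : ∀ r : ℕ, r.Prime → r ≠ p → (r ∈ Smin ↔ ¬ ρbar.IsUnramifiedAt r))
    (S0 : Finset ℕ) (hYS : Y.rt.S ⊆ (↑S0 : Set ℕ))
    {N' : ℕ} [NeZero N'] (hNN' : Y.rt.N ∣ N') (hpN' : ¬ p ∣ N') (hpS : p ∈ S0)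
    (hNS : ∀ r : ℕ, r.Prime → r ∣ N' → r ∈ S0)
    (hNT : ∀ r : ℕ, r.Prime → r ∣ N' → r ∈ Smin ∪ Sig)
    (hSminN' : ∀ r ∈ Smin, r.Prime → r ≠ p → r ∣ N' ∧ ¬ r ^ 2 ∣ N')
    -- the target module and its anemic action
    (Z : Set ℕ) (hZ : ∀ l : ℕ, l.Prime → l ∉ S0 → l ∈ Z) (lam : Nat.Primes → 𝒪)
    [Module.Finite 𝒪 ↥(locPart (mP 𝒪 Z lam) (𝒪 ⊗[ℤ] Lam N'))]
    [Module.Free 𝒪 ↥(locPart (mP 𝒪 Z lam) (𝒪 ⊗[ℤ] Lam N'))]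
    [Nontrivial ↥(locPart (mP 𝒪 Z lam) (𝒪 ⊗[ℤ] Lam N'))]
    (θ : ↥(heckeAlgebra N' 2 (↑S0 : Set ℕ)) →+* ResidueField 𝒪)
    [Fact (LocHyp 𝒪 θ (twZ (Z := Z) (N := N') lam S0))]
    -- the module-side stage invariant, OldQ, the eigenvalues and the engine invariant
    (b : Fin d → 𝒪 ⊗[ℤ] Lam N') (hli : LinearIndependent 𝒪 b)
    (hspanE : span 𝒪 (Set.range b) = eigenTensorO N' 𝒪 lam)
    (hold : ∀ x ∈ locPart (mP 𝒪 Z lam) (𝒪 ⊗[ℤ] Lam N'),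
      (∀ l : Nat.Primes, (l : ℕ) ∉ S0 → (latT N' l).baseChange 𝒪 x = lam l • x) →
        ∀ l : Nat.Primes, (latT N' l).baseChange 𝒪 x = lam l • x)
    (heig : ∀ (ℓ : ℕ) (hℓ : ℓ.Prime) (hℓN : ¬ ℓ ∣ Y.rt.N) (hℓS : ℓ ∉ Y.rt.S), ℓ ∉ S0 →
      lam (⟨ℓ, hℓ⟩ : Nat.Primes) = Y.πO (Y.rt.π (heckeAlgebra.T hℓ hℓN hℓS)))
    (hw : Y.w ≤ Nat.card (CongMod (BW N' 𝒪) (span 𝒪 (Set.range b)))) :
    letI := moduleTQ 𝒪 θ (twZ (Z := Z) (N := N') lam S0)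
    haveI := isScalarTower_TQ 𝒪 θ (twZ (Z := Z) (N := N') lam S0)
    letI := ttModule 𝒪 S0 hZ ↥(locPart (mP 𝒪 Z lam) (𝒪 ⊗[ℤ] Lam N'))
    ∃ (ρT' : GaloisRepAdic (TQ 𝒪 θ (twZ (Z := Z) (N := N') lam S0)))
      (φ' : Y.rt.D.R →ₐ[𝒪] TQ 𝒪 θ (twZ (Z := Z) (N := N') lam S0))
      (φ'_local : IsLocalHom (φ' : Y.rt.D.R →+* TQ 𝒪 θ (twZ (Z := Z) (N := N') lam S0)))
      (πO' : TQ 𝒪 θ (twZ (Z := Z) (N := N') lam S0) →ₐ[𝒪] 𝒪) (m : ℕ)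
      (γ : MvPowerSeries (Fin m) 𝒪 →ₐ[𝒪] Y.rt.D.R)
      (hbL : ∀ i, b i ∈ locPart (mP 𝒪 Z lam) (𝒪 ⊗[ℤ] Lam N')),
      (∀ (r : ℕ) (hr : r.Prime) (hrN : ¬ r ∣ N') (hrS : r ∉ (↑S0 : Set ℕ)),
        ∀ A : ValuationSubring Qb, A.LiesOverPrime r → ∀ σ : GQ, A.IsFrobeniusAt σ r →
          LinearMap.charpoly (ρT'.ρ σ) =
            X ^ 2 - C (chi 𝒪 θ (twZ (Z := Z) (N := N') lam S0) (heckeAlgebra.T hr hrN hrS)) * X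
              + C ((r : TQ 𝒪 θ (twZ (Z := Z) (N := N') lam S0)))) ∧
      Function.Surjective φ' ∧
      (Y.rt.D.ρ.baseChangeAlong (φ' : Y.rt.D.R →+* TQ 𝒪 θ (twZ (Z := Z) (N := N') lam S0))
        φ'_local).IsEquiv ρT' ∧
      etaIdeal πO' ≠ ⊥ ∧ Function.Surjective γ ∧
      (∀ ℓ : ℕ, ℓ.Prime → ℓ ∉ badSet S0 N' →
        ¬ ℓ ∣ Y.rt.N ∧ ℓ ∉ Y.rt.S ∧ ¬ ℓ ∣ N' ∧ ℓ ∉ (↑S0 : Set ℕ)) ∧
      (∀ (ℓ : ℕ) (hℓ : ℓ.Prime) (hℓN : ¬ ℓ ∣ Y.rt.N) (hℓS : ℓ ∉ Y.rt.S) (hℓN' : ¬ ℓ ∣ N')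
        (hℓS' : ℓ ∉ (↑S0 : Set ℕ)), ℓ ∉ badSet S0 N' →
          πO' (chi 𝒪 θ (twZ (Z := Z) (N := N') lam S0) (heckeAlgebra.T hℓ hℓN' hℓS')) =
            Y.πO (Y.rt.π (heckeAlgebra.T hℓ hℓN hℓS))) ∧
      (∀ (t : TQ 𝒪 θ (twZ (Z := Z) (N := N') lam S0))
        (x y : ↥(locPart (mP 𝒪 Z lam) (𝒪 ⊗[ℤ] Lam N'))),
          BL N' Z lam (t • x) y = BL N' Z lam x (t • y)) ∧
      LinearIndependent 𝒪 (famLoc b hbL) ∧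
      span 𝒪 (Set.range (famLoc b hbL))
        = torPO πO' ↥(locPart (mP 𝒪 Z lam) (𝒪 ⊗[ℤ] Lam N')) ∧
      Y.w ≤ Nat.card (CongMod (BL N' Z lam) (span 𝒪 (Set.range (famLoc b hbL)))) ∧
      (∀ (l : TIdx S0) (hlN : ¬ l.1 ∣ N') (hlS : l.1 ∉ (↑S0 : Set ℕ))
        (y : ↥(locPart (mP 𝒪 Z lam) (𝒪 ⊗[ℤ] Lam N'))),
          (MvPolynomial.X l : MvPolynomial (TIdx S0) 𝒪) • y
            = chi 𝒪 θ (twZ (Z := Z) (N := N') lam S0) (heckeAlgebra.T l.2.1 hlN hlS) • y) := by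
  letI := moduleTQ 𝒪 θ (twZ (Z := Z) (N := N') lam S0)
  haveI := isScalarTower_TQ 𝒪 θ (twZ (Z := Z) (N := N') lam S0)
  letI := ttModule 𝒪 S0 hZ ↥(locPart (mP 𝒪 Z lam) (𝒪 ⊗[ℤ] Lam N'))
  haveI : IsReduced ↥(heckeAlgebra N' 2 (↑S0 : Set ℕ)) :=
    Fermat.Agent.GS.Pet.isReduced_heckeAlgebra N' 2 (↑S0 : Set ℕ)
      (fun r hr hrN => Finset.mem_coe.mpr (hNS r hr hrN))
  -- the eigen-family in the primary part
  have hbe : ∀ i, b i ∈ eigenTensorO N' 𝒪 lam := fun i => by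
    rw [← hspanE]
    exact subset_span ⟨i, rfl⟩
  have hbL : ∀ i, b i ∈ locPart (mP 𝒪 Z lam) (𝒪 ⊗[ℤ] Lam N') := fun i =>
    eigenTensorO_le_locPart_mP (fun _ _ => rfl) (hbe i)
  obtain ⟨i0, -⟩ : ∃ i0 : Fin d, True := ⟨⟨0, Nat.pos_of_ne_zero hd⟩, trivial⟩
  have hx0 : b i0 ≠ 0 := hli.ne_zero i0
  have hliL : LinearIndependent 𝒪 (famLoc b hbL) := linearIndependent_famLoc b hbL hli
  -- the exposed fields of the carrier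
  have hsa : ∀ (t : ↥(heckeAlgebra N' 2 (↑S0 : Set ℕ)))
      (x y : ↥(locPart (mP 𝒪 Z lam) (𝒪 ⊗[ℤ] Lam N'))),
      BL N' Z lam (twZ (Z := Z) lam S0 t x) y = BL N' Z lam x (twZ (Z := Z) lam S0 t y) :=
    BL_twZ S0
  have hb : ∀ (t : ↥(heckeAlgebra N' 2 (↑S0 : Set ℕ))) (i : Fin d),
      twZ (Z := Z) lam S0 t (famLoc b hbL i) = chiZ lam S0 t • famLoc b hbL i :=
    fun t i => twZ_eigen S0 (hbe i) (hbL i) t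
  have hold' := hold_famLoc S0 hNS b hbL hspanE (hbe i0) hx0 hold
  have key := exposed_fields θ (twZ (Z := Z) (N := N') lam S0) (BL N' Z lam) hsa
    (hnd_BL N' Z lam) hd (famLoc b hbL) hliL (chiZ lam S0) hb hold'
  obtain ⟨πO', hpt, hη, hadj, hspan, -⟩ := key
  -- the raw fields at `D' := Y.rt.D`
  have heig' : ∀ (ℓ : ℕ) (hℓ : ℓ.Prime) (hℓN : ¬ ℓ ∣ Y.rt.N) (hℓS : ℓ ∉ Y.rt.S)
      (hℓN' : ¬ ℓ ∣ N') (hℓS' : ℓ ∉ (↑S0 : Set ℕ)),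
        πO' (chi 𝒪 θ (twZ (Z := Z) (N := N') lam S0) (heckeAlgebra.T hℓ hℓN' hℓS')) =
          Y.πO (Y.rt.π (heckeAlgebra.T hℓ hℓN hℓS)) :=
    fun ℓ hℓ hℓN hℓS hℓN' hℓS' => (hpt _).trans ((chiZ_T S0 (hbe i0) hx0 hℓ hℓN' hℓS').trans
      (heig ℓ hℓ hℓN hℓS (fun h => hℓS' (Finset.mem_coe.mpr h))))
  have key2 := Fermat.Agent.GE9.Stage.RawFLGen.exists_rawFL_same Y hp2 hp𝒪 hpSmin hmin S0 hYS
    hNN' hpN' hpS hNS hNT hSminN' (chi 𝒪 θ (twZ (Z := Z) (N := N') lam S0))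
    (adjoin_range_chi 𝒪 θ (twZ (Z := Z) (N := N') lam S0)) πO' heig'
  obtain ⟨ρT', φ', φ'_local, m, γ, hcp', hφ', φ'_ρ, hη', hγ, hB, heigB⟩ := key2
  refine ⟨ρT', φ', φ'_local, πO', m, γ, hbL, hcp', hφ', φ'_ρ, hη, hγ, hB, heigB, hadj, hliL,
    hspan, ?_, ?_⟩
  · rw [card_congMod_famLoc b hbL]
    exact hw
  · intro l hlN hlS y
    exact tt_X_smul_eq_chi_smul lam S0 hZ θ l hlN hlS y

end Fields

end Fermat.Agent.GE9.PNew.Inst.FLStageInst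

end
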