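/-
GATE-E (S59) / RISK-4 (e9) × R4-J (helper31): **the rank binder `hrank` (`d = 2`) of one flat stage AT
ITS TARGET MODULE** `A := ↥(locPart (mP 𝒪 Z lam) (𝒪 ⊗[ℤ] Lam N))`, `T := TQ 𝒪 θ (twZ lam S0)` — helper81's
`RankTQ.hrank_TQ` (stated for `L : Submodule 𝒪 (𝒪 ⊗ Lam N)`) at
`L := (locPart (mP 𝒪 Z lam) (𝒪 ⊗ Lam N)).restrictScalars 𝒪` and `tw := FLStageInst.twZ lam S0`
(`htw := FLStageInst.coe_twZ_T`); the `restrictScalars` seam is closed by definitional unfolding.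

* `thetaRes_T` : the residual character `thetaRes (iotaLam N 𝒪 ↑S0) (chiHom hx hx0)` of
  `FLStageInst.locHyp_twZ` at `T_ℓ` is `lam ℓ` mod `𝔪_𝒪`;
* **`hrank_locPart`** : any `θ` with `Fact (LocHyp 𝒪 θ (twZ lam S0))` — the binder `hrankᵢ` of
  `Inst/StepNewLoc.card_congMod_ker_growth_of_locStages` (`d = 2`);
* `hrank_locPart_thetaRes` : the same with `θ := thetaRes …`, every instance discharged inside.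
-/
import Mathlib
import Fermat.Agent.GE9.PNew.RankTQ
import Fermat.Agent.GE9.PNew.Inst.FLStageInst

set_option autoImplicit false
set_option linter.unusedSectionVars false
set_option linter.unusedVariables false
set_option linter.style.haveILetI false

open scoped TensorProduct
open CuspForm IsLocalRing Module WeierstrassCurve WeierstrassCurve.Affine.Point
open scoped WeierstrassCurve.Affine

namespace Fermat.Agent.GE9.PNew.Inst.FLStageRank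

open Fermat.Agent.GJ.J2.Lat Fermat.Agent.GB.Setup.RhoBar Fermat.Agent.GB.B4.Datum.ImageRing
  Fermat.Agent.GB.B3.Loc Fermat.Agent.GE9.Mult1 Fermat.Agent.GE9.Stage.CarrierLam
  Fermat.Agent.GE9.Stage.CarrierAbs Fermat.Agent.GE9.PNew.Inst
  Fermat.Agent.GE9.PNew.Inst.FLStageInst Fermat.Agent.GE9.PNew.RankTQ

variable {𝒪 : Type} [CommRing 𝒪] [IsDomain 𝒪] [IsDiscreteValuationRing 𝒪] [CharZero 𝒪]
  [IsAdicComplete (maximalIdeal 𝒪) 𝒪]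

/-- the residual character of `FLStageInst.locHyp_twZ` at the Hecke operators. -/
theorem thetaRes_T {N : ℕ} [NeZero N] {lam : Nat.Primes → 𝒪} (S0 : Finset ℕ)
    {x : 𝒪 ⊗[ℤ] Lam N} (hx : x ∈ eigenTensorO N 𝒪 lam) (hx0 : x ≠ 0)
    {ℓ : ℕ} (hℓ : ℓ.Prime) (hℓN : ¬ ℓ ∣ N) (hℓS : ℓ ∉ (↑S0 : Set ℕ)) :
    thetaRes (iotaLam N 𝒪 (↑S0 : Set ℕ)) (chiHom hx hx0) (heckeAlgebra.T hℓ hℓN hℓS)
      = residue 𝒪 (lam (⟨ℓ, hℓ⟩ : Nat.Primes)) := by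
  have h := chiZ_T S0 hx hx0 hℓ hℓN hℓS
  show residue 𝒪 (chiLam N 𝒪 lam (iotaLam N 𝒪 (↑S0 : Set ℕ) (heckeAlgebra.T hℓ hℓN hℓS))) = _
  rw [← h]
  rfl

variable {p : ℕ} [Fact p.Prime] {W : WeierstrassCurve ℤ}
  (hcard₁ : Nat.card (Submodule.torsionBy ℤ
    ((W.map (Int.castRingHom ℚ))⁄(AlgebraicClosure ℚ)).Point p) = p ^ 2)
  (hker : GaloisFactorsThroughFiniteLevel
    (galoisRepModuleEnd (K := AlgebraicClosure ℚ) ℚ (W.map (Int.castRingHom ℚ)) p))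

set_option maxHeartbeats 1000000 in
/-- **`hrank` (`d = 2`) at the target module of a flat stage.** -/
theorem hrank_locPart (hΔ : W.Δ ≠ 0) (hirr : W.ModRepIsIrreducible p)
    (htrans : ∃ σ : (AlgebraicClosure ℚ ≃ₐ[ℚ] AlgebraicClosure ℚ),
      galoisRepModuleEnd (K := AlgebraicClosure ℚ) ℚ (W.map (Int.castRingHom ℚ)) p σ ≠ 1 ∧
        (galoisRepModuleEnd (K := AlgebraicClosure ℚ) ℚ (W.map (Int.castRingHom ℚ)) p σ - 1) ^ 2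
          = 0)
    (k : Type) [Field k] [Algebra (ZMod p) k]
    {N : ℕ} [NeZero N] (Z : Set ℕ) (lam : Nat.Primes → 𝒪)
    [Module.Finite 𝒪 ↥(locPart (mP 𝒪 Z lam) (𝒪 ⊗[ℤ] Lam N))]
    [Module.Free 𝒪 ↥(locPart (mP 𝒪 Z lam) (𝒪 ⊗[ℤ] Lam N))]
    [Nontrivial ↥(locPart (mP 𝒪 Z lam) (𝒪 ⊗[ℤ] Lam N))]
    (S0 Sg : Finset ℕ) (hSg : Sg ⊆ S0) (hNS : ∀ r : ℕ, r.Prime → r ∣ N → r ∈ S0)
    (θ : heckeAlgebra N 2 (↑S0 : Set ℕ) →+* ResidueField 𝒪)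
    [Fact (LocHyp 𝒪 θ (twZ (Z := Z) (N := N) lam S0))]
    (hp𝒪 : (p : 𝒪) ∈ maximalIdeal 𝒪)
    (hθ : ∀ (ℓ : ℕ) (hℓ : ℓ.Prime) (hℓN : ¬ ℓ ∣ N) (hℓS : ℓ ∉ (↑S0 : Set ℕ)),
      W.IsGoodPrimeFor ℓ → ℓ ≠ p →
        θ (heckeAlgebra.T hℓ hℓN hℓS) = ((W.apOfModel ℓ : ℤ) : ResidueField 𝒪))
    (hU : ∀ q : Nat.Primes, (q : ℕ) ∈ Sg → ∀ x ∈ locPart (mP 𝒪 Z lam) (𝒪 ⊗[ℤ] Lam N),
      (latT N q).baseChange 𝒪 x = 0)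
    (hbad : ∀ b : Nat.Primes, (b : ℕ) ∈ S0 \ Sg →
      ¬ (b : ℕ) ∣ N ∨ ((b : ℕ) ∣ N ∧ ¬ (b : ℕ) ^ 2 ∣ N ∧ (b : ℕ) ≠ p ∧
        ¬ ((rb p W hcard₁ hker).baseChange k).IsUnramifiedAt b)) :
    finrank 𝒪 ↥(locPart (mP 𝒪 Z lam) (𝒪 ⊗[ℤ] Lam N))
      ≤ 2 * finrank 𝒪 (TQ 𝒪 θ (twZ (Z := Z) (N := N) lam S0)) := by
  have key := @hrank_TQ 𝒪 _ _ _ _ p _ W hcard₁ hker hΔ hirr htrans k _ _ N _
    ((locPart (mP 𝒪 Z lam) (𝒪 ⊗[ℤ] Lam N)).restrictScalars 𝒪)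
    (inferInstanceAs (Module.Finite 𝒪 ↥(locPart (mP 𝒪 Z lam) (𝒪 ⊗[ℤ] Lam N))))
    (inferInstanceAs (Module.Free 𝒪 ↥(locPart (mP 𝒪 Z lam) (𝒪 ⊗[ℤ] Lam N))))
    (inferInstanceAs (Nontrivial ↥(locPart (mP 𝒪 Z lam) (𝒪 ⊗[ℤ] Lam N))))
    S0 Sg hSg hNS θ (twZ (Z := Z) (N := N) lam S0)
    (inferInstanceAs (Fact (LocHyp 𝒪 θ (twZ (Z := Z) (N := N) lam S0))))
    (fun ℓ hℓ hℓN hℓS x => coe_twZ_T lam S0 hℓ hℓN hℓS x) hp𝒪 hθ hU hbad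
  exact key

set_option maxHeartbeats 1000000 in
/-- **`hrank` (`d = 2`) at the target module, residual character of the eigen-sublattice**: every
instance binder discharged inside (`hZ : Z ⊇ {l ∉ S0}`, `x` a nonzero joint eigenvector). -/
theorem hrank_locPart_thetaRes (hΔ : W.Δ ≠ 0) (hirr : W.ModRepIsIrreducible p)
    (htrans : ∃ σ : (AlgebraicClosure ℚ ≃ₐ[ℚ] AlgebraicClosure ℚ),
      galoisRepModuleEnd (K := AlgebraicClosure ℚ) ℚ (W.map (Int.castRingHom ℚ)) p σ ≠ 1 ∧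
        (galoisRepModuleEnd (K := AlgebraicClosure ℚ) ℚ (W.map (Int.castRingHom ℚ)) p σ - 1) ^ 2
          = 0)
    (k : Type) [Field k] [Algebra (ZMod p) k]
    {N : ℕ} [NeZero N] (Z : Set ℕ) (lam : Nat.Primes → 𝒪)
    (S0 Sg : Finset ℕ) (hSg : Sg ⊆ S0) (hNS : ∀ r : ℕ, r.Prime → r ∣ N → r ∈ S0)
    (hZ : ∀ l : ℕ, l.Prime → l ∉ S0 → l ∈ Z)
    {x : 𝒪 ⊗[ℤ] Lam N} (hx : x ∈ eigenTensorO N 𝒪 lam) (hx0 : x ≠ 0)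
    (hp𝒪 : (p : 𝒪) ∈ maximalIdeal 𝒪)
    (hlamW : ∀ (ℓ : ℕ) (hℓ : ℓ.Prime), ¬ ℓ ∣ N → ℓ ∉ S0 → W.IsGoodPrimeFor ℓ → ℓ ≠ p →
      residue 𝒪 (lam (⟨ℓ, hℓ⟩ : Nat.Primes)) = ((W.apOfModel ℓ : ℤ) : ResidueField 𝒪))
    (hU : ∀ q : Nat.Primes, (q : ℕ) ∈ Sg → ∀ x ∈ locPart (mP 𝒪 Z lam) (𝒪 ⊗[ℤ] Lam N),
      (latT N q).baseChange 𝒪 x = 0)
    (hbad : ∀ b : Nat.Primes, (b : ℕ) ∈ S0 \ Sg →
      ¬ (b : ℕ) ∣ N ∨ ((b : ℕ) ∣ N ∧ ¬ (b : ℕ) ^ 2 ∣ N ∧ (b : ℕ) ≠ p ∧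
        ¬ ((rb p W hcard₁ hker).baseChange k).IsUnramifiedAt b)) :
    finrank 𝒪 ↥(locPart (mP 𝒪 Z lam) (𝒪 ⊗[ℤ] Lam N))
      ≤ 2 * finrank 𝒪 (TQ 𝒪 (thetaRes (iotaLam N 𝒪 (↑S0 : Set ℕ)) (chiHom hx hx0))
        (twZ (Z := Z) (N := N) lam S0)) := by
  haveI : Module.Finite 𝒪 ↥(locPart (mP 𝒪 Z lam) (𝒪 ⊗[ℤ] Lam N)) := finite_locPartZ Z lam
  haveI : Module.Free 𝒪 ↥(locPart (mP 𝒪 Z lam) (𝒪 ⊗[ℤ] Lam N)) := free_locPartZ Z lam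
  haveI : Nontrivial ↥(locPart (mP 𝒪 Z lam) (𝒪 ⊗[ℤ] Lam N)) :=
    nontrivial_locPartZ (eigenTensorO_le_locPart_mP (fun _ _ => rfl) hx) hx0
  haveI : Fact (LocHyp 𝒪 (thetaRes (iotaLam N 𝒪 (↑S0 : Set ℕ)) (chiHom hx hx0))
      (twZ (Z := Z) (N := N) lam S0)) := ⟨locHyp_twZ S0 hNS hZ hx hx0⟩
  exact hrank_locPart hcard₁ hker hΔ hirr htrans k Z lam S0 Sg hSg hNS _ hp𝒪
    (fun ℓ hℓ hℓN hℓS hg hℓp => (thetaRes_T S0 hx hx0 hℓ hℓN hℓS).trans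
      (hlamW ℓ hℓ hℓN (fun h => hℓS (Finset.mem_coe.mpr h)) hg hℓp)) hU hbad

end Fermat.Agent.GE9.PNew.Inst.FLStageRank
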