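/-
GATE-E (S59) / RISK-4 (S3-final) (helper31): **the per-stage binders of
`Inst/StepNewLoc.card_congMod_ker_growth_of_locStages` at a stage `Sg'` of the FLAT engine**, from the
flat bundle facts `(Y', hbasef, hnof, hnef, …)` — called twice (at `Sg` and `insert q Sg`) by
`Inst/GrowNew.omegaCardNew_grow`.

`N' = M ∏_{x ∈ Sg'} x²`, `Z' = {l ∉ S0} ∪ Sg'`, `lam' = lamAt lamf Sg'`, the target module is
`A = ↥(locPart (mP 𝒪 Z' lam') (𝒪 ⊗ Lam N'))`.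

* `hold_of_stageP` : helper73's `SupplyHold.hold_of_stage` over the polynomial Hecke algebra
  `PAlg 𝒪 Z'` / its maximal ideal `mP` (the cofactor `x_q² − lam q · x_q + q ∉ mP`, `q ∈ Sg' ⊆ Z'`);
* **`flat_fields_core`** : the per-stage binder list, `hrank` passed through as a binder
  (`∀ θ`, `θ` is a phantom argument of `TQ`);
* `hU_locPart`, `hrank_flat_stage` : the rank binder from the `W`-data (helper81's `RankTQ.hrank_TQ`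
  through `FLStageRank.hrank_locPart`);
* **`flat_fields`** : the same list with the `W`-data as binders, `hrank` discharged inside.
-/
import Mathlib
import Fermat.Agent.GE9.PNew.Inst.FLStageInst
import Fermat.Agent.GE9.PNew.Inst.FLStageRank
import Fermat.Agent.GE9.Stage.SupplyHold
import Fermat.Agent.GE9.OldQ.CqNeO
import Fermat.Agent.GE9.OldQ.UqLoc
import Fermat.Agent.GE.Engine.LevArith

set_option autoImplicit false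
set_option linter.unusedSectionVars false
set_option linter.unusedVariables false
set_option linter.style.haveILetI false

noncomputable section

namespace Fermat.Agent.GE9.PNew.Inst.FlatFields

open TensorProduct IsLocalRing Submodule CuspForm
open WeierstrassCurve WeierstrassCurve.Affine.Point
open scoped WeierstrassCurve.Affine
open Fermat.Agent.GJ.J2.Lat Fermat.Agent.GJ.J2.LatAct Fermat.Agent.GB.B3.Loc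
  Fermat.Agent.GB.Setup.RhoBar
  Fermat.Agent.GB.B4.Datum.ImageRing Fermat.Agent.GB.B4.Datum.Carrier
  Fermat.Agent.GE.Graph Fermat.Agent.GE9.Ind Fermat.Agent.GE9.Asm Fermat.Agent.GE9.NumCrit
  Fermat.Agent.GE9.Eta Fermat.Agent.GE9.Eta.Mod Fermat.Agent.GE9.Eta.Chain
  Fermat.Agent.GE9.Mult1 Fermat.Agent.GE.Engine.LevArith
  Fermat.Agent.GE9.Stage.CarrierLam Fermat.Agent.GE9.Stage.CarrierAbs
  Fermat.Agent.GE9.Stage.SupplyHold Fermat.Agent.GE9.OldQ.Consumer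
  Fermat.Agent.GE9.PNew.Inst Fermat.Agent.GE9.PNew.Inst.FormLoc
  Fermat.Agent.GE9.PNew.Inst.FLStageInst Fermat.Agent.GE9.PNew.Inst.FLStageRank

local notation "GQ" => (AlgebraicClosure ℚ ≃ₐ[ℚ] AlgebraicClosure ℚ)
local notation "Qb" => AlgebraicClosure ℚ

/-! ### `hold` over the polynomial Hecke algebra -/

section Hold

variable {𝒪 : Type} [CommRing 𝒪] [IsDomain 𝒪] [IsDiscreteValuationRing 𝒪]
  [IsAdicComplete (maximalIdeal 𝒪) 𝒪] [CharZero 𝒪]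

/-- **the binder `hold` at a stage level, target module `locPart (mP 𝒪 Z' lam')`** (flat case), from
helper63's `hold_stage`. -/
theorem hold_of_stageP {M N' : ℕ} [NeZero M] [NeZero N'] {p : ℕ} (hp : p.Prime)
    (hp𝒪 : (p : 𝒪) ∈ maximalIdeal 𝒪) (lam : Nat.Primes → 𝒪) {d : ℕ} (hd : d ≠ 0)
    (hbase : EtaStage M 𝒪 lam d) (Sg' S0 : Finset ℕ) (hN' : N' = M * ∏ x ∈ Sg', x ^ 2)
    (hSg' : ∀ x ∈ Sg', x.Prime ∧ ¬ x ∣ M) (hSgp : ∀ x ∈ Sg', x ≠ p)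
    (hSgS0 : ∀ x ∈ Sg', x ∈ S0)
    (hbad : ∀ b : Nat.Primes, (b : ℕ) ∈ S0 → (b : ℕ) ∉ Sg' →
      ¬ (b : ℕ) ∣ M ∨ ((b : ℕ) ∣ M ∧ ¬ (b : ℕ) ^ 2 ∣ M ∧ NonOccAt 𝒪 S0 b lam))
    (Z' : Set ℕ) (hZSg : ∀ x ∈ Sg', x ∈ Z') :
    ∀ x ∈ locPart (mP 𝒪 Z' (lamAt lam Sg')) (𝒪 ⊗[ℤ] Lam N'),
      (∀ l : Nat.Primes, (l : ℕ) ∉ S0 →
        (latT N' l).baseChange 𝒪 x = lamAt lam Sg' l • x) →
        ∀ l : Nat.Primes, (latT N' l).baseChange 𝒪 x = lamAt lam Sg' l • x := by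
  intro x hx hxe l
  obtain ⟨b₁, hli₁, hspan₁, -⟩ := hbase
  obtain ⟨i0, -⟩ : ∃ i0 : Fin d, True := ⟨⟨0, Nat.pos_of_ne_zero hd⟩, trivial⟩
  have hy₁ : b₁ i0 ≠ 0 := hli₁.ne_zero i0
  have hy₁m : b₁ i0 ∈ eigenTensorO M 𝒪 lam := by
    rw [← hspan₁]
    exact subset_span ⟨i0, rfl⟩
  have hLp : ∀ l : Nat.Primes,
      ∀ y ∈ (locPart (mP 𝒪 Z' (lamAt lam Sg')) (𝒪 ⊗[ℤ] Lam N')).restrictScalars 𝒪,
        (latT N' l).baseChange 𝒪 y ∈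
          (locPart (mP 𝒪 Z' (lamAt lam Sg')) (𝒪 ⊗[ℤ] Lam N')).restrictScalars 𝒪 := by
    intro l y hy
    rw [← gen_smul]
    exact (Submodule.restrictScalars_mem 𝒪 _ _).mpr
      (afLam_smul_mem_locPart _ _ ((Submodule.restrictScalars_mem 𝒪 _ _).mp hy))
  have hinj : ∀ q : Nat.Primes, (q : ℕ) ∈ Sg' →
      ∀ y ∈ (locPart (mP 𝒪 Z' (lamAt lam Sg')) (𝒪 ⊗[ℤ] Lam N')).restrictScalars 𝒪,
      (latT N' q).baseChange 𝒪 ((latT N' q).baseChange 𝒪 y)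
        - lam q • (latT N' q).baseChange 𝒪 y + ((q : ℕ) : 𝒪) • y = 0 → y = 0 := by
    intro q hqS y hy h0
    have hqZ : (q : ℕ) ∈ Z' := hZSg _ hqS
    have hact : ∀ z : 𝒪 ⊗[ℤ] Lam N',
        (xP 𝒪 Z' q hqZ * xP 𝒪 Z' q hqZ - algebraMap 𝒪 (PAlg 𝒪 Z') (lam q) * xP 𝒪 Z' q hqZ
          + algebraMap 𝒪 (PAlg 𝒪 Z') ((q : ℕ) : 𝒪)) • z =
        (latT N' q).baseChange 𝒪 ((latT N' q).baseChange 𝒪 z)
          - lam q • (latT N' q).baseChange 𝒪 z + ((q : ℕ) : 𝒪) • z := by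
      intro z
      rw [add_smul, sub_smul, mul_smul, mul_smul, xP_smul, xP_smul, algebraMap_smulP,
        algebraMap_smulP]
    have hev : evP 𝒪 Z' (lamAt lam Sg')
        (xP 𝒪 Z' q hqZ * xP 𝒪 Z' q hqZ - algebraMap 𝒪 (PAlg 𝒪 Z') (lam q) * xP 𝒪 Z' q hqZ
          + algebraMap 𝒪 (PAlg 𝒪 Z') ((q : ℕ) : 𝒪)) = ((q : ℕ) : 𝒪) := by
      rw [map_add, map_sub, map_mul, map_mul, evP_xP, AlgHom.commutes, AlgHom.commutes,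
        lamAt_of_mem lam hqS, mul_zero, mul_zero, sub_zero, zero_add]
      rfl
    have hu : IsUnit (((q : ℕ) : 𝒪)) := isUnit_natCast_of_prime_ne hp q.2 (hSgp _ hqS) hp𝒪
    have ham : (xP 𝒪 Z' q hqZ * xP 𝒪 Z' q hqZ
        - algebraMap 𝒪 (PAlg 𝒪 Z') (lam q) * xP 𝒪 Z' q hqZ
        + algebraMap 𝒪 (PAlg 𝒪 Z') ((q : ℕ) : 𝒪)) ∉ mP 𝒪 Z' (lamAt lam Sg') :=
      (notMem_mP_iff _).mpr (by rw [hev]; exact hu)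
    haveI := finite_tensor_lam (O := 𝒪) N'
    have hbij := bijective_smul_locPart 𝒪 (L := 𝒪 ⊗[ℤ] Lam N') (mP 𝒪 Z' (lamAt lam Sg')) ham
    have hy' : y ∈ locPart (mP 𝒪 Z' (lamAt lam Sg')) (𝒪 ⊗[ℤ] Lam N') :=
      (Submodule.restrictScalars_mem 𝒪 _ _).mp hy
    have h1 : (⟨y, hy'⟩ : locPart (mP 𝒪 Z' (lamAt lam Sg')) (𝒪 ⊗[ℤ] Lam N')) = 0 := by
      apply hbij.1
      apply Subtype.ext
      show (xP 𝒪 Z' q hqZ * xP 𝒪 Z' q hqZ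
        - algebraMap 𝒪 (PAlg 𝒪 Z') (lam q) * xP 𝒪 Z' q hqZ
        + algebraMap 𝒪 (PAlg 𝒪 Z') ((q : ℕ) : 𝒪)) • y = _ • (0 : 𝒪 ⊗[ℤ] Lam N')
      rw [smul_zero, hact, h0]
    exact congrArg Subtype.val h1
  have hall := hold_stage S0 Sg' hN' hSg' (fun y hy => hSgS0 y hy) lam (b₁ i0) hy₁
    (mem_eigenTensorO.mp hy₁m) hbad
    ((locPart (mP 𝒪 Z' (lamAt lam Sg')) (𝒪 ⊗[ℤ] Lam N')).restrictScalars 𝒪) hLp hinj x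
    ((Submodule.restrictScalars_mem 𝒪 _ _).mpr hx) ?_
  · rw [hall l, stageLam_eq_lamAt]
  · intro l' hlS0
    have hlSg : (l' : ℕ) ∉ Sg' := fun h => hlS0 (hSgS0 _ h)
    rw [← lamAt_of_notMem lam hlSg]
    exact hxe l' hlS0

end Hold

/-! ### the per-stage binder list, `hrank` as a binder -/

section Core

variable {𝒪 : Type} [CommRing 𝒪] [IsDomain 𝒪] [IsDiscreteValuationRing 𝒪]
  [IsAdicComplete (maximalIdeal 𝒪) 𝒪] [Finite (ResidueField 𝒪)] [CharZero 𝒪]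
  {ρbar : ResidualGaloisRep (ResidueField 𝒪)} {p : ℕ} [Fact p.Prime]
  {Smin : Finset ℕ} {d : ℕ}

/-- the stage invariant of the flat engine at the level of the stage `Sg'`. -/
theorem etaStage_flat (hd : 2 ≤ d) (hp2 : p ≠ 2)
    {ϖ : 𝒪} (hϖ : Irreducible ϖ) (hpϖ : ∃ c : 𝒪, (p : 𝒪) = ϖ * c)
    {M : ℕ} [NeZero M] (lamf : Nat.Primes → 𝒪)
    (hnef : ∀ (F : Finset ℕ) (q : ℕ), q.Prime → ∃ l : Nat.Primes, (l : ℕ) ∉ F ∧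
      (((l : ℕ) : ZMod q) = 1) ∧ IsUnit (lamf l - (((l : ℕ) : 𝒪) + 1)))
    (hbasef : EtaStage M 𝒪 lamf d)
    (Sg' : Finset ℕ) (hSg' : ∀ x ∈ Sg', x.Prime ∧ ¬ x ∣ M ∧ x ≠ p)
    {N' : ℕ} [NeZero N'] (hN' : N' = M * ∏ x ∈ Sg', x ^ 2) :
    EtaStage N' 𝒪 (lamAt lamf Sg') d := by
  have hd0 : d ≠ 0 := by omega
  obtain ⟨b₁, hli₁, hspan₁, -⟩ := id hbasef
  have hy₁m : b₁ ⟨0, Nat.pos_of_ne_zero hd0⟩ ∈ eigenTensorO M 𝒪 lamf := by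
    rw [← hspan₁]
    exact subset_span ⟨_, rfl⟩
  have hc : ∀ (q : ℕ) (hq : q.Prime), q ∈ Sg' →
      (((q : ℕ) : 𝒪) - 1) * ((1 + ((q : ℕ) : 𝒪)) ^ 2 - lamf (⟨q, hq⟩ : Nat.Primes) ^ 2) ≠ 0 :=
    fun q hq hqS => Fermat.Agent.GE9.OldQ.CqNeO.cq_ne_zero_of_eigen lamf
      (b₁ ⟨0, Nat.pos_of_ne_zero hd0⟩) (hli₁.ne_zero _) (mem_eigenTensorO.mp hy₁m) q hq
      (hSg' q hqS).2.1
  exact etaStage_lev (Fact.out : p.Prime) hp2 hϖ hpϖ lamf hnef hd hbasef Sg'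
    (fun x hx => ⟨(hSg' x hx).1, (hSg' x hx).2.1⟩) hc N' hN'

set_option maxHeartbeats 1000000 in
/-- **the per-stage binders of `StepNewLoc.card_congMod_ker_growth_of_locStages` at a stage of the
flat engine**, `hrank` passed through. -/
theorem flat_fields_core (hd : 2 ≤ d) (hp2 : p ≠ 2) (hp𝒪 : (p : 𝒪) ∈ maximalIdeal 𝒪)
    {ϖ : 𝒪} (hϖ : Irreducible ϖ) (hpϖ : ∃ c : 𝒪, (p : 𝒪) = ϖ * c)
    {M : ℕ} [NeZero M] (hpM : ¬ p ∣ M) (hsqM : Squarefree M) (lamf : Nat.Primes → 𝒪)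
    (hnef : ∀ (F : Finset ℕ) (q : ℕ), q.Prime → ∃ l : Nat.Primes, (l : ℕ) ∉ F ∧
      (((l : ℕ) : ZMod q) = 1) ∧ IsUnit (lamf l - (((l : ℕ) : 𝒪) + 1)))
    (hbasef : EtaStage M 𝒪 lamf d)
    (S0 : Finset ℕ) (hpS0 : p ∈ S0) (hMS0 : ∀ r : ℕ, r.Prime → r ∣ M → r ∈ S0)
    (hnof : ∀ b : Nat.Primes, (b : ℕ) ∣ M → NonOccAt 𝒪 S0 b lamf)
    (hpSmin : p ∈ Smin)
    (hmin : ∀ r : ℕ, r.Prime → r ≠ p → (r ∈ Smin ↔ ¬ ρbar.IsUnramifiedAt r))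
    (hSminM : ∀ r ∈ Smin, r = p ∨ r ∣ M) (hMSmin : ∀ r : ℕ, r.Prime → r ∣ M → r ∈ Smin)
    (Sg' : Finset ℕ) (hSg' : ∀ x ∈ Sg', x.Prime ∧ ¬ x ∣ M ∧ x ≠ p)
    (hSg'S0 : ∀ x ∈ Sg', x ∈ S0)
    (Y' : RTNum ρbar (condFL 𝒪 p Smin Sg') d)
    (hY'N : Y'.rt.N = M * ∏ x ∈ Sg', x ^ 2) (hY'S : Y'.rt.S = (↑S0 : Set ℕ))
    (hY'w : Y'.w = omegaCard Y'.rt.N 𝒪 (lamAt lamf Sg'))
    (hY'χ : ∀ (ℓ : ℕ) (hℓ : ℓ.Prime) (hℓN : ¬ ℓ ∣ Y'.rt.N) (hℓS : ℓ ∉ Y'.rt.S),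
      pointChar Y' (heckeAlgebra.T hℓ hℓN hℓS) = lamf ⟨ℓ, hℓ⟩)
    {N' : ℕ} [NeZero N'] (hN' : N' = M * ∏ x ∈ Sg', x ^ 2)
    (Z' : Set ℕ) (hZ' : Z' = {l | l ∉ (↑S0 : Set ℕ) ∨ l ∈ Sg'})
    (hrank : ∀ θ : ↥(heckeAlgebra N' 2 (↑S0 : Set ℕ)) →+* ResidueField 𝒪,
      Module.finrank 𝒪 ↥(locPart (mP 𝒪 Z' (lamAt lamf Sg')) (𝒪 ⊗[ℤ] Lam N')) ≤
        d * Module.finrank 𝒪 (TQ 𝒪 θ (twZ (Z := Z') (N := N') (lamAt lamf Sg') S0))) :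
    Y'.rt.S ⊆ (↑S0 : Set ℕ) ∧ Y'.rt.N ∣ N' ∧ ¬ p ∣ N' ∧
    (∀ r : ℕ, r.Prime → r ∣ N' → r ∈ S0) ∧
    (∀ r : ℕ, r.Prime → r ∣ N' → r ∈ Smin ∪ Sg') ∧
    (∀ r ∈ Smin, r.Prime → r ≠ p → r ∣ N' ∧ ¬ r ^ 2 ∣ N') ∧
    ∃ (θ : ↥(heckeAlgebra N' 2 (↑S0 : Set ℕ)) →+* ResidueField 𝒪)
      (_ : Fact (LocHyp 𝒪 θ (twZ (Z := Z') (N := N') (lamAt lamf Sg') S0)))
      (b : Fin d → 𝒪 ⊗[ℤ] Lam N'),
      LinearIndependent 𝒪 b ∧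
      span 𝒪 (Set.range b) = eigenTensorO N' 𝒪 (lamAt lamf Sg') ∧
      (∀ x ∈ locPart (mP 𝒪 Z' (lamAt lamf Sg')) (𝒪 ⊗[ℤ] Lam N'),
        (∀ l : Nat.Primes, (l : ℕ) ∉ S0 →
          (latT N' l).baseChange 𝒪 x = lamAt lamf Sg' l • x) →
          ∀ l : Nat.Primes, (latT N' l).baseChange 𝒪 x = lamAt lamf Sg' l • x) ∧
      (∀ (ℓ : ℕ) (hℓ : ℓ.Prime) (hℓN : ¬ ℓ ∣ Y'.rt.N) (hℓS : ℓ ∉ Y'.rt.S), ℓ ∉ S0 →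
        lamAt lamf Sg' (⟨ℓ, hℓ⟩ : Nat.Primes)
          = Y'.πO (Y'.rt.π (heckeAlgebra.T hℓ hℓN hℓS))) ∧
      Y'.w ≤ Nat.card (CongMod (BW N' 𝒪) (span 𝒪 (Set.range b))) ∧
      Module.finrank 𝒪 ↥(locPart (mP 𝒪 Z' (lamAt lamf Sg')) (𝒪 ⊗[ℤ] Lam N')) ≤
        d * Module.finrank 𝒪 (TQ 𝒪 θ (twZ (Z := Z') (N := N') (lamAt lamf Sg') S0)) := by
  classical
  have hp : p.Prime := Fact.out
  have hd0 : d ≠ 0 := by omega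
  have hSgP : ∀ x ∈ Sg', x.Prime := fun x hx => (hSg' x hx).1
  -- the level clauses
  have hNS : ∀ r : ℕ, r.Prime → r ∣ N' → r ∈ S0 := by
    intro r hr hrN
    rw [hN'] at hrN
    exact mem_S0_of_dvd_lev hSgP hMS0 hSg'S0 r hr hrN
  have hpN : ¬ p ∣ N' := by
    rw [hN']
    exact not_p_dvd_lev hp hpM hSg'
  have hNT : ∀ r : ℕ, r.Prime → r ∣ N' → r ∈ Smin ∪ Sg' := by
    intro r hr hrN
    rw [hN'] at hrN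
    exact mem_union_of_dvd_lev hSgP hMSmin r hr hrN
  have hSminN : ∀ r ∈ Smin, r.Prime → r ≠ p → r ∣ N' ∧ ¬ r ^ 2 ∣ N' := by
    rw [hN']
    exact exactDvd_lev_of_mem_Smin hsqM hSminM hSg'
  -- the stage invariant at the level `N'`
  have hst' : EtaStage N' 𝒪 (lamAt lamf Sg') d :=
    etaStage_flat hd hp2 hϖ hpϖ lamf hnef hbasef Sg' hSg' hN'
  obtain ⟨b, hli, hspanE, -, -, hcard⟩ := hst'.binders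
  obtain ⟨i0, -⟩ : ∃ i0 : Fin d, True := ⟨⟨0, Nat.pos_of_ne_zero hd0⟩, trivial⟩
  have hx0 : b i0 ≠ 0 := hli.ne_zero i0
  have hx : b i0 ∈ eigenTensorO N' 𝒪 (lamAt lamf Sg') := by
    rw [← hspanE]
    exact subset_span ⟨i0, rfl⟩
  have hZ : ∀ l : ℕ, l.Prime → l ∉ S0 → l ∈ Z' := by
    intro l _ hl
    rw [hZ']
    exact Or.inl (fun h => hl (Finset.mem_coe.mp h))
  have hZSg : ∀ x ∈ Sg', x ∈ Z' := by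
    intro x hxS
    rw [hZ']
    exact Or.inr hxS
  have hbad : ∀ b : Nat.Primes, (b : ℕ) ∈ S0 → (b : ℕ) ∉ Sg' →
      ¬ (b : ℕ) ∣ M ∨ ((b : ℕ) ∣ M ∧ ¬ (b : ℕ) ^ 2 ∣ M ∧ NonOccAt 𝒪 S0 b lamf) := by
    intro b _ _
    by_cases hbM : (b : ℕ) ∣ M
    · refine Or.inr ⟨hbM, ?_, hnof b hbM⟩
      intro h2
      have h3 : (b : ℕ) * (b : ℕ) ∣ M := by rwa [← sq]
      exact b.2.one_lt.ne' (Nat.isUnit_iff.mp (hsqM _ h3))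
    · exact Or.inl hbM
  have hold := hold_of_stageP hp hp𝒪 lamf hd0 hbasef Sg' S0 hN'
    (fun x hx => ⟨(hSg' x hx).1, (hSg' x hx).2.1⟩) (fun x hx => (hSg' x hx).2.2) hSg'S0 hbad
    Z' hZSg
  refine ⟨hY'S.le, ?_, hpN, hNS, hNT, hSminN,
    thetaRes (iotaLam N' 𝒪 (↑S0 : Set ℕ)) (chiHom hx hx0),
    ⟨locHyp_twZ S0 hNS hZ hx hx0⟩, b, hli, hspanE, hold, ?_, ?_, hrank _⟩
  · rw [hY'N, hN']
  · intro ℓ hℓ hℓN hℓS hℓS0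
    have hℓSg : ((⟨ℓ, hℓ⟩ : Nat.Primes) : ℕ) ∉ Sg' := fun h => hℓS0 (hSg'S0 _ h)
    rw [lamAt_of_notMem lamf hℓSg, ← hY'χ ℓ hℓ hℓN hℓS]
    rfl
  · have hNN : Y'.rt.N = N' := by rw [hY'N, hN']
    rw [hY'w, hcard, omegaCard_congr_level hNN]

end Core

/-! ### the rank binder from the `W`-data, and the full list -/

section Rank

variable {𝒪 : Type} [CommRing 𝒪] [IsDomain 𝒪] [IsDiscreteValuationRing 𝒪]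
  [IsAdicComplete (maximalIdeal 𝒪) 𝒪] [Finite (ResidueField 𝒪)] [CharZero 𝒪]
  {p : ℕ} [Fact p.Prime] [Algebra (ZMod p) (ResidueField 𝒪)]
  {Smin : Finset ℕ} {d : ℕ}

/-- `U_q = 0` on the `𝔪`-primary part at the primes of `Sg'`. -/
theorem hU_locPart {M N' : ℕ} [NeZero N'] (hp𝒪 : (p : 𝒪) ∈ maximalIdeal 𝒪)
    (lam : Nat.Primes → 𝒪) (Sg' : Finset ℕ)
    (hSg' : ∀ x ∈ Sg', x.Prime ∧ ¬ x ∣ M ∧ x ≠ p) (hN' : N' = M * ∏ x ∈ Sg', x ^ 2)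
    (Z' : Set ℕ) (hZSg : ∀ x ∈ Sg', x ∈ Z') :
    ∀ q : Nat.Primes, (q : ℕ) ∈ Sg' →
      ∀ x ∈ locPart (mP 𝒪 Z' (lamAt lam Sg')) (𝒪 ⊗[ℤ] Lam N'),
        (latT N' q).baseChange 𝒪 x = 0 := by
  intro q hqS
  have hqZ : (q : ℕ) ∈ Z' := hZSg _ hqS
  have hN2 : N' = (M * ∏ x ∈ Sg'.erase (q : ℕ), x ^ 2) * (q : ℕ) * (q : ℕ) := by
    rw [hN', ← Finset.mul_prod_erase Sg' (fun x => x ^ 2) hqS]
    ring
  have hqM₀ : ¬ (q : ℕ) ∣ M * ∏ x ∈ Sg'.erase (q : ℕ), x ^ 2 :=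
    not_dvd_lev (fun x hx => (hSg' x (Finset.mem_of_mem_erase hx)).1) q.2 (hSg' _ hqS).2.1
      (Finset.notMem_erase _ _)
  have hu : IsUnit (((q : ℕ) : ℕ) : 𝒪) :=
    isUnit_natCast_of_prime_ne (Fact.out : p.Prime) q.2 (hSg' _ hqS).2.2 hp𝒪
  have h0 : lamAt lam Sg' q ∈ maximalIdeal 𝒪 := by
    rw [lamAt_of_mem lam hqS]
    exact zero_mem _
  exact Fermat.Agent.GE9.OldQ.UqLoc.uq_eq_zero_of_mem_locPart q.2 hqM₀ hN2 hu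
    (mP 𝒪 Z' (lamAt lam Sg')) (xP 𝒪 Z' q hqZ) (xP_mem_mP _ q hqZ h0)
    (fun x => xP_smul q hqZ x)

variable {W : WeierstrassCurve ℤ}
  (hcard₁ : Nat.card (Submodule.torsionBy ℤ
    ((W.map (Int.castRingHom ℚ))⁄(AlgebraicClosure ℚ)).Point p) = p ^ 2)
  (hker : GaloisFactorsThroughFiniteLevel
    (galoisRepModuleEnd (K := AlgebraicClosure ℚ) ℚ (W.map (Int.castRingHom ℚ)) p))

set_option maxHeartbeats 1000000 in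
/-- **the rank binder of a flat stage from the `W`-data** (`∀ θ`: `θ` is a phantom argument). -/
theorem hrank_flat_stage (hΔ : W.Δ ≠ 0) (hirr : W.ModRepIsIrreducible p)
    (htrans : ∃ σ : (AlgebraicClosure ℚ ≃ₐ[ℚ] AlgebraicClosure ℚ),
      galoisRepModuleEnd (K := AlgebraicClosure ℚ) ℚ (W.map (Int.castRingHom ℚ)) p σ ≠ 1 ∧
        (galoisRepModuleEnd (K := AlgebraicClosure ℚ) ℚ (W.map (Int.castRingHom ℚ)) p σ - 1) ^ 2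
          = 0)
    {ρbar : ResidualGaloisRep (ResidueField 𝒪)}
    (hρ : ρbar = (rb p W hcard₁ hker).baseChange (ResidueField 𝒪))
    (hd : 2 ≤ d) (hp𝒪 : (p : 𝒪) ∈ maximalIdeal 𝒪)
    {M : ℕ} [NeZero M] (hpM : ¬ p ∣ M) (hsqM : Squarefree M) (lamf : Nat.Primes → 𝒪)
    (S0 : Finset ℕ) (hMS0 : ∀ r : ℕ, r.Prime → r ∣ M → r ∈ S0)
    (hmin : ∀ r : ℕ, r.Prime → r ≠ p → (r ∈ Smin ↔ ¬ ρbar.IsUnramifiedAt r))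
    (hSminM : ∀ r ∈ Smin, r = p ∨ r ∣ M) (hMSmin : ∀ r : ℕ, r.Prime → r ∣ M → r ∈ Smin)
    (Sg' : Finset ℕ) (hSg' : ∀ x ∈ Sg', x.Prime ∧ ¬ x ∣ M ∧ x ≠ p)
    (hSg'S0 : ∀ x ∈ Sg', x ∈ S0)
    {N' : ℕ} [NeZero N'] (hN' : N' = M * ∏ x ∈ Sg', x ^ 2)
    (hst' : EtaStage N' 𝒪 (lamAt lamf Sg') d)
    (Z' : Set ℕ) (hZ' : Z' = {l | l ∉ (↑S0 : Set ℕ) ∨ l ∈ Sg'})
    (hlamW : ∀ (ℓ : ℕ) (hℓ : ℓ.Prime), ℓ ∉ S0 → W.IsGoodPrimeFor ℓ → ℓ ≠ p →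
      residue 𝒪 (lamf (⟨ℓ, hℓ⟩ : Nat.Primes)) = ((W.apOfModel ℓ : ℤ) : ResidueField 𝒪)) :
    ∀ θ : ↥(heckeAlgebra N' 2 (↑S0 : Set ℕ)) →+* ResidueField 𝒪,
      Module.finrank 𝒪 ↥(locPart (mP 𝒪 Z' (lamAt lamf Sg')) (𝒪 ⊗[ℤ] Lam N')) ≤
        d * Module.finrank 𝒪 (TQ 𝒪 θ (twZ (Z := Z') (N := N') (lamAt lamf Sg') S0)) := by
  classical
  subst hρ
  have hp : p.Prime := Fact.out
  have hd0 : d ≠ 0 := by omega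
  have hSgP : ∀ x ∈ Sg', x.Prime := fun x hx => (hSg' x hx).1
  have hNS : ∀ r : ℕ, r.Prime → r ∣ N' → r ∈ S0 := by
    intro r hr hrN
    rw [hN'] at hrN
    exact mem_S0_of_dvd_lev hSgP hMS0 hSg'S0 r hr hrN
  have hSminN : ∀ r ∈ Smin, r.Prime → r ≠ p → r ∣ N' ∧ ¬ r ^ 2 ∣ N' := by
    rw [hN']
    exact exactDvd_lev_of_mem_Smin hsqM hSminM hSg'
  obtain ⟨b, hli, hspanE, -⟩ := hst'
  obtain ⟨i0, -⟩ : ∃ i0 : Fin d, True := ⟨⟨0, Nat.pos_of_ne_zero hd0⟩, trivial⟩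
  have hx0 : b i0 ≠ 0 := hli.ne_zero i0
  have hx : b i0 ∈ eigenTensorO N' 𝒪 (lamAt lamf Sg') := by
    rw [← hspanE]
    exact subset_span ⟨i0, rfl⟩
  have hZ : ∀ l : ℕ, l.Prime → l ∉ S0 → l ∈ Z' := by
    intro l _ hl
    rw [hZ']
    exact Or.inl (fun h => hl (Finset.mem_coe.mp h))
  have hZSg : ∀ x ∈ Sg', x ∈ Z' := by
    intro x hxS
    rw [hZ']
    exact Or.inr hxS
  have hSgsub : Sg' ⊆ S0 := fun x hx => hSg'S0 x hx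
  have hlamW' : ∀ (ℓ : ℕ) (hℓ : ℓ.Prime), ¬ ℓ ∣ N' → ℓ ∉ S0 → W.IsGoodPrimeFor ℓ → ℓ ≠ p →
      residue 𝒪 (lamAt lamf Sg' (⟨ℓ, hℓ⟩ : Nat.Primes))
        = ((W.apOfModel ℓ : ℤ) : ResidueField 𝒪) := by
    intro ℓ hℓ _ hℓS0 hg hℓp
    have hℓSg : ((⟨ℓ, hℓ⟩ : Nat.Primes) : ℕ) ∉ Sg' := fun h => hℓS0 (hSg'S0 _ h)
    rw [lamAt_of_notMem lamf hℓSg]
    exact hlamW ℓ hℓ hℓS0 hg hℓp
  have hU : ∀ q : Nat.Primes, (q : ℕ) ∈ Sg' →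
      ∀ x ∈ locPart (mP 𝒪 Z' (lamAt lamf Sg')) (𝒪 ⊗[ℤ] Lam N'),
        (latT N' q).baseChange 𝒪 x = 0 :=
    hU_locPart hp𝒪 lamf Sg' hSg' hN' Z' hZSg
  have hbad : ∀ b : Nat.Primes, (b : ℕ) ∈ S0 \ Sg' →
      ¬ (b : ℕ) ∣ N' ∨ ((b : ℕ) ∣ N' ∧ ¬ (b : ℕ) ^ 2 ∣ N' ∧ (b : ℕ) ≠ p ∧
        ¬ ((rb p W hcard₁ hker).baseChange (ResidueField 𝒪)).IsUnramifiedAt b) := by
    intro b hb
    have hbS : (b : ℕ) ∉ Sg' := (Finset.mem_sdiff.mp hb).2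
    by_cases hbN : (b : ℕ) ∣ N'
    · right
      have hbM : (b : ℕ) ∣ M := by
        have h1 := hbN
        rw [hN'] at h1
        exact ((prime_dvd_lev_iff hSgP b.2).mp h1).resolve_right hbS
      have hbp : (b : ℕ) ≠ p := fun h => hpM (h ▸ hbM)
      have hbSmin : (b : ℕ) ∈ Smin := hMSmin b b.2 hbM
      exact ⟨hbN, (hSminN b hbSmin b.2 hbp).2, hbp, (hmin b b.2 hbp).mp hbSmin⟩
    · exact Or.inl hbN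
  have key := hrank_locPart_thetaRes hcard₁ hker hΔ hirr htrans (ResidueField 𝒪) Z'
    (lamAt lamf Sg') S0 Sg' hSgsub hNS hZ hx hx0 hp𝒪 hlamW' hU hbad
  intro θ
  have e : Module.finrank 𝒪 (TQ 𝒪 θ (twZ (Z := Z') (N := N') (lamAt lamf Sg') S0))
      = Module.finrank 𝒪 (TQ 𝒪 (thetaRes (iotaLam N' 𝒪 (↑S0 : Set ℕ)) (chiHom hx hx0))
        (twZ (Z := Z') (N := N') (lamAt lamf Sg') S0)) := rfl
  rw [e]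
  exact key.trans (Nat.mul_le_mul_right _ hd)

set_option maxHeartbeats 1000000 in
/-- **the per-stage binders of `StepNewLoc.card_congMod_ker_growth_of_locStages` at a stage of the
flat engine**, `hrank` from the `W`-data. -/
theorem flat_fields (hΔ : W.Δ ≠ 0) (hirr : W.ModRepIsIrreducible p)
    (htrans : ∃ σ : (AlgebraicClosure ℚ ≃ₐ[ℚ] AlgebraicClosure ℚ),
      galoisRepModuleEnd (K := AlgebraicClosure ℚ) ℚ (W.map (Int.castRingHom ℚ)) p σ ≠ 1 ∧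
        (galoisRepModuleEnd (K := AlgebraicClosure ℚ) ℚ (W.map (Int.castRingHom ℚ)) p σ - 1) ^ 2
          = 0)
    {ρbar : ResidualGaloisRep (ResidueField 𝒪)}
    (hρ : ρbar = (rb p W hcard₁ hker).baseChange (ResidueField 𝒪))
    (hd : 2 ≤ d) (hp2 : p ≠ 2) (hp𝒪 : (p : 𝒪) ∈ maximalIdeal 𝒪)
    {ϖ : 𝒪} (hϖ : Irreducible ϖ) (hpϖ : ∃ c : 𝒪, (p : 𝒪) = ϖ * c)
    {M : ℕ} [NeZero M] (hpM : ¬ p ∣ M) (hsqM : Squarefree M) (lamf : Nat.Primes → 𝒪)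
    (hnef : ∀ (F : Finset ℕ) (q : ℕ), q.Prime → ∃ l : Nat.Primes, (l : ℕ) ∉ F ∧
      (((l : ℕ) : ZMod q) = 1) ∧ IsUnit (lamf l - (((l : ℕ) : 𝒪) + 1)))
    (hbasef : EtaStage M 𝒪 lamf d)
    (S0 : Finset ℕ) (hpS0 : p ∈ S0) (hMS0 : ∀ r : ℕ, r.Prime → r ∣ M → r ∈ S0)
    (hnof : ∀ b : Nat.Primes, (b : ℕ) ∣ M → NonOccAt 𝒪 S0 b lamf)
    (hpSmin : p ∈ Smin)
    (hmin : ∀ r : ℕ, r.Prime → r ≠ p → (r ∈ Smin ↔ ¬ ρbar.IsUnramifiedAt r))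
    (hSminM : ∀ r ∈ Smin, r = p ∨ r ∣ M) (hMSmin : ∀ r : ℕ, r.Prime → r ∣ M → r ∈ Smin)
    (Sg' : Finset ℕ) (hSg' : ∀ x ∈ Sg', x.Prime ∧ ¬ x ∣ M ∧ x ≠ p)
    (hSg'S0 : ∀ x ∈ Sg', x ∈ S0)
    (Y' : RTNum ρbar (condFL 𝒪 p Smin Sg') d)
    (hY'N : Y'.rt.N = M * ∏ x ∈ Sg', x ^ 2) (hY'S : Y'.rt.S = (↑S0 : Set ℕ))
    (hY'w : Y'.w = omegaCard Y'.rt.N 𝒪 (lamAt lamf Sg'))
    (hY'χ : ∀ (ℓ : ℕ) (hℓ : ℓ.Prime) (hℓN : ¬ ℓ ∣ Y'.rt.N) (hℓS : ℓ ∉ Y'.rt.S),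
      pointChar Y' (heckeAlgebra.T hℓ hℓN hℓS) = lamf ⟨ℓ, hℓ⟩)
    {N' : ℕ} [NeZero N'] (hN' : N' = M * ∏ x ∈ Sg', x ^ 2)
    (Z' : Set ℕ) (hZ' : Z' = {l | l ∉ (↑S0 : Set ℕ) ∨ l ∈ Sg'})
    (hlamW : ∀ (ℓ : ℕ) (hℓ : ℓ.Prime), ℓ ∉ S0 → W.IsGoodPrimeFor ℓ → ℓ ≠ p →
      residue 𝒪 (lamf (⟨ℓ, hℓ⟩ : Nat.Primes)) = ((W.apOfModel ℓ : ℤ) : ResidueField 𝒪)) :
    Y'.rt.S ⊆ (↑S0 : Set ℕ) ∧ Y'.rt.N ∣ N' ∧ ¬ p ∣ N' ∧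
    (∀ r : ℕ, r.Prime → r ∣ N' → r ∈ S0) ∧
    (∀ r : ℕ, r.Prime → r ∣ N' → r ∈ Smin ∪ Sg') ∧
    (∀ r ∈ Smin, r.Prime → r ≠ p → r ∣ N' ∧ ¬ r ^ 2 ∣ N') ∧
    ∃ (θ : ↥(heckeAlgebra N' 2 (↑S0 : Set ℕ)) →+* ResidueField 𝒪)
      (_ : Fact (LocHyp 𝒪 θ (twZ (Z := Z') (N := N') (lamAt lamf Sg') S0)))
      (b : Fin d → 𝒪 ⊗[ℤ] Lam N'),
      LinearIndependent 𝒪 b ∧
      span 𝒪 (Set.range b) = eigenTensorO N' 𝒪 (lamAt lamf Sg') ∧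
      (∀ x ∈ locPart (mP 𝒪 Z' (lamAt lamf Sg')) (𝒪 ⊗[ℤ] Lam N'),
        (∀ l : Nat.Primes, (l : ℕ) ∉ S0 →
          (latT N' l).baseChange 𝒪 x = lamAt lamf Sg' l • x) →
          ∀ l : Nat.Primes, (latT N' l).baseChange 𝒪 x = lamAt lamf Sg' l • x) ∧
      (∀ (ℓ : ℕ) (hℓ : ℓ.Prime) (hℓN : ¬ ℓ ∣ Y'.rt.N) (hℓS : ℓ ∉ Y'.rt.S), ℓ ∉ S0 →
        lamAt lamf Sg' (⟨ℓ, hℓ⟩ : Nat.Primes)
          = Y'.πO (Y'.rt.π (heckeAlgebra.T hℓ hℓN hℓS))) ∧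
      Y'.w ≤ Nat.card (CongMod (BW N' 𝒪) (span 𝒪 (Set.range b))) ∧
      Module.finrank 𝒪 ↥(locPart (mP 𝒪 Z' (lamAt lamf Sg')) (𝒪 ⊗[ℤ] Lam N')) ≤
        d * Module.finrank 𝒪 (TQ 𝒪 θ (twZ (Z := Z') (N := N') (lamAt lamf Sg') S0)) := by
  have hst' : EtaStage N' 𝒪 (lamAt lamf Sg') d :=
    etaStage_flat hd hp2 hϖ hpϖ lamf hnef hbasef Sg' hSg' hN'
  have hrank := hrank_flat_stage hcard₁ hker hΔ hirr htrans hρ hd hp𝒪 hpM hsqM lamf S0 hMS0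
    hmin hSminM hMSmin Sg' hSg' hSg'S0 hN' hst' Z' hZ' hlamW
  exact flat_fields_core hd hp2 hp𝒪 hϖ hpϖ hpM hsqM lamf hnef hbasef S0 hpS0 hMS0 hnof hpSmin
    hmin hSminM hMSmin Sg' hSg' hSg'S0 Y' hY'N hY'S hY'w hY'χ hN' Z' hZ' hrank

end Rank

end Fermat.Agent.GE9.PNew.Inst.FlatFields

end
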