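/-
GATE-E / RISK-4, instance layer R4-I (helper21): `GE9/PNew/Inst/HoldKNew.lean` —
**the multiplicity-one clause `hold` of `CarrierK.exists_carrier_KNew` /
`SupplySOb.exists_supplySOb` at the `p`-new stage levels** `N₀ p`, `N₀ = M ∏_{x ∈ Σ'} x²`, `p ∤ M`,
together with the set `Z` of primes of the polynomial Hecke algebra and `BetaPEquiv hpN₀ Z`
(the family `hhold` of `GE/Engine/StepPlugSOb.stepSupplySOb_of_base`).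

`Z := {l | l ∉ S0 ∨ l ∈ Σ'}` (`ZSet`).  helper63's `HoldNew.hold_stage_pnew_uq` is applied to
`Lp := locPart (mP 𝒪 Z lam') (𝒪 ⊗ Λ_{N₀ p})` ITSELF (`lam' = lamAt lam Σ'`); the `p`-newness of `x`
is not used:

* `Lp` is stable under EVERY `T_l ⊗ 𝒪` (`latT_mem_locPart`: `T_l ⊗ 𝒪` is `PAlg 𝒪 Z`-linear);
* `U_x = 0` on `Lp` for `x ∈ Σ'` (`uq_eq_zero_locPart`: helper63's `UqLoc.uq_eq_zero_of_mem_locPart`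
  at `A := PAlg 𝒪 Z`, `t := x_x ∈ 𝔪` since `lam' x = 0`);
* `BetaPEquiv hpN₀ Z` : helper5's `betaP_latT_ne` (`p ∈ S0`, `p ∉ Σ'`).

* **`hold_KNew_core`** : reference eigenvector `y₁` and helper63's `hbad` as binders;
* **`hold_KNew`** : from `EtaStageNew hpM 𝒪 lam d` (`d ≠ 0`), `Squarefree (M * p)` and the
  non-occurrence `hnoR` at the primes `b ≠ p` of the minimal level.
-/
import Mathlib
import Fermat.Agent.GE9.PNew.Inst.KNew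
import Fermat.Agent.GE9.PNew.Inst.BetaPOnto
import Fermat.Agent.GE9.OldQ.HoldNew
import Fermat.Agent.GE9.OldQ.UqLoc
import Fermat.Agent.GE9.Stage.SupplyHold
import Fermat.Agent.GE9.Eta.Chain

set_option autoImplicit false
set_option linter.unusedSectionVars false
set_option linter.unusedVariables false
set_option linter.style.haveILetI false

open scoped TensorProduct

namespace Fermat.Agent.GE9.PNew.Inst.HoldKNew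

open IsLocalRing Submodule
open Fermat.Agent.GJ.J2.Lat Fermat.Agent.GB.B3.Loc
open Fermat.Agent.GE9.Eta Fermat.Agent.GE9.Eta.Mod Fermat.Agent.GE9.Eta.Chain
  Fermat.Agent.GE9.Mult1 Fermat.Agent.GE.Engine.LevArith
open Fermat.Agent.GE9.OldQ.Consumer Fermat.Agent.GE9.PNew.Inst

/-! ### every `T_l ⊗ 𝒪` preserves the `𝔪`-primary part -/

section Stable

variable {𝒪 : Type} [CommRing 𝒪] {Z : Set ℕ} {N : ℕ} [NeZero N]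

/-- `T_l ⊗ 𝒪` (ANY prime `l`) as a `PAlg 𝒪 Z`-linear endomorphism -/
noncomputable def latTP (l : Nat.Primes) : 𝒪 ⊗[ℤ] Lam N →ₗ[PAlg 𝒪 Z] 𝒪 ⊗[ℤ] Lam N :=
  baseChangeP (latT N l) fun l' _ x => LinearMap.congr_fun (latT_commute N l l').eq x

theorem latTP_apply (l : Nat.Primes) (x : 𝒪 ⊗[ℤ] Lam N) :
    latTP (𝒪 := 𝒪) (Z := Z) l x = (latT N l).baseChange 𝒪 x := rfl

/-- the `𝔪`-primary part is stable under EVERY `T_l ⊗ 𝒪` (`U_p`, `U_b` included) -/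
theorem latT_mem_locPart [IsLocalRing 𝒪] (lam : Nat.Primes → 𝒪) (l : Nat.Primes)
    {x : 𝒪 ⊗[ℤ] Lam N} (hx : x ∈ locPart (mP 𝒪 Z lam) (𝒪 ⊗[ℤ] Lam N)) :
    (latT N l).baseChange 𝒪 x ∈ locPart (mP 𝒪 Z lam) (𝒪 ⊗[ℤ] Lam N) :=
  apply_mem_locPart (latTP (𝒪 := 𝒪) (Z := Z) l) hx

end Stable

/-! ### `U_x = 0` on the `𝔪`-primary part, `x ∈ Σ'` -/

section Uq

variable {𝒪 : Type} [CommRing 𝒪] [IsLocalRing 𝒪] [IsNoetherianRing 𝒪]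
  [IsAdicComplete (maximalIdeal 𝒪) 𝒪]

/-- **`U_q = 0` on `locPart (mP 𝒪 Z lam')`** : `q ∈ Z`, `lam' q ∈ 𝔪_𝒪`, `q² ∥ N`, `q ∈ 𝒪ˣ`. -/
theorem uq_eq_zero_locPart {N : ℕ} [NeZero N] {Z : Set ℕ} (lam' : Nat.Primes → 𝒪)
    {M₀ q : ℕ} (hq : q.Prime) (hqM₀ : ¬ q ∣ M₀) (hN : N = M₀ * q * q)
    (hq𝒪 : IsUnit ((q : ℕ) : 𝒪)) (hqZ : q ∈ Z)
    (h0 : lam' (⟨q, hq⟩ : Nat.Primes) ∈ maximalIdeal 𝒪) :
    ∀ x ∈ locPart (mP 𝒪 Z lam') (𝒪 ⊗[ℤ] Lam N),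
      (latT N (⟨q, hq⟩ : Nat.Primes)).baseChange 𝒪 x = 0 :=
  Fermat.Agent.GE9.OldQ.UqLoc.uq_eq_zero_of_mem_locPart (A := PAlg 𝒪 Z) hq hqM₀ hN hq𝒪
    (mP 𝒪 Z lam') (xP 𝒪 Z (⟨q, hq⟩ : Nat.Primes) hqZ)
    (xP_mem_mP lam' (⟨q, hq⟩ : Nat.Primes) hqZ h0)
    (fun x => xP_smul (⟨q, hq⟩ : Nat.Primes) hqZ x)

end Uq

/-! ### the level arithmetic -/

section Arith

/-- `M ∏_{x ∈ Σ'} x² = (M ∏_{x ∈ Σ' ∖ {q}} x²) q q` for `q ∈ Σ'`. -/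
theorem lev_erase {M : ℕ} {Sg' : Finset ℕ} {q : ℕ} (hq : q ∈ Sg') :
    M * ∏ x ∈ Sg', x ^ 2 = (M * ∏ x ∈ Sg'.erase q, x ^ 2) * q * q := by
  rw [← Finset.mul_prod_erase Sg' (fun x => x ^ 2) hq]
  ring

theorem not_dvd_lev_erase {M : ℕ} {Sg' : Finset ℕ} (hSg' : ∀ x ∈ Sg', x.Prime) {q : ℕ}
    (hq : q.Prime) (hqM : ¬ q ∣ M) : ¬ q ∣ M * ∏ x ∈ Sg'.erase q, x ^ 2 :=
  not_dvd_lev (fun x hx => hSg' x (Finset.mem_of_mem_erase hx)) hq hqM (Finset.notMem_erase q Sg')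

end Arith

/-! ### `hold` -/

section Hold

variable {𝒪 : Type} [CommRing 𝒪] [IsDomain 𝒪] [IsDiscreteValuationRing 𝒪]
  [IsAdicComplete (maximalIdeal 𝒪) 𝒪] [CharZero 𝒪]
variable {M p : ℕ} [hpF : Fact p.Prime] [NeZero M] [NeZero (M * p)]

/-- the primes of the polynomial Hecke algebra of the stage `Σ'`: the good primes and those of
`Σ'` -/
def ZSet (S0 Sg' : Finset ℕ) : Set ℕ := {l | l ∉ (↑S0 : Set ℕ) ∨ l ∈ Sg'}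

theorem mem_ZSet_of_notMem {S0 Sg' : Finset ℕ} {l : ℕ} (h : l ∉ (↑S0 : Set ℕ)) :
    l ∈ ZSet S0 Sg' := Or.inl h

theorem mem_ZSet_of_mem {S0 Sg' : Finset ℕ} {l : ℕ} (h : l ∈ Sg') : l ∈ ZSet S0 Sg' := Or.inr h

/-- `p ∉ Z` : `p ∈ S0`, `p ∉ Σ'`. -/
theorem ne_of_mem_ZSet {S0 Sg' : Finset ℕ} (hpS0 : p ∈ S0) (hSg' : ∀ x ∈ Sg', ¬ x ∣ M * p)
    {l : ℕ} (hl : l ∈ ZSet S0 Sg') : l ≠ p := by
  rintro rfl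
  rcases hl with h | h
  · exact h (Finset.mem_coe.mpr hpS0)
  · exact hSg' _ h (Dvd.intro_left M rfl)

/-- **`BetaPEquiv` on the primes of the stage algebra** (helper5's `betaP_latT_ne`). -/
theorem betaPEquiv_ZSet {S0 Sg' : Finset ℕ} (hpS0 : p ∈ S0) (hSg' : ∀ x ∈ Sg', ¬ x ∣ M * p)
    {N₀ : ℕ} [NeZero N₀] [NeZero (N₀ * p)] (hpN₀ : ¬ p ∣ N₀) :
    BetaPEquiv hpN₀ (ZSet S0 Sg') := fun l hl z =>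
  BetaPOnto.betaP_latT_ne hpN₀ l (ne_of_mem_ZSet (M := M) hpS0 hSg' hl) z

/-- **the family `hhold` at a stage, reference eigenvector and helper63's `hbad` as binders.** -/
theorem hold_KNew_core (hpM : ¬ p ∣ M) (hp𝒪 : (p : 𝒪) ∈ maximalIdeal 𝒪)
    (lam : Nat.Primes → 𝒪)
    (y₁ : 𝒪 ⊗[ℤ] Lam (M * p)) (hy₁ : y₁ ≠ 0)
    (hy₁e : ∀ l : Nat.Primes, (latT (M * p) l).baseChange 𝒪 y₁ = lam l • y₁)
    (hu : lam (⟨p, hpF.out⟩ : Nat.Primes) ^ 2 = 1)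
    (Sg' S0 : Finset ℕ) (hSg' : ∀ x ∈ Sg', x.Prime ∧ ¬ x ∣ M * p)
    (hSgS0 : ∀ x ∈ Sg', x ∈ S0) (hMS0 : ∀ r : ℕ, r.Prime → r ∣ M * p → r ∈ S0)
    (hbad : ∀ b : Nat.Primes, (b : ℕ) ∈ S0 → (b : ℕ) ∉ Sg' → (b : ℕ) ≠ p →
      ¬ (b : ℕ) ∣ M ∨ ((b : ℕ) ∣ M ∧ ¬ (b : ℕ) ^ 2 ∣ M ∧ NonOccAt 𝒪 S0 b lam))
    {N₀ : ℕ} [NeZero N₀] [NeZero (N₀ * p)] (hpN₀ : ¬ p ∣ N₀)
    (hN₀ : N₀ = M * ∏ x ∈ Sg', x ^ 2) :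
    ∃ Z : Set ℕ, (∀ l : ℕ, l.Prime → l ∉ (↑S0 : Set ℕ) → l ∈ Z) ∧ BetaPEquiv hpN₀ Z ∧
      ∀ x ∈ KNew hpN₀ 𝒪, x ∈ locPart (mP 𝒪 Z (lamAt lam Sg')) (𝒪 ⊗[ℤ] Lam (N₀ * p)) →
        (∀ (ℓ : ℕ) (hℓ : ℓ.Prime), ¬ ℓ ∣ N₀ * p → ℓ ∉ (↑S0 : Set ℕ) →
          (latT (N₀ * p) (⟨ℓ, hℓ⟩ : Nat.Primes)).baseChange 𝒪 x = lamAt lam Sg' ⟨ℓ, hℓ⟩ • x) →
        x ∈ eigenTensorO (N₀ * p) 𝒪 (lamAt lam Sg') := by
  have hp : p.Prime := hpF.out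
  have hpS0 : p ∈ S0 := hMS0 p hp (Dvd.intro_left M rfl)
  have hSgP : ∀ x ∈ Sg', x.Prime := fun x hx => (hSg' x hx).1
  have hSgN : ∀ x ∈ Sg', ¬ x ∣ M * p := fun x hx => (hSg' x hx).2
  have hN : N₀ * p = M * p * ∏ x ∈ Sg', x ^ 2 := by rw [hN₀]; ring
  refine ⟨ZSet S0 Sg', fun l _ hl => mem_ZSet_of_notMem hl,
    betaPEquiv_ZSet (M := M) hpS0 hSgN hpN₀, ?_⟩
  intro x _ hxL hxe
  -- the `𝔪`-primary part as an `𝒪`-submodule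
  set Lp : Submodule 𝒪 (𝒪 ⊗[ℤ] Lam (N₀ * p)) :=
    (locPart (mP 𝒪 (ZSet S0 Sg') (lamAt lam Sg')) (𝒪 ⊗[ℤ] Lam (N₀ * p))).restrictScalars 𝒪
    with hLpdef
  have hLp : ∀ l : Nat.Primes, ∀ y ∈ Lp, (latT (N₀ * p) l).baseChange 𝒪 y ∈ Lp := by
    intro l y hy
    exact (Submodule.restrictScalars_mem 𝒪 _ _).mpr
      (latT_mem_locPart (lamAt lam Sg') l ((Submodule.restrictScalars_mem 𝒪 _ _).mp hy))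
  have hU : ∀ q : Nat.Primes, (q : ℕ) ∈ Sg' → ∀ y ∈ Lp,
      (latT (N₀ * p) q).baseChange 𝒪 y = 0 := by
    intro q hqS y hy
    have hqMp : ¬ (q : ℕ) ∣ M * p := hSgN _ hqS
    have hqp : (q : ℕ) ≠ p := fun h => hqMp (h ▸ Dvd.intro_left M rfl)
    have hq𝒪 : IsUnit (((q : ℕ) : ℕ) : 𝒪) :=
      Fermat.Agent.GE9.Stage.SupplyHold.isUnit_natCast_of_prime_ne hp q.2 hqp hp𝒪
    have hNq : N₀ * p = (M * p * ∏ x ∈ Sg'.erase (q : ℕ), x ^ 2) * (q : ℕ) * (q : ℕ) := by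
      rw [hN]
      exact lev_erase hqS
    have h0 : lamAt lam Sg' (⟨(q : ℕ), q.2⟩ : Nat.Primes) ∈ maximalIdeal 𝒪 := by
      rw [lamAt_of_mem lam (l := (⟨(q : ℕ), q.2⟩ : Nat.Primes)) hqS]
      exact Ideal.zero_mem _
    exact uq_eq_zero_locPart (lamAt lam Sg') q.2 (not_dvd_lev_erase hSgP q.2 hqMp) hNq hq𝒪
      (mem_ZSet_of_mem hqS) h0 y ((Submodule.restrictScalars_mem 𝒪 _ _).mp hy)
  have hNS : ∀ r : ℕ, r.Prime → r ∣ N₀ * p → r ∈ S0 := by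
    intro r hr hrN
    rw [hN] at hrN
    exact mem_S0_of_dvd_lev hSgP hMS0 hSgS0 r hr hrN
  have hall := hold_stage_pnew_uq hp hpM S0 Sg' hN hSg' (fun y hy => hSgS0 y hy) lam y₁ hy₁ hy₁e
    hu hbad Lp hLp hU x ((Submodule.restrictScalars_mem 𝒪 _ _).mpr hxL) ?_
  · exact mem_eigenTensorO.mpr fun l => by
      rw [hall l, Fermat.Agent.GE9.Stage.SupplyHold.stageLam_eq_lamAt]
  · intro l hlS0
    have hlS0' : (l : ℕ) ∉ (↑S0 : Set ℕ) := fun h => hlS0 (Finset.mem_coe.mp h)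
    have hlSg : (l : ℕ) ∉ Sg' := fun h => hlS0 (hSgS0 _ h)
    have hlN : ¬ (l : ℕ) ∣ N₀ * p := fun h => hlS0 (hNS _ l.2 h)
    have h2 := hxe l l.2 hlN hlS0'
    rw [lamAt_of_notMem lam (l := (⟨(l : ℕ), l.2⟩ : Nat.Primes)) hlSg] at h2
    exact h2

/-- **the family `hhold` at a stage** : from the base invariant `EtaStageNew hpM 𝒪 lam d`
(`d ≠ 0`), `lam p ^ 2 = 1`, `M p` squarefree and the non-occurrence `hnoR` at the primes `b ≠ p`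
of the minimal level (`StepPlugSO.hnoR_of_pkg` at the bundle). -/
theorem hold_KNew (hpM : ¬ p ∣ M) (hsq : Squarefree (M * p)) (hp𝒪 : (p : 𝒪) ∈ maximalIdeal 𝒪)
    (lam : Nat.Primes → 𝒪) {d : ℕ} (hd : d ≠ 0) (hbase : EtaStageNew hpM 𝒪 lam d)
    (hu : lam (⟨p, hpF.out⟩ : Nat.Primes) ^ 2 = 1)
    (Sg' S0 : Finset ℕ) (hSg' : ∀ x ∈ Sg', x.Prime ∧ ¬ x ∣ M * p)
    (hSgS0 : ∀ x ∈ Sg', x ∈ S0) (hMS0 : ∀ r : ℕ, r.Prime → r ∣ M * p → r ∈ S0)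
    (hnoR : ∀ b : Nat.Primes, (b : ℕ) ∣ M * p → (b : ℕ) ≠ p → NonOccAt 𝒪 S0 b lam)
    {N₀ : ℕ} [NeZero N₀] [NeZero (N₀ * p)] (hpN₀ : ¬ p ∣ N₀)
    (hN₀ : N₀ = M * ∏ x ∈ Sg', x ^ 2) :
    ∃ Z : Set ℕ, (∀ l : ℕ, l.Prime → l ∉ (↑S0 : Set ℕ) → l ∈ Z) ∧ BetaPEquiv hpN₀ Z ∧
      ∀ x ∈ KNew hpN₀ 𝒪, x ∈ locPart (mP 𝒪 Z (lamAt lam Sg')) (𝒪 ⊗[ℤ] Lam (N₀ * p)) →
        (∀ (ℓ : ℕ) (hℓ : ℓ.Prime), ¬ ℓ ∣ N₀ * p → ℓ ∉ (↑S0 : Set ℕ) →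
          (latT (N₀ * p) (⟨ℓ, hℓ⟩ : Nat.Primes)).baseChange 𝒪 x = lamAt lam Sg' ⟨ℓ, hℓ⟩ • x) →
        x ∈ eigenTensorO (N₀ * p) 𝒪 (lamAt lam Sg') := by
  obtain ⟨b₁, hli₁, hspan₁, -, -⟩ := hbase
  set i0 : Fin d := ⟨0, Nat.pos_of_ne_zero hd⟩ with hi0
  have hy₁ : b₁ i0 ≠ 0 := hli₁.ne_zero i0
  have hy₁m : b₁ i0 ∈ eigenTensorO (M * p) 𝒪 lam := by
    rw [← hspan₁]
    exact subset_span ⟨i0, rfl⟩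
  have hsqM : Squarefree M := Squarefree.of_mul_left hsq
  refine hold_KNew_core hpM hp𝒪 lam (b₁ i0) hy₁ (mem_eigenTensorO.mp hy₁m) hu Sg' S0 hSg' hSgS0
    hMS0 (fun b hbS0 hbSg hbp => ?_) hpN₀ hN₀
  by_cases hbM : (b : ℕ) ∣ M
  · refine Or.inr ⟨hbM, fun h2 => ?_, hnoR b (Dvd.dvd.mul_right hbM p) hbp⟩
    have h3 : (b : ℕ) * (b : ℕ) ∣ M := by rwa [← sq]
    exact b.2.one_lt.ne' (Nat.isUnit_iff.mp (hsqM _ h3))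
  · exact Or.inl hbM

/-- **the family `hhold` of `GE/Engine/StepPlugSOb.stepSupplySOb_of_base`, VERBATIM** (over all
stages `Sg ⊆ Σ`, `q ∈ Σ ∖ Sg`). -/
theorem hhold_family (hpM : ¬ p ∣ M) (hsq : Squarefree (M * p))
    (hp𝒪 : (p : 𝒪) ∈ maximalIdeal 𝒪)
    (lam : Nat.Primes → 𝒪) {d : ℕ} (hd : d ≠ 0) (hbase : EtaStageNew hpM 𝒪 lam d)
    (hu : lam (⟨p, hpF.out⟩ : Nat.Primes) ^ 2 = 1)
    (Sig₀ S0 : Finset ℕ) (hSig : ∀ x ∈ Sig₀, x.Prime ∧ ¬ x ∣ M * p)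
    (hSigS0 : ∀ x ∈ Sig₀, x ∈ S0) (hMS0 : ∀ r : ℕ, r.Prime → r ∣ M * p → r ∈ S0)
    (hnoR : ∀ b : Nat.Primes, (b : ℕ) ∣ M * p → (b : ℕ) ≠ p → NonOccAt 𝒪 S0 b lam) :
    ∀ Sg : Finset ℕ, Sg ⊆ Sig₀ → ∀ (q : ℕ) (hq : q.Prime), q ∈ Sig₀ → q ∉ Sg →
      ∀ (N₀ : ℕ) [NeZero N₀] [NeZero (N₀ * p)] (hpN₀ : ¬ p ∣ N₀),
        N₀ = M * ∏ x ∈ insert q Sg, x ^ 2 →
        ∃ Z : Set ℕ, (∀ l : ℕ, l.Prime → l ∉ (↑S0 : Set ℕ) → l ∈ Z) ∧ BetaPEquiv hpN₀ Z ∧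
          ∀ x ∈ KNew hpN₀ 𝒪,
            x ∈ locPart (mP 𝒪 Z (lamAt lam (insert q Sg))) (𝒪 ⊗[ℤ] Lam (N₀ * p)) →
            (∀ (ℓ : ℕ) (hℓ : ℓ.Prime), ¬ ℓ ∣ N₀ * p → ℓ ∉ (↑S0 : Set ℕ) →
              (latT (N₀ * p) (⟨ℓ, hℓ⟩ : Nat.Primes)).baseChange 𝒪 x =
                lamAt lam (insert q Sg) ⟨ℓ, hℓ⟩ • x) →
            x ∈ eigenTensorO (N₀ * p) 𝒪 (lamAt lam (insert q Sg)) := by
  intro Sg hSgS q hq hqS hqSg N₀ _ _ hpN₀ hN₀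
  have hins : insert q Sg ⊆ Sig₀ := Finset.insert_subset hqS hSgS
  exact hold_KNew hpM hsq hp𝒪 lam hd hbase hu (insert q Sg) S0
    (fun x hx => hSig x (hins hx)) (fun x hx => hSigS0 x (hins hx)) hMS0 hnoR hpN₀ hN₀

end Hold

end Fermat.Agent.GE9.PNew.Inst.HoldKNew
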