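/-
GATE-E / RISK-4, instance layer R4-I (helper21, leaf (1) of helper37's `GrowNew` split):
`GE9/PNew/Inst/HoldFlat.lean` — **the multiplicity-one clause `holdᵢ` of
`StepNewLoc.card_congMod_ker_growth_of_locStages` at a FLAT stage**, for the `𝔪`-primary part cut by
the POLYNOMIAL algebra (`locPart (mP 𝒪 Z' lam')`, bigger than the `mLam`-cut of
`SupplyHold.hold_of_stage`).

`N' = M ∏_{x ∈ Σ'} x²`, `lam' = lamAt lamf Σ'`, `Z' = {l | l ∉ S0 ∨ l ∈ Σ'}` (as a variable with its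
membership criterion).  helper63's `HoldNew.hold_stage_uq` at `Lp := locPart (mP 𝒪 Z' lam')`:
stability under every `T_l ⊗ 𝒪` = `HoldKNew.latT_mem_locPart`, `U_x = 0` on `Lp` (`x ∈ Σ'`) =
`HoldKNew.uq_eq_zero_locPart`.

* **`hold_flat`** : OUTPUT shape of `OldQ.hold_stage` with `lamAt` (the binder `holdᵢ` VERBATIM).
-/
import Mathlib
import Fermat.Agent.GE9.PNew.Inst.HoldKNew

set_option autoImplicit false
set_option linter.unusedSectionVars false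
set_option linter.unusedVariables false
set_option linter.style.haveILetI false

open scoped TensorProduct

namespace Fermat.Agent.GE9.PNew.Inst.HoldFlat

open IsLocalRing Submodule
open Fermat.Agent.GJ.J2.Lat Fermat.Agent.GB.B3.Loc
open Fermat.Agent.GE9.Eta Fermat.Agent.GE9.Eta.Mod Fermat.Agent.GE9.Eta.Chain
  Fermat.Agent.GE9.Mult1 Fermat.Agent.GE.Engine.LevArith
open Fermat.Agent.GE9.OldQ.Consumer Fermat.Agent.GE9.PNew.Inst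

section Hold

variable {𝒪 : Type} [CommRing 𝒪] [IsDomain 𝒪] [IsDiscreteValuationRing 𝒪]
  [IsAdicComplete (maximalIdeal 𝒪) 𝒪] [CharZero 𝒪]
variable {p : ℕ} [hpF : Fact p.Prime]

/-- **`hold` at a FLAT stage, polynomial-algebra cut, reference eigenvector as a binder.** -/
theorem hold_flat_core {M N' : ℕ} [NeZero M] [NeZero N'] (hsqM : Squarefree M)
    (hp𝒪 : (p : 𝒪) ∈ maximalIdeal 𝒪) (lamf : Nat.Primes → 𝒪)
    (y₁ : 𝒪 ⊗[ℤ] Lam M) (hy₁ : y₁ ≠ 0)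
    (hy₁e : ∀ l : Nat.Primes, (latT M l).baseChange 𝒪 y₁ = lamf l • y₁)
    (Sg' S0 : Finset ℕ) (hN' : N' = M * ∏ x ∈ Sg', x ^ 2)
    (hSg' : ∀ x ∈ Sg', x.Prime ∧ ¬ x ∣ M ∧ x ≠ p)
    (hSgS0 : ∀ x ∈ Sg', x ∈ S0)
    (hnof : ∀ b : Nat.Primes, (b : ℕ) ∣ M → NonOccAt 𝒪 S0 b lamf)
    (Z' : Set ℕ) (hZ' : ∀ l : ℕ, l ∈ Sg' → l ∈ Z') :
    ∀ x ∈ locPart (mP 𝒪 Z' (lamAt lamf Sg')) (𝒪 ⊗[ℤ] Lam N'),
      (∀ l : Nat.Primes, (l : ℕ) ∉ S0 → (latT N' l).baseChange 𝒪 x = lamAt lamf Sg' l • x) →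
        ∀ l : Nat.Primes, (latT N' l).baseChange 𝒪 x = lamAt lamf Sg' l • x := by
  have hp : p.Prime := hpF.out
  have hSgP : ∀ x ∈ Sg', x.Prime := fun x hx => (hSg' x hx).1
  intro x hxL hxe
  -- the `𝔪`-primary part as an `𝒪`-submodule
  set Lp : Submodule 𝒪 (𝒪 ⊗[ℤ] Lam N') :=
    (locPart (mP 𝒪 Z' (lamAt lamf Sg')) (𝒪 ⊗[ℤ] Lam N')).restrictScalars 𝒪 with hLpdef
  have hLp : ∀ l : Nat.Primes, ∀ y ∈ Lp, (latT N' l).baseChange 𝒪 y ∈ Lp := by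
    intro l y hy
    exact (Submodule.restrictScalars_mem 𝒪 _ _).mpr
      (HoldKNew.latT_mem_locPart (lamAt lamf Sg') l
        ((Submodule.restrictScalars_mem 𝒪 _ _).mp hy))
  have hU : ∀ q : Nat.Primes, (q : ℕ) ∈ Sg' → ∀ y ∈ Lp, (latT N' q).baseChange 𝒪 y = 0 := by
    intro q hqS y hy
    have hqM : ¬ (q : ℕ) ∣ M := (hSg' _ hqS).2.1
    have hqp : (q : ℕ) ≠ p := (hSg' _ hqS).2.2
    have hq𝒪 : IsUnit (((q : ℕ) : ℕ) : 𝒪) :=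
      Fermat.Agent.GE9.Stage.SupplyHold.isUnit_natCast_of_prime_ne hp q.2 hqp hp𝒪
    have hNq : N' = (M * ∏ x ∈ Sg'.erase (q : ℕ), x ^ 2) * (q : ℕ) * (q : ℕ) := by
      rw [hN']
      exact HoldKNew.lev_erase hqS
    have h0 : lamAt lamf Sg' (⟨(q : ℕ), q.2⟩ : Nat.Primes) ∈ maximalIdeal 𝒪 := by
      rw [lamAt_of_mem lamf (l := (⟨(q : ℕ), q.2⟩ : Nat.Primes)) hqS]
      exact Ideal.zero_mem _
    exact HoldKNew.uq_eq_zero_locPart (lamAt lamf Sg') q.2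
      (HoldKNew.not_dvd_lev_erase hSgP q.2 hqM) hNq hq𝒪 (hZ' _ hqS) h0 y
      ((Submodule.restrictScalars_mem 𝒪 _ _).mp hy)
  have hbad : ∀ b : Nat.Primes, (b : ℕ) ∈ S0 → (b : ℕ) ∉ Sg' →
      ¬ (b : ℕ) ∣ M ∨ ((b : ℕ) ∣ M ∧ ¬ (b : ℕ) ^ 2 ∣ M ∧ NonOccAt 𝒪 S0 b lamf) := by
    intro b _ _
    by_cases hbM : (b : ℕ) ∣ M
    · refine Or.inr ⟨hbM, fun h2 => ?_, hnof b hbM⟩
      have h3 : (b : ℕ) * (b : ℕ) ∣ M := by rwa [← sq]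
      exact b.2.one_lt.ne' (Nat.isUnit_iff.mp (hsqM _ h3))
    · exact Or.inl hbM
  have hall := hold_stage_uq S0 Sg' hN' (fun y hy => ⟨(hSg' y hy).1, (hSg' y hy).2.1⟩)
    (fun y hy => hSgS0 y hy) lamf y₁ hy₁ hy₁e hbad Lp hLp hU x
    ((Submodule.restrictScalars_mem 𝒪 _ _).mpr hxL) ?_
  · intro l
    rw [hall l, Fermat.Agent.GE9.Stage.SupplyHold.stageLam_eq_lamAt]
  · intro l hlS0
    have hlSg : (l : ℕ) ∉ Sg' := fun h => hlS0 (hSgS0 _ h)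
    have h2 := hxe l hlS0
    rw [lamAt_of_notMem lamf hlSg] at h2
    exact h2

/-- **`hold` at a FLAT stage, polynomial-algebra cut** (helper37's header, 8120 (1)). -/
theorem hold_flat {M N' : ℕ} [NeZero M] [NeZero N'] (hpM : ¬ p ∣ M) (hsqM : Squarefree M)
    (hp𝒪 : (p : 𝒪) ∈ maximalIdeal 𝒪) (lamf : Nat.Primes → 𝒪) {d : ℕ} (hd : d ≠ 0)
    (hbasef : EtaStage M 𝒪 lamf d) (Sg' S0 : Finset ℕ) (hN' : N' = M * ∏ x ∈ Sg', x ^ 2)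
    (hSg' : ∀ x ∈ Sg', x.Prime ∧ ¬ x ∣ M ∧ x ≠ p) (hpS0 : p ∈ S0)
    (hMS0 : ∀ r : ℕ, r.Prime → r ∣ M → r ∈ S0) (hSgS0 : ∀ x ∈ Sg', x ∈ S0)
    (hnof : ∀ b : Nat.Primes, (b : ℕ) ∣ M → NonOccAt 𝒪 S0 b lamf)
    (hst' : EtaStage N' 𝒪 (lamAt lamf Sg') d) (Z' : Set ℕ)
    (hZ' : ∀ l : ℕ, l ∈ Z' ↔ (l ∉ (↑S0 : Set ℕ) ∨ l ∈ Sg')) :
    ∀ x ∈ locPart (mP 𝒪 Z' (lamAt lamf Sg')) (𝒪 ⊗[ℤ] Lam N'),
      (∀ l : Nat.Primes, (l : ℕ) ∉ S0 → (latT N' l).baseChange 𝒪 x = lamAt lamf Sg' l • x) →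
        ∀ l : Nat.Primes, (latT N' l).baseChange 𝒪 x = lamAt lamf Sg' l • x := by
  obtain ⟨b₁, hli₁, hspan₁, -⟩ := hbasef
  set i0 : Fin d := ⟨0, Nat.pos_of_ne_zero hd⟩ with hi0
  have hy₁ : b₁ i0 ≠ 0 := hli₁.ne_zero i0
  have hy₁m : b₁ i0 ∈ eigenTensorO M 𝒪 lamf := by
    rw [← hspan₁]
    exact subset_span ⟨i0, rfl⟩
  exact hold_flat_core hsqM hp𝒪 lamf (b₁ i0) hy₁ (mem_eigenTensorO.mp hy₁m) Sg' S0 hN' hSg'
    hSgS0 hnof Z' (fun l hl => (hZ' l).2 (Or.inr hl))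

end Hold

end Fermat.Agent.GE9.PNew.Inst.HoldFlat
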