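/-
GATE-E / RISK-4, instance layer R4-I (helper37), slice (e10a): `GE9/PNew/Inst/OmegaNew.lean` —
**`omegaCardNew` computed on the `𝔪`-primary part of the `p`-new part.**

* `castOG 𝒪 h` : the level cast `𝒪 ⊗ Λ_M → 𝒪 ⊗ Λ_{M'}` along ANY `h : M = M'`
  (`lamCastO 𝒪 = castOG 𝒪 (level_eq N p q)` by `rfl`), `BW_castOG`, `castOG_latT`,
  `castOG_mem_eigenTensorO`, `castOG_castOG`;
* `card_congMod_transport` : abstract — the congruence module of a sublattice of `K ⊓ Lc`, computed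
  in `K` or in a copy `L₁` of `K ⊓ Lc` (`K = (K ⊓ Lc) + (K ⊓ Aw)`, `Lc ⟂ Aw`);
* `exists_decomp_KNew` : `KNew = (KNew ⊓ loc) + (KNew ⊓ away)`;
* **`card_congMod_kerBetaLoc`**, **`card_congMod_kerBetaLoc'`** : `#Ω` of a family of `ker β`
  (resp. `ker β'`) for the restricted form `BL` = `#Ω` of the same family in `KNew` for `BWNew`.
-/
import Mathlib
import Fermat.Agent.GE9.PNew.Inst.StepMaps
import Fermat.Agent.GE9.PNew.Inst.FormLoc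

set_option autoImplicit false
set_option linter.unusedSectionVars false
set_option linter.style.haveILetI false

noncomputable section

namespace Fermat.Agent.GE9.PNew.Inst

open TensorProduct IsLocalRing Submodule
open Fermat.Agent.GJ.J2.Lat Fermat.Agent.GB.B3.Loc Fermat.Agent.GE9.Eta Fermat.Agent.GE9.Eta.Mod
  Fermat.Agent.GE9.Eta.DualIhara2 Fermat.Agent.GE9.Mult1 Fermat.Agent.GM.B Fermat.Agent.GM.B5
  Fermat.Agent.GE9.PNew.Inst.Beta3Uq Fermat.Agent.GE9.PNew.Inst.PolyLin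
  Fermat.Agent.GE9.PNew.Inst.FormLoc

/-! ### the level cast along any equality of levels -/

section Cast

variable (𝒪 : Type) [CommRing 𝒪] {M M' : ℕ} (h : M = M')

/-- the level cast `𝒪 ⊗ Λ_M → 𝒪 ⊗ Λ_{M'}` along `h : M = M'` -/
def castOG : 𝒪 ⊗[ℤ] Lam M →ₗ[𝒪] 𝒪 ⊗[ℤ] Lam M' :=
  ((lamCast h : Lam M ≃ₗ[ℤ] Lam M') : Lam M →ₗ[ℤ] Lam M').baseChange 𝒪

variable {𝒪}

theorem castOG_rfl (x : 𝒪 ⊗[ℤ] Lam M) : castOG 𝒪 (rfl : M = M) x = x := by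
  have : ((lamCast (rfl : M = M) : Lam M ≃ₗ[ℤ] Lam M) : Lam M →ₗ[ℤ] Lam M) = LinearMap.id :=
    LinearMap.ext fun z => rfl
  unfold castOG
  rw [this, LinearMap.baseChange_id]
  rfl

theorem castOG_castOG (h' : M' = M) (x : 𝒪 ⊗[ℤ] Lam M) :
    castOG 𝒪 h' (castOG 𝒪 h x) = x := by
  subst h
  rw [castOG_rfl, castOG_rfl]

theorem castOG_latT [NeZero M] [NeZero M'] (l : Nat.Primes) (x : 𝒪 ⊗[ℤ] Lam M) :
    castOG 𝒪 h ((latT M l).baseChange 𝒪 x) = (latT M' l).baseChange 𝒪 (castOG 𝒪 h x) := by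
  subst h
  rw [castOG_rfl, castOG_rfl]

theorem BW_castOG [NeZero M] [NeZero M'] (x y : 𝒪 ⊗[ℤ] Lam M) :
    BW M' 𝒪 (castOG 𝒪 h x) (castOG 𝒪 h y) = BW M 𝒪 x y := by
  subst h
  rw [castOG_rfl, castOG_rfl]

theorem castOG_mem_eigenTensorO [NeZero M] [NeZero M'] (lam : Nat.Primes → 𝒪)
    {x : 𝒪 ⊗[ℤ] Lam M} :
    castOG 𝒪 h x ∈ eigenTensorO M' 𝒪 lam ↔ x ∈ eigenTensorO M 𝒪 lam := by
  subst h
  rw [castOG_rfl]

theorem castOG_injective : Function.Injective (castOG 𝒪 h) := fun x y hxy => by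
  rw [← castOG_castOG h h.symm x, hxy, castOG_castOG]

theorem castOG_surjective : Function.Surjective (castOG 𝒪 h) := fun y =>
  ⟨castOG 𝒪 h.symm y, castOG_castOG h.symm h y⟩

end Cast

/-! ### the abstract transport of the congruence module -/

section Transport

variable {𝒪 : Type*} [CommRing 𝒪] {X : Type*} [AddCommGroup X] [Module 𝒪 X]

/-- **the congruence module of a sublattice of `K ⊓ Lc`, computed in `K` or in a copy `L₁` of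
`K ⊓ Lc`** (`K = (K ⊓ Lc) + (K ⊓ Aw)`, `Lc ⟂ Aw` for `BX`). -/
theorem card_congMod_transport (BX : X →ₗ[𝒪] X →ₗ[𝒪] 𝒪) (K Lc Aw : Submodule 𝒪 X)
    (hdec : ∀ x ∈ K, ∃ x₁ ∈ K ⊓ Lc, ∃ x₂ ∈ K ⊓ Aw, x₁ + x₂ = x)
    (horth : ∀ x ∈ Lc, ∀ y ∈ Aw, BX x y = 0)
    {L₁ : Type*} [AddCommGroup L₁] [Module 𝒪 L₁] (B₁ : L₁ →ₗ[𝒪] L₁ →ₗ[𝒪] 𝒪)
    (ι₁ : L₁ →ₗ[𝒪] ↥K) (hι₁ : ∀ x, ((ι₁ x : ↥K) : X) ∈ Lc)
    (hsurj : ∀ x ∈ K ⊓ Lc, ∃ y, ((ι₁ y : ↥K) : X) = x)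
    (hB₁ : ∀ x y, B₁ x y = BX ((ι₁ x : ↥K) : X) ((ι₁ y : ↥K) : X)) {κ : Type*} (b₁ : κ → L₁) :
    Nat.card (CongMod (BX.compl₁₂ K.subtype K.subtype) (span 𝒪 (Set.range (ι₁ ∘ b₁))))
      = Nat.card (CongMod B₁ (span 𝒪 (Set.range b₁))) := by
  refine Fermat.Agent.GE9.Eta.OmegaLoc.card_congMod_span (BX.compl₁₂ K.subtype K.subtype) B₁ ι₁
    (Aw.comap K.subtype) ?_ ?_ ?_ b₁
  · rw [eq_top_iff]
    rintro ⟨x, hx⟩ -
    obtain ⟨x₁, hx₁, x₂, hx₂, hsum⟩ := hdec x hx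
    obtain ⟨y, hy⟩ := hsurj x₁ hx₁
    have h1 : (⟨x, hx⟩ : ↥K) = ι₁ y + ⟨x₂, hx₂.1⟩ := by
      apply Subtype.ext
      rw [Submodule.coe_add, hy]
      exact hsum.symm
    rw [h1]
    exact Submodule.add_mem _ (Submodule.mem_sup_left ⟨y, rfl⟩)
      (Submodule.mem_sup_right (Submodule.mem_comap.2 hx₂.2))
  · intro x y hy
    exact horth _ (hι₁ x) _ (Submodule.mem_comap.1 hy)
  · intro x y
    exact hB₁ x y

end Transport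

/-! ### the `p`-new part splits along the `𝔪`-primary decomposition -/

section Decomp

variable {N p : ℕ} [hpF : Fact p.Prime] [NeZero N] [NeZero (N * p)] (hpN : ¬ p ∣ N)
  {𝒪 : Type} [CommRing 𝒪] [IsLocalRing 𝒪] [IsNoetherianRing 𝒪]
  [IsAdicComplete (maximalIdeal 𝒪) 𝒪] {Z : Set ℕ} (hr : BetaPEquiv hpN Z)
  (lam : Nat.Primes → 𝒪)

include hr in
/-- `KNew = (KNew ⊓ loc) + (KNew ⊓ away)` -/
theorem exists_decomp_KNew {x : 𝒪 ⊗[ℤ] Lam (N * p)} (hx : x ∈ KNew hpN 𝒪) :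
    ∃ x₁ ∈ KNew hpN 𝒪 ⊓ (locPart (mP 𝒪 Z lam) (𝒪 ⊗[ℤ] Lam (N * p))).restrictScalars 𝒪,
      ∃ x₂ ∈ KNew hpN 𝒪 ⊓ (awayPart (mP 𝒪 Z lam) (𝒪 ⊗[ℤ] Lam (N * p))).restrictScalars 𝒪,
        x₁ + x₂ = x := by
  haveI := finite_tensor_lam' 𝒪 (N * p)
  haveI := finite_tensor_lam' 𝒪 N
  obtain ⟨x₁, h₁, x₂, h₂, rfl⟩ := exists_loc_away_decomp 𝒪 (mP 𝒪 Z lam) x
  -- a `PAlg`-linear map killing `x₁ + x₂` kills both components
  have key : ∀ f : 𝒪 ⊗[ℤ] Lam (N * p) →ₗ[PAlg 𝒪 Z] 𝒪 ⊗[ℤ] Lam N, f (x₁ + x₂) = 0 →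
      f x₁ = 0 ∧ f x₂ = 0 := by
    intro f hf
    rw [map_add] at hf
    have h1 : f x₁ = 0 := by
      refine eq_zero_of_mem_locPart_of_mem_awayPart 𝒪 (mP 𝒪 Z lam) (apply_mem_locPart f h₁) ?_
      rw [eq_neg_of_add_eq_zero_left hf]
      exact Submodule.neg_mem _ (apply_mem_awayPart f h₂)
    refine ⟨h1, ?_⟩
    rw [h1, zero_add] at hf
    exact hf
  rw [mem_KNew] at hx
  obtain ⟨h11, h12⟩ := key (bp1P hpN hr) hx.1
  obtain ⟨h21, h22⟩ := key (bp2P hpN hr) hx.2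
  exact ⟨x₁, ⟨(mem_KNew hpN).2 ⟨h11, h21⟩, h₁⟩, x₂, ⟨(mem_KNew hpN).2 ⟨h12, h22⟩, h₂⟩, rfl⟩

/-- the `𝔪`-primary part and the part away from `𝔪` are orthogonal for `BW` -/
theorem BW_eq_zero_of_loc_away {M : ℕ} [NeZero M] {x y : 𝒪 ⊗[ℤ] Lam M}
    (hx : x ∈ locPart (mP 𝒪 Z lam) (𝒪 ⊗[ℤ] Lam M))
    (hy : y ∈ awayPart (mP 𝒪 Z lam) (𝒪 ⊗[ℤ] Lam M)) : BW M 𝒪 x y = 0 := by
  haveI := finite_tensor_lam' 𝒪 M
  exact (Fermat.Agent.GE9.Eta.Loc.apply_eq_zero_of_mem_locPart_of_mem_awayPart (mP 𝒪 Z lam)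
    (BW M 𝒪) (fun a x y => BW_smulP a x y) hx hy).1

end Decomp

/-! ### `#Ω` on `ker β` (lower level) -/

section Lower

variable {N p : ℕ} [hpF : Fact p.Prime] [NeZero N] [NeZero (N * p)] (hpN : ¬ p ∣ N)
  {𝒪 : Type} [CommRing 𝒪] [IsLocalRing 𝒪] [IsNoetherianRing 𝒪]
  [IsAdicComplete (maximalIdeal 𝒪) 𝒪] {Z : Set ℕ} (hr : BetaPEquiv hpN Z)
  (lam : Nat.Primes → 𝒪)

/-- the inclusion of `ker β` into the `p`-new part -/
def kerIncl : ↥(LinearMap.ker (betaLoc hpN hr lam)) →ₗ[𝒪] ↥(KNew hpN 𝒪) where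
  toFun y := ⟨((y : ↥(locPart (mP 𝒪 Z lam) (𝒪 ⊗[ℤ] Lam (N * p)))) : 𝒪 ⊗[ℤ] Lam (N * p)),
    (mem_ker_betaLoc_iff hpN hr lam y.1).1 y.2⟩
  map_add' _ _ := rfl
  map_smul' _ _ := rfl

@[simp] theorem coe_kerIncl (y : ↥(LinearMap.ker (betaLoc hpN hr lam))) :
    ((kerIncl hpN hr lam y : ↥(KNew hpN 𝒪)) : 𝒪 ⊗[ℤ] Lam (N * p))
      = ((y : ↥(locPart (mP 𝒪 Z lam) (𝒪 ⊗[ℤ] Lam (N * p)))) : 𝒪 ⊗[ℤ] Lam (N * p)) := rfl

/-- the form `BL` restricted to `ker β` -/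
def BLK : ↥(LinearMap.ker (betaLoc hpN hr lam)) →ₗ[𝒪]
    ↥(LinearMap.ker (betaLoc hpN hr lam)) →ₗ[𝒪] 𝒪 :=
  (BL (N * p) Z lam).compl₁₂ (LinearMap.ker (betaLoc hpN hr lam)).subtype
    (LinearMap.ker (betaLoc hpN hr lam)).subtype

theorem BLK_apply (x y : ↥(LinearMap.ker (betaLoc hpN hr lam))) :
    BLK hpN hr lam x y
      = BW (N * p) 𝒪 ((kerIncl hpN hr lam x : ↥(KNew hpN 𝒪)) : 𝒪 ⊗[ℤ] Lam (N * p))
          ((kerIncl hpN hr lam y : ↥(KNew hpN 𝒪)) : 𝒪 ⊗[ℤ] Lam (N * p)) := rfl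

/-- **`#Ω` of a family of `ker β`: in `ker β` for `BL`, or in `KNew` for `BWNew`.** -/
theorem card_congMod_kerBetaLoc {κ : Type*} (bK : κ → ↥(LinearMap.ker (betaLoc hpN hr lam))) :
    Nat.card (CongMod (BWNew hpN 𝒪) (span 𝒪 (Set.range (kerIncl hpN hr lam ∘ bK))))
      = Nat.card (CongMod (BLK hpN hr lam) (span 𝒪 (Set.range bK))) := by
  have hsurj : ∀ x ∈ KNew hpN 𝒪 ⊓
      (locPart (mP 𝒪 Z lam) (𝒪 ⊗[ℤ] Lam (N * p))).restrictScalars 𝒪,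
      ∃ y, ((kerIncl hpN hr lam y : ↥(KNew hpN 𝒪)) : 𝒪 ⊗[ℤ] Lam (N * p)) = x := by
    rintro x ⟨hxK, hxL⟩
    exact ⟨⟨⟨x, hxL⟩, (mem_ker_betaLoc_iff hpN hr lam _).2 hxK⟩, rfl⟩
  exact @card_congMod_transport 𝒪 _ (𝒪 ⊗[ℤ] Lam (N * p)) _ _ (BW (N * p) 𝒪)
    (KNew hpN 𝒪) ((locPart (mP 𝒪 Z lam) (𝒪 ⊗[ℤ] Lam (N * p))).restrictScalars 𝒪)
    ((awayPart (mP 𝒪 Z lam) (𝒪 ⊗[ℤ] Lam (N * p))).restrictScalars 𝒪)
    (fun x hx => exists_decomp_KNew hpN hr lam hx)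
    (fun x hx y hy => BW_eq_zero_of_loc_away lam hx hy)
    ↥(LinearMap.ker (betaLoc hpN hr lam)) inferInstance inferInstance
    (BLK hpN hr lam) (kerIncl hpN hr lam) (fun x => x.1.2) hsurj (fun x y => rfl) κ bK

/-- a family of `KNew` spanning the joint eigen-sublattice spans `eigenNew` inside `↥KNew` -/
theorem span_eq_eigenNew (lam₀ : Nat.Primes → 𝒪) {κ : Type*} (c : κ → ↥(KNew hpN 𝒪))
    (hspan : span 𝒪 (Set.range fun i => ((c i : ↥(KNew hpN 𝒪)) : 𝒪 ⊗[ℤ] Lam (N * p)))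
      = eigenTensorO (N * p) 𝒪 lam₀) :
    span 𝒪 (Set.range c) = eigenNew hpN 𝒪 lam₀ := by
  apply Submodule.map_injective_of_injective (KNew hpN 𝒪).injective_subtype
  rw [Submodule.map_span, ← Set.range_comp, eigenNew, Submodule.map_comap_eq,
    Submodule.range_subtype]
  have h1 : ((KNew hpN 𝒪).subtype ∘ c)
      = fun i => ((c i : ↥(KNew hpN 𝒪)) : 𝒪 ⊗[ℤ] Lam (N * p)) := rfl
  rw [h1, hspan, right_eq_inf, ← hspan, Submodule.span_le]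
  rintro _ ⟨i, rfl⟩
  exact (c i).2

/-- **`omegaCardNew` in the `ker β` spelling** (`K_Σ` of the growth theorem). -/
theorem omegaCardNew_eq_card_ker (lam₀ : Nat.Primes → 𝒪) {κ : Type*}
    (bK : κ → ↥(LinearMap.ker (betaLoc hpN hr lam)))
    (hspan : span 𝒪 (Set.range fun i =>
        (((bK i : ↥(LinearMap.ker (betaLoc hpN hr lam))) :
          ↥(locPart (mP 𝒪 Z lam) (𝒪 ⊗[ℤ] Lam (N * p)))) : 𝒪 ⊗[ℤ] Lam (N * p)))
      = eigenTensorO (N * p) 𝒪 lam₀) :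
    omegaCardNew hpN 𝒪 lam₀
      = Nat.card (CongMod (BLK hpN hr lam) (span 𝒪 (Set.range bK))) := by
  rw [omegaCardNew, ← card_congMod_kerBetaLoc hpN hr lam bK,
    span_eq_eigenNew hpN lam₀ (kerIncl hpN hr lam ∘ bK) hspan]

end Lower

/-! ### `#Ω` on `ker β'` (upper level, through the level cast) -/

section Upper

variable {N p q : ℕ} [hpF : Fact p.Prime] [hqF : Fact q.Prime]
  [NeZero N] [NeZero (N * q)] [NeZero (N * q * q)]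
  [NeZero (N * p)] [NeZero (N * p * q)] [NeZero (N * p * q * q)] [NeZero (N * q * q * p)]
  {𝒪 : Type} [CommRing 𝒪] [IsLocalRing 𝒪] [IsNoetherianRing 𝒪]
  [IsAdicComplete (maximalIdeal 𝒪) 𝒪] {Z' : Set ℕ} (lam : Nat.Primes → 𝒪)
  (hpNqq : ¬ p ∣ N * q * q) (hr' : BetaPEquiv hpNqq Z')

theorem lamCastO_eq_castOG (w : 𝒪 ⊗[ℤ] Lam (N * p * q * q)) :
    lamCastO (N := N) (p := p) (q := q) 𝒪 w = castOG 𝒪 (level_eq N p q) w := rfl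

/-- the inverse level cast is linear for the whole algebra -/
def castPinv : 𝒪 ⊗[ℤ] Lam (N * q * q * p) →ₗ[PAlg 𝒪 Z'] 𝒪 ⊗[ℤ] Lam (N * p * q * q) :=
  linP (castOG 𝒪 (level_eq N p q).symm) fun l _ x => castOG_latT (level_eq N p q).symm l x

/-- the inclusion of `ker β'` into the `p`-new part of the upper level, through the cast -/
def kerIncl' : ↥(LinearMap.ker (betaLoc' lam hpNqq hr')) →ₗ[𝒪] ↥(KNew hpNqq 𝒪) :=
  LinearMap.codRestrict (KNew hpNqq 𝒪)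
    (lamCastO (N := N) (p := p) (q := q) 𝒪 ∘ₗ
      ((locPart (mP 𝒪 Z' lam) (𝒪 ⊗[ℤ] Lam (N * p * q * q))).subtype.restrictScalars 𝒪) ∘ₗ
      (LinearMap.ker (betaLoc' lam hpNqq hr')).subtype)
    (fun y => (mem_ker_betaLoc'_iff lam hpNqq hr' y.1).1 y.2)

@[simp] theorem coe_kerIncl' (y : ↥(LinearMap.ker (betaLoc' lam hpNqq hr'))) :
    ((kerIncl' lam hpNqq hr' y : ↥(KNew hpNqq 𝒪)) : 𝒪 ⊗[ℤ] Lam (N * q * q * p))
      = lamCastO 𝒪 ((y : ↥(locPart (mP 𝒪 Z' lam) (𝒪 ⊗[ℤ] Lam (N * p * q * q)))) :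
          𝒪 ⊗[ℤ] Lam (N * p * q * q)) := rfl

/-- the form `BL` restricted to `ker β'` -/
def BLK' : ↥(LinearMap.ker (betaLoc' lam hpNqq hr')) →ₗ[𝒪]
    ↥(LinearMap.ker (betaLoc' lam hpNqq hr')) →ₗ[𝒪] 𝒪 :=
  (BL (N * p * q * q) Z' lam).compl₁₂ (LinearMap.ker (betaLoc' lam hpNqq hr')).subtype
    (LinearMap.ker (betaLoc' lam hpNqq hr')).subtype

theorem BLK'_apply (x y : ↥(LinearMap.ker (betaLoc' lam hpNqq hr'))) :
    BLK' lam hpNqq hr' x y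
      = BW (N * q * q * p) 𝒪
          ((kerIncl' lam hpNqq hr' x : ↥(KNew hpNqq 𝒪)) : 𝒪 ⊗[ℤ] Lam (N * q * q * p))
          ((kerIncl' lam hpNqq hr' y : ↥(KNew hpNqq 𝒪)) : 𝒪 ⊗[ℤ] Lam (N * q * q * p)) :=
  (BW_castOG (level_eq N p q) _ _).symm

/-- **`#Ω` of a family of `ker β'`: in `ker β'` for `BL`, or in `KNew` (upper level) for
`BWNew`.** -/
theorem card_congMod_kerBetaLoc' {κ : Type*}
    (bK' : κ → ↥(LinearMap.ker (betaLoc' lam hpNqq hr'))) :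
    Nat.card (CongMod (BWNew hpNqq 𝒪) (span 𝒪 (Set.range (kerIncl' lam hpNqq hr' ∘ bK'))))
      = Nat.card (CongMod (BLK' lam hpNqq hr') (span 𝒪 (Set.range bK'))) := by
  have hsurj : ∀ x ∈ KNew hpNqq 𝒪 ⊓
      (locPart (mP 𝒪 Z' lam) (𝒪 ⊗[ℤ] Lam (N * q * q * p))).restrictScalars 𝒪,
      ∃ y, ((kerIncl' lam hpNqq hr' y : ↥(KNew hpNqq 𝒪)) : 𝒪 ⊗[ℤ] Lam (N * q * q * p)) = x := by
    rintro x ⟨hxK, hxL⟩
    have hx' : castOG 𝒪 (level_eq N p q).symm x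
        ∈ locPart (mP 𝒪 Z' lam) (𝒪 ⊗[ℤ] Lam (N * p * q * q)) :=
      apply_mem_locPart (castPinv (N := N) (p := p) (q := q) (Z' := Z')) hxL
    have hback : lamCastO (N := N) (p := p) (q := q) 𝒪 (castOG 𝒪 (level_eq N p q).symm x) = x := by
      rw [lamCastO_eq_castOG, castOG_castOG]
    refine ⟨⟨⟨_, hx'⟩, (mem_ker_betaLoc'_iff lam hpNqq hr' _).2 ?_⟩, hback⟩
    show lamCastO 𝒪 (castOG 𝒪 (level_eq N p q).symm x) ∈ KNew hpNqq 𝒪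
    rw [hback]
    exact hxK
  exact @card_congMod_transport 𝒪 _ (𝒪 ⊗[ℤ] Lam (N * q * q * p)) _ _ (BW (N * q * q * p) 𝒪)
    (KNew hpNqq 𝒪) ((locPart (mP 𝒪 Z' lam) (𝒪 ⊗[ℤ] Lam (N * q * q * p))).restrictScalars 𝒪)
    ((awayPart (mP 𝒪 Z' lam) (𝒪 ⊗[ℤ] Lam (N * q * q * p))).restrictScalars 𝒪)
    (fun x hx => exists_decomp_KNew hpNqq hr' lam hx)
    (fun x hx y hy => BW_eq_zero_of_loc_away lam hx hy)
    ↥(LinearMap.ker (betaLoc' lam hpNqq hr')) inferInstance inferInstance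
    (BLK' lam hpNqq hr') (kerIncl' lam hpNqq hr')
    (fun x => apply_mem_locPart (castP (N := N) (p := p) (q := q) (Z' := Z')) x.1.2) hsurj
    (BLK'_apply lam hpNqq hr') κ bK'

/-- the level cast carries the joint eigen-sublattice onto the joint eigen-sublattice -/
theorem map_castOG_eigenTensorO {M M' : ℕ} [NeZero M] [NeZero M'] (h : M = M')
    (lam₀ : Nat.Primes → 𝒪) :
    (eigenTensorO M 𝒪 lam₀).map (castOG 𝒪 h) = eigenTensorO M' 𝒪 lam₀ := by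
  ext y
  constructor
  · rintro ⟨x, hx, rfl⟩
    exact (castOG_mem_eigenTensorO h lam₀).2 hx
  · intro hy
    refine ⟨castOG 𝒪 h.symm y, ?_, castOG_castOG h.symm h y⟩
    show castOG 𝒪 h.symm y ∈ eigenTensorO M 𝒪 lam₀
    rw [← castOG_mem_eigenTensorO h lam₀, castOG_castOG h.symm h y]
    exact hy

/-- **`omegaCardNew` of the upper level in the `ker β'` spelling** (`K_{Σ ∪ {q}}` of the growth
theorem; the family lives at the level literal `N p q²`, `omegaCardNew` at `N q² p`). -/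
theorem omegaCardNew_eq_card_ker' (lam₀ : Nat.Primes → 𝒪) {κ : Type*}
    (bK' : κ → ↥(LinearMap.ker (betaLoc' lam hpNqq hr')))
    (hspan : span 𝒪 (Set.range fun i =>
        (((bK' i : ↥(LinearMap.ker (betaLoc' lam hpNqq hr'))) :
          ↥(locPart (mP 𝒪 Z' lam) (𝒪 ⊗[ℤ] Lam (N * p * q * q)))) : 𝒪 ⊗[ℤ] Lam (N * p * q * q)))
      = eigenTensorO (N * p * q * q) 𝒪 lam₀) :
    omegaCardNew hpNqq 𝒪 lam₀
      = Nat.card (CongMod (BLK' lam hpNqq hr') (span 𝒪 (Set.range bK'))) := by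
  rw [omegaCardNew, ← card_congMod_kerBetaLoc' lam hpNqq hr' bK',
    span_eq_eigenNew hpNqq lam₀ (kerIncl' lam hpNqq hr' ∘ bK')]
  have h1 : (fun i => (((kerIncl' lam hpNqq hr' ∘ bK') i : ↥(KNew hpNqq 𝒪)) :
        𝒪 ⊗[ℤ] Lam (N * q * q * p)))
      = castOG 𝒪 (level_eq N p q) ∘ fun i =>
        (((bK' i : ↥(LinearMap.ker (betaLoc' lam hpNqq hr'))) :
          ↥(locPart (mP 𝒪 Z' lam) (𝒪 ⊗[ℤ] Lam (N * p * q * q)))) :
            𝒪 ⊗[ℤ] Lam (N * p * q * q)) := rfl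
  rw [h1, Set.range_comp, ← Submodule.map_span, hspan, map_castOG_eigenTensorO]

end Upper

end Fermat.Agent.GE9.PNew.Inst

end
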