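/-
GATE-E / RISK-4, instance layer R4-I (helper37), slice (e10): `GE9/PNew/Inst/StepNew.lean` —
**the numerics of ONE step `Σ → Σ ∪ {q}` of the `p`-new (strict-ordinary, peu ramifiée) chain:**

  `omegaCardNew (N q² p) (lam₀[q ↦ 0]) = omegaCardNew (N p) lam₀ · #(𝒪 ⧸ c_q) ^ d`

and the stage invariant `EtaStageNew` at the upper level, from helper16's abstract growth theorem
`StepNewFinal.card_congMod_ker_growth_of_flModules` at the instance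

* `L  := locPart (mP 𝒪 Z lam') (𝒪 ⊗ Λ_{N p})`, `L' := locPart (mP 𝒪 (insert q Z) lam') (𝒪 ⊗ Λ_{N p q²})`,
* `A₀ := locPart (mP 𝒪 Z lam') (𝒪 ⊗ Λ_N)`,    `A₀' := locPart (mP 𝒪 (insert q Z) lam') (𝒪 ⊗ Λ_{N q²})`,
* `β := betaLoc`, `β' := betaLoc'`, `t := tLoc` (level `N p`), `t_N := tLoc` (level `N`),
  `B := FormLoc.BL`, `b := bDown`, `b' := bUp` (helper21 `step_forms`), `K₀ := ker β`, `K₀' := ker β'`,
  `𝕋 = 𝒪[X_l : l ∉ S0]` acting through `ttModule`.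

* `betaPEquiv_of_notMem`, `castLoc_onto`, **`betaLoc'_surjective`** (`hβ'`, from helper5's
  `exists_mem_locPart_betaPO`);
* the generator-form equivariances `betaLoc'_X_smul`, `BL_X_smul`, `tLoc_X_smul`;
* **`omegaCardNew_step`**.
-/
import Mathlib
import Fermat.Agent.GE9.PNew.Inst.OmegaNew
import Fermat.Agent.GE9.PNew.Inst.BetaPOnto
import Fermat.Agent.GE9.PNew.Inst.BetaPAlphaK
import Fermat.Agent.GE9.PNew.StepNewFinal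

set_option autoImplicit false
set_option linter.unusedSectionVars false
set_option linter.unusedVariables false
set_option linter.style.haveILetI false

noncomputable section

namespace Fermat.Agent.GE9.PNew.Inst

open TensorProduct IsLocalRing Submodule
open Fermat.Agent.GJ.J2.Lat Fermat.Agent.GB.B3.Loc Fermat.Agent.GE9.Eta Fermat.Agent.GE9.Eta.Mod
  Fermat.Agent.GE9.Eta.DualIhara2 Fermat.Agent.GE9.Mult1 Fermat.Agent.GM.B Fermat.Agent.GM.B5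
  Fermat.Agent.GE9.PNew.Inst.Beta3Uq Fermat.Agent.GE9.PNew.Inst.PolyLin
  Fermat.Agent.GE9.PNew.Inst.FormLoc Fermat.Agent.GE9.PNew.Inst.BetaPOnto
  Fermat.Agent.GE9.Eta.LocLam

/-! ### `β'` is onto -/

section Onto

variable {N p : ℕ} [hpF : Fact p.Prime] [NeZero N] [NeZero (N * p)] (hpN : ¬ p ∣ N)

/-- `β_p` commutes with every `T_l`, `l ≠ p` (helper5's `betaP_latT_ne`) -/
theorem betaPEquiv_of_notMem {Z : Set ℕ} (hpZ : p ∉ Z) : BetaPEquiv hpN Z :=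
  fun l hl z => betaP_latT_ne hpN l (fun h => hpZ (h ▸ hl)) z

end Onto

section Onto'

variable {N p q : ℕ} [hpF : Fact p.Prime] [hqF : Fact q.Prime]
  [NeZero N] [NeZero (N * q)] [NeZero (N * q * q)]
  [NeZero (N * p)] [NeZero (N * p * q)] [NeZero (N * p * q * q)] [NeZero (N * q * q * p)]
  {𝒪 : Type} [CommRing 𝒪] [IsLocalRing 𝒪] [IsNoetherianRing 𝒪]
  [IsAdicComplete (maximalIdeal 𝒪) 𝒪] {Z' : Set ℕ} (lam : Nat.Primes → 𝒪)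

/-- the level cast is onto on the primary parts -/
theorem castLoc_onto : Function.Surjective (castLoc (N := N) (p := p) (q := q) (Z' := Z') lam) := by
  rintro ⟨y, hy⟩
  refine ⟨⟨castOG 𝒪 (level_eq N p q).symm y,
    apply_mem_locPart (castPinv (N := N) (p := p) (q := q) (Z' := Z')) hy⟩, Subtype.ext ?_⟩
  rw [coe_castLoc, lamCastO_eq_castOG]
  exact castOG_castOG (level_eq N p q).symm (level_eq N p q) y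

/-- **`hβ'`** : `β' = (cores_p, cores_{p,δ}) ⊗ 𝒪 ∘ cast` is onto `A₀' × A₀'`. -/
theorem betaLoc'_surjective (hpNqq : ¬ p ∣ N * q * q) (hpZ' : p ∉ Z')
    {ℓ : ℕ} (hℓ : ℓ.Prime) (hℓ2 : ℓ ≠ 2) (hℓO : (ℓ : 𝒪) ∈ maximalIdeal 𝒪)
    (l0 : Nat.Primes) (hl0Z : (l0 : ℕ) ∈ Z') (hl0 : ¬ (l0 : ℕ) ∣ N * q * q)
    (hE : IsUnit (lam l0 - (((l0 : ℕ) : 𝒪) + 1))) :
    Function.Surjective (betaLoc' lam hpNqq (betaPEquiv_of_notMem hpNqq hpZ')) := by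
  rintro ⟨x, y⟩
  obtain ⟨w, hw, hwx, hwy⟩ := exists_mem_locPart_betaPO 𝒪 hpNqq Z' hpZ' lam hℓ hℓ2 hℓO l0 hl0Z
    hl0 hE x x.2 y y.2
  obtain ⟨w', hw'⟩ := castLoc_onto (N := N) (p := p) (q := q) lam ⟨w, hw⟩
  refine ⟨w', ?_⟩
  rw [betaLoc', LinearMap.comp_apply, hw']
  exact Prod.ext (Subtype.ext hwx) (Subtype.ext hwy)

end Onto'

/-! ### the step -/

section Step

open CuspForm Fermat.Agent.GE.Graph Fermat.Agent.GE9.Ind Fermat.Agent.GE9.NumCrit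
  Fermat.Agent.GE9.PNew.DepthPlug Fermat.Agent.GB.B4.Datum.ImageRing
  Fermat.Agent.GE9.PNew.StepNewFinal

variable {𝒪 : Type} [CommRing 𝒪] [IsDomain 𝒪] [IsDiscreteValuationRing 𝒪]
  [IsAdicComplete (maximalIdeal 𝒪) 𝒪] [Finite (ResidueField 𝒪)] [CharZero 𝒪]
  {ρbar : ResidualGaloisRep (ResidueField 𝒪)} {p : ℕ} [hpF : Fact p.Prime]
  [Algebra (ZMod p) (ResidueField 𝒪)]
  {Smin : Finset ℕ} {d : ℕ}

set_option maxHeartbeats 2000000 in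
/-- **(e10) the numerics of one step of the `p`-new chain.**  Binders: the level arithmetic, the
polynomial algebra (`Z ⊇ {l ∉ S0}`, `p, q ∉ Z`), the non-Eisenstein primes `l, l'`, the stage
invariant `EtaStageNew` at the level `N p`, `c_q ≠ 0`, and the flat-stage lists of helper16's
`card_congMod_ker_growth_of_flModules` at `A₀' = locPart 𝔪' (𝒪 ⊗ Λ_{N q²})`,
`A₀ = locPart 𝔪 (𝒪 ⊗ Λ_N)` (helper31's `FLStageInst`), the link `tw_i (T_l) = T_l ⊗ 𝒪` (`htw₁`,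
`htw₂`) and the current strict-ordinary point. -/
theorem omegaCardNew_step {Sg : Finset ℕ} {N q : ℕ} [hqF : Fact q.Prime]
    [NeZero N] [NeZero (N * q)] [NeZero (N * q * q)]
    [NeZero (N * p)] [NeZero (N * p * q)] [NeZero (N * p * q * q)] [NeZero (N * q * q * p)]
    (hd : 2 ≤ d)
    -- level arithmetic
    (hpN : ¬ p ∣ N) (hqN : ¬ q ∣ N) (hqNp : ¬ q ∣ N * p) (hpNqq : ¬ p ∣ N * q * q)
    -- the polynomial Hecke algebra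
    (S0 : Finset ℕ) (Z : Set ℕ) (hZ : ∀ l : ℕ, l.Prime → l ∉ S0 → l ∈ Z) (hpZ : p ∉ Z)
    (hqZ : q ∉ Z)
    -- the coefficient ring
    (hp2 : p ≠ 2) (hp𝒪 : (p : 𝒪) ∈ maximalIdeal 𝒪) {ϖ : 𝒪} (hϖ : Irreducible ϖ)
    (hpϖ : ∃ c : 𝒪, (p : 𝒪) = ϖ * c) (hq𝒪 : IsUnit ((q : ℕ) : 𝒪))
    -- the eigensystem, the non-Eisenstein primes
    (lam₀ : Nat.Primes → 𝒪) (l l' : Nat.Primes) (hlZ : (l : ℕ) ∈ Z) (hl'Z : (l' : ℕ) ∈ Z)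
    (hl : ¬ (l : ℕ) ∣ N * p * q) (hlq : ((l : ℕ) : ZMod q) = 1) (hl' : ¬ (l' : ℕ) ∣ N * p)
    (ha : IsUnit (lam₀ l - (((l : ℕ) : 𝒪) + 1))) (ha' : IsUnit (lam₀ l' - (((l' : ℕ) : 𝒪) + 1)))
    -- the stage invariant at the level `N p`, and `c_q ≠ 0`
    (hst : EtaStageNew hpN 𝒪 lam₀ d) (hc : cq q lam₀ ≠ 0)
    -- the abstract flat stages and the current strict-ordinary stage with its point
    (Y₁ : RTNum ρbar (condFL 𝒪 p Smin (insert q Sg)) d) (Y₂ : RTNum ρbar (condFL 𝒪 p Smin Sg) d)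
    (Xso : RTData ρbar (condSO 𝒪 p Smin Sg)) (πso : Xso.T →ₐ[𝒪] 𝒪)
    (hpSmin : p ∈ Smin)
    (hmin : ∀ r : ℕ, r.Prime → r ≠ p → (r ∈ Smin ↔ ¬ ρbar.IsUnramifiedAt r))
    (hpS : p ∈ S0)
    -- the flat stage `insert q Sg` at `A₀'`
    (hYS₁ : Y₁.rt.S ⊆ (↑S0 : Set ℕ)) (hNN₁ : Y₁.rt.N ∣ N * q * q)
    (hNS₁ : ∀ r : ℕ, r.Prime → r ∣ N * q * q → r ∈ S0)
    (hNT₁ : ∀ r : ℕ, r.Prime → r ∣ N * q * q → r ∈ Smin ∪ insert q Sg)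
    (hSminN₁ : ∀ r ∈ Smin, r.Prime → r ≠ p → r ∣ N * q * q ∧ ¬ r ^ 2 ∣ N * q * q)
    [Module.Finite 𝒪 ↥(locPart (mP 𝒪 (insert q Z) (lamUp q lam₀)) (𝒪 ⊗[ℤ] Lam (N * q * q)))] [Module.Free 𝒪 ↥(locPart (mP 𝒪 (insert q Z) (lamUp q lam₀)) (𝒪 ⊗[ℤ] Lam (N * q * q)))] [Nontrivial ↥(locPart (mP 𝒪 (insert q Z) (lamUp q lam₀)) (𝒪 ⊗[ℤ] Lam (N * q * q)))]
    (θ₁ : heckeAlgebra (N * q * q) 2 (↑S0 : Set ℕ) →+* ResidueField 𝒪)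
    (tw₁ : heckeAlgebra (N * q * q) 2 (↑S0 : Set ℕ) →+* Module.End 𝒪 ↥(locPart (mP 𝒪 (insert q Z) (lamUp q lam₀)) (𝒪 ⊗[ℤ] Lam (N * q * q))))
    [Fact (LocHyp 𝒪 θ₁ tw₁)]
    (Bf₁ : ↥(locPart (mP 𝒪 (insert q Z) (lamUp q lam₀)) (𝒪 ⊗[ℤ] Lam (N * q * q))) →ₗ[𝒪] ↥(locPart (mP 𝒪 (insert q Z) (lamUp q lam₀)) (𝒪 ⊗[ℤ] Lam (N * q * q))) →ₗ[𝒪] 𝒪)
    (hsa₁ : ∀ (t : heckeAlgebra (N * q * q) 2 (↑S0 : Set ℕ)) (x y : ↥(locPart (mP 𝒪 (insert q Z) (lamUp q lam₀)) (𝒪 ⊗[ℤ] Lam (N * q * q)))),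
      Bf₁ (tw₁ t x) y = Bf₁ x (tw₁ t y))
    (hnd₁ : ∀ w : ↥(locPart (mP 𝒪 (insert q Z) (lamUp q lam₀)) (𝒪 ⊗[ℤ] Lam (N * q * q))), (∀ z : ↥(locPart (mP 𝒪 (insert q Z) (lamUp q lam₀)) (𝒪 ⊗[ℤ] Lam (N * q * q))), Bf₁ z w = 0) → w = 0)
    (bA₁ : Fin d → ↥(locPart (mP 𝒪 (insert q Z) (lamUp q lam₀)) (𝒪 ⊗[ℤ] Lam (N * q * q)))) (hli₁ : LinearIndependent 𝒪 bA₁)
    (χ₁ : heckeAlgebra (N * q * q) 2 (↑S0 : Set ℕ) → 𝒪)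
    (hb₁ : ∀ (t : heckeAlgebra (N * q * q) 2 (↑S0 : Set ℕ)) (i : Fin d),
      tw₁ t (bA₁ i) = χ₁ t • bA₁ i)
    (hold₁ : ∀ x : ↥(locPart (mP 𝒪 (insert q Z) (lamUp q lam₀)) (𝒪 ⊗[ℤ] Lam (N * q * q))), (∀ t : heckeAlgebra (N * q * q) 2 (↑S0 : Set ℕ), tw₁ t x = χ₁ t • x) →
      x ∈ span 𝒪 (Set.range bA₁))
    (heig₁ : ∀ (ℓ : ℕ) (hℓ : ℓ.Prime) (hℓN : ¬ ℓ ∣ Y₁.rt.N) (hℓS : ℓ ∉ Y₁.rt.S)
      (hℓN' : ¬ ℓ ∣ N * q * q) (hℓS' : ℓ ∉ (↑S0 : Set ℕ)),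
        χ₁ (heckeAlgebra.T hℓ hℓN' hℓS') = Y₁.πO (Y₁.rt.π (heckeAlgebra.T hℓ hℓN hℓS)))
    (hw₁ : Y₁.w ≤ Nat.card (CongMod Bf₁ (span 𝒪 (Set.range bA₁))))
    (hrank₁ : Module.finrank 𝒪 ↥(locPart (mP 𝒪 (insert q Z) (lamUp q lam₀)) (𝒪 ⊗[ℤ] Lam (N * q * q))) ≤ d * Module.finrank 𝒪 (TQ 𝒪 θ₁ tw₁))
    (htw₁ : ∀ (l : TIdx S0) (y : ↥(locPart (mP 𝒪 (insert q Z) (lamUp q lam₀)) (𝒪 ⊗[ℤ] Lam (N * q * q)))),
      ((tw₁ (TX S0 hNS₁ l) y : ↥(locPart (mP 𝒪 (insert q Z) (lamUp q lam₀)) (𝒪 ⊗[ℤ] Lam (N * q * q)))) : 𝒪 ⊗[ℤ] Lam (N * q * q))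
        = (latT (N * q * q) (tPrime S0 l)).baseChange 𝒪 (y : 𝒪 ⊗[ℤ] Lam (N * q * q)))
    -- the flat stage `Sg` at `A₀`
    (hYS₂ : Y₂.rt.S ⊆ (↑S0 : Set ℕ)) (hNN₂ : Y₂.rt.N ∣ N)
    (hNS₂ : ∀ r : ℕ, r.Prime → r ∣ N → r ∈ S0)
    (hNT₂ : ∀ r : ℕ, r.Prime → r ∣ N → r ∈ Smin ∪ Sg)
    (hSminN₂ : ∀ r ∈ Smin, r.Prime → r ≠ p → r ∣ N ∧ ¬ r ^ 2 ∣ N)
    [Module.Finite 𝒪 ↥(locPart (mP 𝒪 Z (lamUp q lam₀)) (𝒪 ⊗[ℤ] Lam N))] [Module.Free 𝒪 ↥(locPart (mP 𝒪 Z (lamUp q lam₀)) (𝒪 ⊗[ℤ] Lam N))] [Nontrivial ↥(locPart (mP 𝒪 Z (lamUp q lam₀)) (𝒪 ⊗[ℤ] Lam N))]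
    (θ₂ : heckeAlgebra N 2 (↑S0 : Set ℕ) →+* ResidueField 𝒪)
    (tw₂ : heckeAlgebra N 2 (↑S0 : Set ℕ) →+* Module.End 𝒪 ↥(locPart (mP 𝒪 Z (lamUp q lam₀)) (𝒪 ⊗[ℤ] Lam N)))
    [Fact (LocHyp 𝒪 θ₂ tw₂)]
    (Bf₂ : ↥(locPart (mP 𝒪 Z (lamUp q lam₀)) (𝒪 ⊗[ℤ] Lam N)) →ₗ[𝒪] ↥(locPart (mP 𝒪 Z (lamUp q lam₀)) (𝒪 ⊗[ℤ] Lam N)) →ₗ[𝒪] 𝒪)
    (hsa₂ : ∀ (t : heckeAlgebra N 2 (↑S0 : Set ℕ)) (x y : ↥(locPart (mP 𝒪 Z (lamUp q lam₀)) (𝒪 ⊗[ℤ] Lam N))),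
      Bf₂ (tw₂ t x) y = Bf₂ x (tw₂ t y))
    (hnd₂ : ∀ w : ↥(locPart (mP 𝒪 Z (lamUp q lam₀)) (𝒪 ⊗[ℤ] Lam N)), (∀ z : ↥(locPart (mP 𝒪 Z (lamUp q lam₀)) (𝒪 ⊗[ℤ] Lam N)), Bf₂ z w = 0) → w = 0)
    (bA₂ : Fin d → ↥(locPart (mP 𝒪 Z (lamUp q lam₀)) (𝒪 ⊗[ℤ] Lam N))) (hli₂ : LinearIndependent 𝒪 bA₂)
    (χ₂ : heckeAlgebra N 2 (↑S0 : Set ℕ) → 𝒪)
    (hb₂ : ∀ (t : heckeAlgebra N 2 (↑S0 : Set ℕ)) (i : Fin d), tw₂ t (bA₂ i) = χ₂ t • bA₂ i)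
    (hold₂ : ∀ x : ↥(locPart (mP 𝒪 Z (lamUp q lam₀)) (𝒪 ⊗[ℤ] Lam N)), (∀ t : heckeAlgebra N 2 (↑S0 : Set ℕ), tw₂ t x = χ₂ t • x) →
      x ∈ span 𝒪 (Set.range bA₂))
    (heig₂ : ∀ (ℓ : ℕ) (hℓ : ℓ.Prime) (hℓN : ¬ ℓ ∣ Y₂.rt.N) (hℓS : ℓ ∉ Y₂.rt.S)
      (hℓN' : ¬ ℓ ∣ N) (hℓS' : ℓ ∉ (↑S0 : Set ℕ)),
        χ₂ (heckeAlgebra.T hℓ hℓN' hℓS') = Y₂.πO (Y₂.rt.π (heckeAlgebra.T hℓ hℓN hℓS)))
    (hw₂ : Y₂.w ≤ Nat.card (CongMod Bf₂ (span 𝒪 (Set.range bA₂))))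
    (hrank₂ : Module.finrank 𝒪 ↥(locPart (mP 𝒪 Z (lamUp q lam₀)) (𝒪 ⊗[ℤ] Lam N)) ≤ d * Module.finrank 𝒪 (TQ 𝒪 θ₂ tw₂))
    (htw₂ : ∀ (l : TIdx S0) (y : ↥(locPart (mP 𝒪 Z (lamUp q lam₀)) (𝒪 ⊗[ℤ] Lam N))),
      ((tw₂ (TX S0 hNS₂ l) y : ↥(locPart (mP 𝒪 Z (lamUp q lam₀)) (𝒪 ⊗[ℤ] Lam N))) : 𝒪 ⊗[ℤ] Lam N)
        = (latT N (tPrime S0 l)).baseChange 𝒪 (y : 𝒪 ⊗[ℤ] Lam N))
    -- the current strict-ordinary point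
    (hSso : ∀ l : ℕ, l.Prime → l ∉ S0 → ¬ l ∣ Xso.N ∧ l ∉ Xso.S)
    (hlam : ∀ l : TIdx S0, πso (Xso.π (heckeAlgebra.T l.2.1 (hSso l l.2.1 l.2.2).1
      (hSso l l.2.1 l.2.2).2)) = lamUp q lam₀ (tPrime S0 l)) :
    EtaStageNew hpNqq 𝒪 (lamUp q lam₀) d ∧
      omegaCardNew hpNqq 𝒪 (lamUp q lam₀)
        = omegaCardNew hpN 𝒪 lam₀ * Nat.card (𝒪 ⧸ Ideal.span {cq q lam₀}) ^ d := by
  classical
  have hp : p.Prime := hpF.out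
  have hd0 : d ≠ 0 := by omega
  obtain ⟨b₀, hli, hspan, hdet, hbNew⟩ := hst
  have hr : BetaPEquiv hpN Z := betaPEquiv_of_notMem hpN hpZ
  have hpZ' : p ∉ insert q Z := by
    intro h
    rcases Set.mem_insert_iff.1 h with h | h
    · exact hqNp (h ▸ dvd_mul_left p N)
    · exact hpZ h
  have hr' : BetaPEquiv hpNqq (insert q Z) := betaPEquiv_of_notMem hpNqq hpZ'
  have hZq : ∀ l : ℕ, l.Prime → l ∉ S0 → l ∈ insert q Z :=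
    fun l hl hlS => Set.mem_insert_of_mem _ (hZ l hl hlS)
  -- the eigenvalues at `l`, `l'` for the system `lam₀[q ↦ 0]`
  have hal : IsUnit (lamUp q lam₀ l - (((l : ℕ) : 𝒪) + 1)) := by
    rw [← lamUp_of_mem Z lam₀ hqZ l hlZ]; exact ha
  have hal' : IsUnit (lamUp q lam₀ l' - (((l' : ℕ) : 𝒪) + 1)) := by
    rw [← lamUp_of_mem Z lam₀ hqZ l' hl'Z]; exact ha'
  -- the forms and the families of the step (helper21)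
  obtain ⟨hb, hliD, hliU, hspan', hdetD, hdetU, hgram, hadj, hg, -⟩ :=
    step_forms (N := N * p) Z hqNp hqZ hq𝒪 hp hp2 hϖ hpϖ l l' hl hlq hl' ha ha' hd b₀ hli hspan
      hc hdet
  -- the transfer maps are onto
  have hϖm : ϖ ∈ maximalIdeal 𝒪 := by
    rw [mem_maximalIdeal, mem_nonunits_iff]; exact hϖ.not_isUnit
  have ht : Function.Surjective (tLoc hqNp Z (lamUp q lam₀) hqZ) :=
    tLoc_surjective hqNp Z (lamUp q lam₀) hqZ hp hp2 ϖ hϖm hpϖ hq𝒪 (lamUp_q lam₀) l l' hlZ hl'Z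
      hl hlq hl' hal hal'
  have hlN : ¬ (l : ℕ) ∣ N * q := fun h => hl (by
    have : N * q ∣ N * p * q := ⟨p, by ring⟩
    exact h.trans this)
  have hl'N : ¬ (l' : ℕ) ∣ N := fun h => hl' (h.trans (dvd_mul_right N p))
  have htN : Function.Surjective (tLoc hqN Z (lamUp q lam₀) hqZ) :=
    tLoc_surjective hqN Z (lamUp q lam₀) hqZ hp hp2 ϖ hϖm hpϖ hq𝒪 (lamUp_q lam₀) l l' hlZ hl'Z
      hlN hlq hl'N hal hal'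
  -- `β'` is onto
  have hl'Nqq : ¬ (l' : ℕ) ∣ N * q * q := by
    intro h
    have hl'q : (l' : ℕ) ≠ q := fun h' => hqZ (h' ▸ hl'Z)
    rcases (Nat.Prime.dvd_mul l'.2).1 h with h | h
    · rcases (Nat.Prime.dvd_mul l'.2).1 h with h | h
      · exact hl'N h
      · exact hl'q ((Nat.prime_dvd_prime_iff_eq l'.2 hqF.out).1 h)
    · exact hl'q ((Nat.prime_dvd_prime_iff_eq l'.2 hqF.out).1 h)
  have hβ' : Function.Surjective (betaLoc' (lamUp q lam₀) hpNqq hr') :=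
    betaLoc'_surjective (lamUp q lam₀) hpNqq hpZ' hp hp2 hp𝒪 l' (Set.mem_insert_of_mem _ hl'Z)
      hl'Nqq hal'
  -- the `𝕋`-module structures
  letI mA1 : Module (MvPolynomial (TIdx S0) 𝒪) ↥(locPart (mP 𝒪 (insert q Z) (lamUp q lam₀)) (𝒪 ⊗[ℤ] Lam (N * q * q))) := ttModule 𝒪 S0 hZq ↥(locPart (mP 𝒪 (insert q Z) (lamUp q lam₀)) (𝒪 ⊗[ℤ] Lam (N * q * q)))
  letI mA2 : Module (MvPolynomial (TIdx S0) 𝒪) ↥(locPart (mP 𝒪 Z (lamUp q lam₀)) (𝒪 ⊗[ℤ] Lam N)) := ttModule 𝒪 S0 hZ ↥(locPart (mP 𝒪 Z (lamUp q lam₀)) (𝒪 ⊗[ℤ] Lam N))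
  letI mL2 : Module (MvPolynomial (TIdx S0) 𝒪) ↥(locPart (mP 𝒪 (insert q Z) (lamUp q lam₀)) (𝒪 ⊗[ℤ] Lam (N * p * q * q))) := ttModule 𝒪 S0 hZq ↥(locPart (mP 𝒪 (insert q Z) (lamUp q lam₀)) (𝒪 ⊗[ℤ] Lam (N * p * q * q)))
  haveI sA1 : IsScalarTower 𝒪 (MvPolynomial (TIdx S0) 𝒪) ↥(locPart (mP 𝒪 (insert q Z) (lamUp q lam₀)) (𝒪 ⊗[ℤ] Lam (N * q * q))) := tt_isScalarTower 𝒪 S0 hZq ↥(locPart (mP 𝒪 (insert q Z) (lamUp q lam₀)) (𝒪 ⊗[ℤ] Lam (N * q * q)))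
  haveI sA2 : IsScalarTower 𝒪 (MvPolynomial (TIdx S0) 𝒪) ↥(locPart (mP 𝒪 Z (lamUp q lam₀)) (𝒪 ⊗[ℤ] Lam N)) := tt_isScalarTower 𝒪 S0 hZ ↥(locPart (mP 𝒪 Z (lamUp q lam₀)) (𝒪 ⊗[ℤ] Lam N))
  haveI sL2 : IsScalarTower 𝒪 (MvPolynomial (TIdx S0) 𝒪) ↥(locPart (mP 𝒪 (insert q Z) (lamUp q lam₀)) (𝒪 ⊗[ℤ] Lam (N * p * q * q))) := tt_isScalarTower 𝒪 S0 hZq ↥(locPart (mP 𝒪 (insert q Z) (lamUp q lam₀)) (𝒪 ⊗[ℤ] Lam (N * p * q * q)))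
  have hX₁ : ∀ (l : TIdx S0) (y : ↥(locPart (mP 𝒪 (insert q Z) (lamUp q lam₀)) (𝒪 ⊗[ℤ] Lam (N * q * q)))), (MvPolynomial.X l : MvPolynomial (TIdx S0) 𝒪) • y
      = tw₁ (TX S0 hNS₁ l) y := by
    intro l y
    apply Subtype.ext
    rw [htw₁ l y]
    exact coe_tt_X_smul 𝒪 S0 hZq _ l y
  have hX₂ : ∀ (l : TIdx S0) (y : ↥(locPart (mP 𝒪 Z (lamUp q lam₀)) (𝒪 ⊗[ℤ] Lam N))), (MvPolynomial.X l : MvPolynomial (TIdx S0) 𝒪) • y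
      = tw₂ (TX S0 hNS₂ l) y := by
    intro l y
    apply Subtype.ext
    rw [htw₂ l y]
    exact coe_tt_X_smul 𝒪 S0 hZ _ l y
  -- the generator-form equivariances
  have hβ'X : ∀ (l : TIdx S0) (m : ↥(locPart (mP 𝒪 (insert q Z) (lamUp q lam₀)) (𝒪 ⊗[ℤ] Lam (N * p * q * q)))),
      betaLoc' (lamUp q lam₀) hpNqq hr' ((MvPolynomial.X l : MvPolynomial (TIdx S0) 𝒪) • m)
        = (MvPolynomial.X l : MvPolynomial (TIdx S0) 𝒪) • betaLoc' (lamUp q lam₀) hpNqq hr' m := by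
    intro l m
    have hlZq : ((tPrime S0 l : Nat.Primes) : ℕ) ∈ insert q Z := tPrime_mem S0 _ hZq l
    refine Prod.ext (Subtype.ext ?_) (Subtype.ext ?_)
    · rw [coe_betaLoc'_fst, Prod.smul_fst]
      erw [coe_tt_X_smul 𝒪 S0 hZq _ l m, coe_tt_X_smul 𝒪 S0 hZq _ l _]
      rw [lamCastO_latT, bp1O_latT hpNqq _ (fun z => by rw [hr' _ hlZq z]), coe_betaLoc'_fst]
    · rw [coe_betaLoc'_snd, Prod.smul_snd]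
      erw [coe_tt_X_smul 𝒪 S0 hZq _ l m, coe_tt_X_smul 𝒪 S0 hZq _ l _]
      rw [lamCastO_latT, bp2O_latT hpNqq _ (fun z => by rw [hr' _ hlZq z]), coe_betaLoc'_snd]
  have hB'X : ∀ (l : TIdx S0) (x y : ↥(locPart (mP 𝒪 (insert q Z) (lamUp q lam₀)) (𝒪 ⊗[ℤ] Lam (N * p * q * q)))),
      BL (N * p * q * q) (insert q Z) (lamUp q lam₀)
          ((MvPolynomial.X l : MvPolynomial (TIdx S0) 𝒪) • x) y
        = BL (N * p * q * q) (insert q Z) (lamUp q lam₀) x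
          ((MvPolynomial.X l : MvPolynomial (TIdx S0) 𝒪) • y) := by
    intro l x y
    rw [BL_apply, BL_apply]
    erw [coe_tt_X_smul 𝒪 S0 hZq _ l x, coe_tt_X_smul 𝒪 S0 hZq _ l y]
    exact BW_latT _ _ _
  have hgX : ∀ (l : TIdx S0) (i : Fin d),
      (MvPolynomial.X l : MvPolynomial (TIdx S0) 𝒪) • bUp Z hqNp b₀ hb i
        = lamUp q lam₀ (tPrime S0 l) • bUp Z hqNp b₀ hb i := by
    intro l i
    apply Subtype.ext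
    erw [coe_tt_X_smul 𝒪 S0 hZq _ l (bUp Z hqNp b₀ hb i)]
    rw [coe_bUp]
    exact mem_eigenTensorO.mp (raise3_mem_eigen hqNp b₀ hb i) (tPrime S0 l)
  have htNX : ∀ (l : TIdx S0) (y : ↥(locPart (mP 𝒪 (insert q Z) (lamUp q lam₀)) (𝒪 ⊗[ℤ] Lam (N * q * q)))),
      tLoc hqN Z (lamUp q lam₀) hqZ ((MvPolynomial.X l : MvPolynomial (TIdx S0) 𝒪) • y)
        = (MvPolynomial.X l : MvPolynomial (TIdx S0) 𝒪) • tLoc hqN Z (lamUp q lam₀) hqZ y := by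
    intro l y
    apply Subtype.ext
    rw [coe_tLoc]
    erw [coe_tt_X_smul 𝒪 S0 hZq _ l y, coe_tt_X_smul 𝒪 S0 hZ _ l _]
    have h1 := tLoc_smul hqN Z (lamUp q lam₀) hqZ
      (xP 𝒪 Z (tPrime S0 l) (tPrime_mem S0 Z hZ l)) y
    rw [xP_smul, xP_smul] at h1
    exact h1
  -- the families in the kernels
  have hbKmem : ∀ i, bDown Z hqZ b₀ hb i ∈ LinearMap.ker (betaLoc hpN hr (lamUp q lam₀)) :=
    fun i => (mem_ker_betaLoc_iff hpN hr (lamUp q lam₀) _).2 (hbNew i)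
  have hbK'mem : ∀ i, bUp Z hqNp b₀ hb i
      ∈ LinearMap.ker (betaLoc' (lamUp q lam₀) hpNqq hr') :=
    fun i => BetaPAlphaK.raise3_mem_ker_betaLoc' (lamUp q lam₀) hpN hpNqq hr' _ _ hbNew i _ rfl
  obtain ⟨bK, hbK⟩ : ∃ bK : Fin d → ↥(LinearMap.ker (betaLoc hpN hr (lamUp q lam₀))),
      ∀ i, (LinearMap.ker (betaLoc hpN hr (lamUp q lam₀))).subtype (bK i)
        = bDown Z hqZ b₀ hb i := ⟨fun i => ⟨_, hbKmem i⟩, fun i => rfl⟩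
  obtain ⟨bK', hbK'⟩ : ∃ bK' : Fin d → ↥(LinearMap.ker (betaLoc' (lamUp q lam₀) hpNqq hr')),
      ∀ i, (LinearMap.ker (betaLoc' (lamUp q lam₀) hpNqq hr')).subtype (bK' i)
        = bUp Z hqNp b₀ hb i := ⟨fun i => ⟨_, hbK'mem i⟩, fun i => rfl⟩
  have hcomm : ∀ y, betaLoc hpN hr (lamUp q lam₀) (tLoc hqNp Z (lamUp q lam₀) hqZ y)
      = (tLoc hqN Z (lamUp q lam₀) hqZ (betaLoc' (lamUp q lam₀) hpNqq hr' y).1,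
         tLoc hqN Z (lamUp q lam₀) hqZ (betaLoc' (lamUp q lam₀) hpNqq hr' y).2) :=
    fun y => betaLoc_tLoc Z (lamUp q lam₀) hqZ hpN hqN hqNp hpNqq hr hr' y
  -- the growth theorem (helper16)
  have hgrow := card_congMod_ker_growth_of_flModules (𝒪 := 𝒪) (ρbar := ρbar) (p := p)
    (Smin := Smin) (d := d) (Sg := Sg) (q := q) hd0 Y₁ Y₂ Xso πso hp2 hp𝒪 hpSmin hmin S0 hpS
    hYS₁ hNN₁ hpNqq hNS₁ hNT₁ hSminN₁ θ₁ tw₁ Bf₁ hsa₁ hnd₁ bA₁ hli₁ χ₁ hb₁ hold₁ heig₁ hw₁ hrank₁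
    hYS₂ hNN₂ hpN hNS₂ hNT₂ hSminN₂ θ₂ tw₂ Bf₂ hsa₂ hnd₂ bA₂ hli₂ χ₂ hb₂ hold₂ heig₂ hw₂ hrank₂
    hSso (fun l : TIdx S0 => lamUp q lam₀ (tPrime S0 l)) hlam hX₁ hX₂
    (BL (N * p) Z (lamUp q lam₀)) (BL (N * p * q * q) (insert q Z) (lamUp q lam₀))
    (LinearMap.ker (betaLoc hpN hr (lamUp q lam₀))).subtype
    (LinearMap.ker (betaLoc' (lamUp q lam₀) hpNqq hr')).subtype
    (bDown Z hqZ b₀ hb) (bUp Z hqNp b₀ hb) bK bK' hbK hbK' (cq q lam₀) hc hdetD hgram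
    (tLoc hqNp Z (lamUp q lam₀) hqZ) ht hadj
    (betaLoc hpN hr (lamUp q lam₀)) (betaLoc' (lamUp q lam₀) hpNqq hr') hβ'
    (tLoc hqN Z (lamUp q lam₀) hqZ) hcomm
    (Submodule.range_subtype _) (Submodule.range_subtype _) hβ'X hB'X hgX htNX htN
  -- the stage invariant at the upper level
  have hliX : LinearIndependent 𝒪
      (raise3 (alpha3O (N * p) q 𝒪) ((q : ℕ) : 𝒪) (lam₀ (qP q)) b₀) := by
    have h1 := hliU.map' ((locPart (mP 𝒪 (insert q Z) (lamUp q lam₀))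
        (𝒪 ⊗[ℤ] Lam (N * p * q * q))).subtype.restrictScalars 𝒪)
      (LinearMap.ker_eq_bot.2 Subtype.val_injective)
    exact h1
  obtain ⟨bU, hbU⟩ : ∃ bU : Fin d → 𝒪 ⊗[ℤ] Lam (N * q * q * p),
      bU = castOG 𝒪 (level_eq N p q) ∘
        raise3 (alpha3O (N * p) q 𝒪) ((q : ℕ) : 𝒪) (lam₀ (qP q)) b₀ := ⟨_, rfl⟩
  refine ⟨⟨bU, ?_, ?_, ?_, ?_⟩, ?_⟩
  · -- linear independence
    rw [hbU]
    exact hliX.map' _ (LinearMap.ker_eq_bot.2 (castOG_injective (level_eq N p q)))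
  · rw [hbU, Set.range_comp, ← Submodule.map_span, hspan', map_castOG_eigenTensorO]
  · have hgr : gram (BW (N * q * q * p) 𝒪) bU
        = gram (BW (N * p * q * q) 𝒪)
            (raise3 (alpha3O (N * p) q 𝒪) ((q : ℕ) : 𝒪) (lam₀ (qP q)) b₀) := by
      ext i j
      rw [gram_apply, gram_apply, hbU]
      exact BW_castOG (level_eq N p q) _ _
    rw [hgr]
    rw [bUp, gram_famLoc] at hdetU
    exact hdetU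
  · intro i
    rw [hbU]
    exact BetaPAlphaK.raise3_mem_KNew hpN hpNqq _ _ hbNew i
  · -- the numerics
    have hspanK' : span 𝒪 (Set.range fun i =>
          (((bK' i : ↥(LinearMap.ker (betaLoc' (lamUp q lam₀) hpNqq hr'))) :
            ↥(locPart (mP 𝒪 (insert q Z) (lamUp q lam₀)) (𝒪 ⊗[ℤ] Lam (N * p * q * q)))) :
              𝒪 ⊗[ℤ] Lam (N * p * q * q)))
        = eigenTensorO (N * p * q * q) 𝒪 (lamUp q lam₀) := by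
      have h0 : (fun i =>
          (((bK' i : ↥(LinearMap.ker (betaLoc' (lamUp q lam₀) hpNqq hr'))) :
            ↥(locPart (mP 𝒪 (insert q Z) (lamUp q lam₀)) (𝒪 ⊗[ℤ] Lam (N * p * q * q)))) :
              𝒪 ⊗[ℤ] Lam (N * p * q * q)))
          = raise3 (alpha3O (N * p) q 𝒪) ((q : ℕ) : 𝒪) (lam₀ (qP q)) b₀ := by
        funext i
        have := congrArg Subtype.val (hbK' i)
        exact this
      rw [h0, hspan']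
    have hspanK : span 𝒪 (Set.range fun i =>
          (((bK i : ↥(LinearMap.ker (betaLoc hpN hr (lamUp q lam₀)))) :
            ↥(locPart (mP 𝒪 Z (lamUp q lam₀)) (𝒪 ⊗[ℤ] Lam (N * p)))) : 𝒪 ⊗[ℤ] Lam (N * p)))
        = eigenTensorO (N * p) 𝒪 lam₀ := by
      have h0 : (fun i =>
          (((bK i : ↥(LinearMap.ker (betaLoc hpN hr (lamUp q lam₀)))) :
            ↥(locPart (mP 𝒪 Z (lamUp q lam₀)) (𝒪 ⊗[ℤ] Lam (N * p)))) : 𝒪 ⊗[ℤ] Lam (N * p)))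
          = b₀ := by
        funext i
        have := congrArg Subtype.val (hbK i)
        exact this
      rw [h0, hspan]
    rw [omegaCardNew_eq_card_ker' (lamUp q lam₀) hpNqq hr' (lamUp q lam₀) bK' hspanK',
      omegaCardNew_eq_card_ker hpN hr (lamUp q lam₀) lam₀ bK hspanK]
    exact hgrow

end Step

end Fermat.Agent.GE9.PNew.Inst

end
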