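/-
GATE-E (S59) / RISK-4 (e9)+(e10) (helper31): **helper16's `StepNewFinal.card_congMod_ker_growth_of_flModules`
with BOTH flat stages instantiated at their target modules**
`A₀' := ↥(locPart (mP 𝒪 Z₁ lam₁) (𝒪 ⊗ Lam N₁))` (stage `insert q Sg`),
`A₀ := ↥(locPart (mP 𝒪 Z₂ lam₂) (𝒪 ⊗ Lam N₂))` (stage `Sg`) through `Inst/FLStageInst`:
`twᵢ := twZ lamᵢ S0`, `Bfᵢ := FormLoc.BL Nᵢ Zᵢ lamᵢ`, `bAᵢ := FormLoc.famLoc bᵢ _`,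
`χᵢ := chiZ lamᵢ S0`.

Per flat stage the binders left are: the `RawFL` level clauses, `Zᵢ lamᵢ`, a residual character `θᵢ`
with `Fact (LocHyp 𝒪 θᵢ (twZ lamᵢ S0))` (`FLStageInst.locHyp_twZ`), the module-side stage invariant
`(bᵢ, hliᵢ, span bᵢ = eigenTensorO Nᵢ 𝒪 lamᵢ)`, OldQ in the OUTPUT shape of `OldQ.hold_stage`, the
eigenvalues `lamᵢ ℓ = Yᵢ.πO (Yᵢ.rt.π T_ℓ)`, the engine invariant `Yᵢ.w ≤ #Ω` (upstairs form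
`BW Nᵢ 𝒪`) and the rank bound (R4-J).  The `𝕋`-structures and the modular binders of the step are
those of `StepNewFinal` VERBATIM.

* `tt_X_smul_eq_twZ` : **`hXᵢ`** in the shape of `StepNewFinal`
  (`X_l • y = twZ lam S0 (TX S0 hNS l) y` for the `ttModule` structure);
* **`card_congMod_ker_growth_of_locStages`** : the step.
-/
import Mathlib
import Fermat.Agent.GE9.PNew.StepNewFinal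
import Fermat.Agent.GE9.PNew.Inst.FLStageInst

set_option autoImplicit false
set_option linter.unusedSectionVars false
set_option linter.unusedVariables false
set_option linter.style.haveILetI false

noncomputable section

namespace Fermat.Agent.GE9.PNew.Inst.StepNewLoc

open TensorProduct IsLocalRing Submodule CuspForm Polynomial Function
open Fermat.Agent.GJ.J2.Lat Fermat.Agent.GB.B3.Loc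
  Fermat.Agent.GB.B4.Datum.ImageRing
  Fermat.Agent.GE.Graph Fermat.Agent.GE9.Ind Fermat.Agent.GE9.NumCrit
  Fermat.Agent.GE9.Eta Fermat.Agent.GE9.Eta.Mod Fermat.Agent.GE9.Mult1
  Fermat.Agent.GE9.PNew.Inst Fermat.Agent.GE9.PNew.Inst.FormLoc
  Fermat.Agent.GE9.PNew.Inst.FLStageInst Fermat.Agent.GE9.PNew.StepNewFinal

/-! ### `hX` in the shape of `StepNewFinal` -/

section Link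

variable {N : ℕ} [NeZero N] {𝒪 : Type} [CommRing 𝒪] [IsLocalRing 𝒪] {Z : Set ℕ}
  (lam : Nat.Primes → 𝒪) (S0 : Finset ℕ) (hZ : ∀ l : ℕ, l.Prime → l ∉ S0 → l ∈ Z)
  (hNS : ∀ r : ℕ, r.Prime → r ∣ N → r ∈ S0)

/-- **`hX`** : for the `ttModule` structure, the generator `X_l` acts on the primary part as the
anemic Hecke operator `T_l`. -/
theorem tt_X_smul_eq_twZ (l : TIdx S0) (y : ↥(locPart (mP 𝒪 Z lam) (𝒪 ⊗[ℤ] Lam N))) :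
    letI := ttModule 𝒪 S0 hZ ↥(locPart (mP 𝒪 Z lam) (𝒪 ⊗[ℤ] Lam N))
    (MvPolynomial.X l : MvPolynomial (TIdx S0) 𝒪) • y
      = twZ (Z := Z) lam S0 (TX S0 hNS l) y := by
  letI := ttModule 𝒪 S0 hZ ↥(locPart (mP 𝒪 Z lam) (𝒪 ⊗[ℤ] Lam N))
  apply Subtype.ext
  rw [coe_tt_X_smul 𝒪 S0 hZ (locPart (mP 𝒪 Z lam) (𝒪 ⊗[ℤ] Lam N)) l y]
  unfold TX
  rw [coe_twZ_T]
  rfl

end Link

/-! ### the step -/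

section Step

variable {𝒪 : Type} [CommRing 𝒪] [IsDomain 𝒪] [IsDiscreteValuationRing 𝒪]
  [IsAdicComplete (maximalIdeal 𝒪) 𝒪] [Finite (ResidueField 𝒪)] [CharZero 𝒪]
  {ρbar : ResidualGaloisRep (ResidueField 𝒪)} {p : ℕ} [Fact p.Prime]
  [Algebra (ZMod p) (ResidueField 𝒪)]
  {Smin : Finset ℕ} {d : ℕ}

set_option maxHeartbeats 2000000 in
/-- **the `p`-new stage step `Sg → insert q Sg`, flat stages at the `𝔪`-primary parts of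
`𝒪 ⊗ Lam N₁`, `𝒪 ⊗ Lam N₂`**:
`#Ω(K_{insert q Sg}) = #Ω(K_{Sg}) · #(𝒪 ⧸ c) ^ d`. -/
theorem card_congMod_ker_growth_of_locStages {Sg : Finset ℕ} {q : ℕ} (hd : d ≠ 0)
    -- the abstract flat stages and the current strict-ordinary stage with its point
    (Y₁ : RTNum ρbar (condFL 𝒪 p Smin (insert q Sg)) d) (Y₂ : RTNum ρbar (condFL 𝒪 p Smin Sg) d)
    (Xso : RTData ρbar (condSO 𝒪 p Smin Sg)) (πso : Xso.T →ₐ[𝒪] 𝒪)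
    (hp2 : p ≠ 2) (hp𝒪 : (p : 𝒪) ∈ maximalIdeal 𝒪) (hpSmin : p ∈ Smin)
    (hmin : ∀ r : ℕ, r.Prime → r ≠ p → (r ∈ Smin ↔ ¬ ρbar.IsUnramifiedAt r))
    (S0 : Finset ℕ) (hpS : p ∈ S0)
    -- the flat stage `insert q Sg`: level clauses and module side
    (hYS₁ : Y₁.rt.S ⊆ (↑S0 : Set ℕ))
    {N₁ : ℕ} [NeZero N₁] (hNN₁ : Y₁.rt.N ∣ N₁) (hpN₁ : ¬ p ∣ N₁)
    (hNS₁ : ∀ r : ℕ, r.Prime → r ∣ N₁ → r ∈ S0)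
    (hNT₁ : ∀ r : ℕ, r.Prime → r ∣ N₁ → r ∈ Smin ∪ insert q Sg)
    (hSminN₁ : ∀ r ∈ Smin, r.Prime → r ≠ p → r ∣ N₁ ∧ ¬ r ^ 2 ∣ N₁)
    (Z₁ : Set ℕ) (lam₁ : Nat.Primes → 𝒪)
    (θ₁ : ↥(heckeAlgebra N₁ 2 (↑S0 : Set ℕ)) →+* ResidueField 𝒪)
    [Fact (LocHyp 𝒪 θ₁ (twZ (Z := Z₁) (N := N₁) lam₁ S0))]
    (b₁ : Fin d → 𝒪 ⊗[ℤ] Lam N₁) (hli₁ : LinearIndependent 𝒪 b₁)
    (hspanE₁ : span 𝒪 (Set.range b₁) = eigenTensorO N₁ 𝒪 lam₁)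
    (hold₁ : ∀ x ∈ locPart (mP 𝒪 Z₁ lam₁) (𝒪 ⊗[ℤ] Lam N₁),
      (∀ l : Nat.Primes, (l : ℕ) ∉ S0 → (latT N₁ l).baseChange 𝒪 x = lam₁ l • x) →
        ∀ l : Nat.Primes, (latT N₁ l).baseChange 𝒪 x = lam₁ l • x)
    (heig₁ : ∀ (ℓ : ℕ) (hℓ : ℓ.Prime) (hℓN : ¬ ℓ ∣ Y₁.rt.N) (hℓS : ℓ ∉ Y₁.rt.S), ℓ ∉ S0 →
      lam₁ (⟨ℓ, hℓ⟩ : Nat.Primes) = Y₁.πO (Y₁.rt.π (heckeAlgebra.T hℓ hℓN hℓS)))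
    (hw₁ : Y₁.w ≤ Nat.card (CongMod (BW N₁ 𝒪) (span 𝒪 (Set.range b₁))))
    (hrank₁ : Module.finrank 𝒪 ↥(locPart (mP 𝒪 Z₁ lam₁) (𝒪 ⊗[ℤ] Lam N₁)) ≤
      d * Module.finrank 𝒪 (TQ 𝒪 θ₁ (twZ (Z := Z₁) (N := N₁) lam₁ S0)))
    -- the flat stage `Sg`: level clauses and module side
    (hYS₂ : Y₂.rt.S ⊆ (↑S0 : Set ℕ))
    {N₂ : ℕ} [NeZero N₂] (hNN₂ : Y₂.rt.N ∣ N₂) (hpN₂ : ¬ p ∣ N₂)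
    (hNS₂ : ∀ r : ℕ, r.Prime → r ∣ N₂ → r ∈ S0)
    (hNT₂ : ∀ r : ℕ, r.Prime → r ∣ N₂ → r ∈ Smin ∪ Sg)
    (hSminN₂ : ∀ r ∈ Smin, r.Prime → r ≠ p → r ∣ N₂ ∧ ¬ r ^ 2 ∣ N₂)
    (Z₂ : Set ℕ) (lam₂ : Nat.Primes → 𝒪)
    (θ₂ : ↥(heckeAlgebra N₂ 2 (↑S0 : Set ℕ)) →+* ResidueField 𝒪)
    [Fact (LocHyp 𝒪 θ₂ (twZ (Z := Z₂) (N := N₂) lam₂ S0))]
    (b₂ : Fin d → 𝒪 ⊗[ℤ] Lam N₂) (hli₂ : LinearIndependent 𝒪 b₂)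
    (hspanE₂ : span 𝒪 (Set.range b₂) = eigenTensorO N₂ 𝒪 lam₂)
    (hold₂ : ∀ x ∈ locPart (mP 𝒪 Z₂ lam₂) (𝒪 ⊗[ℤ] Lam N₂),
      (∀ l : Nat.Primes, (l : ℕ) ∉ S0 → (latT N₂ l).baseChange 𝒪 x = lam₂ l • x) →
        ∀ l : Nat.Primes, (latT N₂ l).baseChange 𝒪 x = lam₂ l • x)
    (heig₂ : ∀ (ℓ : ℕ) (hℓ : ℓ.Prime) (hℓN : ¬ ℓ ∣ Y₂.rt.N) (hℓS : ℓ ∉ Y₂.rt.S), ℓ ∉ S0 →
      lam₂ (⟨ℓ, hℓ⟩ : Nat.Primes) = Y₂.πO (Y₂.rt.π (heckeAlgebra.T hℓ hℓN hℓS)))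
    (hw₂ : Y₂.w ≤ Nat.card (CongMod (BW N₂ 𝒪) (span 𝒪 (Set.range b₂))))
    (hrank₂ : Module.finrank 𝒪 ↥(locPart (mP 𝒪 Z₂ lam₂) (𝒪 ⊗[ℤ] Lam N₂)) ≤
      d * Module.finrank 𝒪 (TQ 𝒪 θ₂ (twZ (Z := Z₂) (N := N₂) lam₂ S0)))
    -- the strict-ordinary point and the polynomial Hecke algebra `𝕋 = 𝒪[X_l : l ∉ S0]`
    (hSso : ∀ l : ℕ, l.Prime → l ∉ S0 → ¬ l ∣ Xso.N ∧ l ∉ Xso.S)
    (lamT : TIdx S0 → 𝒪)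
    (hlam : ∀ l : TIdx S0, πso (Xso.π (heckeAlgebra.T l.2.1 (hSso l l.2.1 l.2.2).1
      (hSso l l.2.1 l.2.2).2)) = lamT l)
    [Module (MvPolynomial (TIdx S0) 𝒪) ↥(locPart (mP 𝒪 Z₁ lam₁) (𝒪 ⊗[ℤ] Lam N₁))]
    [IsScalarTower 𝒪 (MvPolynomial (TIdx S0) 𝒪) ↥(locPart (mP 𝒪 Z₁ lam₁) (𝒪 ⊗[ℤ] Lam N₁))]
    [Module (MvPolynomial (TIdx S0) 𝒪) ↥(locPart (mP 𝒪 Z₂ lam₂) (𝒪 ⊗[ℤ] Lam N₂))]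
    [IsScalarTower 𝒪 (MvPolynomial (TIdx S0) 𝒪) ↥(locPart (mP 𝒪 Z₂ lam₂) (𝒪 ⊗[ℤ] Lam N₂))]
    (hX₁ : ∀ (l : TIdx S0) (y : ↥(locPart (mP 𝒪 Z₁ lam₁) (𝒪 ⊗[ℤ] Lam N₁))),
      (MvPolynomial.X l : MvPolynomial (TIdx S0) 𝒪) • y =
        twZ (Z := Z₁) (N := N₁) lam₁ S0 (TX S0 hNS₁ l) y)
    (hX₂ : ∀ (l : TIdx S0) (y : ↥(locPart (mP 𝒪 Z₂ lam₂) (𝒪 ⊗[ℤ] Lam N₂))),
      (MvPolynomial.X l : MvPolynomial (TIdx S0) 𝒪) • y =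
        twZ (Z := Z₂) (N := N₂) lam₂ S0 (TX S0 hNS₂ l) y)
    -- the level-`p` modules and the modular binders of the step
    {L L' K₀ K₀' : Type*} [AddCommGroup L] [Module 𝒪 L] [AddCommGroup L'] [Module 𝒪 L']
    [AddCommGroup K₀] [Module 𝒪 K₀] [AddCommGroup K₀'] [Module 𝒪 K₀']
    [Module (MvPolynomial (TIdx S0) 𝒪) L'] [IsScalarTower 𝒪 (MvPolynomial (TIdx S0) 𝒪) L']
    (B : L →ₗ[𝒪] L →ₗ[𝒪] 𝒪) (B' : L' →ₗ[𝒪] L' →ₗ[𝒪] 𝒪)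
    (ι : K₀ →ₗ[𝒪] L) (ι' : K₀' →ₗ[𝒪] L') (b : Fin d → L) (b' : Fin d → L')
    (bK : Fin d → K₀) (bK' : Fin d → K₀') (hbK : ∀ i, ι (bK i) = b i)
    (hbK' : ∀ i, ι' (bK' i) = b' i) (c : 𝒪) (hc : c ≠ 0) (hdet : (gram B b).det ≠ 0)
    (h : ∀ i j, B' (b' i) (b' j) = c * B (b i) (b j))
    (t : L' →ₗ[𝒪] L) (ht : Surjective t)
    (hadj : ∀ i y, B' (b' i) y = B (b i) (t y))
    (β : L →ₗ[𝒪] ↥(locPart (mP 𝒪 Z₂ lam₂) (𝒪 ⊗[ℤ] Lam N₂)) ×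
      ↥(locPart (mP 𝒪 Z₂ lam₂) (𝒪 ⊗[ℤ] Lam N₂)))
    (β' : L' →ₗ[𝒪] ↥(locPart (mP 𝒪 Z₁ lam₁) (𝒪 ⊗[ℤ] Lam N₁)) ×
      ↥(locPart (mP 𝒪 Z₁ lam₁) (𝒪 ⊗[ℤ] Lam N₁)))
    (hβ' : Surjective β')
    (tN : ↥(locPart (mP 𝒪 Z₁ lam₁) (𝒪 ⊗[ℤ] Lam N₁)) →ₗ[𝒪]
      ↥(locPart (mP 𝒪 Z₂ lam₂) (𝒪 ⊗[ℤ] Lam N₂)))
    (hcomm : ∀ y, β (t y) = (tN (β' y).1, tN (β' y).2))
    (hι : LinearMap.range ι = LinearMap.ker β) (hι' : LinearMap.range ι' = LinearMap.ker β')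
    (hβ'X : ∀ (l : TIdx S0) (m : L'), β' ((MvPolynomial.X l : MvPolynomial (TIdx S0) 𝒪) • m) =
      (MvPolynomial.X l : MvPolynomial (TIdx S0) 𝒪) • β' m)
    (hB'X : ∀ (l : TIdx S0) (x y : L'),
      B' ((MvPolynomial.X l : MvPolynomial (TIdx S0) 𝒪) • x) y =
        B' x ((MvPolynomial.X l : MvPolynomial (TIdx S0) 𝒪) • y))
    (hgX : ∀ (l : TIdx S0) (i : Fin d),
      (MvPolynomial.X l : MvPolynomial (TIdx S0) 𝒪) • b' i = lamT l • b' i)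
    (htNX : ∀ (l : TIdx S0) (y : ↥(locPart (mP 𝒪 Z₁ lam₁) (𝒪 ⊗[ℤ] Lam N₁))),
      tN ((MvPolynomial.X l : MvPolynomial (TIdx S0) 𝒪) • y) =
        (MvPolynomial.X l : MvPolynomial (TIdx S0) 𝒪) • tN y)
    (htN : Surjective tN) :
    Nat.card (CongMod (B'.compl₁₂ ι' ι') (span 𝒪 (Set.range bK'))) =
      Nat.card (CongMod (B.compl₁₂ ι ι) (span 𝒪 (Set.range bK))) *
        Nat.card (𝒪 ⧸ Ideal.span {c}) ^ d := by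
  classical
  -- the instance binders of the two stage modules
  haveI fin₁ : Module.Finite 𝒪 ↥(locPart (mP 𝒪 Z₁ lam₁) (𝒪 ⊗[ℤ] Lam N₁)) :=
    finite_locPartZ Z₁ lam₁
  haveI free₁ : Module.Free 𝒪 ↥(locPart (mP 𝒪 Z₁ lam₁) (𝒪 ⊗[ℤ] Lam N₁)) :=
    free_locPartZ Z₁ lam₁
  haveI fin₂ : Module.Finite 𝒪 ↥(locPart (mP 𝒪 Z₂ lam₂) (𝒪 ⊗[ℤ] Lam N₂)) :=
    finite_locPartZ Z₂ lam₂
  haveI free₂ : Module.Free 𝒪 ↥(locPart (mP 𝒪 Z₂ lam₂) (𝒪 ⊗[ℤ] Lam N₂)) :=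
    free_locPartZ Z₂ lam₂
  obtain ⟨i0, -⟩ : ∃ i0 : Fin d, True := ⟨⟨0, Nat.pos_of_ne_zero hd⟩, trivial⟩
  -- stage 1
  have hbe₁ : ∀ i, b₁ i ∈ eigenTensorO N₁ 𝒪 lam₁ := fun i => by
    rw [← hspanE₁]
    exact subset_span ⟨i, rfl⟩
  have hbL₁ : ∀ i, b₁ i ∈ locPart (mP 𝒪 Z₁ lam₁) (𝒪 ⊗[ℤ] Lam N₁) := fun i =>
    eigenTensorO_le_locPart_mP (fun _ _ => rfl) (hbe₁ i)
  have hx₁ : b₁ i0 ≠ 0 := hli₁.ne_zero i0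
  haveI nt₁ : Nontrivial ↥(locPart (mP 𝒪 Z₁ lam₁) (𝒪 ⊗[ℤ] Lam N₁)) :=
    nontrivial_locPartZ (hbL₁ i0) hx₁
  have hsa₁ : ∀ (t : ↥(heckeAlgebra N₁ 2 (↑S0 : Set ℕ)))
      (x y : ↥(locPart (mP 𝒪 Z₁ lam₁) (𝒪 ⊗[ℤ] Lam N₁))),
      BL N₁ Z₁ lam₁ (twZ (Z := Z₁) lam₁ S0 t x) y
        = BL N₁ Z₁ lam₁ x (twZ (Z := Z₁) lam₁ S0 t y) := BL_twZ S0
  have hnd₁ : ∀ w : ↥(locPart (mP 𝒪 Z₁ lam₁) (𝒪 ⊗[ℤ] Lam N₁)),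
      (∀ z, BL N₁ Z₁ lam₁ z w = 0) → w = 0 := hnd_BL N₁ Z₁ lam₁
  have hliL₁ : LinearIndependent 𝒪 (famLoc b₁ hbL₁) := linearIndependent_famLoc b₁ hbL₁ hli₁
  have hb₁ : ∀ (t : ↥(heckeAlgebra N₁ 2 (↑S0 : Set ℕ))) (i : Fin d),
      twZ (Z := Z₁) lam₁ S0 t (famLoc b₁ hbL₁ i) = chiZ lam₁ S0 t • famLoc b₁ hbL₁ i :=
    fun t i => twZ_eigen S0 (hbe₁ i) (hbL₁ i) t
  have hold₁' : ∀ x : ↥(locPart (mP 𝒪 Z₁ lam₁) (𝒪 ⊗[ℤ] Lam N₁)),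
      (∀ t : ↥(heckeAlgebra N₁ 2 (↑S0 : Set ℕ)),
        twZ (Z := Z₁) lam₁ S0 t x = chiZ lam₁ S0 t • x) →
        x ∈ span 𝒪 (Set.range (famLoc b₁ hbL₁)) :=
    hold_famLoc S0 hNS₁ b₁ hbL₁ hspanE₁ (hbe₁ i0) hx₁ hold₁
  have heig₁' : ∀ (ℓ : ℕ) (hℓ : ℓ.Prime) (hℓN : ¬ ℓ ∣ Y₁.rt.N) (hℓS : ℓ ∉ Y₁.rt.S)
      (hℓN' : ¬ ℓ ∣ N₁) (hℓS' : ℓ ∉ (↑S0 : Set ℕ)),
        chiZ lam₁ S0 (heckeAlgebra.T hℓ hℓN' hℓS') =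
          Y₁.πO (Y₁.rt.π (heckeAlgebra.T hℓ hℓN hℓS)) :=
    fun ℓ hℓ hℓN hℓS hℓN' hℓS' => (chiZ_T S0 (hbe₁ i0) hx₁ hℓ hℓN' hℓS').trans
      (heig₁ ℓ hℓ hℓN hℓS (fun h => hℓS' (Finset.mem_coe.mpr h)))
  have hw₁' : Y₁.w ≤ Nat.card (CongMod (BL N₁ Z₁ lam₁)
      (span 𝒪 (Set.range (famLoc b₁ hbL₁)))) := by
    rw [card_congMod_famLoc b₁ hbL₁]
    exact hw₁
  -- stage 2
  have hbe₂ : ∀ i, b₂ i ∈ eigenTensorO N₂ 𝒪 lam₂ := fun i => by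
    rw [← hspanE₂]
    exact subset_span ⟨i, rfl⟩
  have hbL₂ : ∀ i, b₂ i ∈ locPart (mP 𝒪 Z₂ lam₂) (𝒪 ⊗[ℤ] Lam N₂) := fun i =>
    eigenTensorO_le_locPart_mP (fun _ _ => rfl) (hbe₂ i)
  have hx₂ : b₂ i0 ≠ 0 := hli₂.ne_zero i0
  haveI nt₂ : Nontrivial ↥(locPart (mP 𝒪 Z₂ lam₂) (𝒪 ⊗[ℤ] Lam N₂)) :=
    nontrivial_locPartZ (hbL₂ i0) hx₂
  have hsa₂ : ∀ (t : ↥(heckeAlgebra N₂ 2 (↑S0 : Set ℕ)))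
      (x y : ↥(locPart (mP 𝒪 Z₂ lam₂) (𝒪 ⊗[ℤ] Lam N₂))),
      BL N₂ Z₂ lam₂ (twZ (Z := Z₂) lam₂ S0 t x) y
        = BL N₂ Z₂ lam₂ x (twZ (Z := Z₂) lam₂ S0 t y) := BL_twZ S0
  have hnd₂ : ∀ w : ↥(locPart (mP 𝒪 Z₂ lam₂) (𝒪 ⊗[ℤ] Lam N₂)),
      (∀ z, BL N₂ Z₂ lam₂ z w = 0) → w = 0 := hnd_BL N₂ Z₂ lam₂
  have hliL₂ : LinearIndependent 𝒪 (famLoc b₂ hbL₂) := linearIndependent_famLoc b₂ hbL₂ hli₂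
  have hb₂ : ∀ (t : ↥(heckeAlgebra N₂ 2 (↑S0 : Set ℕ))) (i : Fin d),
      twZ (Z := Z₂) lam₂ S0 t (famLoc b₂ hbL₂ i) = chiZ lam₂ S0 t • famLoc b₂ hbL₂ i :=
    fun t i => twZ_eigen S0 (hbe₂ i) (hbL₂ i) t
  have hold₂' : ∀ x : ↥(locPart (mP 𝒪 Z₂ lam₂) (𝒪 ⊗[ℤ] Lam N₂)),
      (∀ t : ↥(heckeAlgebra N₂ 2 (↑S0 : Set ℕ)),
        twZ (Z := Z₂) lam₂ S0 t x = chiZ lam₂ S0 t • x) →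
        x ∈ span 𝒪 (Set.range (famLoc b₂ hbL₂)) :=
    hold_famLoc S0 hNS₂ b₂ hbL₂ hspanE₂ (hbe₂ i0) hx₂ hold₂
  have heig₂' : ∀ (ℓ : ℕ) (hℓ : ℓ.Prime) (hℓN : ¬ ℓ ∣ Y₂.rt.N) (hℓS : ℓ ∉ Y₂.rt.S)
      (hℓN' : ¬ ℓ ∣ N₂) (hℓS' : ℓ ∉ (↑S0 : Set ℕ)),
        chiZ lam₂ S0 (heckeAlgebra.T hℓ hℓN' hℓS') =
          Y₂.πO (Y₂.rt.π (heckeAlgebra.T hℓ hℓN hℓS)) :=
    fun ℓ hℓ hℓN hℓS hℓN' hℓS' => (chiZ_T S0 (hbe₂ i0) hx₂ hℓ hℓN' hℓS').trans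
      (heig₂ ℓ hℓ hℓN hℓS (fun h => hℓS' (Finset.mem_coe.mpr h)))
  have hw₂' : Y₂.w ≤ Nat.card (CongMod (BL N₂ Z₂ lam₂)
      (span 𝒪 (Set.range (famLoc b₂ hbL₂)))) := by
    rw [card_congMod_famLoc b₂ hbL₂]
    exact hw₂
  exact card_congMod_ker_growth_of_flModules hd Y₁ Y₂ Xso πso hp2 hp𝒪 hpSmin hmin S0 hpS
    hYS₁ hNN₁ hpN₁ hNS₁ hNT₁ hSminN₁ θ₁ (twZ (Z := Z₁) (N := N₁) lam₁ S0) (BL N₁ Z₁ lam₁) hsa₁ hnd₁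
    (famLoc b₁ hbL₁) hliL₁ (chiZ lam₁ S0) hb₁ hold₁' heig₁' hw₁' hrank₁
    hYS₂ hNN₂ hpN₂ hNS₂ hNT₂ hSminN₂ θ₂ (twZ (Z := Z₂) (N := N₂) lam₂ S0) (BL N₂ Z₂ lam₂) hsa₂ hnd₂
    (famLoc b₂ hbL₂) hliL₂ (chiZ lam₂ S0) hb₂ hold₂' heig₂' hw₂' hrank₂
    hSso lamT hlam hX₁ hX₂
    B B' ι ι' b b' bK bK' hbK hbK' c hc hdet h t ht hadj β β' hβ' tN hcomm hι hι' hβ'X hB'X hgX
    htNX htN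

end Step

end Fermat.Agent.GE9.PNew.Inst.StepNewLoc

end
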