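/-
GATE-E / RISK-4, instance layer R4-I (helper37), slice (S3-final): `GE9/PNew/Inst/GrowNew.lean` —
**the growth of `#Ω^{new}` along one step of the `p`-new chain, flat lists and strict-ordinary point
discharged** (the binder `hgrow` of `GE/Engine/StepPlugSOb.stepSupplySOb_of_base`).

* `omegaCardNew_step_ideal` : `StepNew.omegaCardNew_step` with the cutting ideals of the two flat
  stage modules as VARIABLES (`𝔪ᵢ` + `h𝔪ᵢ : 𝔪ᵢ = mP 𝒪 Zᵢ (lamUp q lam₀)`; `subst`);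
* `omegaCardNew_step_loc` : the two flat lists through helper31's `FLStageInst`
  (`twᵢ := twZ lamᵢ S0`, `Bfᵢ := BL`, `bAᵢ := famLoc bᵢ`, `χᵢ := chiZ lamᵢ S0`), the flat stage
  modules cut by the FLAT systems `lamᵢ` (`mP 𝒪 Zᵢ lamᵢ = mP 𝒪 Zᵢ (lamUp q lam₀)`);
* `flat_easy` : the easy per-stage binders of a flat stage of the engine (level clauses through
  `LevArith`, `EtaStage` through `Eta/Chain.etaStage_lev`, eigenvalues, the engine invariant);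
* **`omegaCardNew_grow`** : `#Ω^{new}_{insert q Sg} = #Ω^{new}_{Sg} · #(𝒪 ⧸ c_q) ^ d`, Pkg-free:
  `N := N₁`, `lam₀ := lamAt lam Sg`, `Z := ZSet S0 Sg`; flat stages at `lamAt lamf Sg`,
  `lamAt lamf (insert q Sg)`; OldQ at the flat stages = helper21 `HoldFlat.hold_flat`; the rank
  bound = helper31 `FlatFields.hrank_flat_stage` (helper81 `RankTQ`: needs the `W`-data);
  `EtaStageNew` at the level `N₁ p` = helper21 `etaStageNew_lev`; `c_q ≠ 0` = helper63 `CqNeO`.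
-/
import Mathlib
import Fermat.Agent.GE9.PNew.Inst.StepNew
import Fermat.Agent.GE9.PNew.Inst.StepNewLoc
import Fermat.Agent.GE9.PNew.Inst.EtaStageNewChain
import Fermat.Agent.GE9.PNew.Inst.HoldKNew
import Fermat.Agent.GE9.PNew.Inst.HoldFlat
import Fermat.Agent.GE9.PNew.Inst.FLStageRank
import Fermat.Agent.GE9.PNew.Inst.FlatFields
import Fermat.Agent.GE9.Stage.SupplyFrob
import Fermat.Agent.GE9.Stage.SupplyHold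
import Fermat.Agent.GE9.Eta.Chain
import Fermat.Agent.GE.Engine.LevArith

set_option autoImplicit false
set_option linter.unusedSectionVars false
set_option linter.unusedVariables false
set_option linter.style.haveILetI false

noncomputable section

namespace Fermat.Agent.GE9.PNew.Inst.GrowNew

open TensorProduct IsLocalRing Submodule
open Fermat.Agent.GJ.J2.Lat Fermat.Agent.GB.B3.Loc Fermat.Agent.GE9.Eta Fermat.Agent.GE9.Eta.Mod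
  Fermat.Agent.GE9.Eta.DualIhara2 Fermat.Agent.GE9.Mult1 Fermat.Agent.GM.B Fermat.Agent.GM.B5
  Fermat.Agent.GE9.PNew.Inst Fermat.Agent.GE9.PNew.Inst.Beta3Uq Fermat.Agent.GE9.PNew.Inst.PolyLin
  Fermat.Agent.GE9.PNew.Inst.FormLoc Fermat.Agent.GE9.PNew.Inst.BetaPOnto
  Fermat.Agent.GE9.Eta.LocLam Fermat.Agent.GE9.PNew.Inst.FLStageInst
  Fermat.Agent.GE9.PNew.Inst.StepNewLoc

section Step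

open CuspForm Fermat.Agent.GE.Graph Fermat.Agent.GE9.Ind Fermat.Agent.GE9.NumCrit
  Fermat.Agent.GE9.PNew.DepthPlug Fermat.Agent.GB.B4.Datum.ImageRing
  Fermat.Agent.GE9.PNew.StepNewFinal Fermat.Agent.GE9.Stage.CarrierLam
  Fermat.Agent.GE9.Stage.CarrierAbs

variable {𝒪 : Type} [CommRing 𝒪] [IsDomain 𝒪] [IsDiscreteValuationRing 𝒪]
  [IsAdicComplete (maximalIdeal 𝒪) 𝒪] [Finite (ResidueField 𝒪)] [CharZero 𝒪]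
  {ρbar : ResidualGaloisRep (ResidueField 𝒪)} {p : ℕ} [hpF : Fact p.Prime]
  [Algebra (ZMod p) (ResidueField 𝒪)]
  {Smin : Finset ℕ} {d : ℕ}

set_option maxHeartbeats 2000000 in
/-- **`omegaCardNew_step` with the cutting ideals of the flat stage modules as variables.** -/
theorem omegaCardNew_step_ideal {Sg : Finset ℕ} {N q : ℕ} [hqF : Fact q.Prime]
    [NeZero N] [NeZero (N * q)] [NeZero (N * q * q)]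
    [NeZero (N * p)] [NeZero (N * p * q)] [NeZero (N * p * q * q)] [NeZero (N * q * q * p)]
    (hd : 2 ≤ d)
    -- level arithmetic
    (hpN : ¬ p ∣ N) (hqN : ¬ q ∣ N) (hqNp : ¬ q ∣ N * p) (hpNqq : ¬ p ∣ N * q * q)
    -- the polynomial Hecke algebra
    (S0 : Finset ℕ) (Z : Set ℕ) (hZ : ∀ l : ℕ, l.Prime → l ∉ S0 → l ∈ Z) (hpZ : p ∉ Z)
    (hqZ : q ∉ Z)
    -- the coefficient ring
    (hp2 : p ≠ 2) (hp𝒪 : (p : 𝒪) ∈ maximalIdeal 𝒪) {ϖ : 𝒪} (hϖ : Irreducible ϖ)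
    (hpϖ : ∃ c : 𝒪, (p : 𝒪) = ϖ * c) (hq𝒪 : IsUnit ((q : ℕ) : 𝒪))
    -- the eigensystem, the non-Eisenstein primes
    (lam₀ : Nat.Primes → 𝒪) (l l' : Nat.Primes) (hlZ : (l : ℕ) ∈ Z) (hl'Z : (l' : ℕ) ∈ Z)
    (hl : ¬ (l : ℕ) ∣ N * p * q) (hlq : ((l : ℕ) : ZMod q) = 1) (hl' : ¬ (l' : ℕ) ∣ N * p)
    (ha : IsUnit (lam₀ l - (((l : ℕ) : 𝒪) + 1))) (ha' : IsUnit (lam₀ l' - (((l' : ℕ) : 𝒪) + 1)))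
    -- the stage invariant at the level `N p`, and `c_q ≠ 0`
    (hst : EtaStageNew hpN 𝒪 lam₀ d) (hc : cq q lam₀ ≠ 0)
    -- the cutting ideals of the two flat stage modules, as VARIABLES
    (𝔪₂ : Ideal (PAlg 𝒪 Z)) [𝔪₂.IsMaximal] (h𝔪₂ : 𝔪₂ = mP 𝒪 Z (lamUp q lam₀))
    (𝔪₁ : Ideal (PAlg 𝒪 (insert q Z))) [𝔪₁.IsMaximal]
    (h𝔪₁ : 𝔪₁ = mP 𝒪 (insert q Z) (lamUp q lam₀))
    -- the abstract flat stages and the current strict-ordinary stage with its point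
    (Y₁ : RTNum ρbar (condFL 𝒪 p Smin (insert q Sg)) d) (Y₂ : RTNum ρbar (condFL 𝒪 p Smin Sg) d)
    (Xso : RTData ρbar (condSO 𝒪 p Smin Sg)) (πso : Xso.T →ₐ[𝒪] 𝒪)
    (hpSmin : p ∈ Smin)
    (hmin : ∀ r : ℕ, r.Prime → r ≠ p → (r ∈ Smin ↔ ¬ ρbar.IsUnramifiedAt r))
    (hpS : p ∈ S0)
    -- the flat stage `insert q Sg` at `A₀'`
    (hYS₁ : Y₁.rt.S ⊆ (↑S0 : Set ℕ)) (hNN₁ : Y₁.rt.N ∣ N * q * q)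
    (hNS₁ : ∀ r : ℕ, r.Prime → r ∣ N * q * q → r ∈ S0)
    (hNT₁ : ∀ r : ℕ, r.Prime → r ∣ N * q * q → r ∈ Smin ∪ insert q Sg)
    (hSminN₁ : ∀ r ∈ Smin, r.Prime → r ≠ p → r ∣ N * q * q ∧ ¬ r ^ 2 ∣ N * q * q)
    [Module.Finite 𝒪 ↥(locPart 𝔪₁ (𝒪 ⊗[ℤ] Lam (N * q * q)))] [Module.Free 𝒪 ↥(locPart 𝔪₁ (𝒪 ⊗[ℤ] Lam (N * q * q)))] [Nontrivial ↥(locPart 𝔪₁ (𝒪 ⊗[ℤ] Lam (N * q * q)))]
    (θ₁ : heckeAlgebra (N * q * q) 2 (↑S0 : Set ℕ) →+* ResidueField 𝒪)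
    (tw₁ : heckeAlgebra (N * q * q) 2 (↑S0 : Set ℕ) →+* Module.End 𝒪 ↥(locPart 𝔪₁ (𝒪 ⊗[ℤ] Lam (N * q * q))))
    [Fact (LocHyp 𝒪 θ₁ tw₁)]
    (Bf₁ : ↥(locPart 𝔪₁ (𝒪 ⊗[ℤ] Lam (N * q * q))) →ₗ[𝒪] ↥(locPart 𝔪₁ (𝒪 ⊗[ℤ] Lam (N * q * q))) →ₗ[𝒪] 𝒪)
    (hsa₁ : ∀ (t : heckeAlgebra (N * q * q) 2 (↑S0 : Set ℕ)) (x y : ↥(locPart 𝔪₁ (𝒪 ⊗[ℤ] Lam (N * q * q)))),
      Bf₁ (tw₁ t x) y = Bf₁ x (tw₁ t y))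
    (hnd₁ : ∀ w : ↥(locPart 𝔪₁ (𝒪 ⊗[ℤ] Lam (N * q * q))), (∀ z : ↥(locPart 𝔪₁ (𝒪 ⊗[ℤ] Lam (N * q * q))), Bf₁ z w = 0) → w = 0)
    (bA₁ : Fin d → ↥(locPart 𝔪₁ (𝒪 ⊗[ℤ] Lam (N * q * q)))) (hli₁ : LinearIndependent 𝒪 bA₁)
    (χ₁ : heckeAlgebra (N * q * q) 2 (↑S0 : Set ℕ) → 𝒪)
    (hb₁ : ∀ (t : heckeAlgebra (N * q * q) 2 (↑S0 : Set ℕ)) (i : Fin d),
      tw₁ t (bA₁ i) = χ₁ t • bA₁ i)
    (hold₁ : ∀ x : ↥(locPart 𝔪₁ (𝒪 ⊗[ℤ] Lam (N * q * q))), (∀ t : heckeAlgebra (N * q * q) 2 (↑S0 : Set ℕ), tw₁ t x = χ₁ t • x) →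
      x ∈ span 𝒪 (Set.range bA₁))
    (heig₁ : ∀ (ℓ : ℕ) (hℓ : ℓ.Prime) (hℓN : ¬ ℓ ∣ Y₁.rt.N) (hℓS : ℓ ∉ Y₁.rt.S)
      (hℓN' : ¬ ℓ ∣ N * q * q) (hℓS' : ℓ ∉ (↑S0 : Set ℕ)),
        χ₁ (heckeAlgebra.T hℓ hℓN' hℓS') = Y₁.πO (Y₁.rt.π (heckeAlgebra.T hℓ hℓN hℓS)))
    (hw₁ : Y₁.w ≤ Nat.card (CongMod Bf₁ (span 𝒪 (Set.range bA₁))))
    (hrank₁ : Module.finrank 𝒪 ↥(locPart 𝔪₁ (𝒪 ⊗[ℤ] Lam (N * q * q))) ≤ d * Module.finrank 𝒪 (TQ 𝒪 θ₁ tw₁))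
    (htw₁ : ∀ (l : TIdx S0) (y : ↥(locPart 𝔪₁ (𝒪 ⊗[ℤ] Lam (N * q * q)))),
      ((tw₁ (TX S0 hNS₁ l) y : ↥(locPart 𝔪₁ (𝒪 ⊗[ℤ] Lam (N * q * q)))) : 𝒪 ⊗[ℤ] Lam (N * q * q))
        = (latT (N * q * q) (tPrime S0 l)).baseChange 𝒪 (y : 𝒪 ⊗[ℤ] Lam (N * q * q)))
    -- the flat stage `Sg` at `A₀`
    (hYS₂ : Y₂.rt.S ⊆ (↑S0 : Set ℕ)) (hNN₂ : Y₂.rt.N ∣ N)
    (hNS₂ : ∀ r : ℕ, r.Prime → r ∣ N → r ∈ S0)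
    (hNT₂ : ∀ r : ℕ, r.Prime → r ∣ N → r ∈ Smin ∪ Sg)
    (hSminN₂ : ∀ r ∈ Smin, r.Prime → r ≠ p → r ∣ N ∧ ¬ r ^ 2 ∣ N)
    [Module.Finite 𝒪 ↥(locPart 𝔪₂ (𝒪 ⊗[ℤ] Lam N))] [Module.Free 𝒪 ↥(locPart 𝔪₂ (𝒪 ⊗[ℤ] Lam N))] [Nontrivial ↥(locPart 𝔪₂ (𝒪 ⊗[ℤ] Lam N))]
    (θ₂ : heckeAlgebra N 2 (↑S0 : Set ℕ) →+* ResidueField 𝒪)
    (tw₂ : heckeAlgebra N 2 (↑S0 : Set ℕ) →+* Module.End 𝒪 ↥(locPart 𝔪₂ (𝒪 ⊗[ℤ] Lam N)))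
    [Fact (LocHyp 𝒪 θ₂ tw₂)]
    (Bf₂ : ↥(locPart 𝔪₂ (𝒪 ⊗[ℤ] Lam N)) →ₗ[𝒪] ↥(locPart 𝔪₂ (𝒪 ⊗[ℤ] Lam N)) →ₗ[𝒪] 𝒪)
    (hsa₂ : ∀ (t : heckeAlgebra N 2 (↑S0 : Set ℕ)) (x y : ↥(locPart 𝔪₂ (𝒪 ⊗[ℤ] Lam N))),
      Bf₂ (tw₂ t x) y = Bf₂ x (tw₂ t y))
    (hnd₂ : ∀ w : ↥(locPart 𝔪₂ (𝒪 ⊗[ℤ] Lam N)), (∀ z : ↥(locPart 𝔪₂ (𝒪 ⊗[ℤ] Lam N)), Bf₂ z w = 0) → w = 0)
    (bA₂ : Fin d → ↥(locPart 𝔪₂ (𝒪 ⊗[ℤ] Lam N))) (hli₂ : LinearIndependent 𝒪 bA₂)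
    (χ₂ : heckeAlgebra N 2 (↑S0 : Set ℕ) → 𝒪)
    (hb₂ : ∀ (t : heckeAlgebra N 2 (↑S0 : Set ℕ)) (i : Fin d), tw₂ t (bA₂ i) = χ₂ t • bA₂ i)
    (hold₂ : ∀ x : ↥(locPart 𝔪₂ (𝒪 ⊗[ℤ] Lam N)), (∀ t : heckeAlgebra N 2 (↑S0 : Set ℕ), tw₂ t x = χ₂ t • x) →
      x ∈ span 𝒪 (Set.range bA₂))
    (heig₂ : ∀ (ℓ : ℕ) (hℓ : ℓ.Prime) (hℓN : ¬ ℓ ∣ Y₂.rt.N) (hℓS : ℓ ∉ Y₂.rt.S)
      (hℓN' : ¬ ℓ ∣ N) (hℓS' : ℓ ∉ (↑S0 : Set ℕ)),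
        χ₂ (heckeAlgebra.T hℓ hℓN' hℓS') = Y₂.πO (Y₂.rt.π (heckeAlgebra.T hℓ hℓN hℓS)))
    (hw₂ : Y₂.w ≤ Nat.card (CongMod Bf₂ (span 𝒪 (Set.range bA₂))))
    (hrank₂ : Module.finrank 𝒪 ↥(locPart 𝔪₂ (𝒪 ⊗[ℤ] Lam N)) ≤ d * Module.finrank 𝒪 (TQ 𝒪 θ₂ tw₂))
    (htw₂ : ∀ (l : TIdx S0) (y : ↥(locPart 𝔪₂ (𝒪 ⊗[ℤ] Lam N))),
      ((tw₂ (TX S0 hNS₂ l) y : ↥(locPart 𝔪₂ (𝒪 ⊗[ℤ] Lam N))) : 𝒪 ⊗[ℤ] Lam N)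
        = (latT N (tPrime S0 l)).baseChange 𝒪 (y : 𝒪 ⊗[ℤ] Lam N))
    -- the current strict-ordinary point
    (hSso : ∀ l : ℕ, l.Prime → l ∉ S0 → ¬ l ∣ Xso.N ∧ l ∉ Xso.S)
    (hlam : ∀ l : TIdx S0, πso (Xso.π (heckeAlgebra.T l.2.1 (hSso l l.2.1 l.2.2).1
      (hSso l l.2.1 l.2.2).2)) = lamUp q lam₀ (tPrime S0 l)) :
    EtaStageNew hpNqq 𝒪 (lamUp q lam₀) d ∧
      omegaCardNew hpNqq 𝒪 (lamUp q lam₀)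
        = omegaCardNew hpN 𝒪 lam₀ * Nat.card (𝒪 ⧸ Ideal.span {cq q lam₀}) ^ d := by
  subst h𝔪₁
  subst h𝔪₂
  exact omegaCardNew_step hd hpN hqN hqNp hpNqq S0 Z hZ hpZ hqZ hp2 hp𝒪 hϖ hpϖ hq𝒪 lam₀ l l' hlZ
    hl'Z hl hlq hl' ha ha' hst hc Y₁ Y₂ Xso πso hpSmin hmin hpS
    hYS₁ hNN₁ hNS₁ hNT₁ hSminN₁ θ₁ tw₁ Bf₁ hsa₁ hnd₁ bA₁ hli₁ χ₁ hb₁ hold₁ heig₁ hw₁ hrank₁ htw₁
    hYS₂ hNN₂ hNS₂ hNT₂ hSminN₂ θ₂ tw₂ Bf₂ hsa₂ hnd₂ bA₂ hli₂ χ₂ hb₂ hold₂ heig₂ hw₂ hrank₂ htw₂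
    hSso hlam

set_option maxHeartbeats 2000000 in
/-- **(e10) with both flat lists discharged through `FLStageInst`**: per flat stage the binders are
those of helper31's `StepNewLoc.card_congMod_ker_growth_of_locStages` (`Z₁ = insert q Z`, `Z₂ = Z`),
plus the equation of the cutting ideals. -/
theorem omegaCardNew_step_loc {Sg : Finset ℕ} {N q : ℕ} [hqF : Fact q.Prime]
    [NeZero N] [NeZero (N * q)] [NeZero (N * q * q)]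
    [NeZero (N * p)] [NeZero (N * p * q)] [NeZero (N * p * q * q)] [NeZero (N * q * q * p)]
    (hd : 2 ≤ d)
    -- level arithmetic
    (hpN : ¬ p ∣ N) (hqN : ¬ q ∣ N) (hqNp : ¬ q ∣ N * p) (hpNqq : ¬ p ∣ N * q * q)
    -- the polynomial Hecke algebra
    (S0 : Finset ℕ) (Z : Set ℕ) (hZ : ∀ l : ℕ, l.Prime → l ∉ S0 → l ∈ Z) (hpZ : p ∉ Z)
    (hqZ : q ∉ Z)
    -- the coefficient ring
    (hp2 : p ≠ 2) (hp𝒪 : (p : 𝒪) ∈ maximalIdeal 𝒪) {ϖ : 𝒪} (hϖ : Irreducible ϖ)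
    (hpϖ : ∃ c : 𝒪, (p : 𝒪) = ϖ * c) (hq𝒪 : IsUnit ((q : ℕ) : 𝒪))
    -- the eigensystem, the non-Eisenstein primes
    (lam₀ : Nat.Primes → 𝒪) (l l' : Nat.Primes) (hlZ : (l : ℕ) ∈ Z) (hl'Z : (l' : ℕ) ∈ Z)
    (hl : ¬ (l : ℕ) ∣ N * p * q) (hlq : ((l : ℕ) : ZMod q) = 1) (hl' : ¬ (l' : ℕ) ∣ N * p)
    (ha : IsUnit (lam₀ l - (((l : ℕ) : 𝒪) + 1))) (ha' : IsUnit (lam₀ l' - (((l' : ℕ) : 𝒪) + 1)))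
    -- the stage invariant at the level `N p`, and `c_q ≠ 0`
    (hst : EtaStageNew hpN 𝒪 lam₀ d) (hc : cq q lam₀ ≠ 0)
    -- the abstract flat stages and the current strict-ordinary stage with its point
    (Y₁ : RTNum ρbar (condFL 𝒪 p Smin (insert q Sg)) d) (Y₂ : RTNum ρbar (condFL 𝒪 p Smin Sg) d)
    (Xso : RTData ρbar (condSO 𝒪 p Smin Sg)) (πso : Xso.T →ₐ[𝒪] 𝒪)
    (hpSmin : p ∈ Smin)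
    (hmin : ∀ r : ℕ, r.Prime → r ≠ p → (r ∈ Smin ↔ ¬ ρbar.IsUnramifiedAt r))
    (hpS : p ∈ S0)
    -- the flat stage `insert q Sg`: level clauses and module side
    (hYS₁ : Y₁.rt.S ⊆ (↑S0 : Set ℕ)) (hNN₁ : Y₁.rt.N ∣ N * q * q)
    (hNS₁ : ∀ r : ℕ, r.Prime → r ∣ N * q * q → r ∈ S0)
    (hNT₁ : ∀ r : ℕ, r.Prime → r ∣ N * q * q → r ∈ Smin ∪ insert q Sg)
    (hSminN₁ : ∀ r ∈ Smin, r.Prime → r ≠ p → r ∣ N * q * q ∧ ¬ r ^ 2 ∣ N * q * q)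
    (lam₁ : Nat.Primes → 𝒪)
    (h𝔪₁ : mP 𝒪 (insert q Z) lam₁ = mP 𝒪 (insert q Z) (lamUp q lam₀))
    (θ₁ : ↥(heckeAlgebra (N * q * q) 2 (↑S0 : Set ℕ)) →+* ResidueField 𝒪)
    [Fact (LocHyp 𝒪 θ₁ (twZ (Z := insert q Z) (N := N * q * q) lam₁ S0))]
    (b₁ : Fin d → 𝒪 ⊗[ℤ] Lam (N * q * q)) (hli₁ : LinearIndependent 𝒪 b₁)
    (hspanE₁ : span 𝒪 (Set.range b₁) = eigenTensorO (N * q * q) 𝒪 lam₁)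
    (hold₁ : ∀ x ∈ locPart (mP 𝒪 (insert q Z) lam₁) (𝒪 ⊗[ℤ] Lam (N * q * q)),
      (∀ l : Nat.Primes, (l : ℕ) ∉ S0 → (latT (N * q * q) l).baseChange 𝒪 x = lam₁ l • x) →
        ∀ l : Nat.Primes, (latT (N * q * q) l).baseChange 𝒪 x = lam₁ l • x)
    (heig₁ : ∀ (ℓ : ℕ) (hℓ : ℓ.Prime) (hℓN : ¬ ℓ ∣ Y₁.rt.N) (hℓS : ℓ ∉ Y₁.rt.S), ℓ ∉ S0 →
      lam₁ (⟨ℓ, hℓ⟩ : Nat.Primes) = Y₁.πO (Y₁.rt.π (heckeAlgebra.T hℓ hℓN hℓS)))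
    (hw₁ : Y₁.w ≤ Nat.card (CongMod (BW (N * q * q) 𝒪) (span 𝒪 (Set.range b₁))))
    (hrank₁ : Module.finrank 𝒪 ↥(locPart (mP 𝒪 (insert q Z) lam₁) (𝒪 ⊗[ℤ] Lam (N * q * q))) ≤
      d * Module.finrank 𝒪 (TQ 𝒪 θ₁ (twZ (Z := insert q Z) (N := N * q * q) lam₁ S0)))
    -- the flat stage `Sg`: level clauses and module side
    (hYS₂ : Y₂.rt.S ⊆ (↑S0 : Set ℕ)) (hNN₂ : Y₂.rt.N ∣ N)
    (hNS₂ : ∀ r : ℕ, r.Prime → r ∣ N → r ∈ S0)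
    (hNT₂ : ∀ r : ℕ, r.Prime → r ∣ N → r ∈ Smin ∪ Sg)
    (hSminN₂ : ∀ r ∈ Smin, r.Prime → r ≠ p → r ∣ N ∧ ¬ r ^ 2 ∣ N)
    (lam₂ : Nat.Primes → 𝒪)
    (h𝔪₂ : mP 𝒪 Z lam₂ = mP 𝒪 Z (lamUp q lam₀))
    (θ₂ : ↥(heckeAlgebra N 2 (↑S0 : Set ℕ)) →+* ResidueField 𝒪)
    [Fact (LocHyp 𝒪 θ₂ (twZ (Z := Z) (N := N) lam₂ S0))]
    (b₂ : Fin d → 𝒪 ⊗[ℤ] Lam N) (hli₂ : LinearIndependent 𝒪 b₂)
    (hspanE₂ : span 𝒪 (Set.range b₂) = eigenTensorO N 𝒪 lam₂)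
    (hold₂ : ∀ x ∈ locPart (mP 𝒪 Z lam₂) (𝒪 ⊗[ℤ] Lam N),
      (∀ l : Nat.Primes, (l : ℕ) ∉ S0 → (latT N l).baseChange 𝒪 x = lam₂ l • x) →
        ∀ l : Nat.Primes, (latT N l).baseChange 𝒪 x = lam₂ l • x)
    (heig₂ : ∀ (ℓ : ℕ) (hℓ : ℓ.Prime) (hℓN : ¬ ℓ ∣ Y₂.rt.N) (hℓS : ℓ ∉ Y₂.rt.S), ℓ ∉ S0 →
      lam₂ (⟨ℓ, hℓ⟩ : Nat.Primes) = Y₂.πO (Y₂.rt.π (heckeAlgebra.T hℓ hℓN hℓS)))
    (hw₂ : Y₂.w ≤ Nat.card (CongMod (BW N 𝒪) (span 𝒪 (Set.range b₂))))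
    (hrank₂ : Module.finrank 𝒪 ↥(locPart (mP 𝒪 Z lam₂) (𝒪 ⊗[ℤ] Lam N)) ≤
      d * Module.finrank 𝒪 (TQ 𝒪 θ₂ (twZ (Z := Z) (N := N) lam₂ S0)))
    -- the current strict-ordinary point
    (hSso : ∀ l : ℕ, l.Prime → l ∉ S0 → ¬ l ∣ Xso.N ∧ l ∉ Xso.S)
    (hlam : ∀ l : TIdx S0, πso (Xso.π (heckeAlgebra.T l.2.1 (hSso l l.2.1 l.2.2).1
      (hSso l l.2.1 l.2.2).2)) = lamUp q lam₀ (tPrime S0 l)) :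
    EtaStageNew hpNqq 𝒪 (lamUp q lam₀) d ∧
      omegaCardNew hpNqq 𝒪 (lamUp q lam₀)
        = omegaCardNew hpN 𝒪 lam₀ * Nat.card (𝒪 ⧸ Ideal.span {cq q lam₀}) ^ d := by
  classical
  have hd0 : d ≠ 0 := by omega
  -- the instance binders of the two stage modules
  haveI fin₁ : Module.Finite 𝒪 ↥(locPart (mP 𝒪 (insert q Z) lam₁) (𝒪 ⊗[ℤ] Lam (N * q * q))) :=
    finite_locPartZ (insert q Z) lam₁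
  haveI free₁ : Module.Free 𝒪 ↥(locPart (mP 𝒪 (insert q Z) lam₁) (𝒪 ⊗[ℤ] Lam (N * q * q))) :=
    free_locPartZ (insert q Z) lam₁
  haveI fin₂ : Module.Finite 𝒪 ↥(locPart (mP 𝒪 Z lam₂) (𝒪 ⊗[ℤ] Lam N)) :=
    finite_locPartZ Z lam₂
  haveI free₂ : Module.Free 𝒪 ↥(locPart (mP 𝒪 Z lam₂) (𝒪 ⊗[ℤ] Lam N)) :=
    free_locPartZ Z lam₂
  obtain ⟨i0, -⟩ : ∃ i0 : Fin d, True := ⟨⟨0, Nat.pos_of_ne_zero hd0⟩, trivial⟩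
  -- stage 1
  have hbe₁ : ∀ i, b₁ i ∈ eigenTensorO (N * q * q) 𝒪 lam₁ := fun i => by
    rw [← hspanE₁]
    exact subset_span ⟨i, rfl⟩
  have hbL₁ : ∀ i, b₁ i ∈ locPart (mP 𝒪 (insert q Z) lam₁) (𝒪 ⊗[ℤ] Lam (N * q * q)) := fun i =>
    eigenTensorO_le_locPart_mP (fun _ _ => rfl) (hbe₁ i)
  have hx₁ : b₁ i0 ≠ 0 := hli₁.ne_zero i0
  haveI nt₁ : Nontrivial ↥(locPart (mP 𝒪 (insert q Z) lam₁) (𝒪 ⊗[ℤ] Lam (N * q * q))) :=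
    nontrivial_locPartZ (hbL₁ i0) hx₁
  have hsa₁ : ∀ (t : ↥(heckeAlgebra (N * q * q) 2 (↑S0 : Set ℕ)))
      (x y : ↥(locPart (mP 𝒪 (insert q Z) lam₁) (𝒪 ⊗[ℤ] Lam (N * q * q)))),
      BL (N * q * q) (insert q Z) lam₁ (twZ (Z := insert q Z) lam₁ S0 t x) y
        = BL (N * q * q) (insert q Z) lam₁ x (twZ (Z := insert q Z) lam₁ S0 t y) := BL_twZ S0
  have hnd₁ : ∀ w : ↥(locPart (mP 𝒪 (insert q Z) lam₁) (𝒪 ⊗[ℤ] Lam (N * q * q))),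
      (∀ z, BL (N * q * q) (insert q Z) lam₁ z w = 0) → w = 0 :=
    hnd_BL (N * q * q) (insert q Z) lam₁
  have hliL₁ : LinearIndependent 𝒪 (famLoc b₁ hbL₁) := linearIndependent_famLoc b₁ hbL₁ hli₁
  have hb₁ : ∀ (t : ↥(heckeAlgebra (N * q * q) 2 (↑S0 : Set ℕ))) (i : Fin d),
      twZ (Z := insert q Z) lam₁ S0 t (famLoc b₁ hbL₁ i)
        = chiZ lam₁ S0 t • famLoc b₁ hbL₁ i :=
    fun t i => twZ_eigen S0 (hbe₁ i) (hbL₁ i) t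
  have hold₁' : ∀ x : ↥(locPart (mP 𝒪 (insert q Z) lam₁) (𝒪 ⊗[ℤ] Lam (N * q * q))),
      (∀ t : ↥(heckeAlgebra (N * q * q) 2 (↑S0 : Set ℕ)),
        twZ (Z := insert q Z) lam₁ S0 t x = chiZ lam₁ S0 t • x) →
        x ∈ span 𝒪 (Set.range (famLoc b₁ hbL₁)) :=
    hold_famLoc S0 hNS₁ b₁ hbL₁ hspanE₁ (hbe₁ i0) hx₁ hold₁
  have heig₁' : ∀ (ℓ : ℕ) (hℓ : ℓ.Prime) (hℓN : ¬ ℓ ∣ Y₁.rt.N) (hℓS : ℓ ∉ Y₁.rt.S)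
      (hℓN' : ¬ ℓ ∣ N * q * q) (hℓS' : ℓ ∉ (↑S0 : Set ℕ)),
        chiZ lam₁ S0 (heckeAlgebra.T hℓ hℓN' hℓS') =
          Y₁.πO (Y₁.rt.π (heckeAlgebra.T hℓ hℓN hℓS)) :=
    fun ℓ hℓ hℓN hℓS hℓN' hℓS' => (chiZ_T S0 (hbe₁ i0) hx₁ hℓ hℓN' hℓS').trans
      (heig₁ ℓ hℓ hℓN hℓS (fun h => hℓS' (Finset.mem_coe.mpr h)))
  have hw₁' : Y₁.w ≤ Nat.card (CongMod (BL (N * q * q) (insert q Z) lam₁)
      (span 𝒪 (Set.range (famLoc b₁ hbL₁)))) := by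
    rw [card_congMod_famLoc b₁ hbL₁]
    exact hw₁
  have htw₁ : ∀ (l : TIdx S0)
      (y : ↥(locPart (mP 𝒪 (insert q Z) lam₁) (𝒪 ⊗[ℤ] Lam (N * q * q)))),
      ((twZ (Z := insert q Z) lam₁ S0 (TX S0 hNS₁ l) y :
          ↥(locPart (mP 𝒪 (insert q Z) lam₁) (𝒪 ⊗[ℤ] Lam (N * q * q)))) :
            𝒪 ⊗[ℤ] Lam (N * q * q))
        = (latT (N * q * q) (tPrime S0 l)).baseChange 𝒪 (y : 𝒪 ⊗[ℤ] Lam (N * q * q)) := by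
    intro l y
    unfold TX
    rw [coe_twZ_T]
    rfl
  -- stage 2
  have hbe₂ : ∀ i, b₂ i ∈ eigenTensorO N 𝒪 lam₂ := fun i => by
    rw [← hspanE₂]
    exact subset_span ⟨i, rfl⟩
  have hbL₂ : ∀ i, b₂ i ∈ locPart (mP 𝒪 Z lam₂) (𝒪 ⊗[ℤ] Lam N) := fun i =>
    eigenTensorO_le_locPart_mP (fun _ _ => rfl) (hbe₂ i)
  have hx₂ : b₂ i0 ≠ 0 := hli₂.ne_zero i0
  haveI nt₂ : Nontrivial ↥(locPart (mP 𝒪 Z lam₂) (𝒪 ⊗[ℤ] Lam N)) :=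
    nontrivial_locPartZ (hbL₂ i0) hx₂
  have hsa₂ : ∀ (t : ↥(heckeAlgebra N 2 (↑S0 : Set ℕ)))
      (x y : ↥(locPart (mP 𝒪 Z lam₂) (𝒪 ⊗[ℤ] Lam N))),
      BL N Z lam₂ (twZ (Z := Z) lam₂ S0 t x) y
        = BL N Z lam₂ x (twZ (Z := Z) lam₂ S0 t y) := BL_twZ S0
  have hnd₂ : ∀ w : ↥(locPart (mP 𝒪 Z lam₂) (𝒪 ⊗[ℤ] Lam N)),
      (∀ z, BL N Z lam₂ z w = 0) → w = 0 := hnd_BL N Z lam₂
  have hliL₂ : LinearIndependent 𝒪 (famLoc b₂ hbL₂) := linearIndependent_famLoc b₂ hbL₂ hli₂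
  have hb₂ : ∀ (t : ↥(heckeAlgebra N 2 (↑S0 : Set ℕ))) (i : Fin d),
      twZ (Z := Z) lam₂ S0 t (famLoc b₂ hbL₂ i) = chiZ lam₂ S0 t • famLoc b₂ hbL₂ i :=
    fun t i => twZ_eigen S0 (hbe₂ i) (hbL₂ i) t
  have hold₂' : ∀ x : ↥(locPart (mP 𝒪 Z lam₂) (𝒪 ⊗[ℤ] Lam N)),
      (∀ t : ↥(heckeAlgebra N 2 (↑S0 : Set ℕ)),
        twZ (Z := Z) lam₂ S0 t x = chiZ lam₂ S0 t • x) →
        x ∈ span 𝒪 (Set.range (famLoc b₂ hbL₂)) :=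
    hold_famLoc S0 hNS₂ b₂ hbL₂ hspanE₂ (hbe₂ i0) hx₂ hold₂
  have heig₂' : ∀ (ℓ : ℕ) (hℓ : ℓ.Prime) (hℓN : ¬ ℓ ∣ Y₂.rt.N) (hℓS : ℓ ∉ Y₂.rt.S)
      (hℓN' : ¬ ℓ ∣ N) (hℓS' : ℓ ∉ (↑S0 : Set ℕ)),
        chiZ lam₂ S0 (heckeAlgebra.T hℓ hℓN' hℓS') =
          Y₂.πO (Y₂.rt.π (heckeAlgebra.T hℓ hℓN hℓS)) :=
    fun ℓ hℓ hℓN hℓS hℓN' hℓS' => (chiZ_T S0 (hbe₂ i0) hx₂ hℓ hℓN' hℓS').trans
      (heig₂ ℓ hℓ hℓN hℓS (fun h => hℓS' (Finset.mem_coe.mpr h)))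
  have hw₂' : Y₂.w ≤ Nat.card (CongMod (BL N Z lam₂)
      (span 𝒪 (Set.range (famLoc b₂ hbL₂)))) := by
    rw [card_congMod_famLoc b₂ hbL₂]
    exact hw₂
  have htw₂ : ∀ (l : TIdx S0) (y : ↥(locPart (mP 𝒪 Z lam₂) (𝒪 ⊗[ℤ] Lam N))),
      ((twZ (Z := Z) lam₂ S0 (TX S0 hNS₂ l) y : ↥(locPart (mP 𝒪 Z lam₂) (𝒪 ⊗[ℤ] Lam N))) :
          𝒪 ⊗[ℤ] Lam N)
        = (latT N (tPrime S0 l)).baseChange 𝒪 (y : 𝒪 ⊗[ℤ] Lam N) := by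
    intro l y
    unfold TX
    rw [coe_twZ_T]
    rfl
  exact omegaCardNew_step_ideal hd hpN hqN hqNp hpNqq S0 Z hZ hpZ hqZ hp2 hp𝒪 hϖ hpϖ hq𝒪 lam₀ l l'
    hlZ hl'Z hl hlq hl' ha ha' hst hc (mP 𝒪 Z lam₂) h𝔪₂ (mP 𝒪 (insert q Z) lam₁) h𝔪₁
    Y₁ Y₂ Xso πso hpSmin hmin hpS
    hYS₁ hNN₁ hNS₁ hNT₁ hSminN₁ θ₁ (twZ (Z := insert q Z) (N := N * q * q) lam₁ S0)
    (BL (N * q * q) (insert q Z) lam₁) hsa₁ hnd₁ (famLoc b₁ hbL₁) hliL₁ (chiZ lam₁ S0) hb₁ hold₁'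
    heig₁' hw₁' hrank₁ htw₁
    hYS₂ hNN₂ hNS₂ hNT₂ hSminN₂ θ₂ (twZ (Z := Z) (N := N) lam₂ S0) (BL N Z lam₂) hsa₂ hnd₂
    (famLoc b₂ hbL₂) hliL₂ (chiZ lam₂ S0) hb₂ hold₂' heig₂' hw₂' hrank₂ htw₂
    hSso hlam

end Step

open TensorProduct IsLocalRing Submodule CuspForm
open Fermat.Agent.GE9.Eta.Chain Fermat.Agent.GE9.OldQ.Consumer
  Fermat.Agent.GB.Setup.RhoBar
  Fermat.Agent.GE9.Stage.CarrierLam Fermat.Agent.GE9.Stage.CarrierAbs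
  Fermat.Agent.GE9.PNew.Inst.FLStageRank
  Fermat.Agent.GE9.PNew.Inst.HoldKNew Fermat.Agent.GE9.PNew.Inst.EtaStageNewChain
  Fermat.Agent.GE.Graph Fermat.Agent.GE9.Ind Fermat.Agent.GE9.Asm Fermat.Agent.GE9.NumCrit
  Fermat.Agent.GE9.PNew.DepthPlug Fermat.Agent.GE9.PNew.StepNewFinal
  Fermat.Agent.GB.B4.Datum.ImageRing
  Fermat.Agent.GE9.Stage.SupplyFrob Fermat.Agent.GE.Engine.LevArith
open WeierstrassCurve WeierstrassCurve.Affine.Point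
open scoped WeierstrassCurve.Affine

section Flat

variable {𝒪 : Type} [CommRing 𝒪] [IsDomain 𝒪] [IsDiscreteValuationRing 𝒪]
  [IsAdicComplete (maximalIdeal 𝒪) 𝒪] [Finite (ResidueField 𝒪)] [CharZero 𝒪]
  {p : ℕ} [hpF : Fact p.Prime]

/-- `omegaCard` along an equality of levels -/
theorem omegaCard_congr_level {A B : ℕ} [NeZero A] [NeZero B] (h : A = B)
    (lam : Nat.Primes → 𝒪) : omegaCard A 𝒪 lam = omegaCard B 𝒪 lam := by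
  subst h
  rfl

/-- **the easy per-stage binders of a flat stage** (level clauses through `LevArith`, the stage
invariant through `Eta/Chain.etaStage_lev`, the eigenvalues and the engine invariant). -/
theorem flat_easy {ρbar : ResidualGaloisRep (ResidueField 𝒪)} {Smin : Finset ℕ} {d : ℕ}
    (hd : 2 ≤ d) (hp2 : p ≠ 2) {ϖ : 𝒪} (hϖ : Irreducible ϖ) (hpϖ : ∃ c : 𝒪, (p : 𝒪) = ϖ * c)
    {M N' : ℕ} [NeZero M] [NeZero N'] (hpM : ¬ p ∣ M) (hsqM : Squarefree M)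
    (lamf : Nat.Primes → 𝒪)
    (hnef : ∀ (F : Finset ℕ) (q : ℕ), q.Prime → ∃ l : Nat.Primes, (l : ℕ) ∉ F ∧
      (((l : ℕ) : ZMod q) = 1) ∧ IsUnit (lamf l - (((l : ℕ) : 𝒪) + 1)))
    (hbasef : EtaStage M 𝒪 lamf d)
    (S0 : Finset ℕ) (hMS0 : ∀ r : ℕ, r.Prime → r ∣ M → r ∈ S0)
    (hSminM : ∀ r ∈ Smin, r = p ∨ r ∣ M) (hMSmin : ∀ r : ℕ, r.Prime → r ∣ M → r ∈ Smin)
    (Sg' : Finset ℕ) (hSg' : ∀ x ∈ Sg', x.Prime ∧ ¬ x ∣ M ∧ x ≠ p) (hSgS0 : ∀ x ∈ Sg', x ∈ S0)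
    (Y' : RTNum ρbar (condFL 𝒪 p Smin Sg') d) (hY'N : Y'.rt.N = M * ∏ x ∈ Sg', x ^ 2)
    (hY'S : Y'.rt.S = (↑S0 : Set ℕ)) (hY'w : Y'.w = omegaCard Y'.rt.N 𝒪 (lamAt lamf Sg'))
    (hY'χ : ∀ (ℓ : ℕ) (hℓ : ℓ.Prime) (hℓN : ¬ ℓ ∣ Y'.rt.N) (hℓS : ℓ ∉ Y'.rt.S),
      pointChar Y' (heckeAlgebra.T hℓ hℓN hℓS) = lamf (⟨ℓ, hℓ⟩ : Nat.Primes))
    (hN' : N' = M * ∏ x ∈ Sg', x ^ 2) :
    Y'.rt.S ⊆ (↑S0 : Set ℕ) ∧ Y'.rt.N ∣ N' ∧ ¬ p ∣ N' ∧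
      (∀ r : ℕ, r.Prime → r ∣ N' → r ∈ S0) ∧
      (∀ r : ℕ, r.Prime → r ∣ N' → r ∈ Smin ∪ Sg') ∧
      (∀ r ∈ Smin, r.Prime → r ≠ p → r ∣ N' ∧ ¬ r ^ 2 ∣ N') ∧
      EtaStage N' 𝒪 (lamAt lamf Sg') d ∧
      ∃ b : Fin d → 𝒪 ⊗[ℤ] Lam N', LinearIndependent 𝒪 b ∧
        span 𝒪 (Set.range b) = eigenTensorO N' 𝒪 (lamAt lamf Sg') ∧
        (∀ (ℓ : ℕ) (hℓ : ℓ.Prime) (hℓN : ¬ ℓ ∣ Y'.rt.N) (hℓS : ℓ ∉ Y'.rt.S), ℓ ∉ S0 →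
          lamAt lamf Sg' (⟨ℓ, hℓ⟩ : Nat.Primes) =
            Y'.πO (Y'.rt.π (heckeAlgebra.T hℓ hℓN hℓS))) ∧
        Y'.w ≤ Nat.card (CongMod (BW N' 𝒪) (span 𝒪 (Set.range b))) := by
  have hp : p.Prime := hpF.out
  have hd0 : d ≠ 0 := by omega
  have hSgP : ∀ x ∈ Sg', x.Prime := fun x hx => (hSg' x hx).1
  have hst' : EtaStage N' 𝒪 (lamAt lamf Sg') d :=
    etaStage_lev hp hp2 hϖ hpϖ lamf hnef hd hbasef Sg'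
      (fun x hx => ⟨(hSg' x hx).1, (hSg' x hx).2.1⟩)
      (fun x hx hxS => cq_ne_zero_of_etaStage lamf hd0 hbasef x hx (hSg' x hxS).2.1) N' hN'
  have hYN' : Y'.rt.N = N' := hY'N.trans hN'.symm
  refine ⟨fun x hx => hY'S ▸ hx, hYN' ▸ dvd_rfl, ?_, ?_, ?_, ?_, hst', ?_⟩
  · rw [hN']
    exact not_p_dvd_lev hp hpM hSg'
  · rw [hN']
    exact mem_S0_of_dvd_lev hSgP hMS0 hSgS0
  · rw [hN']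
    exact mem_union_of_dvd_lev hSgP hMSmin
  · rw [hN']
    exact exactDvd_lev_of_mem_Smin hsqM hSminM hSg'
  · obtain ⟨b, hli, hspan, -⟩ := hst'
    refine ⟨b, hli, hspan, ?_, ?_⟩
    · intro ℓ hℓ hℓN hℓS hℓS0
      have hℓSg : ((⟨ℓ, hℓ⟩ : Nat.Primes) : ℕ) ∉ Sg' := fun h => hℓS0 (hSgS0 ℓ h)
      rw [lamAt_of_notMem lamf hℓSg, ← hY'χ ℓ hℓ hℓN hℓS]
      rfl
    · rw [hY'w, omegaCard_congr_level hYN' (lamAt lamf Sg'), hspan]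
      exact le_rfl

end Flat

section Grow

variable {𝒪 : Type} [CommRing 𝒪] [IsDomain 𝒪] [IsDiscreteValuationRing 𝒪]
  [IsAdicComplete (maximalIdeal 𝒪) 𝒪] [Finite (ResidueField 𝒪)] [CharZero 𝒪]
  {ρbar : ResidualGaloisRep (ResidueField 𝒪)} {p : ℕ} [hpF : Fact p.Prime]
  [Algebra (ZMod p) (ResidueField 𝒪)]
  {Smin : Finset ℕ} {d : ℕ}

/-- the two stage systems agree modulo `𝔪_𝒪` on the cutting set -/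
theorem lamAt_sub_mem_grow (lam lamf : Nat.Primes → 𝒪) (S0 : Finset ℕ)
    (hcong : ∀ l : Nat.Primes, (l : ℕ) ∉ (↑S0 : Set ℕ) → lamf l - lam l ∈ maximalIdeal 𝒪)
    (Sg' : Finset ℕ) (l : Nat.Primes) (hl : (l : ℕ) ∉ (↑S0 : Set ℕ) ∨ (l : ℕ) ∈ Sg') :
    lamAt lamf Sg' l - lamAt lam Sg' l ∈ maximalIdeal 𝒪 := by
  by_cases h : (l : ℕ) ∈ Sg'
  · rw [lamAt_of_mem lamf h, lamAt_of_mem lam h, sub_self]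
    exact Ideal.zero_mem _
  · rw [lamAt_of_notMem lamf h, lamAt_of_notMem lam h]
    exact hcong l (hl.resolve_right h)

set_option maxHeartbeats 4000000 in
/-- **(hgrow)** : the growth of `#Ω^{new}` along one step `Sg → insert q Sg` of the `p`-new chain,
Pkg-free, with the two flat lists and the strict-ordinary point discharged. -/
theorem omegaCardNew_grow {W : WeierstrassCurve ℤ}
    (hcard₁ : Nat.card (Submodule.torsionBy ℤ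
      ((W.map (Int.castRingHom ℚ))⁄(AlgebraicClosure ℚ)).Point p) = p ^ 2)
    (hker : GaloisFactorsThroughFiniteLevel
      (galoisRepModuleEnd (K := AlgebraicClosure ℚ) ℚ (W.map (Int.castRingHom ℚ)) p))
    (hΔ : W.Δ ≠ 0) (hirr : W.ModRepIsIrreducible p)
    (htrans : ∃ σ : (AlgebraicClosure ℚ ≃ₐ[ℚ] AlgebraicClosure ℚ),
      galoisRepModuleEnd (K := AlgebraicClosure ℚ) ℚ (W.map (Int.castRingHom ℚ)) p σ ≠ 1 ∧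
        (galoisRepModuleEnd (K := AlgebraicClosure ℚ) ℚ (W.map (Int.castRingHom ℚ)) p σ - 1) ^ 2
          = 0)
    (hρ : ρbar = (rb p W hcard₁ hker).baseChange (ResidueField 𝒪))
    (hd : 2 ≤ d) (hp2 : p ≠ 2) (hp𝒪 : (p : 𝒪) ∈ maximalIdeal 𝒪) {ϖ : 𝒪} (hϖ : Irreducible ϖ)
    (hpϖ : ∃ c : 𝒪, (p : 𝒪) = ϖ * c)
    {M : ℕ} [NeZero M] [NeZero (M * p)] (hpM : ¬ p ∣ M) (hsq : Squarefree (M * p))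
    (lam lamf : Nat.Primes → 𝒪)
    (hne : ∀ (F : Finset ℕ) (q : ℕ), q.Prime → ∃ l : Nat.Primes, (l : ℕ) ∉ F ∧
      (((l : ℕ) : ZMod q) = 1) ∧ IsUnit (lam l - (((l : ℕ) : 𝒪) + 1)))
    (hnef : ∀ (F : Finset ℕ) (q : ℕ), q.Prime → ∃ l : Nat.Primes, (l : ℕ) ∉ F ∧
      (((l : ℕ) : ZMod q) = 1) ∧ IsUnit (lamf l - (((l : ℕ) : 𝒪) + 1)))
    (hbase : EtaStageNew hpM 𝒪 lam d) (hu : lam (⟨p, hpF.out⟩ : Nat.Primes) ^ 2 = 1)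
    (hbasef : EtaStage M 𝒪 lamf d)
    (S0 : Finset ℕ) (hpS0 : p ∈ S0) (hMS0 : ∀ r : ℕ, r.Prime → r ∣ M * p → r ∈ S0)
    (hcong : ∀ l : Nat.Primes, (l : ℕ) ∉ (↑S0 : Set ℕ) → lamf l - lam l ∈ maximalIdeal 𝒪)
    (hnoR : ∀ b : Nat.Primes, (b : ℕ) ∣ M → NonOccAt 𝒪 S0 b lam)
    (hnof : ∀ b : Nat.Primes, (b : ℕ) ∣ M → NonOccAt 𝒪 S0 b lamf)
    (hlamW : ∀ l : Nat.Primes, (l : ℕ) ∉ S0 → W.IsGoodPrimeFor l → (l : ℕ) ≠ p →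
      lamf l - (((W.apOfModel l : ℤ)) : 𝒪) ∈ maximalIdeal 𝒪)
    (hpSmin : p ∈ Smin)
    (hmin : ∀ r : ℕ, r.Prime → r ≠ p → (r ∈ Smin ↔ ¬ ρbar.IsUnramifiedAt r))
    (hSminM : ∀ r ∈ Smin, r = p ∨ r ∣ M) (hMSmin : ∀ r : ℕ, r.Prime → r ∣ M → r ∈ Smin)
    (Sg : Finset ℕ) (hSg : ∀ x ∈ Sg, x.Prime ∧ ¬ x ∣ M * p ∧ x ≠ p)
    {q : ℕ} (hq : q.Prime) (hqS : q ∉ Sg) (hqM : ¬ q ∣ M * p) (hqp : q ≠ p)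
    (hSgS0 : ∀ x ∈ insert q Sg, x ∈ S0)
    -- the current strict-ordinary stage
    (Y : RTNum ρbar (condSO 𝒪 p Smin Sg) d) (hYN : Y.rt.N = M * p * ∏ x ∈ Sg, x ^ 2)
    (hYS : Y.rt.S = (↑S0 : Set ℕ))
    (hYχ : ∀ (ℓ : ℕ) (hℓ : ℓ.Prime) (hℓN : ¬ ℓ ∣ Y.rt.N) (hℓS : ℓ ∉ Y.rt.S),
      pointChar Y (heckeAlgebra.T hℓ hℓN hℓS) = lam (⟨ℓ, hℓ⟩ : Nat.Primes))
    -- the flat stage `Sg`
    (Y₂ : RTNum ρbar (condFL 𝒪 p Smin Sg) d) (hY₂N : Y₂.rt.N = M * ∏ x ∈ Sg, x ^ 2)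
    (hY₂S : Y₂.rt.S = (↑S0 : Set ℕ)) (hY₂w : Y₂.w = omegaCard Y₂.rt.N 𝒪 (lamAt lamf Sg))
    (hY₂χ : ∀ (ℓ : ℕ) (hℓ : ℓ.Prime) (hℓN : ¬ ℓ ∣ Y₂.rt.N) (hℓS : ℓ ∉ Y₂.rt.S),
      pointChar Y₂ (heckeAlgebra.T hℓ hℓN hℓS) = lamf (⟨ℓ, hℓ⟩ : Nat.Primes))
    -- the flat stage `insert q Sg`
    (Y₁ : RTNum ρbar (condFL 𝒪 p Smin (insert q Sg)) d)
    (hY₁N : Y₁.rt.N = M * ∏ x ∈ insert q Sg, x ^ 2)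
    (hY₁S : Y₁.rt.S = (↑S0 : Set ℕ))
    (hY₁w : Y₁.w = omegaCard Y₁.rt.N 𝒪 (lamAt lamf (insert q Sg)))
    (hY₁χ : ∀ (ℓ : ℕ) (hℓ : ℓ.Prime) (hℓN : ¬ ℓ ∣ Y₁.rt.N) (hℓS : ℓ ∉ Y₁.rt.S),
      pointChar Y₁ (heckeAlgebra.T hℓ hℓN hℓS) = lamf (⟨ℓ, hℓ⟩ : Nat.Primes))
    -- the two level literals
    {N₁ N₀ : ℕ} [NeZero N₁] [NeZero (N₁ * p)] [NeZero N₀] [NeZero (N₀ * p)]
    (hpN₁ : ¬ p ∣ N₁) (hpN₀ : ¬ p ∣ N₀) (hN₁ : N₁ = M * ∏ x ∈ Sg, x ^ 2)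
    (hN₀ : N₀ = M * ∏ x ∈ insert q Sg, x ^ 2) :
    omegaCardNew hpN₀ 𝒪 (lamAt lam (insert q Sg)) =
      omegaCardNew hpN₁ 𝒪 (lamAt lam Sg) *
        Nat.card (𝒪 ⧸ Ideal.span {(((q : ℕ) : 𝒪) - 1) *
          ((1 + ((q : ℕ) : 𝒪)) ^ 2 - lam (⟨q, hq⟩ : Nat.Primes) ^ 2)}) ^ d := by
  classical
  subst hρ
  have hp : p.Prime := hpF.out
  haveI hqF : Fact q.Prime := ⟨hq⟩
  have hd0 : d ≠ 0 := by omega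
  have hsqM : Squarefree M := hsq.of_mul_left
  -- the upper level literal
  have hN₀' : N₀ = N₁ * q * q := by
    rw [hN₀, hN₁]
    exact lev_insert' hqS
  subst hN₀'
  -- arithmetic of `Sg`, `q`
  have hSgP : ∀ x ∈ Sg, x.Prime := fun x hx => (hSg x hx).1
  have hSgM : ∀ x ∈ Sg, x.Prime ∧ ¬ x ∣ M ∧ x ≠ p := fun x hx =>
    ⟨(hSg x hx).1, fun h => (hSg x hx).2.1 (h.mul_right p), (hSg x hx).2.2⟩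
  have hqM' : ¬ q ∣ M := fun h => hqM (h.mul_right p)
  have hSgM' : ∀ x ∈ insert q Sg, x.Prime ∧ ¬ x ∣ M ∧ x ≠ p := hSg_insert hq hqM' hqp hSgM
  have hMS0' : ∀ r : ℕ, r.Prime → r ∣ M → r ∈ S0 := fun r hr h => hMS0 r hr (h.mul_right p)
  have hSgS0' : ∀ x ∈ Sg, x ∈ S0 := fun x hx => hSgS0 x (Finset.mem_insert_of_mem hx)
  have hqS0 : q ∈ S0 := hSgS0 q (Finset.mem_insert_self q Sg)
  have hqN : ¬ q ∣ N₁ := by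
    rw [hN₁]
    exact not_dvd_lev hSgP hq hqM' hqS
  have hqNp : ¬ q ∣ N₁ * p := by
    intro h
    rcases (Nat.Prime.dvd_mul hq).1 h with h | h
    · exact hqN h
    · exact hqp ((Nat.prime_dvd_prime_iff_eq hq hp).1 h)
  haveI : NeZero (N₁ * q) := ⟨Nat.mul_ne_zero (NeZero.ne N₁) hq.ne_zero⟩
  haveI : NeZero (N₁ * q * q) := ⟨Nat.mul_ne_zero (NeZero.ne (N₁ * q)) hq.ne_zero⟩
  haveI : NeZero (N₁ * p * q) := ⟨Nat.mul_ne_zero (NeZero.ne (N₁ * p)) hq.ne_zero⟩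
  haveI : NeZero (N₁ * p * q * q) := ⟨Nat.mul_ne_zero (NeZero.ne (N₁ * p * q)) hq.ne_zero⟩
  -- the cutting set
  have hZ : ∀ l : ℕ, l.Prime → l ∉ S0 → l ∈ ZSet S0 Sg :=
    fun l _ h => Or.inl (fun h' => h (Finset.mem_coe.mp h'))
  have hpZ : p ∉ ZSet S0 Sg := by
    rintro (h | h)
    · exact h (Finset.mem_coe.mpr hpS0)
    · exact (hSg p h).2.2 rfl
  have hqZ : q ∉ ZSet S0 Sg := by
    rintro (h | h)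
    · exact h (Finset.mem_coe.mpr hqS0)
    · exact hqS h
  have hZ₂ : ∀ l : ℕ, l ∈ ZSet S0 Sg ↔ (l ∉ (↑S0 : Set ℕ) ∨ l ∈ Sg) := fun l => Iff.rfl
  have hZ₁ : ∀ l : ℕ, l ∈ insert q (ZSet S0 Sg) ↔ (l ∉ (↑S0 : Set ℕ) ∨ l ∈ insert q Sg) := by
    intro l
    rw [Set.mem_insert_iff, Finset.mem_insert]
    constructor
    · rintro (h | h | h)
      · exact Or.inr (Or.inl h)
      · exact Or.inl h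
      · exact Or.inr (Or.inr h)
    · rintro (h | h | h)
      · exact Or.inr (Or.inl h)
      · exact Or.inl h
      · exact Or.inr (Or.inr h)
  have hq𝒪 : IsUnit ((q : ℕ) : 𝒪) :=
    Fermat.Agent.GE9.Stage.SupplyHold.isUnit_natCast_of_prime_ne hp hq hqp hp𝒪
  -- the non-Eisenstein prime
  obtain ⟨l, hlF, hlq, hla⟩ := hne (S0 ∪ (N₁ * p * q).primeFactors) q hq
  have hlS0 : (l : ℕ) ∉ S0 := fun h => hlF (Finset.mem_union_left _ h)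
  have hlZ : (l : ℕ) ∈ ZSet S0 Sg := hZ l l.2 hlS0
  have hl : ¬ (l : ℕ) ∣ N₁ * p * q := fun h => hlF (Finset.mem_union_right _
    (Nat.mem_primeFactors.mpr ⟨l.2, h, NeZero.ne _⟩))
  have hl' : ¬ (l : ℕ) ∣ N₁ * p := fun h => hl (h.mul_right q)
  have hlSg : (l : ℕ) ∉ Sg := fun h => hlS0 (hSgS0' l h)
  have ha : IsUnit (lamAt lam Sg l - (((l : ℕ) : 𝒪) + 1)) := by
    rw [lamAt_of_notMem lam hlSg]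
    exact hla
  -- the stage invariant at the level `N₁ p`, and `c_q ≠ 0`
  have hcAll : ∀ (x : ℕ) (hx : x.Prime), ¬ x ∣ M * p →
      (((x : ℕ) : 𝒪) - 1) * ((1 + ((x : ℕ) : 𝒪)) ^ 2 - lam (⟨x, hx⟩ : Nat.Primes) ^ 2) ≠ 0 :=
    fun x hx hxM => cq_ne_zero_of_etaStage lam hd0 hbase.etaStage x hx hxM
  have hst : EtaStageNew hpN₁ 𝒪 (lamAt lam Sg) d :=
    etaStageNew_lev hpM hp hp2 hϖ hpϖ lam hne hd hbase Sg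
      (fun x hx => ⟨(hSg x hx).1, (hSg x hx).2.1⟩)
      (fun x hx hxS => hcAll x hx (hSg x hxS).2.1) hpN₁ hN₁
  have hlamUp : lamUp q (lamAt lam Sg) = lamAt lam (insert q Sg) := (lamAt_insert lam Sg hq).symm
  have hcq : cq q (lamAt lam Sg) = (((q : ℕ) : 𝒪) - 1) *
      ((1 + ((q : ℕ) : 𝒪)) ^ 2 - lam (⟨q, hq⟩ : Nat.Primes) ^ 2) := by
    show (((q : ℕ) : 𝒪) - 1) * ((1 + ((q : ℕ) : 𝒪)) ^ 2 - lamAt lam Sg (qP q) ^ 2) = _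
    rw [lamAt_of_notMem lam (show ((qP q : Nat.Primes) : ℕ) ∉ Sg from hqS)]
  have hc : cq q (lamAt lam Sg) ≠ 0 := by
    rw [hcq]
    exact hcAll q hq hqM
  -- the flat stage `Sg`
  obtain ⟨hYS₂, hNN₂, -, hNS₂, hNT₂, hSminN₂, hst₂, b₂, hli₂, hspanE₂, heig₂, hw₂⟩ :=
    flat_easy hd hp2 hϖ hpϖ hpM hsqM lamf hnef hbasef S0 hMS0' hSminM hMSmin Sg hSgM hSgS0'
      Y₂ hY₂N hY₂S hY₂w hY₂χ hN₁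
  -- the flat stage `insert q Sg`
  have hN₀ : N₁ * q * q = M * ∏ x ∈ insert q Sg, x ^ 2 := hN₀
  obtain ⟨hYS₁, hNN₁, -, hNS₁, hNT₁, hSminN₁, hst₁, b₁, hli₁, hspanE₁, heig₁, hw₁⟩ :=
    flat_easy hd hp2 hϖ hpϖ hpM hsqM lamf hnef hbasef S0 hMS0' hSminM hMSmin (insert q Sg)
      hSgM' hSgS0 Y₁ hY₁N hY₁S hY₁w hY₁χ hN₀
  obtain ⟨i0, -⟩ : ∃ i0 : Fin d, True := ⟨⟨0, Nat.pos_of_ne_zero hd0⟩, trivial⟩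
  -- the residual characters
  have hx₂ : b₂ i0 ∈ eigenTensorO N₁ 𝒪 (lamAt lamf Sg) := by
    rw [← hspanE₂]
    exact subset_span ⟨i0, rfl⟩
  have hx₂0 : b₂ i0 ≠ 0 := hli₂.ne_zero i0
  have hx₁ : b₁ i0 ∈ eigenTensorO (N₁ * q * q) 𝒪 (lamAt lamf (insert q Sg)) := by
    rw [← hspanE₁]
    exact subset_span ⟨i0, rfl⟩
  have hx₁0 : b₁ i0 ≠ 0 := hli₁.ne_zero i0
  have hZq : ∀ l : ℕ, l.Prime → l ∉ S0 → l ∈ insert q (ZSet S0 Sg) :=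
    fun l hl hlS => Set.mem_insert_of_mem _ (hZ l hl hlS)
  haveI f₂ : Fact (LocHyp 𝒪 (thetaRes (iotaLam N₁ 𝒪 (↑S0 : Set ℕ)) (chiHom hx₂ hx₂0))
      (twZ (Z := ZSet S0 Sg) (N := N₁) (lamAt lamf Sg) S0)) :=
    ⟨locHyp_twZ S0 hNS₂ hZ hx₂ hx₂0⟩
  haveI f₁ : Fact (LocHyp 𝒪 (thetaRes (iotaLam (N₁ * q * q) 𝒪 (↑S0 : Set ℕ)) (chiHom hx₁ hx₁0))
      (twZ (Z := insert q (ZSet S0 Sg)) (N := N₁ * q * q) (lamAt lamf (insert q Sg)) S0)) :=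
    ⟨locHyp_twZ S0 hNS₁ hZq hx₁ hx₁0⟩
  -- OldQ at the flat stages
  have hold₂ := Fermat.Agent.GE9.PNew.Inst.HoldFlat.hold_flat hpM hsqM hp𝒪 lamf hd0 hbasef Sg S0 hN₁ hSgM hpS0
    hMS0' hSgS0' hnof hst₂ (ZSet S0 Sg) hZ₂
  have hold₁ := Fermat.Agent.GE9.PNew.Inst.HoldFlat.hold_flat hpM hsqM hp𝒪 lamf hd0 hbasef (insert q Sg) S0 hN₀
    hSgM' hpS0 hMS0' hSgS0 hnof hst₁ (insert q (ZSet S0 Sg)) hZ₁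
  -- the rank bounds
  have hram : ∀ b : ℕ, b.Prime → b ∣ M →
      ¬ ((rb p W hcard₁ hker).baseChange (ResidueField 𝒪)).IsUnramifiedAt b :=
    fun b hb hbM => (hmin b hb (fun h => hpM (h ▸ hbM))).1 (hMSmin b hb hbM)
  have hlamW' : ∀ (ℓ : ℕ) (hℓ : ℓ.Prime), ℓ ∉ S0 → W.IsGoodPrimeFor ℓ → ℓ ≠ p →
      residue 𝒪 (lamf (⟨ℓ, hℓ⟩ : Nat.Primes)) = ((W.apOfModel ℓ : ℤ) : ResidueField 𝒪) := by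
    intro ℓ hℓ hℓS hg hℓp
    have h := hlamW ⟨ℓ, hℓ⟩ hℓS hg hℓp
    rw [← residue_eq_zero_iff, map_sub, map_intCast, sub_eq_zero] at h
    exact h
  have hrank₂ := Fermat.Agent.GE9.PNew.Inst.FlatFields.hrank_flat_stage hcard₁ hker hΔ hirr htrans
    rfl hd hp𝒪 hpM hsqM lamf S0 hMS0' hmin hSminM hMSmin Sg hSgM hSgS0' hN₁ hst₂ (ZSet S0 Sg) rfl
    hlamW' (thetaRes (iotaLam N₁ 𝒪 (↑S0 : Set ℕ)) (chiHom hx₂ hx₂0))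
  have hrank₁ := Fermat.Agent.GE9.PNew.Inst.FlatFields.hrank_flat_stage hcard₁ hker hΔ hirr htrans
    rfl hd hp𝒪 hpM hsqM lamf S0 hMS0' hmin hSminM hMSmin (insert q Sg) hSgM' hSgS0 hN₀ hst₁
    (insert q (ZSet S0 Sg)) (Set.ext hZ₁) hlamW'
    (thetaRes (iotaLam (N₁ * q * q) 𝒪 (↑S0 : Set ℕ)) (chiHom hx₁ hx₁0))
  -- the cutting ideals
  have h𝔪₂ : mP 𝒪 (ZSet S0 Sg) (lamAt lamf Sg) = mP 𝒪 (ZSet S0 Sg) (lamUp q (lamAt lam Sg)) := by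
    refine mP_congr fun l hl => ?_
    rw [← lamUp_of_mem (ZSet S0 Sg) (lamAt lam Sg) hqZ l hl]
    exact lamAt_sub_mem_grow lam lamf S0 hcong Sg l hl
  have h𝔪₁ : mP 𝒪 (insert q (ZSet S0 Sg)) (lamAt lamf (insert q Sg))
      = mP 𝒪 (insert q (ZSet S0 Sg)) (lamUp q (lamAt lam Sg)) := by
    rw [hlamUp]
    refine mP_congr fun l hl => ?_
    exact lamAt_sub_mem_grow lam lamf S0 hcong (insert q Sg) l ((hZ₁ l).1 hl)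
  -- the strict-ordinary point
  have hSso : ∀ l : ℕ, l.Prime → l ∉ S0 → ¬ l ∣ Y.rt.N ∧ l ∉ Y.rt.S := by
    intro l hl hlS
    refine ⟨fun h => hlS ?_, fun h => hlS (Finset.mem_coe.mp (hYS ▸ h))⟩
    rw [hYN] at h
    exact mem_S0_of_dvd_lev hSgP hMS0 hSgS0' l hl h
  have hlam : ∀ l : TIdx S0, Y.πO (Y.rt.π (heckeAlgebra.T l.2.1 (hSso l l.2.1 l.2.2).1
      (hSso l l.2.1 l.2.2).2)) = lamUp q (lamAt lam Sg) (tPrime S0 l) := by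
    intro l
    rw [hlamUp, lamAt_of_notMem lam (show ((tPrime S0 l : Nat.Primes) : ℕ) ∉ insert q Sg from
      fun h => l.2.2 (hSgS0 l.1 h))]
    exact hYχ l.1 l.2.1 _ _
  have key := omegaCardNew_step_loc (Sg := Sg) (N := N₁) (q := q) hd hpN₁ hqN hqNp hpN₀ S0
    (ZSet S0 Sg) hZ hpZ hqZ hp2 hp𝒪 hϖ hpϖ hq𝒪 (lamAt lam Sg) l l hlZ hlZ hl hlq hl' ha ha hst hc
    Y₁ Y₂ Y.rt Y.πO hpSmin hmin hpS0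
    hYS₁ hNN₁ hNS₁ hNT₁ hSminN₁ (lamAt lamf (insert q Sg)) h𝔪₁
    (thetaRes (iotaLam (N₁ * q * q) 𝒪 (↑S0 : Set ℕ)) (chiHom hx₁ hx₁0)) b₁ hli₁ hspanE₁ hold₁
    heig₁ hw₁ hrank₁
    hYS₂ hNN₂ hNS₂ hNT₂ hSminN₂ (lamAt lamf Sg) h𝔪₂
    (thetaRes (iotaLam N₁ 𝒪 (↑S0 : Set ℕ)) (chiHom hx₂ hx₂0)) b₂ hli₂ hspanE₂ hold₂
    heig₂ hw₂ hrank₂
    hSso hlam
  have key2 := key.2
  rw [hcq] at key2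
  rw [← hlamUp]
  exact key2

end Grow

end Fermat.Agent.GE9.PNew.Inst.GrowNew

end
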