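/-
GATE-E / RISK-4, instance layer R4-I, ETA-BASE-NEW (helper2): **the ETA fields of the `p`-new base
record on ANY model `e : L ≃ₗ[O] ↥(KLoc hpN Z lam)`** (e.g. the Hom-side kernel `ker (f₁, f₂)` of
E6-new with `e := eK`, helper19 `BaseKer/EquivK`): `BaseNewFinal.new_fields_KLoc_pnew` transported
along `e`, pairing `B := pullBW (KLoc.subtype ∘ₗ e)`.
-/
import Mathlib
import Fermat.Agent.GE9.PNew.Inst.BaseNewFinal

set_option autoImplicit false
set_option linter.unusedSectionVars false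
set_option linter.style.haveILetI false

open scoped TensorProduct

namespace Fermat.Agent.GE9.PNew.Inst.BaseNewEquiv

open IsLocalRing Fermat.Agent.GJ.J2.Lat Fermat.Agent.GE9.Fricke
  Fermat.Agent.GB.B3.Loc Fermat.Agent.GE9.Eta.Loc
  Fermat.Agent.GE9.Eta Fermat.Agent.GE9.Eta.Mod
  Fermat.Agent.GE9.Mult1 Fermat.Agent.GE9.NumCrit Fermat.Agent.GE9.NumCrit.ModForm
  Fermat.Agent.GE9 Fermat.Agent.GE9.Eta.Base
  Fermat.Agent.GE9.PNew.Inst Fermat.Agent.GE9.PNew.Inst.BaseNewFields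
  Fermat.Agent.GE9.PNew.Inst.BaseNewFinal
  Fermat.Agent.GE9.PNew.Inst.EigenNew Fermat.Agent.GE9.OldQ.Consumer Submodule

variable {O : Type} [CommRing O] [IsDomain O] [CharZero O] [IsDiscreteValuationRing O]
  [IsAdicComplete (maximalIdeal O) O]
  {N p : ℕ} [hpF : Fact p.Prime] [NeZero N] [NeZero (N * p)] (hpN : ¬ p ∣ N)
  {T' : Type} [CommRing T'] [Algebra O T'] [NoZeroSMulDivisors O T']
  (Z : Set ℕ) (lam : Nat.Primes → O)
  {L : Type} [AddCommGroup L] [Module O L] [Module T' L] [IsScalarTower O T' L]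

/-- the embedding of a model of `K_∅` into `O ⊗ Lam (N p)`. -/
noncomputable def iotaK (e : L ≃ₗ[O] ↥(KLoc hpN Z lam)) : L →ₗ[O] O ⊗[ℤ] Lam (N * p) :=
  (KLoc hpN Z lam).subtype ∘ₗ (e : L →ₗ[O] ↥(KLoc hpN Z lam))

@[simp] theorem iotaK_apply (e : L ≃ₗ[O] ↥(KLoc hpN Z lam)) (x : L) :
    iotaK hpN Z lam e x = ((e x : ↥(KLoc hpN Z lam)) : O ⊗[ℤ] Lam (N * p)) := rfl

/-- **the ETA fields of the `p`-new base record on a model of `K_∅`.** -/
theorem new_fields_equiv (hr : BetaPEquiv hpN Z)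
    [Module.Free T' L] [Nontrivial L] (e : L ≃ₗ[O] ↥(KLoc hpN Z lam))
    (πO : T' →ₐ[O] O) (hη : etaIdeal πO ≠ ⊥)
    {κ : Type*} (g : κ → T') (hG : Algebra.adjoin O (Set.range g) = ⊤) (pl : κ → Nat.Primes)
    (hplZ : ∀ k, ((pl k : Nat.Primes) : ℕ) ∈ Z)
    (hact : ∀ k (x : L), ((e (g k • x) : ↥(KLoc hpN Z lam)) : O ⊗[ℤ] Lam (N * p))
        = (latT (N * p) (pl k)).baseChange O ((e x : ↥(KLoc hpN Z lam)) : O ⊗[ℤ] Lam (N * p)))
    (hlam : ∀ k, πO (g k) = lam (pl k))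
    (S : Finset ℕ) (hplS : ∀ l : Nat.Primes, (l : ℕ) ∉ S → ∃ k, pl k = l)
    (y₁ : O ⊗[ℤ] Lam (N * p)) (hy₁ : y₁ ≠ 0)
    (hy₁e : ∀ l : Nat.Primes, (latT (N * p) l).baseChange O y₁ = lam l • y₁)
    (hu : lam (⟨p, hpF.out⟩ : Nat.Primes) ^ 2 = 1)
    (hbad : ∀ b : Nat.Primes, (b : ℕ) ∈ S → (b : ℕ) ≠ p →
      ¬ (b : ℕ) ∣ N ∨ ((b : ℕ) ∣ N ∧ ¬ (b : ℕ) ^ 2 ∣ N ∧ NonOccAt O S b lam)) :
    (∀ (t : T') (x y : L),
      pullBW (iotaK hpN Z lam e) (t • x) y = pullBW (iotaK hpN Z lam e) x (t • y)) ∧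
    (∀ w : L, (∀ z, pullBW (iotaK hpN Z lam e) z w = 0) → w = 0) ∧
    ∃ b : Fin 2 → L, LinearIndependent O b ∧
      span O (Set.range b) = torPO πO L ∧
      Nat.card (CongMod (pullBW (iotaK hpN Z lam e)) (span O (Set.range b)))
        = omegaCardNew hpN O lam ∧
      Nat.card (CongMod (pullBW (iotaK hpN Z lam e)) (span O (Set.range b)))
        = Ind.etaCard πO ^ 2 ∧
      EtaStageNew hpN O lam 2 := by
  have hfinX := finite_tensor_lam (O := O) (N * p)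
  haveI : IsNoetherian O (O ⊗[ℤ] Lam (N * p)) := isNoetherian_of_isNoetherianRing_of_finite O _
  haveI : Module.Finite O ↥(KLoc hpN Z lam) := inferInstance
  haveI : Module.Finite O L := Module.Finite.equiv e.symm
  obtain ⟨s₀, hs₀, hidem, hloc, haway⟩ :=
    parts_eq O (L := O ⊗[ℤ] Lam (N * p)) (mP O Z lam)
  refine new_fields' hpN πO hη (iotaK hpN Z lam e)
    (fun a b hab => e.injective (Subtype.ext hab))
    (fun y => (e y).2.1)
    (KNew hpN O ⊓ (awayPart (mP O Z lam) (O ⊗[ℤ] Lam (N * p))).restrictScalars O)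
    inf_le_left ?_ ?_ g hG pl ?_ hact lam hlam ?_ ?_
  · -- `htop`
    intro x hx
    have h1 : s₀ • x ∈ KLoc hpN Z lam := by
      refine ⟨smulP_mem_KNew hpN hr s₀ hx, ?_⟩
      show s₀ • x ∈ locPart (mP O Z lam) (O ⊗[ℤ] Lam (N * p))
      rw [hloc]
      exact ⟨x, rfl⟩
    have h2 : x - s₀ • x ∈ KNew hpN O ⊓
        (awayPart (mP O Z lam) (O ⊗[ℤ] Lam (N * p))).restrictScalars O := by
      refine ⟨Submodule.sub_mem _ hx (smulP_mem_KNew hpN hr s₀ hx), ?_⟩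
      show x - s₀ • x ∈ awayPart (mP O Z lam) (O ⊗[ℤ] Lam (N * p))
      rw [haway, LinearMap.mem_ker]
      show s₀ • (x - s₀ • x) = 0
      rw [smul_sub, hidem, sub_self]
    refine Submodule.mem_sup.2 ⟨s₀ • x, ⟨e.symm ⟨s₀ • x, h1⟩, ?_⟩, x - s₀ • x, h2, by abel⟩
    rw [iotaK_apply, LinearEquiv.apply_symm_apply]
  · -- `horth`
    intro x y hy
    exact (apply_eq_zero_of_mem_locPart_of_mem_awayPart (mP O Z lam) (BW (N * p) O)
      (fun a u v => BW_smulP a u v) (e x).2.2 hy.2).1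
  · -- `hstab`
    intro k x hx
    rw [← xP_smul (pl k) (hplZ k)]
    exact smulP_mem_KNew hpN hr _ hx
  · -- `hin`
    intro x hx
    have hxK : x ∈ KLoc hpN Z lam :=
      ⟨eigenTensorO_le_KNew hpN lam hu hx, eigenTensorO_le_locPart_mP (fun _ _ => rfl) hx⟩
    refine ⟨e.symm ⟨x, hxK⟩, ?_⟩
    rw [iotaK_apply, LinearEquiv.apply_symm_apply]
  · -- `hold`
    intro x hx
    refine hold_base_pnew hpN lam S y₁ hy₁ hy₁e hu hbad _ fun l hl => ?_
    obtain ⟨k, rfl⟩ := hplS l hl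
    exact hx k

end Fermat.Agent.GE9.PNew.Inst.BaseNewEquiv
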