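/-
GATE-E (S59) / RISK-4 (S3-final) leaf (2) (helper31): **the rank binder `hrankᵢ` (`d = 2`) of a flat
stage `Sg'` at its target module** `↥(locPart (mP 𝒪 Z' (lamAt lamf Sg')) (𝒪 ⊗ Lam N'))`, header =
helper37's SPLIT v2 — `FLStageRank.hrank_locPart` (helper81's `RankTQ.hrank_TQ`) with `hU`, `hbad` and
the instance binders discharged from the flat bundle facts.

* `flat_hrank` : any `θ` with `Fact (LocHyp 𝒪 θ (twZ …))` and `θ (T_ℓ) = lam' ℓ` mod `𝔪_𝒪`;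
* `flat_hrank_all` : the same for EVERY `θ` (`θ` is a phantom argument of `TQ`), no `Fact`/`hθ`
  binder (the residual character of the eigen-sublattice is used inside).
-/
import Mathlib
import Fermat.Agent.GE9.PNew.Inst.FlatFields

set_option autoImplicit false
set_option linter.unusedSectionVars false
set_option linter.unusedVariables false
set_option linter.style.haveILetI false

noncomputable section

namespace Fermat.Agent.GE9.PNew.Inst.FlatRank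

open TensorProduct IsLocalRing Submodule CuspForm
open WeierstrassCurve WeierstrassCurve.Affine.Point
open scoped WeierstrassCurve.Affine
open Fermat.Agent.GJ.J2.Lat Fermat.Agent.GJ.J2.LatAct Fermat.Agent.GB.B3.Loc
  Fermat.Agent.GB.Setup.RhoBar
  Fermat.Agent.GB.B4.Datum.ImageRing Fermat.Agent.GB.B4.Datum.Carrier
  Fermat.Agent.GE9.Eta Fermat.Agent.GE9.Eta.Mod Fermat.Agent.GE9.Eta.Chain
  Fermat.Agent.GE9.Mult1 Fermat.Agent.GE.Engine.LevArith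
  Fermat.Agent.GE9.Stage.CarrierLam Fermat.Agent.GE9.Stage.CarrierAbs
  Fermat.Agent.GE9.PNew.Inst Fermat.Agent.GE9.PNew.Inst.FormLoc
  Fermat.Agent.GE9.PNew.Inst.FLStageInst Fermat.Agent.GE9.PNew.Inst.FLStageRank
  Fermat.Agent.GE9.PNew.Inst.FlatFields

variable {𝒪 : Type} [CommRing 𝒪] [IsDomain 𝒪] [IsDiscreteValuationRing 𝒪]
  [IsAdicComplete (maximalIdeal 𝒪) 𝒪] [Finite (ResidueField 𝒪)] [CharZero 𝒪]
  {p : ℕ} [Fact p.Prime]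

set_option maxHeartbeats 1000000 in
/-- **`hrankᵢ` (`d = 2`) of a flat stage**, helper37's header. -/
theorem flat_hrank [Algebra (ZMod p) (ResidueField 𝒪)] {W : WeierstrassCurve ℤ}
    (hcard₁ : Nat.card (Submodule.torsionBy ℤ
      ((W.map (Int.castRingHom ℚ))⁄(AlgebraicClosure ℚ)).Point p) = p ^ 2)
    (hker : GaloisFactorsThroughFiniteLevel
      (galoisRepModuleEnd (K := AlgebraicClosure ℚ) ℚ (W.map (Int.castRingHom ℚ)) p))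
    (hΔ : W.Δ ≠ 0) (hirr : W.ModRepIsIrreducible p)
    (htrans : ∃ σ : (AlgebraicClosure ℚ ≃ₐ[ℚ] AlgebraicClosure ℚ),
      galoisRepModuleEnd (K := AlgebraicClosure ℚ) ℚ (W.map (Int.castRingHom ℚ)) p σ ≠ 1 ∧
        (galoisRepModuleEnd (K := AlgebraicClosure ℚ) ℚ (W.map (Int.castRingHom ℚ)) p σ - 1) ^ 2
          = 0)
    {M N' : ℕ} [NeZero M] [NeZero N'] (hpM : ¬ p ∣ M) (hsqM : Squarefree M)
    (hp𝒪 : (p : 𝒪) ∈ maximalIdeal 𝒪) (lamf : Nat.Primes → 𝒪) {d : ℕ} (hd : d ≠ 0)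
    (Sg' S0 : Finset ℕ) (hN' : N' = M * ∏ x ∈ Sg', x ^ 2)
    (hSg' : ∀ x ∈ Sg', x.Prime ∧ ¬ x ∣ M ∧ x ≠ p)
    (hMS0 : ∀ r : ℕ, r.Prime → r ∣ M → r ∈ S0) (hSgS0 : ∀ x ∈ Sg', x ∈ S0)
    (hram : ∀ b : ℕ, b.Prime → b ∣ M →
      ¬ ((rb p W hcard₁ hker).baseChange (ResidueField 𝒪)).IsUnramifiedAt b)
    (hst' : EtaStage N' 𝒪 (lamAt lamf Sg') d)
    (Z' : Set ℕ) (hZ' : ∀ l : ℕ, l ∈ Z' ↔ (l ∉ (↑S0 : Set ℕ) ∨ l ∈ Sg'))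
    (hlamW : ∀ l : Nat.Primes, (l : ℕ) ∉ S0 → W.IsGoodPrimeFor l → (l : ℕ) ≠ p →
      lamf l - (((W.apOfModel l : ℤ)) : 𝒪) ∈ maximalIdeal 𝒪)
    (θ : ↥(heckeAlgebra N' 2 (↑S0 : Set ℕ)) →+* ResidueField 𝒪)
    [Fact (LocHyp 𝒪 θ (twZ (Z := Z') (N := N') (lamAt lamf Sg') S0))]
    (hθ : ∀ (ℓ : ℕ) (hℓ : ℓ.Prime) (hℓN : ¬ ℓ ∣ N') (hℓS : ℓ ∉ (↑S0 : Set ℕ)),
      θ (heckeAlgebra.T hℓ hℓN hℓS) = residue 𝒪 (lamAt lamf Sg' (⟨ℓ, hℓ⟩ : Nat.Primes))) :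
    Module.finrank 𝒪 ↥(locPart (mP 𝒪 Z' (lamAt lamf Sg')) (𝒪 ⊗[ℤ] Lam N')) ≤
      2 * Module.finrank 𝒪 (TQ 𝒪 θ (twZ (Z := Z') (N := N') (lamAt lamf Sg') S0)) := by
  classical
  have hp : p.Prime := Fact.out
  have hSgP : ∀ x ∈ Sg', x.Prime := fun x hx => (hSg' x hx).1
  have hNS : ∀ r : ℕ, r.Prime → r ∣ N' → r ∈ S0 := by
    intro r hr hrN
    rw [hN'] at hrN
    exact mem_S0_of_dvd_lev hSgP hMS0 hSgS0 r hr hrN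
  obtain ⟨b, hli, hspanE, -⟩ := hst'
  obtain ⟨i0, -⟩ : ∃ i0 : Fin d, True := ⟨⟨0, Nat.pos_of_ne_zero hd⟩, trivial⟩
  have hx0 : b i0 ≠ 0 := hli.ne_zero i0
  have hx : b i0 ∈ eigenTensorO N' 𝒪 (lamAt lamf Sg') := by
    rw [← hspanE]
    exact subset_span ⟨i0, rfl⟩
  have hZSg : ∀ x ∈ Sg', x ∈ Z' := fun x hxS => (hZ' x).mpr (Or.inr hxS)
  have hSgsub : Sg' ⊆ S0 := fun x hx => hSgS0 x hx
  haveI : Module.Finite 𝒪 ↥(locPart (mP 𝒪 Z' (lamAt lamf Sg')) (𝒪 ⊗[ℤ] Lam N')) :=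
    finite_locPartZ Z' (lamAt lamf Sg')
  haveI : Module.Free 𝒪 ↥(locPart (mP 𝒪 Z' (lamAt lamf Sg')) (𝒪 ⊗[ℤ] Lam N')) :=
    free_locPartZ Z' (lamAt lamf Sg')
  haveI : Nontrivial ↥(locPart (mP 𝒪 Z' (lamAt lamf Sg')) (𝒪 ⊗[ℤ] Lam N')) :=
    nontrivial_locPartZ (eigenTensorO_le_locPart_mP (fun _ _ => rfl) hx) hx0
  have hθ' : ∀ (ℓ : ℕ) (hℓ : ℓ.Prime) (hℓN : ¬ ℓ ∣ N') (hℓS : ℓ ∉ (↑S0 : Set ℕ)),
      W.IsGoodPrimeFor ℓ → ℓ ≠ p →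
        θ (heckeAlgebra.T hℓ hℓN hℓS) = ((W.apOfModel ℓ : ℤ) : ResidueField 𝒪) := by
    intro ℓ hℓ hℓN hℓS hg hℓp
    have hℓS0 : ℓ ∉ S0 := fun h => hℓS (Finset.mem_coe.mpr h)
    have hℓSg : ((⟨ℓ, hℓ⟩ : Nat.Primes) : ℕ) ∉ Sg' := fun h => hℓS0 (hSgS0 _ h)
    rw [hθ ℓ hℓ hℓN hℓS, lamAt_of_notMem lamf hℓSg]
    have h1 := hlamW (⟨ℓ, hℓ⟩ : Nat.Primes) hℓS0 hg hℓp
    have h2 : residue 𝒪 (lamf (⟨ℓ, hℓ⟩ : Nat.Primes) - (((W.apOfModel ℓ : ℤ)) : 𝒪)) = 0 :=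
      (residue_eq_zero_iff _).mpr h1
    rw [map_sub, sub_eq_zero, map_intCast] at h2
    exact h2
  have hU : ∀ q : Nat.Primes, (q : ℕ) ∈ Sg' →
      ∀ x ∈ locPart (mP 𝒪 Z' (lamAt lamf Sg')) (𝒪 ⊗[ℤ] Lam N'),
        (latT N' q).baseChange 𝒪 x = 0 :=
    hU_locPart hp𝒪 lamf Sg' hSg' hN' Z' hZSg
  have hbad : ∀ b : Nat.Primes, (b : ℕ) ∈ S0 \ Sg' →
      ¬ (b : ℕ) ∣ N' ∨ ((b : ℕ) ∣ N' ∧ ¬ (b : ℕ) ^ 2 ∣ N' ∧ (b : ℕ) ≠ p ∧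
        ¬ ((rb p W hcard₁ hker).baseChange (ResidueField 𝒪)).IsUnramifiedAt b) := by
    intro b hb
    have hbS : (b : ℕ) ∉ Sg' := (Finset.mem_sdiff.mp hb).2
    by_cases hbN : (b : ℕ) ∣ N'
    · right
      have hbM : (b : ℕ) ∣ M := by
        have h1 := hbN
        rw [hN'] at h1
        exact ((prime_dvd_lev_iff hSgP b.2).mp h1).resolve_right hbS
      have hbp : (b : ℕ) ≠ p := fun h => hpM (h ▸ hbM)
      refine ⟨hbN, ?_, hbp, hram b b.2 hbM⟩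
      rw [hN']
      exact not_sq_dvd_lev_of_notMem hsqM hSgP b.2 hbS
    · exact Or.inl hbN
  have key := hrank_locPart hcard₁ hker hΔ hirr htrans (ResidueField 𝒪) Z'
    (lamAt lamf Sg') S0 Sg' hSgsub hNS θ hp𝒪 hθ' hU hbad
  exact key

set_option maxHeartbeats 1000000 in
/-- **`hrankᵢ` (`d = 2`) of a flat stage for every `θ`** (`θ` is a phantom argument of `TQ`). -/
theorem flat_hrank_all [Algebra (ZMod p) (ResidueField 𝒪)] {W : WeierstrassCurve ℤ}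
    (hcard₁ : Nat.card (Submodule.torsionBy ℤ
      ((W.map (Int.castRingHom ℚ))⁄(AlgebraicClosure ℚ)).Point p) = p ^ 2)
    (hker : GaloisFactorsThroughFiniteLevel
      (galoisRepModuleEnd (K := AlgebraicClosure ℚ) ℚ (W.map (Int.castRingHom ℚ)) p))
    (hΔ : W.Δ ≠ 0) (hirr : W.ModRepIsIrreducible p)
    (htrans : ∃ σ : (AlgebraicClosure ℚ ≃ₐ[ℚ] AlgebraicClosure ℚ),
      galoisRepModuleEnd (K := AlgebraicClosure ℚ) ℚ (W.map (Int.castRingHom ℚ)) p σ ≠ 1 ∧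
        (galoisRepModuleEnd (K := AlgebraicClosure ℚ) ℚ (W.map (Int.castRingHom ℚ)) p σ - 1) ^ 2
          = 0)
    {M N' : ℕ} [NeZero M] [NeZero N'] (hpM : ¬ p ∣ M) (hsqM : Squarefree M)
    (hp𝒪 : (p : 𝒪) ∈ maximalIdeal 𝒪) (lamf : Nat.Primes → 𝒪) {d : ℕ} (hd : d ≠ 0)
    (Sg' S0 : Finset ℕ) (hN' : N' = M * ∏ x ∈ Sg', x ^ 2)
    (hSg' : ∀ x ∈ Sg', x.Prime ∧ ¬ x ∣ M ∧ x ≠ p)
    (hMS0 : ∀ r : ℕ, r.Prime → r ∣ M → r ∈ S0) (hSgS0 : ∀ x ∈ Sg', x ∈ S0)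
    (hram : ∀ b : ℕ, b.Prime → b ∣ M →
      ¬ ((rb p W hcard₁ hker).baseChange (ResidueField 𝒪)).IsUnramifiedAt b)
    (hst' : EtaStage N' 𝒪 (lamAt lamf Sg') d)
    (Z' : Set ℕ) (hZ' : ∀ l : ℕ, l ∈ Z' ↔ (l ∉ (↑S0 : Set ℕ) ∨ l ∈ Sg'))
    (hlamW : ∀ l : Nat.Primes, (l : ℕ) ∉ S0 → W.IsGoodPrimeFor l → (l : ℕ) ≠ p →
      lamf l - (((W.apOfModel l : ℤ)) : 𝒪) ∈ maximalIdeal 𝒪)
    (θ : ↥(heckeAlgebra N' 2 (↑S0 : Set ℕ)) →+* ResidueField 𝒪) :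
    Module.finrank 𝒪 ↥(locPart (mP 𝒪 Z' (lamAt lamf Sg')) (𝒪 ⊗[ℤ] Lam N')) ≤
      2 * Module.finrank 𝒪 (TQ 𝒪 θ (twZ (Z := Z') (N := N') (lamAt lamf Sg') S0)) := by
  classical
  have hSgP : ∀ x ∈ Sg', x.Prime := fun x hx => (hSg' x hx).1
  have hNS : ∀ r : ℕ, r.Prime → r ∣ N' → r ∈ S0 := by
    intro r hr hrN
    rw [hN'] at hrN
    exact mem_S0_of_dvd_lev hSgP hMS0 hSgS0 r hr hrN
  obtain ⟨b, hli, hspanE, hdet⟩ := id hst'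
  obtain ⟨i0, -⟩ : ∃ i0 : Fin d, True := ⟨⟨0, Nat.pos_of_ne_zero hd⟩, trivial⟩
  have hx0 : b i0 ≠ 0 := hli.ne_zero i0
  have hx : b i0 ∈ eigenTensorO N' 𝒪 (lamAt lamf Sg') := by
    rw [← hspanE]
    exact subset_span ⟨i0, rfl⟩
  have hZ : ∀ l : ℕ, l.Prime → l ∉ S0 → l ∈ Z' :=
    fun l _ hl => (hZ' l).mpr (Or.inl (fun h => hl (Finset.mem_coe.mp h)))
  haveI hF : Fact (LocHyp 𝒪 (thetaRes (iotaLam N' 𝒪 (↑S0 : Set ℕ)) (chiHom hx hx0))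
      (twZ (Z := Z') (N := N') (lamAt lamf Sg') S0)) := ⟨locHyp_twZ S0 hNS hZ hx hx0⟩
  have key := flat_hrank hcard₁ hker hΔ hirr htrans hpM hsqM hp𝒪 lamf hd Sg' S0 hN' hSg'
    hMS0 hSgS0 hram hst' Z' hZ' hlamW
    (thetaRes (iotaLam N' 𝒪 (↑S0 : Set ℕ)) (chiHom hx hx0))
    (fun ℓ hℓ hℓN hℓS => thetaRes_T S0 hx hx0 hℓ hℓN hℓS)
  have e : Module.finrank 𝒪 (TQ 𝒪 θ (twZ (Z := Z') (N := N') (lamAt lamf Sg') S0))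
      = Module.finrank 𝒪 (TQ 𝒪 (thetaRes (iotaLam N' 𝒪 (↑S0 : Set ℕ)) (chiHom hx hx0))
        (twZ (Z := Z') (N := N') (lamAt lamf Sg') S0)) := rfl
  rw [e]
  exact key

end Fermat.Agent.GE9.PNew.Inst.FlatRank

end
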