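/-
GATE-E (S59) / RISK-4 (S3-final) (helper31): **ALL per-stage binders of
`Inst/StepNewLoc.card_congMod_ker_growth_of_locStages` at a stage `Sg'` of the flat engine, in
helper37's binder conventions (SPLIT v2)**: cutting set `Z'` with
`hZ' : ∀ l, l ∈ Z' ↔ (l ∉ ↑S0 ∨ l ∈ Sg')`, `hlamW` in the ideal form
`lamf l - a_l(W) ∈ 𝔪_𝒪`, `hρ : ρbar = (rb p W hcard₁ hker).baseChange (ResidueField 𝒪)`.
One call of `FlatFields.flat_fields_core` with `hrank := FlatRank.flat_hrank_all`.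
-/
import Mathlib
import Fermat.Agent.GE9.PNew.Inst.FlatRank

set_option autoImplicit false
set_option linter.unusedSectionVars false
set_option linter.unusedVariables false
set_option linter.style.haveILetI false

noncomputable section

namespace Fermat.Agent.GE9.PNew.Inst.FlatAll

open TensorProduct IsLocalRing Submodule CuspForm
open WeierstrassCurve WeierstrassCurve.Affine.Point
open scoped WeierstrassCurve.Affine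
open Fermat.Agent.GJ.J2.Lat Fermat.Agent.GJ.J2.LatAct Fermat.Agent.GB.B3.Loc
  Fermat.Agent.GB.Setup.RhoBar
  Fermat.Agent.GB.B4.Datum.ImageRing Fermat.Agent.GB.B4.Datum.Carrier
  Fermat.Agent.GE.Graph Fermat.Agent.GE9.Ind Fermat.Agent.GE9.Asm Fermat.Agent.GE9.NumCrit
  Fermat.Agent.GE9.Eta Fermat.Agent.GE9.Eta.Mod Fermat.Agent.GE9.Eta.Chain
  Fermat.Agent.GE9.Mult1 Fermat.Agent.GE.Engine.LevArith
  Fermat.Agent.GE9.Stage.CarrierLam Fermat.Agent.GE9.Stage.CarrierAbs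
  Fermat.Agent.GE9.OldQ.Consumer
  Fermat.Agent.GE9.PNew.Inst Fermat.Agent.GE9.PNew.Inst.FormLoc
  Fermat.Agent.GE9.PNew.Inst.FLStageInst Fermat.Agent.GE9.PNew.Inst.FLStageRank
  Fermat.Agent.GE9.PNew.Inst.FlatFields Fermat.Agent.GE9.PNew.Inst.FlatRank

variable {𝒪 : Type} [CommRing 𝒪] [IsDomain 𝒪] [IsDiscreteValuationRing 𝒪]
  [IsAdicComplete (maximalIdeal 𝒪) 𝒪] [Finite (ResidueField 𝒪)] [CharZero 𝒪]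
  {p : ℕ} [Fact p.Prime] [Algebra (ZMod p) (ResidueField 𝒪)]
  {Smin : Finset ℕ} {d : ℕ}

set_option maxHeartbeats 1000000 in
/-- **all per-stage binders of `StepNewLoc` at a flat stage**, helper37's conventions. -/
theorem flat_all {W : WeierstrassCurve ℤ}
    (hcard₁ : Nat.card (Submodule.torsionBy ℤ
      ((W.map (Int.castRingHom ℚ))⁄(AlgebraicClosure ℚ)).Point p) = p ^ 2)
    (hker : GaloisFactorsThroughFiniteLevel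
      (galoisRepModuleEnd (K := AlgebraicClosure ℚ) ℚ (W.map (Int.castRingHom ℚ)) p))
    (hΔ : W.Δ ≠ 0) (hirr : W.ModRepIsIrreducible p)
    (htrans : ∃ σ : (AlgebraicClosure ℚ ≃ₐ[ℚ] AlgebraicClosure ℚ),
      galoisRepModuleEnd (K := AlgebraicClosure ℚ) ℚ (W.map (Int.castRingHom ℚ)) p σ ≠ 1 ∧
        (galoisRepModuleEnd (K := AlgebraicClosure ℚ) ℚ (W.map (Int.castRingHom ℚ)) p σ - 1) ^ 2
          = 0)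
    {ρbar : ResidualGaloisRep (ResidueField 𝒪)}
    (hρ : ρbar = (rb p W hcard₁ hker).baseChange (ResidueField 𝒪))
    (hd : 2 ≤ d) (hp2 : p ≠ 2) (hp𝒪 : (p : 𝒪) ∈ maximalIdeal 𝒪)
    {ϖ : 𝒪} (hϖ : Irreducible ϖ) (hpϖ : ∃ c : 𝒪, (p : 𝒪) = ϖ * c)
    {M : ℕ} [NeZero M] (hpM : ¬ p ∣ M) (hsqM : Squarefree M) (lamf : Nat.Primes → 𝒪)
    (hnef : ∀ (F : Finset ℕ) (q : ℕ), q.Prime → ∃ l : Nat.Primes, (l : ℕ) ∉ F ∧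
      (((l : ℕ) : ZMod q) = 1) ∧ IsUnit (lamf l - (((l : ℕ) : 𝒪) + 1)))
    (hbasef : EtaStage M 𝒪 lamf d)
    (S0 : Finset ℕ) (hpS0 : p ∈ S0) (hMS0 : ∀ r : ℕ, r.Prime → r ∣ M → r ∈ S0)
    (hnof : ∀ b : Nat.Primes, (b : ℕ) ∣ M → NonOccAt 𝒪 S0 b lamf)
    (hpSmin : p ∈ Smin)
    (hmin : ∀ r : ℕ, r.Prime → r ≠ p → (r ∈ Smin ↔ ¬ ρbar.IsUnramifiedAt r))
    (hSminM : ∀ r ∈ Smin, r = p ∨ r ∣ M) (hMSmin : ∀ r : ℕ, r.Prime → r ∣ M → r ∈ Smin)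
    (Sg' : Finset ℕ) (hSg' : ∀ x ∈ Sg', x.Prime ∧ ¬ x ∣ M ∧ x ≠ p)
    (hSg'S0 : ∀ x ∈ Sg', x ∈ S0)
    (Y' : RTNum ρbar (condFL 𝒪 p Smin Sg') d)
    (hY'N : Y'.rt.N = M * ∏ x ∈ Sg', x ^ 2) (hY'S : Y'.rt.S = (↑S0 : Set ℕ))
    (hY'w : Y'.w = omegaCard Y'.rt.N 𝒪 (lamAt lamf Sg'))
    (hY'χ : ∀ (ℓ : ℕ) (hℓ : ℓ.Prime) (hℓN : ¬ ℓ ∣ Y'.rt.N) (hℓS : ℓ ∉ Y'.rt.S),
      pointChar Y' (heckeAlgebra.T hℓ hℓN hℓS) = lamf ⟨ℓ, hℓ⟩)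
    {N' : ℕ} [NeZero N'] (hN' : N' = M * ∏ x ∈ Sg', x ^ 2)
    (Z' : Set ℕ) (hZ' : ∀ l : ℕ, l ∈ Z' ↔ (l ∉ (↑S0 : Set ℕ) ∨ l ∈ Sg'))
    (hlamW : ∀ l : Nat.Primes, (l : ℕ) ∉ S0 → W.IsGoodPrimeFor l → (l : ℕ) ≠ p →
      lamf l - (((W.apOfModel l : ℤ)) : 𝒪) ∈ maximalIdeal 𝒪) :
    Y'.rt.S ⊆ (↑S0 : Set ℕ) ∧ Y'.rt.N ∣ N' ∧ ¬ p ∣ N' ∧
    (∀ r : ℕ, r.Prime → r ∣ N' → r ∈ S0) ∧
    (∀ r : ℕ, r.Prime → r ∣ N' → r ∈ Smin ∪ Sg') ∧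
    (∀ r ∈ Smin, r.Prime → r ≠ p → r ∣ N' ∧ ¬ r ^ 2 ∣ N') ∧
    EtaStage N' 𝒪 (lamAt lamf Sg') d ∧
    ∃ (θ : ↥(heckeAlgebra N' 2 (↑S0 : Set ℕ)) →+* ResidueField 𝒪)
      (_ : Fact (LocHyp 𝒪 θ (twZ (Z := Z') (N := N') (lamAt lamf Sg') S0)))
      (b : Fin d → 𝒪 ⊗[ℤ] Lam N'),
      LinearIndependent 𝒪 b ∧
      span 𝒪 (Set.range b) = eigenTensorO N' 𝒪 (lamAt lamf Sg') ∧
      (∀ x ∈ locPart (mP 𝒪 Z' (lamAt lamf Sg')) (𝒪 ⊗[ℤ] Lam N'),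
        (∀ l : Nat.Primes, (l : ℕ) ∉ S0 →
          (latT N' l).baseChange 𝒪 x = lamAt lamf Sg' l • x) →
          ∀ l : Nat.Primes, (latT N' l).baseChange 𝒪 x = lamAt lamf Sg' l • x) ∧
      (∀ (ℓ : ℕ) (hℓ : ℓ.Prime) (hℓN : ¬ ℓ ∣ Y'.rt.N) (hℓS : ℓ ∉ Y'.rt.S), ℓ ∉ S0 →
        lamAt lamf Sg' (⟨ℓ, hℓ⟩ : Nat.Primes)
          = Y'.πO (Y'.rt.π (heckeAlgebra.T hℓ hℓN hℓS))) ∧
      Y'.w ≤ Nat.card (CongMod (BW N' 𝒪) (span 𝒪 (Set.range b))) ∧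
      Module.finrank 𝒪 ↥(locPart (mP 𝒪 Z' (lamAt lamf Sg')) (𝒪 ⊗[ℤ] Lam N')) ≤
        d * Module.finrank 𝒪 (TQ 𝒪 θ (twZ (Z := Z') (N := N') (lamAt lamf Sg') S0)) := by
  have hd0 : d ≠ 0 := by omega
  have hst' : EtaStage N' 𝒪 (lamAt lamf Sg') d :=
    etaStage_flat hd hp2 hϖ hpϖ lamf hnef hbasef Sg' hSg' hN'
  have hram : ∀ b : ℕ, b.Prime → b ∣ M →
      ¬ ((rb p W hcard₁ hker).baseChange (ResidueField 𝒪)).IsUnramifiedAt b := by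
    intro b hb hbM
    have hbp : b ≠ p := fun h => hpM (h ▸ hbM)
    have h1 := (hmin b hb hbp).mp (hMSmin b hb hbM)
    rw [hρ] at h1
    exact h1
  have hZeq : Z' = {l | l ∉ (↑S0 : Set ℕ) ∨ l ∈ Sg'} := Set.ext hZ'
  have hrank : ∀ θ : ↥(heckeAlgebra N' 2 (↑S0 : Set ℕ)) →+* ResidueField 𝒪,
      Module.finrank 𝒪 ↥(locPart (mP 𝒪 Z' (lamAt lamf Sg')) (𝒪 ⊗[ℤ] Lam N')) ≤
        d * Module.finrank 𝒪 (TQ 𝒪 θ (twZ (Z := Z') (N := N') (lamAt lamf Sg') S0)) := by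
    intro θ
    have key := flat_hrank_all hcard₁ hker hΔ hirr htrans hpM hsqM hp𝒪 lamf hd0 Sg' S0 hN' hSg'
      hMS0 hSg'S0 hram hst' Z' hZ' hlamW θ
    exact key.trans (Nat.mul_le_mul_right _ hd)
  have core := flat_fields_core hd hp2 hp𝒪 hϖ hpϖ hpM hsqM lamf hnef hbasef S0 hpS0 hMS0 hnof
    hpSmin hmin hSminM hMSmin Sg' hSg' hSg'S0 Y' hY'N hY'S hY'w hY'χ hN' Z' hZeq hrank
  obtain ⟨h1, h2, h3, h4, h5, h6, h7⟩ := core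
  exact ⟨h1, h2, h3, h4, h5, h6, hst', h7⟩

end Fermat.Agent.GE9.PNew.Inst.FlatAll

end
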