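/-
GATE-E / RISK-4 (B-ii)/(B-iii) seam (helper3): **the carrier of the `p`-new BASE stage as ONE
existential package, with every instance discharged** — `KStageTQ` assembled in the shape of the
existential of `GE/Engine/SObBase.BaseSupplySOb`, PLUS the exposed module structure on the Lam-model
`↥(KLoc hpN Z lam)`, `Z := {l | l ∉ ↑S0}` (`= EquivKPkg.Zof P` at a bundle).

`exists_kstage_carrier` : from the Hecke set `S0 ∋ p` containing the primes of the level `N p`, an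
eigensystem `χ` of the anemic algebra with `χ T_ℓ = lam ℓ`, its reduction `θ`, and a nonzero full
eigenvector `x₀` of the `p`-new system `lam` (`lam p ^ 2 = 1`):

  `T'` (commutative, LOCAL, finite free over `𝒪`), `π' : 𝕋 →+* T'`, `πO' : T' →ₐ[𝒪] 𝒪`,
  `Module T' ↥KLoc` + scalar tower, with
  * `hgen`  : `Algebra.adjoin 𝒪 (range π') = ⊤`;
  * `hann`  : VERBATIM the conjunct of `BaseSupplySOb` / binder of `RawSOBase.exists_rawSO_base`;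
  * `hπχ`   : `πO' (π' t) = χ t`;
  * `hη`    : `etaIdeal πO' ≠ ⊥`;
  * `hfaith`: `T'` acts faithfully on `KLoc`;
  * `hact`  : `↑(π' t • x) = (latAct t ⊗ 𝒪) ↑x` and `↑(π' T_ℓ • x) = (T_ℓ ⊗ 𝒪) ↑x`;
  * `hres`  : `residue T' ∘ algebraMap 𝒪 T'` is onto, `algebraMap 𝒪 T'` is local;
  * `hgenT` : the `π' T_ℓ`, `ℓ ∉ S0`, generate `T'`;
  * fields : `Module.Free T' ↥KLoc →` the ETA fields of the base record on `KLoc`
             (`BaseNewFinal.new_fields_KLoc_pnew`: `hadj`, `hnd`, `b : Fin 2 → KLoc`, `hli`, `hspan`,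
             `#Ω = omegaCardNew = etaCard ^ 2`, `EtaStageNew … 2`).

Import closure: no module of the RISK-5 (B4) cone.
-/
import Mathlib
import Fermat.Agent.GE9.PNew.Inst.KStageTQ

set_option autoImplicit false
set_option linter.unusedSectionVars false
set_option linter.unusedVariables false
set_option linter.style.haveILetI false

noncomputable section

namespace Fermat.Agent.GE9.PNew.Inst.KStageCarrier

open TensorProduct IsLocalRing Submodule CuspForm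
open Fermat.Agent.GJ.J2.Lat Fermat.Agent.GJ.J2.LatAct Fermat.Agent.GB.B3.Loc
  Fermat.Agent.GB.B4.Datum.ImageRing Fermat.Agent.GE9.Eta Fermat.Agent.GE9.Eta.Loc
  Fermat.Agent.GE9.Eta.Mod Fermat.Agent.GE9.Mult1 Fermat.Agent.GE9.NumCrit Fermat.Agent.GE9.Ind
  Fermat.Agent.GE9.Stage.CarrierAbs Fermat.Agent.GE9.Stage.CarrierLam Fermat.Agent.GE9.PNew.Inst
  Fermat.Agent.GE9.PNew.Inst.BaseNewFields Fermat.Agent.GE9.PNew.CarrierExp
  Fermat.Agent.GE9.PNew.Inst.KStageTQ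
  Fermat.Agent.GE9.Eta.Base Fermat.Agent.GE9.OldQ.Consumer Fermat.Agent.GE9.NumCrit.ModForm
  Fermat.Agent.GE9.PNew.Inst.EigenNew Fermat.Agent.GB.B10.L.ThetaNew

variable {𝒪 : Type} [CommRing 𝒪] [IsDomain 𝒪] [IsDiscreteValuationRing 𝒪]
  [IsAdicComplete (maximalIdeal 𝒪) 𝒪] [CharZero 𝒪]
  {N p : ℕ} [hpF : Fact p.Prime] [NeZero N] [NeZero (N * p)] (hpN : ¬ p ∣ N)

/-- the primes of the polynomial algebra at the base: the primes outside `S0` (at a bundle: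
`EquivKPkg.Zof P`) -/
def ZofS (S0 : Finset ℕ) : Set ℕ := {l | l ∉ (↑S0 : Set ℕ)}

theorem mem_ZofS {S0 : Finset ℕ} {l : ℕ} : l ∈ ZofS S0 ↔ l ∉ (↑S0 : Set ℕ) := Iff.rfl

theorem hZS_ZofS (S0 : Finset ℕ) : ∀ l : ℕ, l.Prime → l ∉ (↑S0 : Set ℕ) → l ∈ ZofS S0 :=
  fun _ _ h => h

/-- `β_p` is equivariant for the `T_l`, `l ∉ S0`, as soon as `S0` contains the primes of the level -/
theorem betaPEquiv_ZofS {S0 : Finset ℕ}
    (hNS : ∀ r : ℕ, r.Prime → r ∣ N * p → r ∈ (↑S0 : Set ℕ)) : BetaPEquiv hpN (ZofS S0) :=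
  betaPEquiv_of_good hpN fun l hl hdvd => hl (hNS l l.2 hdvd)

/-- **The carrier of the `p`-new base stage, one existential package.** -/
theorem exists_kstage_carrier {S0 : Finset ℕ} (hpS : p ∈ S0)
    (hNS : ∀ r : ℕ, r.Prime → r ∣ N * p → r ∈ S0)
    (lam : Nat.Primes → 𝒪)
    (χ : ↥(heckeAlgebra (N * p) 2 (↑S0 : Set ℕ)) →+* 𝒪)
    (hχ : ∀ (ℓ : ℕ) (hℓ : ℓ.Prime) (hℓN : ¬ ℓ ∣ N * p) (hℓS : ℓ ∉ (↑S0 : Set ℕ)),
      χ (heckeAlgebra.T hℓ hℓN hℓS) = lam ⟨ℓ, hℓ⟩)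
    (θ : ↥(heckeAlgebra (N * p) 2 (↑S0 : Set ℕ)) →+* ResidueField 𝒪)
    (hθ : ∀ t, residue 𝒪 (χ t) = θ t)
    {x₀ : 𝒪 ⊗[ℤ] Lam (N * p)} (hx : x₀ ∈ eigenTensorO (N * p) 𝒪 lam) (hx0 : x₀ ≠ 0)
    (hu : lam (⟨p, hpF.out⟩ : Nat.Primes) ^ 2 = 1)
    (hbad : ∀ b : Nat.Primes, (b : ℕ) ∈ S0 → (b : ℕ) ≠ p →
      ¬ (b : ℕ) ∣ N ∨ ((b : ℕ) ∣ N ∧ ¬ (b : ℕ) ^ 2 ∣ N ∧ NonOccAt 𝒪 S0 b lam)) :
    ∃ (T' : Type) (_ : CommRing T') (_ : IsLocalRing T') (_ : Algebra 𝒪 T')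
      (_ : Module.Finite 𝒪 T') (_ : Module.Free 𝒪 T')
      (π' : ↥(heckeAlgebra (N * p) 2 (↑S0 : Set ℕ)) →+* T') (πO' : T' →ₐ[𝒪] 𝒪)
      (_ : Module T' ↥(KLoc hpN (ZofS S0) lam))
      (_ : IsScalarTower 𝒪 T' ↥(KLoc hpN (ZofS S0) lam)),
      Algebra.adjoin 𝒪 (Set.range π') = ⊤ ∧
      (∀ t₀ : 𝒪 ⊗[ℤ] heckeAlgebra (N * p) 2 (↑S0 : Set ℕ),
        (∀ (a : 𝒪), ∀ x ∈ (LamNew hpN : AddSubgroup
            (Fermat.Agent.GB.B10.KumLevelHecke.levelData p (N * p) hpS hNS).Λ),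
          (Fermat.Agent.GB.B10.KumLevelHecke.levelData p (N * p) hpS hNS).heckeTensor 𝒪 t₀
            (a ⊗ₜ[ℤ] x) = 0) →
        Fermat.Agent.GB.B10.L.GalPkgSO.twO (𝒪 := 𝒪) π' t₀ = 0) ∧
      (∀ t, πO' (π' t) = χ t) ∧
      etaIdeal πO' ≠ ⊥ ∧
      (∀ u : T', (∀ x : ↥(KLoc hpN (ZofS S0) lam), u • x = 0) → u = 0) ∧
      (∀ (t : ↥(heckeAlgebra (N * p) 2 (↑S0 : Set ℕ))) (x : ↥(KLoc hpN (ZofS S0) lam)),
        ((π' t • x : ↥(KLoc hpN (ZofS S0) lam)) : 𝒪 ⊗[ℤ] Lam (N * p))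
          = (latAct (N * p) (↑S0 : Set ℕ) t).baseChange 𝒪 (x : 𝒪 ⊗[ℤ] Lam (N * p))) ∧
      (∀ (ℓ : ℕ) (hℓ : ℓ.Prime) (hℓN : ¬ ℓ ∣ N * p) (hℓS : ℓ ∉ (↑S0 : Set ℕ))
        (x : ↥(KLoc hpN (ZofS S0) lam)),
        ((π' (heckeAlgebra.T hℓ hℓN hℓS) • x : ↥(KLoc hpN (ZofS S0) lam)) :
            𝒪 ⊗[ℤ] Lam (N * p))
          = (latT (N * p) (⟨ℓ, hℓ⟩ : Nat.Primes)).baseChange 𝒪
              (x : 𝒪 ⊗[ℤ] Lam (N * p))) ∧
      IsLocalHom (algebraMap 𝒪 T') ∧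
      Function.Surjective (residue T' ∘ algebraMap 𝒪 T') ∧
      Algebra.adjoin 𝒪 (Set.range fun k : KIdx (↑S0 : Set ℕ) =>
        π' (TK (N := N) (p := p) hNS k)) = ⊤ ∧
      (Module.Free T' ↥(KLoc hpN (ZofS S0) lam) →
        (∀ (t : T') (x y : ↥(KLoc hpN (ZofS S0) lam)),
          pullBW (KLoc hpN (ZofS S0) lam).subtype (t • x) y
            = pullBW (KLoc hpN (ZofS S0) lam).subtype x (t • y)) ∧
        (∀ w : ↥(KLoc hpN (ZofS S0) lam),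
          (∀ z, pullBW (KLoc hpN (ZofS S0) lam).subtype z w = 0) → w = 0) ∧
        ∃ b : Fin 2 → ↥(KLoc hpN (ZofS S0) lam), LinearIndependent 𝒪 b ∧
          span 𝒪 (Set.range b) = torPO πO' ↥(KLoc hpN (ZofS S0) lam) ∧
          Nat.card (CongMod (pullBW (KLoc hpN (ZofS S0) lam).subtype) (span 𝒪 (Set.range b)))
            = omegaCardNew hpN 𝒪 lam ∧
          Nat.card (CongMod (pullBW (KLoc hpN (ZofS S0) lam).subtype) (span 𝒪 (Set.range b)))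
            = Ind.etaCard πO' ^ 2 ∧
          EtaStageNew hpN 𝒪 lam 2) := by
  have hNS' : ∀ r : ℕ, r.Prime → r ∣ N * p → r ∈ (↑S0 : Set ℕ) := fun r hr h =>
    Finset.mem_coe.mpr (hNS r hr h)
  have hZS := hZS_ZofS S0
  have hr : BetaPEquiv hpN (ZofS S0) := betaPEquiv_ZofS hpN hNS'
  have hxK : x₀ ∈ KNew hpN 𝒪 := eigenTensorO_le_KNew hpN lam hu hx
  haveI := finite_KLoc hpN (ZofS S0) lam
  haveI := free_KLoc hpN (ZofS S0) lam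
  haveI : Nontrivial ↥(KLoc hpN (ZofS S0) lam) := nontrivial_KLoc hpN hx hx0 hxK
  haveI : Fact (LocHyp 𝒪 θ (twK hpN hZS hr lam)) :=
    ⟨locHyp_twK_of_chi hpN hNS' hZS hr θ hx hx0 χ hχ hθ⟩
  letI := moduleTQ 𝒪 θ (twK hpN hZS hr lam)
  haveI := isScalarTower_TQ 𝒪 θ (twK hpN hZS hr lam)
  refine ⟨TQ 𝒪 θ (twK hpN hZS hr lam), inferInstance, inferInstance, inferInstance,
    inferInstance, inferInstance, chi 𝒪 θ (twK hpN hZS hr lam),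
    pointK hpN hZS hr θ hx hx0 hxK, moduleTQ 𝒪 θ (twK hpN hZS hr lam),
    isScalarTower_TQ 𝒪 θ (twK hpN hZS hr lam), adjoin_range_chi 𝒪 θ (twK hpN hZS hr lam),
    hann_KLoc hpN hr lam hpS hNS hZS θ, fun t => ?_,
    etaIdeal_pointK_ne_bot hpN hNS' hZS hr θ hx hx0 hxK,
    fun u hu' => eq_zero_of_forall_smul_eq_zero 𝒪 θ (twK hpN hZS hr lam) u hu',
    fun t x => ?_, fun ℓ hℓ hℓN hℓS x => ?_, inferInstance,
    residue_comp_algebraMap_surjective, adjoin_gK hpN hNS' hZS hr lam θ, fun hfree => ?_⟩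
  · rw [pointK_chi, chiK_eq_of_T hNS' hx hx0 χ hχ]
  · have h1 : chi 𝒪 θ (twK hpN hZS hr lam) t • x = twK hpN hZS hr lam t x :=
      chi_smul 𝒪 θ (twK hpN hZS hr lam) t x
    rw [h1]
    exact coe_twK hpN hZS hr lam t x
  · have h1 : chi 𝒪 θ (twK hpN hZS hr lam) (heckeAlgebra.T hℓ hℓN hℓS) • x
        = twK hpN hZS hr lam (heckeAlgebra.T hℓ hℓN hℓS) x :=
      chi_smul 𝒪 θ (twK hpN hZS hr lam) (heckeAlgebra.T hℓ hℓN hℓS) x
    rw [h1]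
    exact coe_twK_T hpN hZS hr lam hℓ hℓN hℓS x
  · exact kstage_fields_pnew hpN hNS' hZS hr θ hx hx0 hu hbad hfree

end Fermat.Agent.GE9.PNew.Inst.KStageCarrier

end
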