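/-
GATE-E / RISK-4 (B-ii) (helper3; assignment helper80 7985): **the stage module `K_Sg` of the
`p`-new branch as an EXPOSED `TQ`-module.**

`L := ↥(BaseNewFields.KLoc hpN Z lam)`, `KLoc = KNew hpN 𝒪 ⊓ locPart (mP 𝒪 Z lam) (𝒪 ⊗ Lam (N p))`
(helper2's Lam-model of the `p`-new stage module).  The anemic Hecke algebra
`A := heckeAlgebra (N p) 2 S` acts on `L` by restriction (`twK`), the elements of `𝒪 ⊗ A` outside
the maximal ideal of the residual character act bijectively (`locHyp_twK`), `L` is finite free over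
`𝒪`, so that the image ring `T' := ImageRing.TQ 𝒪 θ twK` of helper31's `CarrierExp` is a local
finite free `𝒪`-algebra acting FAITHFULLY on `L` (`CarrierExp.moduleTQ`):

* `exists_smulP_latAct`, `exists_smulP_iotaO` : `𝒪 ⊗ A` acts on `𝒪 ⊗ Lam M` through the polynomial
  algebra `PAlg 𝒪 Z` (`Z ⊇` the primes outside `S`);
* `bijective_smulP_KLoc` : `s ∉ mP 𝒪 Z lam` acts bijectively on `KLoc`;
* `twX`, **`twK`**, `coe_twK`, `coe_twK_T`, `coe_twO_twK`;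
* **`locHyp_twK`**, `locHyp_twK_of_theta`;
* `finite_KLoc`, `free_KLoc`, `nontrivial_KLoc`;
* **`chi_T_smul_KLoc`** : `↑(chi T_ℓ • x) = (T_ℓ ⊗ 𝒪) ↑x` — the binder `hact` of
  `BaseNewFields.new_fields_KLoc` at `g := chi ∘ T`;
* **`adjoin_chi_T`** : the `chi T_ℓ`, `ℓ ∉ S`, generate `T'` — the binder `hG`;
* `pointK`, `pointK_chi`, `pointK_chi_T`, `etaIdeal_pointK_ne_bot` : the modular point `πO`;
* **`chi_eq_zero_of_kills`** (`ℤ`-level kill clause: `t` kills `LamNew` ⟹ `chi t = 0`),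
  `mkQ_eq_zero_of_kills` (`𝒪`-level, `KNew`), **`hann_KLoc`** (`hann` VERBATIM, over `HannImg`);
* **`kstage_fields`** : `new_fields_KLoc` fully instantiated at `T' := TQ 𝒪 θ twK`.
-/
import Mathlib
import Fermat.Agent.GE9.PNew.CarrierExp
import Fermat.Agent.GE9.PNew.Inst.CarrierK
import Fermat.Agent.GE9.PNew.Inst.BaseNewFields
import Fermat.Agent.GE9.PNew.Inst.BaseNewFinal
import Fermat.Agent.GE9.PNew.Inst.HannImg
import Fermat.Agent.GE8.RaiseP.NewAnn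

set_option autoImplicit false
set_option linter.unusedSectionVars false
set_option linter.unusedVariables false
set_option linter.style.haveILetI false

noncomputable section

namespace Fermat.Agent.GE9.PNew.Inst.KStageInst

open TensorProduct IsLocalRing Submodule CuspForm
open Fermat.Agent.GJ.J2.Lat Fermat.Agent.GJ.J2.LatAct Fermat.Agent.GB.B3.Loc
  Fermat.Agent.GB.B4.Datum.ImageRing Fermat.Agent.GE9.Eta Fermat.Agent.GE9.Eta.Loc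
  Fermat.Agent.GE9.Eta.Mod Fermat.Agent.GE9.Mult1 Fermat.Agent.GE9.NumCrit Fermat.Agent.GE9.Ind
  Fermat.Agent.GE9.Stage.CarrierAbs Fermat.Agent.GE9.Stage.CarrierLam Fermat.Agent.GE9.PNew.Inst
  Fermat.Agent.GE9.PNew.Inst.CarrierK Fermat.Agent.GE9.PNew.Inst.BaseNewFields
  Fermat.Agent.GE9.PNew.CarrierExp

/-! ### `𝒪 ⊗ A` acts through the polynomial algebra -/

section Img

variable {𝒪 : Type} [CommRing 𝒪] {M : ℕ} [NeZero M] {S Z : Set ℕ}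
  (hZS : ∀ l : ℕ, l.Prime → l ∉ S → l ∈ Z)

include hZS in
/-- every operator of the Hecke algebra of forms away from `S` acts on `𝒪 ⊗ Lam M` as an element of
the polynomial algebra `PAlg 𝒪 Z` -/
theorem exists_smulP_latAct (t : ↥(heckeAlgebra M 2 S)) :
    ∃ s : PAlg 𝒪 Z, ∀ x : 𝒪 ⊗[ℤ] Lam M, (latAct M S t).baseChange 𝒪 x = s • x := by
  refine hecke_ind (motive := fun t => ∃ s : PAlg 𝒪 Z, ∀ x : 𝒪 ⊗[ℤ] Lam M,
      (latAct M S t).baseChange 𝒪 x = s • x) ?_ ?_ ?_ ?_ ?_ t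
  · intro ℓ hℓ hℓN hℓS
    refine ⟨xP 𝒪 Z (⟨ℓ, hℓ⟩ : Nat.Primes) (hZS ℓ hℓ hℓS), fun x => ?_⟩
    rw [latAct_T]
    exact (xP_smul (⟨ℓ, hℓ⟩ : Nat.Primes) (hZS ℓ hℓ hℓS) x).symm
  · intro q hq hqN hqS
    refine ⟨xP 𝒪 Z (⟨q, hq⟩ : Nat.Primes) (hZS q hq hqS), fun x => ?_⟩
    rw [latAct_U]
    exact (xP_smul (⟨q, hq⟩ : Nat.Primes) (hZS q hq hqS) x).symm
  · intro n
    refine ⟨algebraMap 𝒪 (PAlg 𝒪 Z) (n : 𝒪), fun x => ?_⟩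
    have h1 : latAct M S (algebraMap ℤ ↥(heckeAlgebra M 2 S) n)
        = algebraMap ℤ (Module.End ℤ (Lam M)) n := (latActAlg M S).commutes n
    rw [h1, baseChange_algebraMap_int, algebraMap_smulP]
  · rintro a b ⟨sa, ha⟩ ⟨sb, hb⟩
    refine ⟨sa + sb, fun x => ?_⟩
    rw [map_add, LinearMap.baseChange_add, LinearMap.add_apply, ha, hb, add_smul]
  · rintro a b ⟨sa, ha⟩ ⟨sb, hb⟩
    refine ⟨sa * sb, fun x => ?_⟩
    rw [map_mul, Module.End.mul_eq_comp, LinearMap.baseChange_comp, LinearMap.comp_apply, hb, ha,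
      mul_smul]

include hZS in
/-- the same for `𝒪 ⊗ A`, acting through the full algebra of the lattice -/
theorem exists_smulP_iotaO [IsLocalRing 𝒪] (a : 𝒪 ⊗[ℤ] ↥(heckeAlgebra M 2 S)) :
    ∃ s : PAlg 𝒪 Z, ∀ x : 𝒪 ⊗[ℤ] Lam M, iotaO (iotaLam M 𝒪 S) a • x = s • x := by
  induction a using TensorProduct.induction_on with
  | zero => exact ⟨0, fun x => by rw [map_zero, zero_smul, zero_smul]⟩
  | tmul c t =>
    obtain ⟨s, hs⟩ := exists_smulP_latAct (𝒪 := 𝒪) hZS t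
    refine ⟨c • s, fun x => ?_⟩
    rw [iotaO_tmul, smul_assoc, iotaLam_smul, hs, smul_assoc]
  | add a b ha hb =>
    obtain ⟨sa, ha⟩ := ha
    obtain ⟨sb, hb⟩ := hb
    exact ⟨sa + sb, fun x => by rw [map_add, add_smul, add_smul, ha, hb]⟩

end Img

/-! ### ring homs out of the Hecke algebra are determined by the `T_ℓ` -/

section Ext

variable {M : ℕ} [NeZero M] {S : Set ℕ} (hMS : ∀ r : ℕ, r.Prime → r ∣ M → r ∈ S)

include hMS in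
/-- when every prime of the level lies in `S`, two ring homs out of `heckeAlgebra M 2 S` which agree
on the `T_ℓ` are equal -/
theorem ringHom_ext_T {R : Type*} [Ring R] (f g : ↥(heckeAlgebra M 2 S) →+* R)
    (h : ∀ (ℓ : ℕ) (hℓ : ℓ.Prime) (hℓM : ¬ ℓ ∣ M) (hℓS : ℓ ∉ S),
      f (heckeAlgebra.T hℓ hℓM hℓS) = g (heckeAlgebra.T hℓ hℓM hℓS)) : f = g := by
  refine RingHom.ext fun t => ?_
  refine hecke_ind (motive := fun t => f t = g t) ?_ ?_ ?_ ?_ ?_ t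
  · exact h
  · intro q hq hqM hqS
    exact absurd (hMS q hq hqM) hqS
  · intro n
    rw [eq_intCast (algebraMap ℤ ↥(heckeAlgebra M 2 S)) n, map_intCast, map_intCast]
  · intro a b ha hb
    rw [map_add, map_add, ha, hb]
  · intro a b ha hb
    rw [map_mul, map_mul, ha, hb]

end Ext

/-! ### the elements outside `mP` are invertible on the local part -/

section Inv

variable {𝒪 : Type} [CommRing 𝒪] [IsDomain 𝒪] [IsDiscreteValuationRing 𝒪]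
  [IsAdicComplete (maximalIdeal 𝒪) 𝒪] [CharZero 𝒪]
  {M : ℕ} [NeZero M] {Z : Set ℕ} (lam : Nat.Primes → 𝒪)

/-- an element of the polynomial algebra outside `mP` has an inverse IN the polynomial algebra on
the local part `locPart (mP 𝒪 Z lam) (𝒪 ⊗ Lam M)` (Cayley–Hamilton) -/
theorem exists_inv_smulP {s : PAlg 𝒪 Z} (hs : s ∉ mP 𝒪 Z lam) :
    ∃ u : PAlg 𝒪 Z, ∀ y ∈ locPart (mP 𝒪 Z lam) (𝒪 ⊗[ℤ] Lam M), s • u • y = y := by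
  have hfin := finite_tensor_lam (O := 𝒪) M
  have hfree := free_tensor_lam (O := 𝒪) M
  haveI : Module.Finite 𝒪 (locPart (mP 𝒪 Z lam) (𝒪 ⊗[ℤ] Lam M)) :=
    finite_locPart 𝒪 (mP 𝒪 Z lam)
  haveI : Module.Free 𝒪 (locPart (mP 𝒪 Z lam) (𝒪 ⊗[ℤ] Lam M)) :=
    free_locPart 𝒪 (mP 𝒪 Z lam)
  set φ : PAlg 𝒪 Z →ₐ[𝒪] Module.End 𝒪 (locPart (mP 𝒪 Z lam) (𝒪 ⊗[ℤ] Lam M)) :=
    Algebra.lsmul 𝒪 𝒪 _ with hφ
  have hbij : Function.Bijective (φ s) := bijective_smul_locPart 𝒪 (mP 𝒪 Z lam) hs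
  obtain ⟨P, hP⟩ := exists_aeval_mul_eq_one (φ s) hbij
  refine ⟨Polynomial.aeval s P, fun y hy => ?_⟩
  have h1 : Polynomial.aeval (φ s) P = φ (Polynomial.aeval s P) :=
    Polynomial.aeval_algHom_apply φ s P
  rw [h1] at hP
  have h2 := congrArg (fun f : Module.End 𝒪 (locPart (mP 𝒪 Z lam) (𝒪 ⊗[ℤ] Lam M)) =>
    ((f ⟨y, hy⟩ : locPart (mP 𝒪 Z lam) (𝒪 ⊗[ℤ] Lam M)) : 𝒪 ⊗[ℤ] Lam M)) hP
  exact h2

end Inv

/-! ### the anemic action on `KLoc` -/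

section Tw

variable {𝒪 : Type} [CommRing 𝒪] [IsDomain 𝒪] [IsDiscreteValuationRing 𝒪]
  [IsAdicComplete (maximalIdeal 𝒪) 𝒪] [CharZero 𝒪]
  {N p : ℕ} [hpF : Fact p.Prime] [NeZero N] [NeZero (N * p)] (hpN : ¬ p ∣ N)
  {S Z : Set ℕ} (hZS : ∀ l : ℕ, l.Prime → l ∉ S → l ∈ Z) (hr : BetaPEquiv hpN Z)
  (lam : Nat.Primes → 𝒪)

variable (𝒪 S) in
/-- the anemic action on `𝒪 ⊗ Lam M` -/
def twX (M : ℕ) [NeZero M] : ↥(heckeAlgebra M 2 S) →+* Module.End 𝒪 (𝒪 ⊗[ℤ] Lam M) :=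
  ((actFull M 𝒪 : AfLam M 𝒪 →ₐ[𝒪] Module.End 𝒪 (𝒪 ⊗[ℤ] Lam M)) :
    AfLam M 𝒪 →+* Module.End 𝒪 (𝒪 ⊗[ℤ] Lam M)).comp (iotaLam M 𝒪 S)

theorem twX_apply {M : ℕ} [NeZero M] (t : ↥(heckeAlgebra M 2 S)) (x : 𝒪 ⊗[ℤ] Lam M) :
    twX 𝒪 S M t x = (latAct M S t).baseChange 𝒪 x :=
  iotaLam_smul M 𝒪 S t x

include hr in
/-- `KLoc` is stable under the polynomial algebra -/
theorem smulP_mem_KLoc (a : PAlg 𝒪 Z) {x : 𝒪 ⊗[ℤ] Lam (N * p)} (hx : x ∈ KLoc hpN Z lam) :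
    a • x ∈ KLoc hpN Z lam :=
  ⟨smulP_mem_KNew hpN hr a hx.1, (locPart (mP 𝒪 Z lam) (𝒪 ⊗[ℤ] Lam (N * p))).smul_mem a hx.2⟩

include hZS hr in
/-- `KLoc` is stable under the anemic Hecke algebra -/
theorem twX_mem_KLoc (t : ↥(heckeAlgebra (N * p) 2 S)) :
    ∀ x ∈ KLoc hpN Z lam, twX 𝒪 S (N * p) t x ∈ KLoc hpN Z lam := by
  intro x hx
  obtain ⟨s, hs⟩ := exists_smulP_latAct (𝒪 := 𝒪) hZS t
  rw [twX_apply, hs]
  exact smulP_mem_KLoc hpN hr lam s hx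

/-- **the anemic action on the stage module `K_Sg = KLoc`** (restriction of `T ⊗ 𝒪`) -/
def twK : ↥(heckeAlgebra (N * p) 2 S) →+* Module.End 𝒪 ↥(KLoc hpN Z lam) :=
  Fermat.Agent.GE8.RaiseP.NewAnn.restrictTw (twX 𝒪 S (N * p)) (KLoc hpN Z lam)
    (twX_mem_KLoc hpN hZS hr lam)

@[simp] theorem coe_twK (t : ↥(heckeAlgebra (N * p) 2 S)) (x : ↥(KLoc hpN Z lam)) :
    ((twK hpN hZS hr lam t x : ↥(KLoc hpN Z lam)) : 𝒪 ⊗[ℤ] Lam (N * p))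
      = (latAct (N * p) S t).baseChange 𝒪 (x : 𝒪 ⊗[ℤ] Lam (N * p)) :=
  twX_apply t (x : 𝒪 ⊗[ℤ] Lam (N * p))

theorem coe_twK_iota (t : ↥(heckeAlgebra (N * p) 2 S)) (x : ↥(KLoc hpN Z lam)) :
    ((twK hpN hZS hr lam t x : ↥(KLoc hpN Z lam)) : 𝒪 ⊗[ℤ] Lam (N * p))
      = iotaLam (N * p) 𝒪 S t • (x : 𝒪 ⊗[ℤ] Lam (N * p)) := rfl

theorem coe_twK_T {ℓ : ℕ} (hℓ : ℓ.Prime) (hℓN : ¬ ℓ ∣ N * p) (hℓS : ℓ ∉ S)
    (x : ↥(KLoc hpN Z lam)) :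
    ((twK hpN hZS hr lam (heckeAlgebra.T hℓ hℓN hℓS) x : ↥(KLoc hpN Z lam)) :
        𝒪 ⊗[ℤ] Lam (N * p))
      = (latT (N * p) (⟨ℓ, hℓ⟩ : Nat.Primes)).baseChange 𝒪 (x : 𝒪 ⊗[ℤ] Lam (N * p)) := by
  have h := coe_twK hpN hZS hr lam (heckeAlgebra.T hℓ hℓN hℓS) x
  rw [latAct_T] at h
  exact h

/-- the `𝒪`-linear extension of `twK` is the restriction of the action of `𝒪 ⊗ A` -/
theorem coe_twO_twK (a : 𝒪 ⊗[ℤ] ↥(heckeAlgebra (N * p) 2 S)) (x : ↥(KLoc hpN Z lam)) :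
    ((twO 𝒪 (twK hpN hZS hr lam) a x : ↥(KLoc hpN Z lam)) : 𝒪 ⊗[ℤ] Lam (N * p))
      = iotaO (iotaLam (N * p) 𝒪 S) a • (x : 𝒪 ⊗[ℤ] Lam (N * p)) := by
  induction a using TensorProduct.induction_on with
  | zero => rw [map_zero, map_zero, zero_smul]; rfl
  | tmul c t =>
    rw [twO_tmul, iotaO_tmul, smul_assoc, LinearMap.smul_apply, Submodule.coe_smul, coe_twK_iota]
  | add a b ha hb =>
    have h1 : twO 𝒪 (twK hpN hZS hr lam) (a + b)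
        = twO 𝒪 (twK hpN hZS hr lam) a + twO 𝒪 (twK hpN hZS hr lam) b := map_add _ a b
    have h2 : iotaO (iotaLam (N * p) 𝒪 S) (a + b)
        = iotaO (iotaLam (N * p) 𝒪 S) a + iotaO (iotaLam (N * p) 𝒪 S) b := map_add _ a b
    have h3 : ((twO 𝒪 (twK hpN hZS hr lam) (a + b) x : ↥(KLoc hpN Z lam)) : 𝒪 ⊗[ℤ] Lam (N * p))
        = ((twO 𝒪 (twK hpN hZS hr lam) a x : ↥(KLoc hpN Z lam)) : 𝒪 ⊗[ℤ] Lam (N * p))
          + ((twO 𝒪 (twK hpN hZS hr lam) b x : ↥(KLoc hpN Z lam)) : 𝒪 ⊗[ℤ] Lam (N * p)) :=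
      congrArg (fun f : Module.End 𝒪 ↥(KLoc hpN Z lam) =>
        ((f x : ↥(KLoc hpN Z lam)) : 𝒪 ⊗[ℤ] Lam (N * p))) h1
    have h4 : iotaO (iotaLam (N * p) 𝒪 S) (a + b) • (x : 𝒪 ⊗[ℤ] Lam (N * p))
        = iotaO (iotaLam (N * p) 𝒪 S) a • (x : 𝒪 ⊗[ℤ] Lam (N * p))
          + iotaO (iotaLam (N * p) 𝒪 S) b • (x : 𝒪 ⊗[ℤ] Lam (N * p)) :=
      (congrArg (fun u : AfLam (N * p) 𝒪 => u • (x : 𝒪 ⊗[ℤ] Lam (N * p))) h2).trans
        (add_smul _ _ _)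
    exact h3.trans ((congrArg₂ (· + ·) ha hb).trans h4.symm)

end Tw

/-! ### (LOC), finiteness, freeness -/

section LocH

variable {𝒪 : Type} [CommRing 𝒪] [IsDomain 𝒪] [IsDiscreteValuationRing 𝒪]
  [IsAdicComplete (maximalIdeal 𝒪) 𝒪] [CharZero 𝒪]
  {N p : ℕ} [hpF : Fact p.Prime] [NeZero N] [NeZero (N * p)] (hpN : ¬ p ∣ N)
  {S Z : Set ℕ} (hZS : ∀ l : ℕ, l.Prime → l ∉ S → l ∈ Z) (hr : BetaPEquiv hpN Z)
  {lam : Nat.Primes → 𝒪}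

/-- the eigenvalue of `𝒪 ⊗ A` on a full eigenvector, through the polynomial algebra -/
theorem chiLam_iotaO_eq_evP {x₀ : 𝒪 ⊗[ℤ] Lam (N * p)}
    (hx : x₀ ∈ eigenTensorO (N * p) 𝒪 lam) (hx0 : x₀ ≠ 0)
    (a : 𝒪 ⊗[ℤ] ↥(heckeAlgebra (N * p) 2 S)) (s : PAlg 𝒪 Z)
    (hs : ∀ x : 𝒪 ⊗[ℤ] Lam (N * p), iotaO (iotaLam (N * p) 𝒪 S) a • x = s • x) :
    chiLam (N * p) 𝒪 lam (iotaO (iotaLam (N * p) 𝒪 S) a) = evP 𝒪 Z lam s := by
  refine chiLam_eq_of_smul hx hx0 _ ?_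
  rw [hs]
  exact smulP_eq_evP_smul (fun l _ => mem_eigenTensorO.mp hx l) s

/-- **(LOC)** for the anemic action on the stage module `KLoc`: the elements of `𝒪 ⊗ A` outside the
maximal ideal of the residual character of a full eigenvector act bijectively. -/
theorem locHyp_twK {x₀ : 𝒪 ⊗[ℤ] Lam (N * p)}
    (hx : x₀ ∈ eigenTensorO (N * p) 𝒪 lam) (hx0 : x₀ ≠ 0) :
    LocHyp 𝒪 (thetaRes (iotaLam (N * p) 𝒪 S) (chiHom hx hx0)) (twK hpN hZS hr lam) := by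
  intro a ha
  rw [thetaO_thetaRes] at ha
  have hu : IsUnit (chiHom hx hx0 (iotaO (iotaLam (N * p) 𝒪 S) a)) := by
    by_contra hnu
    exact ha ((residue_eq_zero_iff _).mpr ((mem_maximalIdeal _).mpr hnu))
  obtain ⟨s, hs⟩ := exists_smulP_iotaO (𝒪 := 𝒪) hZS a
  rw [chiHom_apply, chiLam_iotaO_eq_evP hx hx0 a s hs] at hu
  have hsm : s ∉ mP 𝒪 Z lam := (notMem_mP_iff s).mpr hu
  obtain ⟨u, hu'⟩ := exists_inv_smulP (M := N * p) lam hsm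
  have hcoe : ∀ x : ↥(KLoc hpN Z lam),
      ((twO 𝒪 (twK hpN hZS hr lam) a x : ↥(KLoc hpN Z lam)) : 𝒪 ⊗[ℤ] Lam (N * p))
        = s • (x : 𝒪 ⊗[ℤ] Lam (N * p)) := fun x => by rw [coe_twO_twK, hs]
  constructor
  · intro x y hxy
    have h1 : s • (x : 𝒪 ⊗[ℤ] Lam (N * p)) = s • (y : 𝒪 ⊗[ℤ] Lam (N * p)) := by
      rw [← hcoe, ← hcoe, hxy]
    apply Subtype.ext
    have hx' : u • s • (x : 𝒪 ⊗[ℤ] Lam (N * p)) = x := by
      rw [← mul_smul, mul_comm u s, mul_smul]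
      exact hu' (x : 𝒪 ⊗[ℤ] Lam (N * p)) x.2.2
    have hy' : u • s • (y : 𝒪 ⊗[ℤ] Lam (N * p)) = y := by
      rw [← mul_smul, mul_comm u s, mul_smul]
      exact hu' (y : 𝒪 ⊗[ℤ] Lam (N * p)) y.2.2
    rw [← hx', ← hy', h1]
  · intro y
    refine ⟨⟨u • (y : 𝒪 ⊗[ℤ] Lam (N * p)), smulP_mem_KLoc hpN hr lam u y.2⟩, Subtype.ext ?_⟩
    rw [hcoe]
    exact hu' (y : 𝒪 ⊗[ℤ] Lam (N * p)) y.2.2

/-- (LOC) for ANY residual character agreeing with the reduction of the eigensystem -/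
theorem locHyp_twK_of_theta {x₀ : 𝒪 ⊗[ℤ] Lam (N * p)}
    (hx : x₀ ∈ eigenTensorO (N * p) 𝒪 lam) (hx0 : x₀ ≠ 0)
    (θ : ↥(heckeAlgebra (N * p) 2 S) →+* ResidueField 𝒪)
    (hθ : ∀ t, θ t = residue 𝒪 (chiLam (N * p) 𝒪 lam (iotaLam (N * p) 𝒪 S t))) :
    LocHyp 𝒪 θ (twK hpN hZS hr lam) := by
  have h : θ = thetaRes (iotaLam (N * p) 𝒪 S) (chiHom hx hx0) :=
    RingHom.ext fun t => by rw [hθ t]; rfl
  rw [h]
  exact locHyp_twK hpN hZS hr hx hx0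

variable (Z lam)

theorem finite_KLoc : Module.Finite 𝒪 ↥(KLoc hpN Z lam) := by
  have hfinX := finite_tensor_lam (O := 𝒪) (N * p)
  haveI : IsNoetherian 𝒪 (𝒪 ⊗[ℤ] Lam (N * p)) := isNoetherian_of_isNoetherianRing_of_finite 𝒪 _
  exact inferInstance

theorem free_KLoc : Module.Free 𝒪 ↥(KLoc hpN Z lam) := by
  have hfinX := finite_tensor_lam (O := 𝒪) (N * p)
  have hfreeX := free_tensor_lam (O := 𝒪) (N * p)
  exact inferInstance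

variable {Z lam}

theorem mem_KLoc_of_eigen {x₀ : 𝒪 ⊗[ℤ] Lam (N * p)}
    (hx : x₀ ∈ eigenTensorO (N * p) 𝒪 lam) (hxK : x₀ ∈ KNew hpN 𝒪) : x₀ ∈ KLoc hpN Z lam :=
  ⟨hxK, eigenTensorO_le_locPart_mP (fun _ _ => rfl) hx⟩

theorem nontrivial_KLoc {x₀ : 𝒪 ⊗[ℤ] Lam (N * p)}
    (hx : x₀ ∈ eigenTensorO (N * p) 𝒪 lam) (hx0 : x₀ ≠ 0) (hxK : x₀ ∈ KNew hpN 𝒪) :
    Nontrivial ↥(KLoc hpN Z lam) :=
  ⟨⟨⟨x₀, mem_KLoc_of_eigen hpN hx hxK⟩, 0, fun h => hx0 (congrArg Subtype.val h)⟩⟩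

end LocH

/-! ### the exposed carrier `T' := TQ 𝒪 θ twK` -/

section TQ

variable {𝒪 : Type} [CommRing 𝒪] [IsDomain 𝒪] [IsDiscreteValuationRing 𝒪]
  [IsAdicComplete (maximalIdeal 𝒪) 𝒪] [CharZero 𝒪]
  {N p : ℕ} [hpF : Fact p.Prime] [NeZero N] [NeZero (N * p)] (hpN : ¬ p ∣ N)
  {S Z : Set ℕ} (hMS : ∀ r : ℕ, r.Prime → r ∣ N * p → r ∈ S)
  (hZS : ∀ l : ℕ, l.Prime → l ∉ S → l ∈ Z) (hr : BetaPEquiv hpN Z)
  (lam : Nat.Primes → 𝒪) (θ : ↥(heckeAlgebra (N * p) 2 S) →+* ResidueField 𝒪)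

/-- the symbols of the generators: the primes outside `S` -/
abbrev KIdx (S : Set ℕ) : Type := {l : Nat.Primes // (l : ℕ) ∉ S}

/-- `T_l` for a prime outside `S` (every prime of the level lies in `S`) -/
def TK (k : KIdx S) : ↥(heckeAlgebra (N * p) 2 S) :=
  heckeAlgebra.T k.1.2 (fun h => k.2 (hMS k.1 k.1.2 h)) k.2

/-- **the generators of the carrier**: `g k := chi T_k` -/
def gK (k : KIdx S) : TQ 𝒪 θ (twK hpN hZS hr lam) :=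
  chi 𝒪 θ (twK hpN hZS hr lam) (TK hMS k)

/-- **`hact`**: `chi T_l` acts on `KLoc` as the restriction of `T_l ⊗ 𝒪` (the binder `hact` of
`BaseNewFields.new_fields_KLoc` at `g := gK`, `pl := Subtype.val`). -/
theorem gK_smul (k : KIdx S) (x : ↥(KLoc hpN Z lam)) :
    letI := moduleTQ 𝒪 θ (twK hpN hZS hr lam)
    ((gK hpN hMS hZS hr lam θ k • x : ↥(KLoc hpN Z lam)) : 𝒪 ⊗[ℤ] Lam (N * p))
      = (latT (N * p) k.1).baseChange 𝒪 (x : 𝒪 ⊗[ℤ] Lam (N * p)) := by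
  letI := moduleTQ 𝒪 θ (twK hpN hZS hr lam)
  have h1 : gK hpN hMS hZS hr lam θ k • x = twK hpN hZS hr lam (TK hMS k) x :=
    chi_smul 𝒪 θ (twK hpN hZS hr lam) (TK hMS k) x
  rw [h1]
  exact coe_twK_T hpN hZS hr lam k.1.2 (fun h => k.2 (hMS k.1 k.1.2 h)) k.2 x

/-- the image of the Hecke algebra in the carrier lies in the algebra generated by the `gK` -/
theorem chi_mem_adjoin_gK (t : ↥(heckeAlgebra (N * p) 2 S)) :
    chi 𝒪 θ (twK hpN hZS hr lam) t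
      ∈ Algebra.adjoin 𝒪 (Set.range (gK hpN hMS hZS hr lam θ)) := by
  refine hecke_ind (motive := fun t => chi 𝒪 θ (twK hpN hZS hr lam) t
      ∈ Algebra.adjoin 𝒪 (Set.range (gK hpN hMS hZS hr lam θ))) ?_ ?_ ?_ ?_ ?_ t
  · intro ℓ hℓ hℓN hℓS
    exact Algebra.subset_adjoin ⟨⟨⟨ℓ, hℓ⟩, hℓS⟩, rfl⟩
  · intro q hq hqN hqS
    exact absurd (hMS q hq hqN) hqS
  · intro n
    rw [eq_intCast (algebraMap ℤ ↥(heckeAlgebra (N * p) 2 S)) n, map_intCast]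
    exact Subalgebra.intCast_mem _ n
  · intro a b ha hb
    rw [map_add]
    exact Subalgebra.add_mem _ ha hb
  · intro a b ha hb
    rw [map_mul]
    exact Subalgebra.mul_mem _ ha hb

/-- **`hG`**: the `gK` generate the carrier. -/
theorem adjoin_gK :
    Algebra.adjoin 𝒪 (Set.range (gK hpN hMS hZS hr lam θ)) = ⊤ := by
  rw [eq_top_iff, ← adjoin_range_chi 𝒪 θ (twK hpN hZS hr lam)]
  refine Algebra.adjoin_le ?_
  rintro _ ⟨t, rfl⟩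
  exact chi_mem_adjoin_gK hpN hMS hZS hr lam θ t

end TQ

/-! ### the modular point -/

section Point

variable {𝒪 : Type} [CommRing 𝒪] [IsDomain 𝒪] [IsDiscreteValuationRing 𝒪]
  [IsAdicComplete (maximalIdeal 𝒪) 𝒪] [CharZero 𝒪]
  {N p : ℕ} [hpF : Fact p.Prime] [NeZero N] [NeZero (N * p)] (hpN : ¬ p ∣ N)
  {S Z : Set ℕ} (hMS : ∀ r : ℕ, r.Prime → r ∣ N * p → r ∈ S)
  (hZS : ∀ l : ℕ, l.Prime → l ∉ S → l ∈ Z) (hr : BetaPEquiv hpN Z)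
  {lam : Nat.Primes → 𝒪} (θ : ↥(heckeAlgebra (N * p) 2 S) →+* ResidueField 𝒪)
  {x₀ : 𝒪 ⊗[ℤ] Lam (N * p)} (hx : x₀ ∈ eigenTensorO (N * p) 𝒪 lam) (hx0 : x₀ ≠ 0)
  (hxK : x₀ ∈ KNew hpN 𝒪)

variable (S) in
/-- the character of the anemic algebra on the eigensystem `lam` -/
def chiK : ↥(heckeAlgebra (N * p) 2 S) →+* 𝒪 :=
  ((chiHom hx hx0 : AfLam (N * p) 𝒪 →ₐ[𝒪] 𝒪) : AfLam (N * p) 𝒪 →+* 𝒪).comp
    (iotaLam (N * p) 𝒪 S)

theorem chiK_apply (t : ↥(heckeAlgebra (N * p) 2 S)) :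
    chiK S hx hx0 t = chiLam (N * p) 𝒪 lam (iotaLam (N * p) 𝒪 S t) := rfl

theorem chiK_T {ℓ : ℕ} (hℓ : ℓ.Prime) (hℓN : ¬ ℓ ∣ N * p) (hℓS : ℓ ∉ S) :
    chiK S hx hx0 (heckeAlgebra.T hℓ hℓN hℓS) = lam ⟨ℓ, hℓ⟩ := by
  rw [chiK_apply]
  refine chiLam_eq_of_smul hx hx0 _ ?_
  rw [iotaLam_T_smul]
  exact mem_eigenTensorO.mp hx _

/-- the residual character of the eigensystem is `thetaRes` -/
theorem residue_chiK (t : ↥(heckeAlgebra (N * p) 2 S)) :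
    residue 𝒪 (chiK S hx hx0 t) = thetaRes (iotaLam (N * p) 𝒪 S) (chiHom hx hx0) t := rfl

include hMS in
/-- the character of the eigensystem is THE ring hom with `T_ℓ ↦ lam ℓ` -/
theorem chiK_eq_of_T (χ : ↥(heckeAlgebra (N * p) 2 S) →+* 𝒪)
    (hχ : ∀ (ℓ : ℕ) (hℓ : ℓ.Prime) (hℓN : ¬ ℓ ∣ N * p) (hℓS : ℓ ∉ S),
      χ (heckeAlgebra.T hℓ hℓN hℓS) = lam ⟨ℓ, hℓ⟩) : chiK S hx hx0 = χ :=
  ringHom_ext_T hMS _ _ fun ℓ hℓ hℓN hℓS => by rw [chiK_T, hχ]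

include hMS hx hx0 in
/-- **(LOC) in the consumer's spelling**: `θ` the reduction of an eigensystem `χ` of the anemic
algebra with `χ T_ℓ = lam ℓ`. -/
theorem locHyp_twK_of_chi (χ : ↥(heckeAlgebra (N * p) 2 S) →+* 𝒪)
    (hχ : ∀ (ℓ : ℕ) (hℓ : ℓ.Prime) (hℓN : ¬ ℓ ∣ N * p) (hℓS : ℓ ∉ S),
      χ (heckeAlgebra.T hℓ hℓN hℓS) = lam ⟨ℓ, hℓ⟩)
    (hθ : ∀ t, residue 𝒪 (χ t) = θ t) : LocHyp 𝒪 θ (twK hpN hZS hr lam) := by
  refine locHyp_twK_of_theta hpN hZS hr hx hx0 θ fun t => ?_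
  rw [← hθ t, ← chiK_eq_of_T hMS hx hx0 χ hχ]
  rfl


variable (Z lam) in
theorem torsionFree_KLoc : Module.IsTorsionFree 𝒪 ↥(KLoc hpN Z lam) :=
  have htfX := torsionFree_tensor_lam (O := 𝒪) (N * p)
  (Subtype.val_injective).moduleIsTorsionFree (KLoc hpN Z lam).subtype (fun c x => rfl)

variable (Z) in
/-- the reference eigenvector inside `KLoc` -/
def x0K : ↥(KLoc hpN Z lam) := ⟨x₀, mem_KLoc_of_eigen hpN hx hxK⟩

include hx0 in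
theorem x0K_ne_zero : x0K hpN Z hx hxK ≠ 0 := fun h => hx0 (congrArg Subtype.val h)

theorem twK_x0K (t : ↥(heckeAlgebra (N * p) 2 S)) :
    twK hpN hZS hr lam t (x0K hpN Z hx hxK) = chiK S hx hx0 t • x0K hpN Z hx hxK :=
  Subtype.ext (chiLam_spec (N * p) 𝒪 lam (iotaLam (N * p) 𝒪 S t) hx)

/-- **the modular point** `πO : TQ 𝒪 θ twK →ₐ[𝒪] 𝒪` of the eigensystem `lam` -/
def pointK : TQ 𝒪 θ (twK hpN hZS hr lam) →ₐ[𝒪] 𝒪 :=
  haveI := torsionFree_KLoc hpN Z lam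
  pointTQ (twK hpN hZS hr lam) θ (chiK S hx hx0) (x0K_ne_zero hpN hx hx0 hxK)
    (twK_x0K hpN hZS hr hx hx0 hxK)

theorem pointK_chi (t : ↥(heckeAlgebra (N * p) 2 S)) :
    pointK hpN hZS hr θ hx hx0 hxK (chi 𝒪 θ (twK hpN hZS hr lam) t) = chiK S hx hx0 t :=
  haveI := torsionFree_KLoc hpN Z lam
  pointTQ_chi (twK hpN hZS hr lam) θ (chiK S hx hx0) (x0K_ne_zero hpN hx hx0 hxK)
    (twK_x0K hpN hZS hr hx hx0 hxK) t

theorem pointK_chi_T {ℓ : ℕ} (hℓ : ℓ.Prime) (hℓN : ¬ ℓ ∣ N * p) (hℓS : ℓ ∉ S) :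
    pointK hpN hZS hr θ hx hx0 hxK
      (chi 𝒪 θ (twK hpN hZS hr lam) (heckeAlgebra.T hℓ hℓN hℓS)) = lam ⟨ℓ, hℓ⟩ := by
  rw [pointK_chi, chiK_T]

/-- **`hlam`**: `πO (g k) = lam (pl k)`. -/
theorem pointK_gK (k : KIdx S) :
    pointK hpN hZS hr θ hx hx0 hxK (gK hpN hMS hZS hr lam θ k) = lam k.1 :=
  pointK_chi_T hpN hZS hr θ hx hx0 hxK k.1.2 (fun h => k.2 (hMS k.1 k.1.2 h)) k.2

include hMS in
/-- **`hη`**: the congruence ideal of the modular point is nonzero. -/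
theorem etaIdeal_pointK_ne_bot [Fact (LocHyp 𝒪 θ (twK hpN hZS hr lam))] :
    etaIdeal (pointK hpN hZS hr θ hx hx0 hxK) ≠ ⊥ := by
  haveI := finite_KLoc hpN Z lam
  haveI := free_KLoc hpN Z lam
  haveI : IsReduced ↥(heckeAlgebra (N * p) 2 S) :=
    Fermat.Agent.GS.Pet.isReduced_heckeAlgebra (N * p) 2 S hMS
  haveI : Nontrivial ↥(KLoc hpN Z lam) := nontrivial_KLoc hpN hx hx0 hxK
  haveI : IsReduced (TQ 𝒪 θ (twK hpN hZS hr lam)) :=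
    Fermat.Agent.GS.Pet.DatumAlg.isReduced_of_adjoin_range (O := 𝒪) _
      (adjoin_range_chi 𝒪 θ (twK hpN hZS hr lam))
  exact etaIdeal_ne_bot_of_finite _

end Point

/-! ### the kill clauses and `hann` -/

section Kill

open Fermat.Agent.GE9.PNew.Inst.PolyLin Fermat.Agent.GE9.PNew.Inst.HannImg
  Fermat.Agent.GB.B10.L.ThetaNew

variable {𝒪 : Type} [CommRing 𝒪] [IsDomain 𝒪] [IsDiscreteValuationRing 𝒪]
  [IsAdicComplete (maximalIdeal 𝒪) 𝒪] [CharZero 𝒪]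
  {N p : ℕ} [hpF : Fact p.Prime] [NeZero N] [NeZero (N * p)] (hpN : ¬ p ∣ N)
  {S Z : Set ℕ} (hZS : ∀ l : ℕ, l.Prime → l ∉ S → l ∈ Z) (hr : BetaPEquiv hpN Z)
  (lam : Nat.Primes → 𝒪) (θ : ↥(heckeAlgebra (N * p) 2 S) →+* ResidueField 𝒪)

/-- **the `p`-new part lies in `𝒪 ⊗ LamNew`** (flatness; helper39's `HannImg.mem_newSpan_of_pair`
at helper21's `bP1`, `bP2`). -/
theorem mem_newSpan_of_mem_KNew {x : 𝒪 ⊗[ℤ] Lam (N * p)} (hx : x ∈ KNew hpN 𝒪) :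
    x ∈ newSpan 𝒪 hpN := by
  haveI : Module.Flat ℤ 𝒪 := inferInstance
  obtain ⟨h1, h2⟩ := (mem_KNew hpN).mp hx
  exact mem_newSpan_of_pair hpN (bP1 hpN) (bP2 hpN) (fun _ => rfl) (fun _ => rfl) x h1 h2

/-- an operator of the Hecke algebra which kills the `p`-new lattice kills `KNew` -/
theorem baseChange_eq_zero_of_kills (t : ↥(heckeAlgebra (N * p) 2 S))
    (ht : ∀ x ∈ LamNew hpN, latAct (N * p) S t x = 0)
    {x : 𝒪 ⊗[ℤ] Lam (N * p)} (hx : x ∈ KNew hpN 𝒪) :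
    (latAct (N * p) S t).baseChange 𝒪 x = 0 :=
  eq_zero_of_mem_tmulSpan ((latAct (N * p) S t).baseChange 𝒪)
    (fun a y hy => by rw [LinearMap.baseChange_tmul, ht y hy, tmul_zero])
    (mem_newSpan_of_mem_KNew hpN hx)

/-- **the `ℤ`-level kill clause**: an operator which kills the `p`-new lattice dies in the carrier
(the hypothesis `hχ` of helper32's `PkgNew.hann_of_kills` at `χ := chi 𝒪 θ twK`). -/
theorem chi_eq_zero_of_kills (t : ↥(heckeAlgebra (N * p) 2 S))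
    (ht : ∀ x ∈ LamNew hpN, latAct (N * p) S t x = 0) :
    chi 𝒪 θ (twK hpN hZS hr lam) t = 0 := by
  rw [chi_apply, mkQ_eq_zero_iff, twO_tmul, one_smul]
  refine LinearMap.ext fun x => Subtype.ext ?_
  rw [coe_twK]
  exact baseChange_eq_zero_of_kills hpN t ht x.2.1

/-- **the `𝒪`-level kill clause**: an element of `𝒪 ⊗ A` which kills `KNew` dies in the carrier. -/
theorem mkQ_eq_zero_of_kills (t₀ : 𝒪 ⊗[ℤ] ↥(heckeAlgebra (N * p) 2 S))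
    (ht₀ : ∀ x ∈ KNew hpN 𝒪, iotaO (iotaLam (N * p) 𝒪 S) t₀ • x = 0) :
    mkQ 𝒪 θ (twK hpN hZS hr lam) t₀ = 0 := by
  rw [mkQ_eq_zero_iff]
  refine LinearMap.ext fun x => Subtype.ext ?_
  rw [coe_twO_twK]
  exact ht₀ (x : 𝒪 ⊗[ℤ] Lam (N * p)) x.2.1

/-- **`hann`** for the exposed carrier of the `p`-new stage module, VERBATIM the binder of
`GE9/Stage/RawSO` / `StepSO` (helper39's `HannImg.hann_TQ` at `Mod := ↥KLoc`). -/
theorem hann_KLoc {S0 : Finset ℕ} (hpS : p ∈ S0)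
    (hNS : ∀ r : ℕ, r.Prime → r ∣ N * p → r ∈ S0)
    (hZS0 : ∀ l : ℕ, l.Prime → l ∉ (↑S0 : Set ℕ) → l ∈ Z)
    (θ0 : ↥(heckeAlgebra (N * p) 2 (↑S0 : Set ℕ)) →+* ResidueField 𝒪) :
    ∀ t₀ : 𝒪 ⊗[ℤ] heckeAlgebra (N * p) 2 (↑S0 : Set ℕ),
      (∀ (a : 𝒪), ∀ x ∈ (LamNew hpN : AddSubgroup
          (Fermat.Agent.GB.B10.KumLevelHecke.levelData p (N * p) hpS hNS).Λ),
        (Fermat.Agent.GB.B10.KumLevelHecke.levelData p (N * p) hpS hNS).heckeTensor 𝒪 t₀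
          (a ⊗ₜ[ℤ] x) = 0) →
      Fermat.Agent.GB.B10.L.GalPkgSO.twO (𝒪 := 𝒪) (chi 𝒪 θ0 (twK hpN hZS0 hr lam)) t₀ = 0 :=
  hann_TQ hpS hNS hpN (twK hpN hZS0 hr lam) (KLoc hpN Z lam).subtype Subtype.val_injective
    (fun t m => coe_twK hpN hZS0 hr lam t m) (fun m => mem_newSpan_of_mem_KNew hpN m.2.1)

end Kill

/-! ### the ETA fields of the base record at the exposed carrier -/

section Fields

open Fermat.Agent.GE9.Eta.Base Fermat.Agent.GE9.OldQ.Consumer Fermat.Agent.GE9.NumCrit.ModForm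
  Fermat.Agent.GE9.PNew.Inst.BaseNewFinal Fermat.Agent.GE9.PNew.Inst.EigenNew

variable {𝒪 : Type} [CommRing 𝒪] [IsDomain 𝒪] [IsDiscreteValuationRing 𝒪]
  [IsAdicComplete (maximalIdeal 𝒪) 𝒪] [CharZero 𝒪]
  {N p : ℕ} [hpF : Fact p.Prime] [NeZero N] [NeZero (N * p)] (hpN : ¬ p ∣ N)

/-- **`BaseNewFields.new_fields_KLoc` at the exposed carrier** `T' := TQ 𝒪 θ twK`,
`πO := pointK`, `g := gK`, `pl := Subtype.val`: only the freeness of `KLoc` over `T'` (E6 newBase),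
`hnew` and `hold` remain. -/
theorem kstage_fields {S Z : Set ℕ} (hMS : ∀ r : ℕ, r.Prime → r ∣ N * p → r ∈ S)
    (hZS : ∀ l : ℕ, l.Prime → l ∉ S → l ∈ Z) (hr : BetaPEquiv hpN Z)
    {lam : Nat.Primes → 𝒪} (θ : ↥(heckeAlgebra (N * p) 2 S) →+* ResidueField 𝒪)
    [Fact (LocHyp 𝒪 θ (twK hpN hZS hr lam))]
    {x₀ : 𝒪 ⊗[ℤ] Lam (N * p)} (hx : x₀ ∈ eigenTensorO (N * p) 𝒪 lam) (hx0 : x₀ ≠ 0)
    (hxK : x₀ ∈ KNew hpN 𝒪)
    (hfree : letI := moduleTQ 𝒪 θ (twK hpN hZS hr lam)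
      Module.Free (TQ 𝒪 θ (twK hpN hZS hr lam)) ↥(KLoc hpN Z lam))
    (hnew : eigenTensorO (N * p) 𝒪 lam ≤ KNew hpN 𝒪)
    (hold : ∀ x ∈ KLoc hpN Z lam,
      (∀ k : KIdx S, (latT (N * p) k.1).baseChange 𝒪 x = lam k.1 • x) →
        x ∈ eigenTensorO (N * p) 𝒪 lam) :
    letI := moduleTQ 𝒪 θ (twK hpN hZS hr lam)
    haveI := isScalarTower_TQ 𝒪 θ (twK hpN hZS hr lam)
    (∀ (t : TQ 𝒪 θ (twK hpN hZS hr lam)) (x y : ↥(KLoc hpN Z lam)),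
      pullBW (KLoc hpN Z lam).subtype (t • x) y = pullBW (KLoc hpN Z lam).subtype x (t • y)) ∧
    (∀ w : ↥(KLoc hpN Z lam), (∀ z, pullBW (KLoc hpN Z lam).subtype z w = 0) → w = 0) ∧
    ∃ b : Fin 2 → ↥(KLoc hpN Z lam), LinearIndependent 𝒪 b ∧
      span 𝒪 (Set.range b) = torPO (pointK hpN hZS hr θ hx hx0 hxK) ↥(KLoc hpN Z lam) ∧
      Nat.card (CongMod (pullBW (KLoc hpN Z lam).subtype) (span 𝒪 (Set.range b)))
        = omegaCardNew hpN 𝒪 lam ∧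
      Nat.card (CongMod (pullBW (KLoc hpN Z lam).subtype) (span 𝒪 (Set.range b)))
        = Ind.etaCard (pointK hpN hZS hr θ hx hx0 hxK) ^ 2 ∧
      EtaStageNew hpN 𝒪 lam 2 := by
  letI := moduleTQ 𝒪 θ (twK hpN hZS hr lam)
  haveI := isScalarTower_TQ 𝒪 θ (twK hpN hZS hr lam)
  haveI := finite_KLoc hpN Z lam
  haveI := free_KLoc hpN Z lam
  haveI : Nontrivial ↥(KLoc hpN Z lam) := nontrivial_KLoc hpN hx hx0 hxK
  haveI := noZeroSMulDivisors_of_isTorsionFree 𝒪 (TQ 𝒪 θ (twK hpN hZS hr lam))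
  haveI : Module.Free (TQ 𝒪 θ (twK hpN hZS hr lam)) ↥(KLoc hpN Z lam) := hfree
  exact new_fields_KLoc hpN Z lam hr (pointK hpN hZS hr θ hx hx0 hxK)
    (etaIdeal_pointK_ne_bot hpN hMS hZS hr θ hx hx0 hxK)
    (gK hpN hMS hZS hr lam θ) (adjoin_gK hpN hMS hZS hr lam θ) (fun k => k.1)
    (fun k => hZS k.1 k.1.2 k.2) (gK_smul hpN hMS hZS hr lam θ)
    (pointK_gK hpN hMS hZS hr θ hx hx0 hxK) hnew hold

/-- **the ETA fields of the `p`-new base record at the exposed carrier, final form** (helper2's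
`BaseNewFinal.new_fields_KLoc_pnew` instantiated): `hnew` from `lam p ^ 2 = 1`, `hold` from the
types of the bad primes; only the freeness of `KLoc` over `T'` remains. -/
theorem kstage_fields_pnew {S0 : Finset ℕ} {Z : Set ℕ}
    (hNS : ∀ r : ℕ, r.Prime → r ∣ N * p → r ∈ (↑S0 : Set ℕ))
    (hZS : ∀ l : ℕ, l.Prime → l ∉ (↑S0 : Set ℕ) → l ∈ Z) (hr : BetaPEquiv hpN Z)
    {lam : Nat.Primes → 𝒪} (θ : ↥(heckeAlgebra (N * p) 2 (↑S0 : Set ℕ)) →+* ResidueField 𝒪)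
    [Fact (LocHyp 𝒪 θ (twK hpN hZS hr lam))]
    {x₀ : 𝒪 ⊗[ℤ] Lam (N * p)} (hx : x₀ ∈ eigenTensorO (N * p) 𝒪 lam) (hx0 : x₀ ≠ 0)
    (hu : lam (⟨p, hpF.out⟩ : Nat.Primes) ^ 2 = 1)
    (hbad : ∀ b : Nat.Primes, (b : ℕ) ∈ S0 → (b : ℕ) ≠ p →
      ¬ (b : ℕ) ∣ N ∨ ((b : ℕ) ∣ N ∧ ¬ (b : ℕ) ^ 2 ∣ N ∧ NonOccAt 𝒪 S0 b lam))
    (hfree : letI := moduleTQ 𝒪 θ (twK hpN hZS hr lam)
      Module.Free (TQ 𝒪 θ (twK hpN hZS hr lam)) ↥(KLoc hpN Z lam)) :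
    letI := moduleTQ 𝒪 θ (twK hpN hZS hr lam)
    haveI := isScalarTower_TQ 𝒪 θ (twK hpN hZS hr lam)
    (∀ (t : TQ 𝒪 θ (twK hpN hZS hr lam)) (x y : ↥(KLoc hpN Z lam)),
      pullBW (KLoc hpN Z lam).subtype (t • x) y = pullBW (KLoc hpN Z lam).subtype x (t • y)) ∧
    (∀ w : ↥(KLoc hpN Z lam), (∀ z, pullBW (KLoc hpN Z lam).subtype z w = 0) → w = 0) ∧
    ∃ b : Fin 2 → ↥(KLoc hpN Z lam), LinearIndependent 𝒪 b ∧
      span 𝒪 (Set.range b)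
        = torPO (pointK hpN hZS hr θ hx hx0 (eigenTensorO_le_KNew hpN lam hu hx))
            ↥(KLoc hpN Z lam) ∧
      Nat.card (CongMod (pullBW (KLoc hpN Z lam).subtype) (span 𝒪 (Set.range b)))
        = omegaCardNew hpN 𝒪 lam ∧
      Nat.card (CongMod (pullBW (KLoc hpN Z lam).subtype) (span 𝒪 (Set.range b)))
        = Ind.etaCard (pointK hpN hZS hr θ hx hx0 (eigenTensorO_le_KNew hpN lam hu hx)) ^ 2 ∧
      EtaStageNew hpN 𝒪 lam 2 := by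
  have hxK : x₀ ∈ KNew hpN 𝒪 := eigenTensorO_le_KNew hpN lam hu hx
  letI := moduleTQ 𝒪 θ (twK hpN hZS hr lam)
  haveI := isScalarTower_TQ 𝒪 θ (twK hpN hZS hr lam)
  haveI := finite_KLoc hpN Z lam
  haveI := free_KLoc hpN Z lam
  haveI : Nontrivial ↥(KLoc hpN Z lam) := nontrivial_KLoc hpN hx hx0 hxK
  haveI := noZeroSMulDivisors_of_isTorsionFree 𝒪 (TQ 𝒪 θ (twK hpN hZS hr lam))
  haveI : Module.Free (TQ 𝒪 θ (twK hpN hZS hr lam)) ↥(KLoc hpN Z lam) := hfree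
  exact new_fields_KLoc_pnew hpN Z lam hr (pointK hpN hZS hr θ hx hx0 hxK)
    (etaIdeal_pointK_ne_bot hpN hNS hZS hr θ hx hx0 hxK)
    (gK hpN hNS hZS hr lam θ) (adjoin_gK hpN hNS hZS hr lam θ) (fun k => k.1)
    (fun k => hZS k.1 k.1.2 k.2) (gK_smul hpN hNS hZS hr lam θ)
    (pointK_gK hpN hNS hZS hr θ hx hx0 hxK) S0
    (fun l hl => ⟨⟨l, fun h => hl (Finset.mem_coe.mp h)⟩, rfl⟩)
    x₀ hx0 (fun l => mem_eigenTensorO.mp hx l) hu hbad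

end Fields

end Fermat.Agent.GE9.PNew.Inst.KStageInst

end
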