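/-
GATE-E / RISK-4, instance layer R4-I (helper21, for helper37's `GrowNew.lean`):
`GE9/PNew/Inst/LamUpAt.lean` — the two spelling bridges between the ONE-STEP vocabulary
(`FormLoc.lamUp q lam₀`, `FormLoc.cq q lam₀`) and the STAGE vocabulary (`Chain.lamAt lam Sg`):

* `lamUp_lamAt` : `lamUp q (lamAt lam Sg) = lamAt lam (insert q Sg)`;
* `lamAt_qP` : `lamAt lam Sg (qP q) = lam ⟨q, hq⟩` for `q ∉ Sg`;
* `cq_lamAt` : `cq q (lamAt lam Sg) = (q − 1) ((1 + q)² − lam ⟨q, hq⟩²)` for `q ∉ Sg`;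
* `lamAt_sub_mem` : two systems congruent mod `𝔪_𝒪` off `S0` stay congruent on
  `{l | l ∉ S0 ∨ l ∈ Sg}` after `lamAt · Sg` (the hypothesis of `PolyAct.mP_congr`).
-/
import Mathlib
import Fermat.Agent.GE9.PNew.Inst.FormLoc
import Fermat.Agent.GE9.Eta.Chain

set_option autoImplicit false
set_option linter.unusedSectionVars false

namespace Fermat.Agent.GE9.PNew.Inst.LamUpAt

open IsLocalRing
open Fermat.Agent.GE9.Eta.Chain Fermat.Agent.GE9.PNew.Inst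

section

variable {𝒪 : Type} [CommRing 𝒪]

/-- the system of the next stage: `lamUp q` of the stage system is the stage system of
`insert q Sg`. -/
theorem lamUp_lamAt (lam : Nat.Primes → 𝒪) (Sg : Finset ℕ) (q : ℕ) [hqF : Fact q.Prime] :
    FormLoc.lamUp q (lamAt lam Sg) = lamAt lam (insert q Sg) :=
  (lamAt_insert lam Sg hqF.out).symm

/-- the value of the stage system at `q ∉ Sg`. -/
theorem lamAt_qP (lam : Nat.Primes → 𝒪) {Sg : Finset ℕ} {q : ℕ} [hqF : Fact q.Prime]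
    (hq : q.Prime) (hqS : q ∉ Sg) : lamAt lam Sg (qP q) = lam (⟨q, hq⟩ : Nat.Primes) :=
  lamAt_of_notMem lam (show ((qP q : Nat.Primes) : ℕ) ∉ Sg from hqS)

/-- Wiles' factor of the stage system at `q ∉ Sg` is that of `lam`. -/
theorem cq_lamAt (lam : Nat.Primes → 𝒪) {Sg : Finset ℕ} {q : ℕ} [hqF : Fact q.Prime]
    (hq : q.Prime) (hqS : q ∉ Sg) :
    FormLoc.cq q (lamAt lam Sg)
      = (((q : ℕ) : 𝒪) - 1) * ((1 + ((q : ℕ) : 𝒪)) ^ 2 - lam (⟨q, hq⟩ : Nat.Primes) ^ 2) := by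
  show (((q : ℕ) : 𝒪) - 1) * ((1 + ((q : ℕ) : 𝒪)) ^ 2 - lamAt lam Sg (qP q) ^ 2) = _
  rw [lamAt_qP lam hq hqS]

/-- the same for `lamUp`: its value at `q` is `0`, elsewhere that of the stage. -/
theorem lamAt_insert_qP (lam : Nat.Primes → 𝒪) (Sg : Finset ℕ) (q : ℕ) [hqF : Fact q.Prime] :
    lamAt lam (insert q Sg) (qP q) = 0 :=
  lamAt_of_mem lam (show ((qP q : Nat.Primes) : ℕ) ∈ insert q Sg from Finset.mem_insert_self q Sg)

end

section Congr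

variable {𝒪 : Type} [CommRing 𝒪] [IsLocalRing 𝒪]

/-- two systems congruent mod `𝔪_𝒪` off `S0` have stage systems congruent on the primes of the
stage algebra `{l | l ∉ S0 ∨ l ∈ Sg}` (both vanish on `Sg`). -/
theorem lamAt_sub_mem (lam lamf : Nat.Primes → 𝒪) (S0 Sg : Finset ℕ)
    (hcong : ∀ l : Nat.Primes, (l : ℕ) ∉ (↑S0 : Set ℕ) → lamf l - lam l ∈ maximalIdeal 𝒪)
    (l : Nat.Primes) (hl : (l : ℕ) ∈ {l : ℕ | l ∉ (↑S0 : Set ℕ) ∨ l ∈ Sg}) :
    lamAt lamf Sg l - lamAt lam Sg l ∈ maximalIdeal 𝒪 := by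
  by_cases hS : (l : ℕ) ∈ Sg
  · rw [lamAt_of_mem lamf hS, lamAt_of_mem lam hS, sub_self]
    exact Ideal.zero_mem _
  · rw [lamAt_of_notMem lamf hS, lamAt_of_notMem lam hS]
    rcases hl with h | h
    · exact hcong l h
    · exact absurd h hS

/-- the maximal ideals of the stage algebra cut by the two stage systems agree. -/
theorem mP_lamAt_congr (lam lamf : Nat.Primes → 𝒪) (S0 Sg : Finset ℕ)
    (hcong : ∀ l : Nat.Primes, (l : ℕ) ∉ (↑S0 : Set ℕ) → lamf l - lam l ∈ maximalIdeal 𝒪) :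
    mP 𝒪 {l : ℕ | l ∉ (↑S0 : Set ℕ) ∨ l ∈ Sg} (lamAt lamf Sg)
      = mP 𝒪 {l : ℕ | l ∉ (↑S0 : Set ℕ) ∨ l ∈ Sg} (lamAt lam Sg) :=
  mP_congr fun l hl => lamAt_sub_mem lam lamf S0 Sg hcong l hl

end Congr

end Fermat.Agent.GE9.PNew.Inst.LamUpAt
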