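/-
GATE-E / RISK-4 (PNEW-STAGE), instance layer R4-I, node LOCTC (helper8): the ABSTRACT supplier of the
binders (T) and (C) of the kernel-pairing / local-surjectivity step (board 7654 §2, §3).

SETTING.  `𝒪` complete noetherian local; `P`, `P'` commutative `𝒪`-algebras acting on a finite
`𝒪`-module `X`, the two actions linked by a ring hom `j : P →+* P'` with `j p • x = p • x`
(instance: `P = P_Sg`, `P' = P_{insert q Sg}` the polynomial Hecke algebras, `j` = rename);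
`𝔪' ◁ P'` maximal, `𝔪 ◁ P` maximal with `𝔪.map j ≤ 𝔪'`, and `u ∈ 𝔪'` (instance: `u = x_q`) such that
`𝔪'` is generated by `j 𝔪` and `u`.

RESULTS.  `L' := locPart 𝔪' X`, `C := awayPart 𝔪' X ⊓ locPart 𝔪 X` (a `P'`-submodule, `compl`):
* `locPart_le_locPart`       : `L' ⊆ locPart 𝔪 X`;
* `smul_mem_locPart`         : `locPart 𝔪 X` is stable under `P'`;
* `exists_add_of_mem_locPart`, `eq_zero_of_mem_of_mem_compl`, `sup_eq`, `disjoint_compl`
                             : `locPart 𝔪 X = L' ⊕ C`;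
* `exists_pow_smul_mem_pow`  : (T) `u` is topologically nilpotent on `L'`
                               (`u ^ n • L' ⊆ 𝔪_𝒪 ^ k • L'`), and the `ϖ`-form
                               `exists_pow_smul_eq_pow_smul` when `𝔪_𝒪 = (ϖ)`;
* `exists_inv_on_compl`      : (C) there is `b : P'` with `b • u • x = x` on `C`;
                               `bijective_smul_compl` : `u` is bijective on `C`;
* `tc_package`               : the End-form for any `U` with `U x = u • x`.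
-/
import Mathlib
import Fermat.Agent.GB.B3.Loc
import Fermat.Agent.GB.B3.Loc2
import Fermat.Agent.GB.B8.LevelHensel

set_option autoImplicit false
set_option linter.unusedSectionVars false
set_option linter.style.haveILetI false

namespace Fermat.Agent.GE9.PNew.Inst.LocTC

open Fermat.Agent.GB.B3.Loc Fermat.Agent.GB.B3.Loc2 Fermat.Agent.GB.B8.LevelHensel

/-! ### Iterating topological nilpotence -/

section Pow

variable (𝒪 : Type) [CommRing 𝒪] [IsLocalRing 𝒪] [IsNoetherianRing 𝒪]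
  [IsAdicComplete (IsLocalRing.maximalIdeal 𝒪) 𝒪]
variable {A : Type} [CommRing A] [Algebra 𝒪 A]
variable {L : Type*} [AddCommGroup L] [Module 𝒪 L] [Module A L] [IsScalarTower 𝒪 A L]
  [Module.Finite 𝒪 L]
variable (𝔪 : Ideal A) [h𝔪 : 𝔪.IsMaximal]

include 𝒪

/-- **every `t ∈ 𝔪` is topologically nilpotent on the `𝔪`-primary part**, all powers of `𝔪_𝒪` -/
theorem exists_pow_smul_mem_pow_aux (t : A) (ht : t ∈ 𝔪) (k : ℕ) :
    ∃ n : ℕ, ∀ y ∈ locPart 𝔪 L,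
      t ^ n • y ∈ ((IsLocalRing.maximalIdeal 𝒪) ^ k • (locPart 𝔪 L).restrictScalars 𝒪 :
        Submodule 𝒪 L) := by
  obtain ⟨m, hm⟩ := exists_pow_smul_mem 𝒪 (L := L) 𝔪 t ht
  induction k with
  | zero =>
    refine ⟨0, fun y hy => ?_⟩
    simp only [pow_zero, one_smul]
    exact hy
  | succ k ih =>
    obtain ⟨n, hn⟩ := ih
    refine ⟨n + m, fun y hy => ?_⟩
    have h1 := hn y hy
    have e : t ^ (n + m) • y = t ^ m • (t ^ n • y) := by
      rw [← mul_smul, ← pow_add, add_comm]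
    rw [e]
    -- `t ^ n • y ∈ 𝔪_𝒪 ^ k • L`, and `t ^ m` maps it into `𝔪_𝒪 ^ (k+1) • L`
    have key : ∀ w ∈ ((IsLocalRing.maximalIdeal 𝒪) ^ k • (locPart 𝔪 L).restrictScalars 𝒪 :
        Submodule 𝒪 L), t ^ m • w ∈ ((IsLocalRing.maximalIdeal 𝒪) ^ (k + 1) •
          (locPart 𝔪 L).restrictScalars 𝒪 : Submodule 𝒪 L) := by
      intro w hw
      refine Submodule.smul_induction_on hw ?_ ?_
      · intro c hc z hz
        have e2 : (IsLocalRing.maximalIdeal 𝒪) ^ (k + 1) •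
            ((locPart 𝔪 L).restrictScalars 𝒪 : Submodule 𝒪 L)
            = (IsLocalRing.maximalIdeal 𝒪) ^ k • ((IsLocalRing.maximalIdeal 𝒪) •
              ((locPart 𝔪 L).restrictScalars 𝒪 : Submodule 𝒪 L)) := by
          rw [pow_succ, Submodule.mul_smul]
        rw [smul_comm (t ^ m) c z, e2]
        exact Submodule.smul_mem_smul hc (hm z hz)
      · intro z w hz hw
        rw [smul_add]
        exact Submodule.add_mem _ hz hw
    exact key _ h1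

end Pow

/-! ### The two algebras -/

section Main

variable (𝒪 : Type) [CommRing 𝒪] [IsLocalRing 𝒪] [IsNoetherianRing 𝒪]
  [IsAdicComplete (IsLocalRing.maximalIdeal 𝒪) 𝒪]
variable {P P' : Type} [CommRing P] [CommRing P'] [Algebra 𝒪 P] [Algebra 𝒪 P']
variable {X : Type*} [AddCommGroup X] [Module 𝒪 X] [Module P X] [Module P' X]
  [IsScalarTower 𝒪 P X] [IsScalarTower 𝒪 P' X] [Module.Finite 𝒪 X]
variable (j : P →+* P') (hj : ∀ (p : P) (x : X), j p • x = p • x)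
variable (𝔪 : Ideal P) [h𝔪 : 𝔪.IsMaximal] (𝔪' : Ideal P') [h𝔪' : 𝔪'.IsMaximal]

/-- multiplication by `a' : P'` as a `P`-linear endomorphism -/
def smulP (a' : P') : X →ₗ[P] X where
  toFun x := a' • x
  map_add' := smul_add a'
  map_smul' p x := by
    simp only [RingHom.id_apply]
    rw [← hj p x, ← hj p (a' • x), smul_comm]

@[simp] theorem smulP_apply (a' : P') (x : X) : smulP j hj a' x = a' • x := rfl

include hj in
/-- the `𝔪`-primary part (for `P`) is stable under `P'` -/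
theorem smul_mem_locPart (a' : P') {x : X} (hx : x ∈ locPart 𝔪 X) : a' • x ∈ locPart 𝔪 X :=
  apply_mem_locPart (smulP j hj a') hx

include hj in
/-- `𝔪 = j ⁻¹ 𝔪'` -/
theorem comap_eq (hle : 𝔪.map j ≤ 𝔪') : 𝔪'.comap j = 𝔪 := by
  have h1 : 𝔪 ≤ 𝔪'.comap j := Ideal.map_le_iff_le_comap.1 hle
  have h2 : 𝔪'.comap j ≠ ⊤ := Ideal.comap_ne_top j h𝔪'.ne_top
  exact (h𝔪.eq_of_le h2 h1).symm

include hj in
/-- **`locPart 𝔪' X ⊆ locPart 𝔪 X`** -/
theorem locPart_le_locPart (hle : 𝔪.map j ≤ 𝔪') {x : X} (hx : x ∈ locPart 𝔪' X) :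
    x ∈ locPart 𝔪 X := by
  rw [mem_locPart]
  intro s hs
  have hs' : j s ∉ 𝔪' := by
    intro h
    apply hs
    rw [← comap_eq j hj 𝔪 𝔪' hle]
    exact Ideal.mem_comap.2 h
  obtain ⟨y, hy⟩ := mem_locPart.1 hx (j s) hs'
  exact ⟨y, by rw [← hj, hy]⟩

/-- the `𝔪`-primary part for `P`, as a `P'`-submodule -/
def locUp : Submodule P' X where
  carrier := {x | x ∈ locPart 𝔪 X}
  zero_mem' := (locPart 𝔪 X).zero_mem
  add_mem' := fun hx hy => (locPart 𝔪 X).add_mem hx hy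
  smul_mem' := fun a' _ hx => smul_mem_locPart j hj 𝔪 a' hx

theorem mem_locUp {x : X} : x ∈ locUp j hj 𝔪 ↔ x ∈ locPart 𝔪 X := Iff.rfl

/-- **the complement `C`**: the part of `locPart 𝔪 X` away from `𝔪'` -/
def compl : Submodule P' X := awayPart 𝔪' X ⊓ locUp j hj 𝔪

theorem mem_compl {x : X} :
    x ∈ compl j hj 𝔪 𝔪' ↔ x ∈ awayPart 𝔪' X ∧ x ∈ locPart 𝔪 X := by
  unfold compl
  rw [Submodule.mem_inf, mem_locUp]

theorem compl_le_locPart {x : X} (hx : x ∈ compl j hj 𝔪 𝔪') : x ∈ locPart 𝔪 X :=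
  ((mem_compl j hj 𝔪 𝔪').1 hx).2

theorem compl_le_awayPart {x : X} (hx : x ∈ compl j hj 𝔪 𝔪') : x ∈ awayPart 𝔪' X :=
  ((mem_compl j hj 𝔪 𝔪').1 hx).1

include hj in
/-- `C` is stable under `P` -/
theorem smul_mem_compl (p : P) {x : X} (hx : x ∈ compl j hj 𝔪 𝔪') :
    p • x ∈ compl j hj 𝔪 𝔪' := by
  rw [← hj]
  exact (compl j hj 𝔪 𝔪').smul_mem (j p) hx

include hj in
/-- `locPart 𝔪' X` is stable under `P` -/
theorem smul_mem_locPart' (p : P) {x : X} (hx : x ∈ locPart 𝔪' X) :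
    p • x ∈ locPart 𝔪' X := by
  rw [← hj]
  exact (locPart 𝔪' X).smul_mem (j p) hx

include 𝒪

/-- **`locPart 𝔪 X = locPart 𝔪' X + C`** -/
theorem exists_add_of_mem_locPart (hle : 𝔪.map j ≤ 𝔪') {x : X} (hx : x ∈ locPart 𝔪 X) :
    ∃ y ∈ locPart 𝔪' X, ∃ z ∈ compl j hj 𝔪 𝔪', y + z = x := by
  have hcompl := isCompl_locPart_awayPart 𝒪 (L := X) 𝔪'
  have hx' : x ∈ locPart 𝔪' X ⊔ awayPart 𝔪' X := by
    rw [hcompl.sup_eq_top]; trivial
  obtain ⟨y, hy, z, hz, hyz⟩ := Submodule.mem_sup.1 hx'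
  refine ⟨y, hy, z, ?_, hyz⟩
  rw [mem_compl]
  refine ⟨hz, ?_⟩
  have hy' := locPart_le_locPart j hj 𝔪 𝔪' hle hy
  have : z = x - y := by rw [← hyz]; abel
  rw [this]
  exact (locPart 𝔪 X).sub_mem hx hy'

/-- **`locPart 𝔪' X ∩ C = 0`** -/
theorem eq_zero_of_mem_of_mem_compl {x : X} (hx : x ∈ locPart 𝔪' X)
    (hx' : x ∈ compl j hj 𝔪 𝔪') : x = 0 := by
  have hcompl := isCompl_locPart_awayPart 𝒪 (L := X) 𝔪'
  exact (Submodule.disjoint_def.1 hcompl.disjoint) x hx (compl_le_awayPart j hj 𝔪 𝔪' hx')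

/-- lattice form of the decomposition, as `𝒪`-submodules -/
theorem sup_eq (hle : 𝔪.map j ≤ 𝔪') :
    (locPart 𝔪' X).restrictScalars 𝒪 ⊔ (compl j hj 𝔪 𝔪').restrictScalars 𝒪
      = (locPart 𝔪 X).restrictScalars 𝒪 := by
  apply le_antisymm
  · refine sup_le ?_ ?_
    · intro x hx
      exact locPart_le_locPart j hj 𝔪 𝔪' hle hx
    · intro x hx
      exact compl_le_locPart j hj 𝔪 𝔪' hx
  · intro x hx
    obtain ⟨y, hy, z, hz, hyz⟩ := exists_add_of_mem_locPart 𝒪 j hj 𝔪 𝔪' hle hx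
    exact Submodule.mem_sup.2 ⟨y, hy, z, hz, hyz⟩

theorem disjoint_compl :
    Disjoint ((locPart 𝔪' X).restrictScalars 𝒪) ((compl j hj 𝔪 𝔪').restrictScalars 𝒪) := by
  rw [Submodule.disjoint_def]
  intro x hx hx'
  exact eq_zero_of_mem_of_mem_compl 𝒪 j hj 𝔪 𝔪' hx hx'

/-- **(T)**: `u ∈ 𝔪'` is topologically nilpotent on `locPart 𝔪' X` -/
theorem exists_pow_smul_mem_pow (u : P') (hu : u ∈ 𝔪') (k : ℕ) :
    ∃ n : ℕ, ∀ y ∈ locPart 𝔪' X,
      u ^ n • y ∈ ((IsLocalRing.maximalIdeal 𝒪) ^ k • (locPart 𝔪' X).restrictScalars 𝒪 :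
        Submodule 𝒪 X) :=
  exists_pow_smul_mem_pow_aux 𝒪 (L := X) 𝔪' u hu k

/-- **(T)**, uniformiser form: if `𝔪_𝒪 = (ϖ)` then `u ^ n • y = ϖ ^ k • z` with `z` again in
`locPart 𝔪' X` -/
theorem exists_pow_smul_eq_pow_smul (u : P') (hu : u ∈ 𝔪') (ϖ : 𝒪)
    (hϖ : IsLocalRing.maximalIdeal 𝒪 = Ideal.span {ϖ}) (k : ℕ) :
    ∃ n : ℕ, ∀ y ∈ locPart 𝔪' X, ∃ z ∈ locPart 𝔪' X, u ^ n • y = ϖ ^ k • z := by
  obtain ⟨n, hn⟩ := exists_pow_smul_mem_pow 𝒪 (X := X) 𝔪' u hu k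
  refine ⟨n, fun y hy => ?_⟩
  have h1 := hn y hy
  rw [hϖ, Ideal.span_singleton_pow, Submodule.ideal_span_singleton_smul] at h1
  obtain ⟨z, hz, hzy⟩ := (Submodule.mem_smul_pointwise_iff_exists _ _ _).1 h1
  exact ⟨z, hz, hzy.symm⟩

/-! ### (C): `u` is invertible on the complement -/

/-- `C` is finite over `𝒪` -/
theorem finite_compl : Module.Finite 𝒪 (compl j hj 𝔪 𝔪') := by
  haveI : IsNoetherian 𝒪 X := isNoetherian_of_isNoetherianRing_of_finite 𝒪 X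
  exact Module.Finite.of_injective ((compl j hj 𝔪 𝔪').subtype.restrictScalars 𝒪)
    Subtype.val_injective

/-- the primary part of `C` at `𝔪'` vanishes -/
theorem locPart_compl_eq_bot : locPart 𝔪' (compl j hj 𝔪 𝔪') = ⊥ := by
  rw [eq_bot_iff]
  intro d hd
  have h1 : ((compl j hj 𝔪 𝔪').subtype d) ∈ locPart 𝔪' X :=
    apply_mem_locPart (compl j hj 𝔪 𝔪').subtype hd
  have h2 : (d : X) = 0 := eq_zero_of_mem_of_mem_compl 𝒪 j hj 𝔪 𝔪' h1 d.2
  rw [Submodule.mem_bot]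
  exact Subtype.ext h2

/-- an element of `locPart 𝔪 X` infinitely divisible by some `t ∈ 𝔪` (inside `locPart 𝔪 X`)
vanishes (Krull) -/
theorem eq_zero_of_forall_exists_pow_smul (t : P) (ht : t ∈ 𝔪) (d : X)
    (hd : ∀ n : ℕ, ∃ d' ∈ locPart 𝔪 X, t ^ n • d' = d) : d = 0 := by
  have hkr : (⨅ i : ℕ, (IsLocalRing.maximalIdeal 𝒪) ^ i • (⊤ : Submodule 𝒪 X)) = ⊥ :=
    Ideal.iInf_pow_smul_eq_bot_of_isLocalRing _ Ideal.IsPrime.ne_top'
  have hmem : d ∈ (⨅ i : ℕ, (IsLocalRing.maximalIdeal 𝒪) ^ i • (⊤ : Submodule 𝒪 X)) := by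
    rw [Submodule.mem_iInf]
    intro k
    obtain ⟨n, hn⟩ := exists_pow_smul_mem_pow_aux 𝒪 (L := X) 𝔪 t ht k
    obtain ⟨d', hd', hdd⟩ := hd n
    rw [← hdd]
    exact Submodule.smul_mono le_rfl le_top (hn d' hd')
  rw [hkr] at hmem
  exact (Submodule.mem_bot 𝒪).1 hmem

/-- **(C)**: `u` has an inverse on `C` coming from `P'` -/
theorem exists_inv_on_compl (u : P')
    (hgen : 𝔪' ≤ 𝔪.map j ⊔ Ideal.span {u}) :
    ∃ b : P', ∀ x ∈ compl j hj 𝔪 𝔪', b • u • x = x := by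
  haveI := finite_compl 𝒪 j hj 𝔪 𝔪'
  -- the ideal `Ann C + (u)` is the unit ideal
  have htop : Module.annihilator P' (compl j hj 𝔪 𝔪') ⊔ Ideal.span {u} = ⊤ := by
    by_contra hne
    obtain ⟨𝔫, h𝔫, hle𝔫⟩ := Ideal.exists_le_maximal _ hne
    haveI := h𝔫
    have hann : Module.annihilator P' (compl j hj 𝔪 𝔪') ≤ 𝔫 := le_trans le_sup_left hle𝔫
    have hu𝔫 : u ∈ 𝔫 := hle𝔫 (Ideal.mem_sup_right (Ideal.mem_span_singleton_self u))
    have hD : locPart 𝔫 (compl j hj 𝔪 𝔪') ≠ ⊥ :=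
      (locPart_ne_bot_iff 𝒪 (L := compl j hj 𝔪 𝔪') 𝔫).2 hann
    -- `j 𝔪 ⊆ 𝔫`
    have hmap : 𝔪.map j ≤ 𝔫 := by
      rw [Ideal.map_le_iff_le_comap]
      intro t ht
      rw [Ideal.mem_comap]
      by_contra htn
      apply hD
      rw [eq_bot_iff]
      intro d hd
      rw [Submodule.mem_bot]
      apply Subtype.ext
      refine eq_zero_of_forall_exists_pow_smul 𝒪 𝔪 t ht (d : X) (fun n => ?_)
      have hpow : (j t) ^ n ∉ 𝔫 := fun h => htn (h𝔫.isPrime.mem_of_pow_mem n h)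
      obtain ⟨⟨d', hd'⟩, hdd⟩ :=
        (bijective_smul_locPart 𝒪 (L := compl j hj 𝔪 𝔪') 𝔫 hpow).2 ⟨d, hd⟩
      refine ⟨(d' : X), compl_le_locPart j hj 𝔪 𝔪' d'.2, ?_⟩
      have h3 : ((j t) ^ n • d' : compl j hj 𝔪 𝔪') = d := congrArg Subtype.val hdd
      have h4 : (j t) ^ n • (d' : X) = (d : X) := congrArg Subtype.val h3
      rw [← h4, ← map_pow]
      exact (hj (t ^ n) (d' : X)).symm
    have h𝔪𝔫 : 𝔪' ≤ 𝔫 := le_trans hgen (sup_le hmap
      ((Ideal.span_singleton_le_iff_mem _).2 hu𝔫))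
    have heq : 𝔪' = 𝔫 := h𝔪'.eq_of_le h𝔫.ne_top h𝔪𝔫
    subst heq
    exact hD (locPart_compl_eq_bot 𝒪 j hj 𝔪 𝔪')
  have h1 : (1 : P') ∈ Module.annihilator P' (compl j hj 𝔪 𝔪') ⊔ Ideal.span {u} := by
    rw [htop]; trivial
  obtain ⟨a, ha, c, hc, hac⟩ := Submodule.mem_sup.1 h1
  obtain ⟨b, rfl⟩ := Ideal.mem_span_singleton'.1 hc
  refine ⟨b, fun x hx => ?_⟩
  have ha0 : a • x = 0 := by
    have := Module.mem_annihilator.1 ha (⟨x, hx⟩ : compl j hj 𝔪 𝔪')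
    exact congrArg Subtype.val this
  calc b • u • x = (b * u) • x := (mul_smul b u x).symm
    _ = a • x + (b * u) • x := by rw [ha0, zero_add]
    _ = (a + b * u) • x := (add_smul _ _ _).symm
    _ = x := by rw [hac, one_smul]

/-- **(C)**: `u` is bijective on `C` -/
theorem bijective_smul_compl (u : P')
    (hgen : 𝔪' ≤ 𝔪.map j ⊔ Ideal.span {u}) :
    Function.Bijective (fun x : compl j hj 𝔪 𝔪' => u • x) := by
  obtain ⟨b, hb⟩ := exists_inv_on_compl 𝒪 j hj 𝔪 𝔪' u hgen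
  constructor
  · intro x y hxy
    have h := congrArg (fun z : compl j hj 𝔪 𝔪' => b • (z : X)) hxy
    simp only [Submodule.coe_smul] at h
    rw [hb x x.2, hb y y.2] at h
    exact Subtype.ext h
  · intro x
    refine ⟨b • x, Subtype.ext ?_⟩
    show u • b • (x : X) = x
    rw [smul_comm]
    exact hb x x.2

/-- **the (T)(C) package, End-form**: for any additive endomorphism `U` of `X` acting as `u`,
`L' := locPart 𝔪' X` and `C := compl` are `U`-stable, `locPart 𝔪 X = L' ⊕ C`, `U` is onto (and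
injective) on `C`, and `U` is topologically nilpotent on `L'`. -/
theorem tc_package (u : P') (hu : u ∈ 𝔪') (hle : 𝔪.map j ≤ 𝔪')
    (hgen : 𝔪' ≤ 𝔪.map j ⊔ Ideal.span {u}) (U : X → X) (hU : ∀ x, U x = u • x) :
    (∀ x ∈ locPart 𝔪' X, x ∈ locPart 𝔪 X) ∧
    (∀ x ∈ compl j hj 𝔪 𝔪', x ∈ locPart 𝔪 X) ∧
    (∀ x ∈ locPart 𝔪 X, ∃ y ∈ locPart 𝔪' X, ∃ z ∈ compl j hj 𝔪 𝔪', y + z = x) ∧
    (∀ x ∈ locPart 𝔪' X, x ∈ compl j hj 𝔪 𝔪' → x = 0) ∧
    (∀ x ∈ locPart 𝔪' X, U x ∈ locPart 𝔪' X) ∧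
    (∀ x ∈ compl j hj 𝔪 𝔪', U x ∈ compl j hj 𝔪 𝔪') ∧
    (∀ x ∈ compl j hj 𝔪 𝔪', ∃ y ∈ compl j hj 𝔪 𝔪', U y = x) ∧
    (∀ x ∈ compl j hj 𝔪 𝔪', U x = 0 → x = 0) ∧
    (∀ k : ℕ, ∃ n : ℕ, ∀ y ∈ locPart 𝔪' X,
      U^[n] y ∈ ((IsLocalRing.maximalIdeal 𝒪) ^ k • (locPart 𝔪' X).restrictScalars 𝒪 :
        Submodule 𝒪 X)) := by
  obtain ⟨b, hb⟩ := exists_inv_on_compl 𝒪 j hj 𝔪 𝔪' u hgen
  have hiter : ∀ (n : ℕ) (y : X), U^[n] y = u ^ n • y := by
    intro n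
    induction n with
    | zero => intro y; rw [Function.iterate_zero, id_eq, pow_zero, one_smul]
    | succ n ih =>
      intro y
      rw [Function.iterate_succ_apply', ih, hU, pow_succ', mul_smul]
  refine ⟨fun x hx => locPart_le_locPart j hj 𝔪 𝔪' hle hx,
    fun x hx => compl_le_locPart j hj 𝔪 𝔪' hx,
    fun x hx => exists_add_of_mem_locPart 𝒪 j hj 𝔪 𝔪' hle hx,
    fun x hx hx' => eq_zero_of_mem_of_mem_compl 𝒪 j hj 𝔪 𝔪' hx hx',
    fun x hx => by rw [hU]; exact (locPart 𝔪' X).smul_mem u hx,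
    fun x hx => by rw [hU]; exact (compl j hj 𝔪 𝔪').smul_mem u hx,
    fun x hx => ⟨b • x, (compl j hj 𝔪 𝔪').smul_mem b hx, by
      rw [hU, smul_comm]; exact hb x hx⟩,
    fun x hx h0 => by
      rw [hU] at h0
      rw [← hb x hx, h0, smul_zero],
    fun k => ?_⟩
  obtain ⟨n, hn⟩ := exists_pow_smul_mem_pow 𝒪 (X := X) 𝔪' u hu k
  exact ⟨n, fun y hy => by rw [hiter]; exact hn y hy⟩

end Main

end Fermat.Agent.GE9.PNew.Inst.LocTC
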