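/-
GATE-E / RISK-4 PNEW-STAGE, instance layer (I-b) (helper5): **`LocSurjU` ∘ `LocTC`** — the abstract
FINAL form of (I-b), with NO `(T)(C)` binder left.

`P` = the `q`-anemic Hecke algebra (acts on both levels), `P'` = `P` with the symbol `u = x_q`
adjoined (acts on the upper level `X′`, `u` acting as `U_q`), `𝔪 ◁ P`, `𝔪' = (𝔪, u) ◁ P'`.
`β : X′ →ₗ[P] X³` with `β (u • y) = U3♯ (β y)`, `U3♯ = [[0, c, 0], [0, 0, c], [0, −1, τ]]`, `c` a unit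
of `𝒪`, `τ` an `𝒪`-endomorphism of `X` (`T_q` at the lower level — NOT in `P`), and the kill
hypothesis of dual IHARA2.  Then

  `∀ x ∈ locPart 𝔪 X, ∃ y ∈ locPart 𝔪' X′, β y = (x, 0, 0)`,

hence `t y = x` for `t = c β₂ − a β₁ + β₀` (`Beta3Uq.tW_eq_beO_zero`): **`t` maps the `𝔪'`-primary part
of `X′` ONTO the `𝔪`-primary part of `X`** (`ht` of `KerHecke.card_congMod_ker_growth_hecke`).
-/
import Mathlib
import Fermat.Agent.GE9.PNew.Inst.LocSurjU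
import Fermat.Agent.GE9.PNew.Inst.LocTC

set_option autoImplicit false
set_option linter.unusedSectionVars false

namespace Fermat.Agent.GE9.PNew.Inst.LocSurjTC

open Fermat.Agent.GB.B3.Loc Fermat.Agent.GB.B3.Loc2
open Fermat.Agent.GE9.PNew.Inst.LocSurjU Fermat.Agent.GE9.PNew.Inst.LocTC

section SmulO

variable (𝒪 : Type*) [CommRing 𝒪] {P' : Type*} [CommRing P'] [Algebra 𝒪 P']
variable {X' : Type*} [AddCommGroup X'] [Module 𝒪 X'] [Module P' X'] [IsScalarTower 𝒪 P' X']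

/-- multiplication by `u : P'` as an `𝒪`-linear endomorphism. -/
def smulO (u : P') : X' →ₗ[𝒪] X' where
  toFun y := u • y
  map_add' := smul_add u
  map_smul' r y := smul_comm u r y

theorem smulO_apply (u : P') (y : X') : smulO 𝒪 (X' := X') u y = u • y := rfl

theorem smulO_pow_apply (u : P') (n : ℕ) (y : X') :
    ((smulO 𝒪 (X' := X') u) ^ n) y = u ^ n • y := by
  induction n generalizing y with
  | zero =>
    rw [pow_zero, pow_zero, one_smul]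
    rfl
  | succ n ih =>
    rw [pow_succ', pow_succ', mul_smul, ← ih]
    rfl

end SmulO

variable (𝒪 : Type) [CommRing 𝒪] [IsLocalRing 𝒪] [IsNoetherianRing 𝒪]
  [IsAdicComplete (IsLocalRing.maximalIdeal 𝒪) 𝒪]
variable {P P' : Type} [CommRing P] [CommRing P'] [Algebra 𝒪 P] [Algebra 𝒪 P']
variable {X X' : Type*} [AddCommGroup X] [Module 𝒪 X] [Module P X] [IsScalarTower 𝒪 P X]
  [Module.Finite 𝒪 X]
  [AddCommGroup X'] [Module 𝒪 X'] [Module P X'] [Module P' X']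
  [IsScalarTower 𝒪 P X'] [IsScalarTower 𝒪 P' X'] [Module.Finite 𝒪 X']
variable (j : P →+* P')
variable (𝔪 : Ideal P) [h𝔪 : 𝔪.IsMaximal] (𝔪' : Ideal P') [h𝔪' : 𝔪'.IsMaximal]

/-- **(I-b), abstract FINAL form.** -/
theorem exists_mem_locPart_single (hj : ∀ (p : P) (x : X'), j p • x = p • x)
    (u : P') (hu : u ∈ 𝔪') (hle : 𝔪.map j ≤ 𝔪')
    (hgen : 𝔪' ≤ 𝔪.map j ⊔ Ideal.span {u})
    (β : X' →ₗ[P] (Fin 3 → X)) (τ : X →ₗ[𝒪] X) (c : 𝒪) (hc : IsUnit c)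
    (h0 : ∀ y, β (u • y) 0 = c • β y 1) (h1 : ∀ y, β (u • y) 1 = c • β y 2)
    (h2 : ∀ y, β (u • y) 2 = τ (β y 2) - β y 1)
    (E : P) (hE : E ∉ 𝔪) (ϖ : 𝒪) (hϖ : ϖ ∈ IsLocalRing.maximalIdeal 𝒪)
    (hkill : ∀ z : Fin 3 → X, ∃ (w : X') (z' : Fin 3 → X), E • z = β w + ϖ • z') :
    ∀ x ∈ locPart 𝔪 X, ∃ y ∈ locPart 𝔪' X', β y 0 = x ∧ β y 1 = 0 ∧ β y 2 = 0 := by
  intro x hx
  obtain ⟨y, hy, hy0, hy1, hy2⟩ :=
    exists_mem_single_of_kill 𝒪 𝔪 β (smulO 𝒪 u) τ c hc h0 h1 h2 E hE ϖ hϖ hkill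
      ((locPart 𝔪' X').restrictScalars 𝒪) ((compl j hj 𝔪 𝔪').restrictScalars 𝒪)
      (le_of_eq (sup_eq 𝒪 j hj 𝔪 𝔪' hle).symm)
      (fun y hy k => by
        obtain ⟨n, hn⟩ := exists_pow_smul_mem_pow 𝒪 (X := X') 𝔪' u hu k
        refine ⟨n, ?_⟩
        rw [smulO_pow_apply]
        exact Submodule.smul_mono le_rfl le_top (hn y hy))
      (fun z hz => by
        obtain ⟨⟨z', hz'⟩, hzz⟩ := (bijective_smul_compl 𝒪 j hj 𝔪 𝔪' u hgen).2 ⟨z, hz⟩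
        exact ⟨z', congrArg Subtype.val hzz⟩)
      x hx
  exact ⟨y, hy, hy0, hy1, hy2⟩

/-- the same, for a transfer `t` which equals `β₀` on the vectors killed by `β₁, β₂`. -/
theorem exists_mem_locPart_transfer (hj : ∀ (p : P) (x : X'), j p • x = p • x)
    (u : P') (hu : u ∈ 𝔪') (hle : 𝔪.map j ≤ 𝔪')
    (hgen : 𝔪' ≤ 𝔪.map j ⊔ Ideal.span {u})
    (β : X' →ₗ[P] (Fin 3 → X)) (τ : X →ₗ[𝒪] X) (c : 𝒪) (hc : IsUnit c)
    (h0 : ∀ y, β (u • y) 0 = c • β y 1) (h1 : ∀ y, β (u • y) 1 = c • β y 2)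
    (h2 : ∀ y, β (u • y) 2 = τ (β y 2) - β y 1)
    (E : P) (hE : E ∉ 𝔪) (ϖ : 𝒪) (hϖ : ϖ ∈ IsLocalRing.maximalIdeal 𝒪)
    (hkill : ∀ z : Fin 3 → X, ∃ (w : X') (z' : Fin 3 → X), E • z = β w + ϖ • z')
    (t : X' → X) (ht : ∀ y, β y 1 = 0 → β y 2 = 0 → t y = β y 0) :
    ∀ x ∈ locPart 𝔪 X, ∃ y ∈ locPart 𝔪' X', t y = x := by
  intro x hx
  obtain ⟨y, hy, hy0, hy1, hy2⟩ := exists_mem_locPart_single 𝒪 j 𝔪 𝔪' hj u hu hle hgen β τ c hc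
    h0 h1 h2 E hE ϖ hϖ hkill x hx
  exact ⟨y, hy, by rw [ht y hy1 hy2, hy0]⟩

end Fermat.Agent.GE9.PNew.Inst.LocSurjTC
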