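/-
GATE-E / RISK-4, instance layer R4-I, slice of (I-d) (helper21): **eigenvectors of the polynomial
Hecke action** — the binder `hg` of `KerHecke.card_congMod_ker_growth_hecke` and the membership of
eigenvectors in the `𝔪`-primary part, for helper74's `LocBridge.actLam`.

* `actLam_of_eigen` : if `(latT M (pr s)) ⊗ O` acts on `x` by `lam (pr s)` for every symbol `s`, then
  `actLam t x = (aeval (lam ∘ pr) t) • x`;
* `actLam_eigenTensorO` : the same for `x ∈ eigenTensorO M O lam` (helper2's `P`);
* `actLam_raise3` : `hg` for helper2's raised family `b' = raise3 (alpha3O) q (lam q) b` at level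
  `N q²`, eigencharacter `lam[q ↦ 0]`;
* `BW_mod_eq` / `actLam_BW_mod` : `Eta.Mod.BW = Eta.LocLamFr.BW` (`rfl`) and the `BW`-self-adjointness
  of the polynomial algebra in helper2's spelling.
-/
import Mathlib
import Fermat.Agent.GE9.PNew.Inst.PolyLin
import Fermat.Agent.GE9.Eta.Mod

set_option autoImplicit false
set_option linter.unusedSectionVars false

open scoped TensorProduct

namespace Fermat.Agent.GE9.PNew.Inst.PolyEigen

open Fermat.Agent.GJ.J2.Lat Fermat.Agent.GM.Asm
open Fermat.Agent.GE9.Eta.Base.LocBridge Fermat.Agent.GB.B3.HeckeAct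
open Fermat.Agent.GE9.Eta.LocLam Fermat.Agent.GE9.Mult1

section Eigen

variable {O : Type} [CommRing O] {σ : Type} (pr : σ → ℕ) (hpr : ∀ s, (pr s).Prime)
  {M : ℕ} [NeZero M]

/-- **eigenvectors of the generators are eigenvectors of the polynomial algebra**, with
eigencharacter `aeval`. -/
theorem actLam_of_eigen (c : σ → O) {x : O ⊗[ℤ] Lam M}
    (hx : ∀ s, (latT M ⟨pr s, hpr s⟩).baseChange O x = c s • x) (t : MvPolynomial σ O) :
    actLam O M pr hpr t x = (MvPolynomial.aeval c t : O) • x := by
  induction t using MvPolynomial.induction_on with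
  | C a =>
    rw [actLam, polyAct_C_apply, MvPolynomial.aeval_C, Algebra.algebraMap_self_apply]
  | add p q hp hq =>
    rw [map_add, LinearMap.add_apply, hp, hq, map_add, add_smul]
  | mul_X p s hp =>
    have hcomm : actLam O M pr hpr (p * MvPolynomial.X s)
        = actLam O M pr hpr (MvPolynomial.X s) * actLam O M pr hpr p := by
      rw [mul_comm, map_mul]
    rw [hcomm, Module.End.mul_apply, hp, map_smul, actLam_X, hx s, map_mul, MvPolynomial.aeval_X,
      smul_smul]

/-- **`hg` on the joint eigen-sublattice** (helper2's `P = eigenTensorO M O lam`): the polynomial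
algebra acts through the eigencharacter `X_s ↦ lam (pr s)`. -/
theorem actLam_eigenTensorO (lam : Nat.Primes → O) {x : O ⊗[ℤ] Lam M}
    (hx : x ∈ eigenTensorO M O lam) (t : MvPolynomial σ O) :
    actLam O M pr hpr t x
      = (MvPolynomial.aeval (fun s => lam ⟨pr s, hpr s⟩) t : O) • x :=
  actLam_of_eigen pr hpr (fun s => lam ⟨pr s, hpr s⟩)
    (fun s => (mem_eigenTensorO.mp hx) ⟨pr s, hpr s⟩) t

/-- the eigen-sublattice is stable under the polynomial algebra. -/
theorem actLam_mem_eigenTensorO (lam : Nat.Primes → O) {x : O ⊗[ℤ] Lam M}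
    (hx : x ∈ eigenTensorO M O lam) (t : MvPolynomial σ O) :
    actLam O M pr hpr t x ∈ eigenTensorO M O lam := by
  rw [actLam_eigenTensorO pr hpr lam hx t]
  exact Submodule.smul_mem _ _ hx

/-- a span of eigenvectors: the polynomial algebra acts on every element of
`span O (range b)` through the eigencharacter, when `span = eigenTensorO` (`hspan` of `eta_mod`). -/
theorem actLam_of_mem_span (lam : Nat.Primes → O) {ι : Type*} (b : ι → O ⊗[ℤ] Lam M)
    (hspan : Submodule.span O (Set.range b) = eigenTensorO M O lam) {x : O ⊗[ℤ] Lam M}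
    (hx : x ∈ Submodule.span O (Set.range b)) (t : MvPolynomial σ O) :
    actLam O M pr hpr t x
      = (MvPolynomial.aeval (fun s => lam ⟨pr s, hpr s⟩) t : O) • x :=
  actLam_eigenTensorO pr hpr lam (hspan ▸ hx) t

/-- the annihilator of an eigenvector contains the kernel of the eigencharacter. -/
theorem actLam_eq_zero_of_aeval_eq_zero (lam : Nat.Primes → O) {x : O ⊗[ℤ] Lam M}
    (hx : x ∈ eigenTensorO M O lam) {t : MvPolynomial σ O}
    (ht : MvPolynomial.aeval (fun s => lam ⟨pr s, hpr s⟩) t = (0 : O)) :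
    actLam O M pr hpr t x = 0 := by
  rw [actLam_eigenTensorO pr hpr lam hx t, ht, zero_smul]

end Eigen

/-! ### the raised family of `eta_mod` -/

section Raise

open Fermat.Agent.GE9.Eta

variable {O : Type} [CommRing O] [IsDomain O] [CharZero O] {σ : Type} (pr : σ → ℕ)
  (hpr : ∀ s, (pr s).Prime)
  {N q : ℕ} [Fact q.Prime] [NeZero N] [NeZero (N * q)] [NeZero (N * q * q)]

/-- **`hg` for helper2's raised family** `b' = raise3 (alpha3O N q O) q (lam q) b` at level `N q²`:
the polynomial algebra (ANY symbol set, `q` allowed) acts on `b' i` through the eigencharacter of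
`lam[q ↦ 0]`. -/
theorem actLam_raise3 (hqN : ¬ q ∣ N) (hq : q.Prime) (lam : Nat.Primes → O) {d : ℕ}
    (b : Fin d → O ⊗[ℤ] Lam N) (hb : ∀ i, b i ∈ eigenTensorO N O lam) (i : Fin d)
    (t : MvPolynomial σ O) :
    actLam O (N * q * q) pr hpr t
        (raise3 (alpha3O N q O) ((q : ℕ) : O) (lam (⟨q, hq⟩ : Nat.Primes)) b i)
      = (MvPolynomial.aeval
          (fun s => Function.update lam (⟨q, hq⟩ : Nat.Primes) 0 ⟨pr s, hpr s⟩) t : O)
        • raise3 (alpha3O N q O) ((q : ℕ) : O) (lam (⟨q, hq⟩ : Nat.Primes)) b i := by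
  refine actLam_eigenTensorO pr hpr _ ?_ t
  rw [Fermat.Agent.GE9.Eta.LocLamU.raise3_alpha3O_apply]
  exact Fermat.Agent.GE9.Eta.Mod.raise3O_mem_eigenTensorO hqN hq lam (hb i)

/-- away from `q` the two eigencharacters agree: if no symbol is `q`, the eigencharacter of
`lam[q ↦ 0]` on the polynomial algebra is that of `lam`. -/
theorem aeval_update_of_ne (hq : q.Prime) (lam : Nat.Primes → O) (hne : ∀ s, pr s ≠ q)
    (t : MvPolynomial σ O) :
    (MvPolynomial.aeval
        (fun s => Function.update lam (⟨q, hq⟩ : Nat.Primes) 0 ⟨pr s, hpr s⟩) t : O)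
      = MvPolynomial.aeval (fun s => lam ⟨pr s, hpr s⟩) t := by
  congr 2
  funext s
  exact Function.update_of_ne (fun h => hne s (congrArg Subtype.val h)) _ _

end Raise

/-! ### the two spellings of the Fricke-twisted form -/

section TwoBW

variable {O : Type} [CommRing O] {σ : Type} (pr : σ → ℕ) (hpr : ∀ s, (pr s).Prime)
  {M : ℕ} [NeZero M]

/-- helper2's `Eta.Mod.BW` and helper5's `Eta.LocLamFr.BW` are the same form. -/
theorem BW_mod_eq : Fermat.Agent.GE9.Eta.Mod.BW M O = Fermat.Agent.GE9.Eta.LocLamFr.BW M O := rfl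

/-- **`hB'adj` in helper2's spelling**: the whole polynomial algebra (every symbol) is self-adjoint
for `Eta.Mod.BW`. -/
theorem actLam_BW_mod (t : MvPolynomial σ O) (x y : O ⊗[ℤ] Lam M) :
    Fermat.Agent.GE9.Eta.Mod.BW M O (actLam O M pr hpr t x) y
      = Fermat.Agent.GE9.Eta.Mod.BW M O x (actLam O M pr hpr t y) :=
  Fermat.Agent.GE9.PNew.Inst.PolyLin.actLam_BW pr hpr t x y

end TwoBW

end Fermat.Agent.GE9.PNew.Inst.PolyEigen
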