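/-
GATE-E (S59) / RISK-4 (e9)+(e10) (helper31): **the flat-stage side of the `p`-new step with the
CUTTING IDEAL AS A VARIABLE.**

WHY (board 8088): in (e10) the flat stage modules are cut by the maximal ideal of the `p`-NEW system
(`A₀ = locPart (mP 𝒪 Z lam') (𝒪 ⊗ Lam N)`, helper37's spelling: `betaLoc` lands there), while the flat
stages `Y_Sg`, `Y_{insert q Sg}` of the engine carry the FLAT system `lamf` (only `≡ lam'` mod `𝔪_𝒪`).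
`mP 𝒪 Z lamf = mP 𝒪 Z lam'` is true (`PolyAct.mP_congr`) but it is an EQUATION of ideals, so the two
module types differ.  Here every statement of `Inst/FLStageInst`, `Inst/StepNewLoc`,
`Inst/FLStageRank` is restated for an ARBITRARY maximal ideal `𝔪 : Ideal (PAlg 𝒪 Z)` together with ONE
hypothesis `h𝔪 : 𝔪 = mP 𝒪 Z lam` (`lam` = the eigen-system of the flat stage); the proofs are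
`subst` + the landed theorems.

* `actLocI 𝔪`, `twI 𝔪 S0` (`coe_twI`, `coe_twI_T`), `twZ_eq_twI : twZ lam S0 = twI (mP 𝒪 Z lam) S0`;
* `finite_locPartI`, `free_locPartI`, `nontrivial_locPartI`, **`locHyp_twI`**;
* **`tt_X_smul_eq_twI`** : `hXᵢ` (`X_l • y = twI 𝔪 S0 (TX S0 hNS l) y` for the `ttModule` structure);
* **`hrank_locPartI`** : `hrankᵢ` (`d = 2`) from helper81's `RankTQ.hrank_TQ` (no `h𝔪` needed);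
* **`card_congMod_ker_growth_of_idealStages`** : the step
  `#Ω(K_{insert q Sg}) = #Ω(K_{Sg}) · #(𝒪 ⧸ c) ^ d`.
-/
import Mathlib
import Fermat.Agent.GE9.PNew.Inst.StepNewLoc
import Fermat.Agent.GE9.PNew.Inst.FLStageRank

set_option autoImplicit false
set_option linter.unusedSectionVars false
set_option linter.unusedVariables false
set_option linter.style.haveILetI false

noncomputable section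

namespace Fermat.Agent.GE9.PNew.Inst.StepNewIdeal

open TensorProduct IsLocalRing Submodule CuspForm Polynomial Function
open Fermat.Agent.GJ.J2.Lat Fermat.Agent.GB.B3.Loc
  Fermat.Agent.GB.B4.Datum.ImageRing
  Fermat.Agent.GE.Graph Fermat.Agent.GE9.Ind Fermat.Agent.GE9.NumCrit
  Fermat.Agent.GE9.Eta Fermat.Agent.GE9.Eta.Mod Fermat.Agent.GE9.Mult1
  Fermat.Agent.GE9.Stage.CarrierLam Fermat.Agent.GE9.Stage.CarrierAbs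
  Fermat.Agent.GE9.PNew.Inst Fermat.Agent.GE9.PNew.Inst.FormLoc
  Fermat.Agent.GE9.PNew.Inst.FLStageInst Fermat.Agent.GE9.PNew.Inst.StepNewLoc
  Fermat.Agent.GE9.PNew.Inst.FLStageRank Fermat.Agent.GE9.PNew.StepNewFinal

/-! ### the anemic action on the primary part of an arbitrary prime ideal -/

section Act

variable {N : ℕ} [NeZero N] {𝒪 : Type} [CommRing 𝒪] {Z : Set ℕ}
  (𝔪 : Ideal (PAlg 𝒪 Z)) [𝔪.IsPrime]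

/-- the full algebra stabilises every primary part. -/
theorem afLam_smul_mem_locPartI (a : AfLam N 𝒪) {x : 𝒪 ⊗[ℤ] Lam N}
    (hx : x ∈ locPart 𝔪 (𝒪 ⊗[ℤ] Lam N)) : a • x ∈ locPart 𝔪 (𝒪 ⊗[ℤ] Lam N) :=
  apply_mem_locPart (afLin (Z := Z) a) hx

/-- the operator of an element of the full algebra on the `𝔪`-primary part. -/
def actLocFunI (a : AfLam N 𝒪) : Module.End 𝒪 ↥(locPart 𝔪 (𝒪 ⊗[ℤ] Lam N)) where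
  toFun x := ⟨a • (x : 𝒪 ⊗[ℤ] Lam N), afLam_smul_mem_locPartI 𝔪 a x.2⟩
  map_add' x y := Subtype.ext (by
    show a • ((x : 𝒪 ⊗[ℤ] Lam N) + (y : 𝒪 ⊗[ℤ] Lam N)) = a • (x : 𝒪 ⊗[ℤ] Lam N) + a • y
    rw [smul_add])
  map_smul' c x := Subtype.ext (by
    show a • (c • (x : 𝒪 ⊗[ℤ] Lam N)) = c • (a • (x : 𝒪 ⊗[ℤ] Lam N))
    rw [smul_comm])

/-- the action of the full algebra of the lattice on the `𝔪`-primary part. -/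
def actLocI : AfLam N 𝒪 →ₐ[𝒪] Module.End 𝒪 ↥(locPart 𝔪 (𝒪 ⊗[ℤ] Lam N)) where
  toFun := actLocFunI 𝔪
  map_one' := LinearMap.ext fun x => Subtype.ext (by
    show (1 : AfLam N 𝒪) • (x : 𝒪 ⊗[ℤ] Lam N) = x
    rw [one_smul])
  map_mul' a b := LinearMap.ext fun x => Subtype.ext (by
    show (a * b) • (x : 𝒪 ⊗[ℤ] Lam N) = a • (b • (x : 𝒪 ⊗[ℤ] Lam N))
    rw [mul_smul])
  map_zero' := LinearMap.ext fun x => Subtype.ext (by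
    show (0 : AfLam N 𝒪) • (x : 𝒪 ⊗[ℤ] Lam N) = 0
    rw [zero_smul])
  map_add' a b := LinearMap.ext fun x => Subtype.ext (by
    show (a + b) • (x : 𝒪 ⊗[ℤ] Lam N) = a • (x : 𝒪 ⊗[ℤ] Lam N) + b • (x : 𝒪 ⊗[ℤ] Lam N)
    rw [add_smul])
  commutes' c := LinearMap.ext fun x => Subtype.ext (by
    show algebraMap 𝒪 (AfLam N 𝒪) c • (x : 𝒪 ⊗[ℤ] Lam N) = c • (x : 𝒪 ⊗[ℤ] Lam N)
    rw [algebraMap_smul])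

variable (S0 : Finset ℕ)

/-- **the anemic action** of `heckeAlgebra N 2 ↑S0` on the `𝔪`-primary part. -/
def twI : ↥(heckeAlgebra N 2 (↑S0 : Set ℕ)) →+* Module.End 𝒪 ↥(locPart 𝔪 (𝒪 ⊗[ℤ] Lam N)) :=
  ((actLocI (N := N) 𝔪 : AfLam N 𝒪 →ₐ[𝒪] _) : AfLam N 𝒪 →+* _).comp
    (iotaLam N 𝒪 (↑S0 : Set ℕ))

theorem coe_twI (t : ↥(heckeAlgebra N 2 (↑S0 : Set ℕ))) (x : ↥(locPart 𝔪 (𝒪 ⊗[ℤ] Lam N))) :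
    ((twI 𝔪 S0 t x : ↥(locPart 𝔪 (𝒪 ⊗[ℤ] Lam N))) : 𝒪 ⊗[ℤ] Lam N)
      = iotaLam N 𝒪 (↑S0 : Set ℕ) t • (x : 𝒪 ⊗[ℤ] Lam N) := rfl

theorem coe_twI_T {ℓ : ℕ} (hℓ : ℓ.Prime) (hℓN : ¬ ℓ ∣ N) (hℓS : ℓ ∉ (↑S0 : Set ℕ))
    (x : ↥(locPart 𝔪 (𝒪 ⊗[ℤ] Lam N))) :
    ((twI 𝔪 S0 (heckeAlgebra.T hℓ hℓN hℓS) x : ↥(locPart 𝔪 (𝒪 ⊗[ℤ] Lam N))) : 𝒪 ⊗[ℤ] Lam N)
      = (latT N (⟨ℓ, hℓ⟩ : Nat.Primes)).baseChange 𝒪 (x : 𝒪 ⊗[ℤ] Lam N) := by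
  rw [coe_twI, iotaLam_T_smul]

end Act

/-- at `𝔪 = mP 𝒪 Z lam` this is `FLStageInst.twZ`. -/
theorem twZ_eq_twI {N : ℕ} [NeZero N] {𝒪 : Type} [CommRing 𝒪] [IsLocalRing 𝒪] {Z : Set ℕ}
    (lam : Nat.Primes → 𝒪) (S0 : Finset ℕ) :
    twZ (Z := Z) (N := N) lam S0 = twI (mP 𝒪 Z lam) S0 := rfl

/-! ### the instance binders -/

section Inst

variable {N : ℕ} [NeZero N] {𝒪 : Type} [CommRing 𝒪] [IsDomain 𝒪] [IsDiscreteValuationRing 𝒪]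
  [IsAdicComplete (maximalIdeal 𝒪) 𝒪] [CharZero 𝒪] {Z : Set ℕ}
  (𝔪 : Ideal (PAlg 𝒪 Z)) [𝔪.IsMaximal]

theorem finite_locPartI : Module.Finite 𝒪 ↥(locPart 𝔪 (𝒪 ⊗[ℤ] Lam N)) := by
  haveI := finite_tensor_lam (O := 𝒪) N
  exact finite_locPart 𝒪 𝔪

theorem free_locPartI : Module.Free 𝒪 ↥(locPart 𝔪 (𝒪 ⊗[ℤ] Lam N)) := by
  haveI := finite_tensor_lam (O := 𝒪) N
  haveI := free_tensor_lam (O := 𝒪) N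
  exact free_locPart 𝒪 𝔪

variable {𝔪}

theorem nontrivial_locPartI {x : 𝒪 ⊗[ℤ] Lam N} (hx : x ∈ locPart 𝔪 (𝒪 ⊗[ℤ] Lam N))
    (hx0 : x ≠ 0) : Nontrivial ↥(locPart 𝔪 (𝒪 ⊗[ℤ] Lam N)) :=
  ⟨⟨⟨x, hx⟩, 0, fun h => hx0 (congrArg Subtype.val h)⟩⟩

/-- the joint eigen-sublattice of `lam` lies in the `𝔪`-primary part when `𝔪 = mP 𝒪 Z lam`. -/
theorem eigen_mem_locPartI {lam : Nat.Primes → 𝒪} (h𝔪 : 𝔪 = mP 𝒪 Z lam) {x : 𝒪 ⊗[ℤ] Lam N}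
    (hx : x ∈ eigenTensorO N 𝒪 lam) : x ∈ locPart 𝔪 (𝒪 ⊗[ℤ] Lam N) := by
  subst h𝔪
  exact eigenTensorO_le_locPart_mP (fun _ _ => rfl) hx

/-- **(LOC)** for the anemic action on the `𝔪`-primary part, `𝔪 = mP 𝒪 Z lam`. -/
theorem locHyp_twI {lam : Nat.Primes → 𝒪} (h𝔪 : 𝔪 = mP 𝒪 Z lam) (S0 : Finset ℕ)
    (hNS : ∀ r : ℕ, r.Prime → r ∣ N → r ∈ S0)
    (hZ : ∀ l : ℕ, l.Prime → l ∉ S0 → l ∈ Z) {x : 𝒪 ⊗[ℤ] Lam N}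
    (hx : x ∈ eigenTensorO N 𝒪 lam) (hx0 : x ≠ 0) :
    LocHyp 𝒪 (thetaRes (iotaLam N 𝒪 (↑S0 : Set ℕ)) (chiHom hx hx0)) (twI 𝔪 S0) := by
  subst h𝔪
  exact locHyp_twZ S0 hNS hZ hx hx0

end Inst

/-! ### `hX` -/

section Link

variable {N : ℕ} [NeZero N] {𝒪 : Type} [CommRing 𝒪] {Z : Set ℕ}
  (𝔪 : Ideal (PAlg 𝒪 Z)) [𝔪.IsPrime] (S0 : Finset ℕ)
  (hZ : ∀ l : ℕ, l.Prime → l ∉ S0 → l ∈ Z) (hNS : ∀ r : ℕ, r.Prime → r ∣ N → r ∈ S0)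

/-- **`hX`** : for the `ttModule` structure, the generator `X_l` acts on the `𝔪`-primary part as
the anemic Hecke operator `T_l`. -/
theorem tt_X_smul_eq_twI (l : TIdx S0) (y : ↥(locPart 𝔪 (𝒪 ⊗[ℤ] Lam N))) :
    letI := ttModule 𝒪 S0 hZ ↥(locPart 𝔪 (𝒪 ⊗[ℤ] Lam N))
    (MvPolynomial.X l : MvPolynomial (TIdx S0) 𝒪) • y = twI 𝔪 S0 (TX S0 hNS l) y := by
  letI := ttModule 𝒪 S0 hZ ↥(locPart 𝔪 (𝒪 ⊗[ℤ] Lam N))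
  apply Subtype.ext
  rw [coe_tt_X_smul 𝒪 S0 hZ (locPart 𝔪 (𝒪 ⊗[ℤ] Lam N)) l y]
  unfold TX
  rw [coe_twI_T]
  rfl

end Link

/-! ### `hrank` -/

section Rank

open Module WeierstrassCurve WeierstrassCurve.Affine.Point Fermat.Agent.GB.Setup.RhoBar
  Fermat.Agent.GE9.PNew.RankTQ
open scoped WeierstrassCurve.Affine

variable {𝒪 : Type} [CommRing 𝒪] [IsDomain 𝒪] [IsDiscreteValuationRing 𝒪] [CharZero 𝒪]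
  {p : ℕ} [Fact p.Prime] {W : WeierstrassCurve ℤ}
  (hcard₁ : Nat.card (Submodule.torsionBy ℤ
    ((W.map (Int.castRingHom ℚ))⁄(AlgebraicClosure ℚ)).Point p) = p ^ 2)
  (hker : GaloisFactorsThroughFiniteLevel
    (galoisRepModuleEnd (K := AlgebraicClosure ℚ) ℚ (W.map (Int.castRingHom ℚ)) p))

set_option maxHeartbeats 1000000 in
/-- **`hrank` (`d = 2`) at the `𝔪`-primary part**, any prime ideal `𝔪` of `PAlg 𝒪 Z`. -/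
theorem hrank_locPartI (hΔ : W.Δ ≠ 0) (hirr : W.ModRepIsIrreducible p)
    (htrans : ∃ σ : (AlgebraicClosure ℚ ≃ₐ[ℚ] AlgebraicClosure ℚ),
      galoisRepModuleEnd (K := AlgebraicClosure ℚ) ℚ (W.map (Int.castRingHom ℚ)) p σ ≠ 1 ∧
        (galoisRepModuleEnd (K := AlgebraicClosure ℚ) ℚ (W.map (Int.castRingHom ℚ)) p σ - 1) ^ 2
          = 0)
    (k : Type) [Field k] [Algebra (ZMod p) k]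
    {N : ℕ} [NeZero N] {Z : Set ℕ} (𝔪 : Ideal (PAlg 𝒪 Z)) [𝔪.IsPrime]
    [Module.Finite 𝒪 ↥(locPart 𝔪 (𝒪 ⊗[ℤ] Lam N))]
    [Module.Free 𝒪 ↥(locPart 𝔪 (𝒪 ⊗[ℤ] Lam N))]
    [Nontrivial ↥(locPart 𝔪 (𝒪 ⊗[ℤ] Lam N))]
    (S0 Sg : Finset ℕ) (hSg : Sg ⊆ S0) (hNS : ∀ r : ℕ, r.Prime → r ∣ N → r ∈ S0)
    (θ : heckeAlgebra N 2 (↑S0 : Set ℕ) →+* ResidueField 𝒪)
    [Fact (LocHyp 𝒪 θ (twI (N := N) 𝔪 S0))]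
    (hp𝒪 : (p : 𝒪) ∈ maximalIdeal 𝒪)
    (hθ : ∀ (ℓ : ℕ) (hℓ : ℓ.Prime) (hℓN : ¬ ℓ ∣ N) (hℓS : ℓ ∉ (↑S0 : Set ℕ)),
      W.IsGoodPrimeFor ℓ → ℓ ≠ p →
        θ (heckeAlgebra.T hℓ hℓN hℓS) = ((W.apOfModel ℓ : ℤ) : ResidueField 𝒪))
    (hU : ∀ q : Nat.Primes, (q : ℕ) ∈ Sg → ∀ x ∈ locPart 𝔪 (𝒪 ⊗[ℤ] Lam N),
      (latT N q).baseChange 𝒪 x = 0)
    (hbad : ∀ b : Nat.Primes, (b : ℕ) ∈ S0 \ Sg →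
      ¬ (b : ℕ) ∣ N ∨ ((b : ℕ) ∣ N ∧ ¬ (b : ℕ) ^ 2 ∣ N ∧ (b : ℕ) ≠ p ∧
        ¬ ((rb p W hcard₁ hker).baseChange k).IsUnramifiedAt b)) :
    finrank 𝒪 ↥(locPart 𝔪 (𝒪 ⊗[ℤ] Lam N))
      ≤ 2 * finrank 𝒪 (TQ 𝒪 θ (twI (N := N) 𝔪 S0)) := by
  have key := @hrank_TQ 𝒪 _ _ _ _ p _ W hcard₁ hker hΔ hirr htrans k _ _ N _
    ((locPart 𝔪 (𝒪 ⊗[ℤ] Lam N)).restrictScalars 𝒪)
    (inferInstanceAs (Module.Finite 𝒪 ↥(locPart 𝔪 (𝒪 ⊗[ℤ] Lam N))))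
    (inferInstanceAs (Module.Free 𝒪 ↥(locPart 𝔪 (𝒪 ⊗[ℤ] Lam N))))
    (inferInstanceAs (Nontrivial ↥(locPart 𝔪 (𝒪 ⊗[ℤ] Lam N))))
    S0 Sg hSg hNS θ (twI (N := N) 𝔪 S0)
    (inferInstanceAs (Fact (LocHyp 𝒪 θ (twI (N := N) 𝔪 S0))))
    (fun ℓ hℓ hℓN hℓS x => coe_twI_T 𝔪 S0 hℓ hℓN hℓS x) hp𝒪 hθ hU hbad
  exact key

end Rank

/-! ### the step -/

section Step

variable {𝒪 : Type} [CommRing 𝒪] [IsDomain 𝒪] [IsDiscreteValuationRing 𝒪]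
  [IsAdicComplete (maximalIdeal 𝒪) 𝒪] [Finite (ResidueField 𝒪)] [CharZero 𝒪]
  {ρbar : ResidualGaloisRep (ResidueField 𝒪)} {p : ℕ} [Fact p.Prime]
  [Algebra (ZMod p) (ResidueField 𝒪)]
  {Smin : Finset ℕ} {d : ℕ}

set_option maxHeartbeats 2000000 in
/-- **the `p`-new stage step `Sg → insert q Sg`, flat stage modules cut by ARBITRARY maximal ideals
`𝔪₁ = mP 𝒪 Z₁ lam₁`, `𝔪₂ = mP 𝒪 Z₂ lam₂`** (`lamᵢ` = the eigen-systems of the flat stages):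
`#Ω(K_{insert q Sg}) = #Ω(K_{Sg}) · #(𝒪 ⧸ c) ^ d`. -/
theorem card_congMod_ker_growth_of_idealStages {Sg : Finset ℕ} {q : ℕ} (hd : d ≠ 0)
    -- the abstract flat stages and the current strict-ordinary stage with its point
    (Y₁ : RTNum ρbar (condFL 𝒪 p Smin (insert q Sg)) d) (Y₂ : RTNum ρbar (condFL 𝒪 p Smin Sg) d)
    (Xso : RTData ρbar (condSO 𝒪 p Smin Sg)) (πso : Xso.T →ₐ[𝒪] 𝒪)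
    (hp2 : p ≠ 2) (hp𝒪 : (p : 𝒪) ∈ maximalIdeal 𝒪) (hpSmin : p ∈ Smin)
    (hmin : ∀ r : ℕ, r.Prime → r ≠ p → (r ∈ Smin ↔ ¬ ρbar.IsUnramifiedAt r))
    (S0 : Finset ℕ) (hpS : p ∈ S0)
    -- the flat stage `insert q Sg`: level clauses and module side
    (hYS₁ : Y₁.rt.S ⊆ (↑S0 : Set ℕ))
    {N₁ : ℕ} [NeZero N₁] (hNN₁ : Y₁.rt.N ∣ N₁) (hpN₁ : ¬ p ∣ N₁)
    (hNS₁ : ∀ r : ℕ, r.Prime → r ∣ N₁ → r ∈ S0)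
    (hNT₁ : ∀ r : ℕ, r.Prime → r ∣ N₁ → r ∈ Smin ∪ insert q Sg)
    (hSminN₁ : ∀ r ∈ Smin, r.Prime → r ≠ p → r ∣ N₁ ∧ ¬ r ^ 2 ∣ N₁)
    {Z₁ : Set ℕ} (𝔪₁ : Ideal (PAlg 𝒪 Z₁)) [𝔪₁.IsMaximal] (lam₁ : Nat.Primes → 𝒪)
    (h𝔪₁ : 𝔪₁ = mP 𝒪 Z₁ lam₁)
    (θ₁ : ↥(heckeAlgebra N₁ 2 (↑S0 : Set ℕ)) →+* ResidueField 𝒪)
    [Fact (LocHyp 𝒪 θ₁ (twI (N := N₁) 𝔪₁ S0))]
    (b₁ : Fin d → 𝒪 ⊗[ℤ] Lam N₁) (hli₁ : LinearIndependent 𝒪 b₁)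
    (hspanE₁ : span 𝒪 (Set.range b₁) = eigenTensorO N₁ 𝒪 lam₁)
    (hold₁ : ∀ x ∈ locPart 𝔪₁ (𝒪 ⊗[ℤ] Lam N₁),
      (∀ l : Nat.Primes, (l : ℕ) ∉ S0 → (latT N₁ l).baseChange 𝒪 x = lam₁ l • x) →
        ∀ l : Nat.Primes, (latT N₁ l).baseChange 𝒪 x = lam₁ l • x)
    (heig₁ : ∀ (ℓ : ℕ) (hℓ : ℓ.Prime) (hℓN : ¬ ℓ ∣ Y₁.rt.N) (hℓS : ℓ ∉ Y₁.rt.S), ℓ ∉ S0 →
      lam₁ (⟨ℓ, hℓ⟩ : Nat.Primes) = Y₁.πO (Y₁.rt.π (heckeAlgebra.T hℓ hℓN hℓS)))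
    (hw₁ : Y₁.w ≤ Nat.card (CongMod (BW N₁ 𝒪) (span 𝒪 (Set.range b₁))))
    (hrank₁ : Module.finrank 𝒪 ↥(locPart 𝔪₁ (𝒪 ⊗[ℤ] Lam N₁)) ≤
      d * Module.finrank 𝒪 (TQ 𝒪 θ₁ (twI (N := N₁) 𝔪₁ S0)))
    -- the flat stage `Sg`: level clauses and module side
    (hYS₂ : Y₂.rt.S ⊆ (↑S0 : Set ℕ))
    {N₂ : ℕ} [NeZero N₂] (hNN₂ : Y₂.rt.N ∣ N₂) (hpN₂ : ¬ p ∣ N₂)
    (hNS₂ : ∀ r : ℕ, r.Prime → r ∣ N₂ → r ∈ S0)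
    (hNT₂ : ∀ r : ℕ, r.Prime → r ∣ N₂ → r ∈ Smin ∪ Sg)
    (hSminN₂ : ∀ r ∈ Smin, r.Prime → r ≠ p → r ∣ N₂ ∧ ¬ r ^ 2 ∣ N₂)
    {Z₂ : Set ℕ} (𝔪₂ : Ideal (PAlg 𝒪 Z₂)) [𝔪₂.IsMaximal] (lam₂ : Nat.Primes → 𝒪)
    (h𝔪₂ : 𝔪₂ = mP 𝒪 Z₂ lam₂)
    (θ₂ : ↥(heckeAlgebra N₂ 2 (↑S0 : Set ℕ)) →+* ResidueField 𝒪)
    [Fact (LocHyp 𝒪 θ₂ (twI (N := N₂) 𝔪₂ S0))]
    (b₂ : Fin d → 𝒪 ⊗[ℤ] Lam N₂) (hli₂ : LinearIndependent 𝒪 b₂)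
    (hspanE₂ : span 𝒪 (Set.range b₂) = eigenTensorO N₂ 𝒪 lam₂)
    (hold₂ : ∀ x ∈ locPart 𝔪₂ (𝒪 ⊗[ℤ] Lam N₂),
      (∀ l : Nat.Primes, (l : ℕ) ∉ S0 → (latT N₂ l).baseChange 𝒪 x = lam₂ l • x) →
        ∀ l : Nat.Primes, (latT N₂ l).baseChange 𝒪 x = lam₂ l • x)
    (heig₂ : ∀ (ℓ : ℕ) (hℓ : ℓ.Prime) (hℓN : ¬ ℓ ∣ Y₂.rt.N) (hℓS : ℓ ∉ Y₂.rt.S), ℓ ∉ S0 →
      lam₂ (⟨ℓ, hℓ⟩ : Nat.Primes) = Y₂.πO (Y₂.rt.π (heckeAlgebra.T hℓ hℓN hℓS)))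
    (hw₂ : Y₂.w ≤ Nat.card (CongMod (BW N₂ 𝒪) (span 𝒪 (Set.range b₂))))
    (hrank₂ : Module.finrank 𝒪 ↥(locPart 𝔪₂ (𝒪 ⊗[ℤ] Lam N₂)) ≤
      d * Module.finrank 𝒪 (TQ 𝒪 θ₂ (twI (N := N₂) 𝔪₂ S0)))
    -- the strict-ordinary point and the polynomial Hecke algebra `𝕋 = 𝒪[X_l : l ∉ S0]`
    (hSso : ∀ l : ℕ, l.Prime → l ∉ S0 → ¬ l ∣ Xso.N ∧ l ∉ Xso.S)
    (lamT : TIdx S0 → 𝒪)
    (hlam : ∀ l : TIdx S0, πso (Xso.π (heckeAlgebra.T l.2.1 (hSso l l.2.1 l.2.2).1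
      (hSso l l.2.1 l.2.2).2)) = lamT l)
    [Module (MvPolynomial (TIdx S0) 𝒪) ↥(locPart 𝔪₁ (𝒪 ⊗[ℤ] Lam N₁))]
    [IsScalarTower 𝒪 (MvPolynomial (TIdx S0) 𝒪) ↥(locPart 𝔪₁ (𝒪 ⊗[ℤ] Lam N₁))]
    [Module (MvPolynomial (TIdx S0) 𝒪) ↥(locPart 𝔪₂ (𝒪 ⊗[ℤ] Lam N₂))]
    [IsScalarTower 𝒪 (MvPolynomial (TIdx S0) 𝒪) ↥(locPart 𝔪₂ (𝒪 ⊗[ℤ] Lam N₂))]
    (hX₁ : ∀ (l : TIdx S0) (y : ↥(locPart 𝔪₁ (𝒪 ⊗[ℤ] Lam N₁))),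
      (MvPolynomial.X l : MvPolynomial (TIdx S0) 𝒪) • y =
        twI (N := N₁) 𝔪₁ S0 (TX S0 hNS₁ l) y)
    (hX₂ : ∀ (l : TIdx S0) (y : ↥(locPart 𝔪₂ (𝒪 ⊗[ℤ] Lam N₂))),
      (MvPolynomial.X l : MvPolynomial (TIdx S0) 𝒪) • y =
        twI (N := N₂) 𝔪₂ S0 (TX S0 hNS₂ l) y)
    -- the level-`p` modules and the modular binders of the step
    {L L' K₀ K₀' : Type*} [AddCommGroup L] [Module 𝒪 L] [AddCommGroup L'] [Module 𝒪 L']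
    [AddCommGroup K₀] [Module 𝒪 K₀] [AddCommGroup K₀'] [Module 𝒪 K₀']
    [Module (MvPolynomial (TIdx S0) 𝒪) L'] [IsScalarTower 𝒪 (MvPolynomial (TIdx S0) 𝒪) L']
    (B : L →ₗ[𝒪] L →ₗ[𝒪] 𝒪) (B' : L' →ₗ[𝒪] L' →ₗ[𝒪] 𝒪)
    (ι : K₀ →ₗ[𝒪] L) (ι' : K₀' →ₗ[𝒪] L') (b : Fin d → L) (b' : Fin d → L')
    (bK : Fin d → K₀) (bK' : Fin d → K₀') (hbK : ∀ i, ι (bK i) = b i)
    (hbK' : ∀ i, ι' (bK' i) = b' i) (c : 𝒪) (hc : c ≠ 0) (hdet : (gram B b).det ≠ 0)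
    (h : ∀ i j, B' (b' i) (b' j) = c * B (b i) (b j))
    (t : L' →ₗ[𝒪] L) (ht : Surjective t)
    (hadj : ∀ i y, B' (b' i) y = B (b i) (t y))
    (β : L →ₗ[𝒪] ↥(locPart 𝔪₂ (𝒪 ⊗[ℤ] Lam N₂)) × ↥(locPart 𝔪₂ (𝒪 ⊗[ℤ] Lam N₂)))
    (β' : L' →ₗ[𝒪] ↥(locPart 𝔪₁ (𝒪 ⊗[ℤ] Lam N₁)) × ↥(locPart 𝔪₁ (𝒪 ⊗[ℤ] Lam N₁)))
    (hβ' : Surjective β')
    (tN : ↥(locPart 𝔪₁ (𝒪 ⊗[ℤ] Lam N₁)) →ₗ[𝒪] ↥(locPart 𝔪₂ (𝒪 ⊗[ℤ] Lam N₂)))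
    (hcomm : ∀ y, β (t y) = (tN (β' y).1, tN (β' y).2))
    (hι : LinearMap.range ι = LinearMap.ker β) (hι' : LinearMap.range ι' = LinearMap.ker β')
    (hβ'X : ∀ (l : TIdx S0) (m : L'), β' ((MvPolynomial.X l : MvPolynomial (TIdx S0) 𝒪) • m) =
      (MvPolynomial.X l : MvPolynomial (TIdx S0) 𝒪) • β' m)
    (hB'X : ∀ (l : TIdx S0) (x y : L'),
      B' ((MvPolynomial.X l : MvPolynomial (TIdx S0) 𝒪) • x) y =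
        B' x ((MvPolynomial.X l : MvPolynomial (TIdx S0) 𝒪) • y))
    (hgX : ∀ (l : TIdx S0) (i : Fin d),
      (MvPolynomial.X l : MvPolynomial (TIdx S0) 𝒪) • b' i = lamT l • b' i)
    (htNX : ∀ (l : TIdx S0) (y : ↥(locPart 𝔪₁ (𝒪 ⊗[ℤ] Lam N₁))),
      tN ((MvPolynomial.X l : MvPolynomial (TIdx S0) 𝒪) • y) =
        (MvPolynomial.X l : MvPolynomial (TIdx S0) 𝒪) • tN y)
    (htN : Surjective tN) :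
    Nat.card (CongMod (B'.compl₁₂ ι' ι') (span 𝒪 (Set.range bK'))) =
      Nat.card (CongMod (B.compl₁₂ ι ι) (span 𝒪 (Set.range bK))) *
        Nat.card (𝒪 ⧸ Ideal.span {c}) ^ d := by
  subst h𝔪₁
  subst h𝔪₂
  haveI f₁ : Fact (LocHyp 𝒪 θ₁ (twZ (Z := Z₁) (N := N₁) lam₁ S0)) :=
    ‹Fact (LocHyp 𝒪 θ₁ (twI (N := N₁) (mP 𝒪 Z₁ lam₁) S0))›
  haveI f₂ : Fact (LocHyp 𝒪 θ₂ (twZ (Z := Z₂) (N := N₂) lam₂ S0)) :=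
    ‹Fact (LocHyp 𝒪 θ₂ (twI (N := N₂) (mP 𝒪 Z₂ lam₂) S0))›
  have hrank₁' : Module.finrank 𝒪 ↥(locPart (mP 𝒪 Z₁ lam₁) (𝒪 ⊗[ℤ] Lam N₁)) ≤
      d * Module.finrank 𝒪 (TQ 𝒪 θ₁ (twZ (Z := Z₁) (N := N₁) lam₁ S0)) := hrank₁
  have hrank₂' : Module.finrank 𝒪 ↥(locPart (mP 𝒪 Z₂ lam₂) (𝒪 ⊗[ℤ] Lam N₂)) ≤
      d * Module.finrank 𝒪 (TQ 𝒪 θ₂ (twZ (Z := Z₂) (N := N₂) lam₂ S0)) := hrank₂
  have hX₁' : ∀ (l : TIdx S0) (y : ↥(locPart (mP 𝒪 Z₁ lam₁) (𝒪 ⊗[ℤ] Lam N₁))),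
      (MvPolynomial.X l : MvPolynomial (TIdx S0) 𝒪) • y =
        twZ (Z := Z₁) (N := N₁) lam₁ S0 (TX S0 hNS₁ l) y := hX₁
  have hX₂' : ∀ (l : TIdx S0) (y : ↥(locPart (mP 𝒪 Z₂ lam₂) (𝒪 ⊗[ℤ] Lam N₂))),
      (MvPolynomial.X l : MvPolynomial (TIdx S0) 𝒪) • y =
        twZ (Z := Z₂) (N := N₂) lam₂ S0 (TX S0 hNS₂ l) y := hX₂
  exact card_congMod_ker_growth_of_locStages hd Y₁ Y₂ Xso πso hp2 hp𝒪 hpSmin hmin S0 hpS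
    hYS₁ hNN₁ hpN₁ hNS₁ hNT₁ hSminN₁ Z₁ lam₁ θ₁ b₁ hli₁ hspanE₁ hold₁ heig₁ hw₁ hrank₁'
    hYS₂ hNN₂ hpN₂ hNS₂ hNT₂ hSminN₂ Z₂ lam₂ θ₂ b₂ hli₂ hspanE₂ hold₂ heig₂ hw₂ hrank₂'
    hSso lamT hlam hX₁' hX₂'
    B B' ι ι' b b' bK bK' hbK hbK' c hc hdet h t ht hadj β β' hβ' tN hcomm hι hι' hβ'X hB'X hgX
    htNX htN

end Step

end Fermat.Agent.GE9.PNew.Inst.StepNewIdeal

end
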