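/-
GATE-E / RISK-4 PNEW-STAGE, instance layer (I-b) of helper80 7597 (helper5): **`ht` — the transfer
`t = q β₂ − a β₁ + β₀` maps the `(𝔪, x_q)`-primary part of `𝒪 ⊗ Λ_{N q²}` ONTO the `𝔪`-primary part
of `𝒪 ⊗ Λ_N`**, in helper37's `PolyAct` vocabulary (`PAlg 𝒪 Z`, `mP 𝒪 Z lam`), for EVERY level `N`
prime to `q` (so it serves the `K`-side at level `N p` and the `A`-side at level `N`).

* `beta3O_kill` : the dual of IHARA2 in `Fin 3 → 𝒪 ⊗ Λ_N` spelling —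
  `∀ z, ∃ w z', (E ⊗ 𝒪)^{×3} z = β₃^𝒪 w + ϖ • z'` (from helper37's `ℤ`-linear factorisation
  `DualIhara2.dual_ihara2`);
* `eisP 𝒪 Z l l' : PAlg 𝒪 Z` `= (x_{l'} − (l'+1)) (x_l − (l+1))`, `eisP_smul`, `evP_eisP`;
* `beta3P` : `β₃^𝒪` as a `PAlg 𝒪 Z`-linear map (`q ∉ Z`);
* **`exists_mem_locPart_beta3O`** : `∀ x ∈ locPart 𝔪_Z (𝒪 ⊗ Λ_N), ∃ y ∈ locPart 𝔪_{Z ∪ {q}}
  (𝒪 ⊗ Λ_{N q²}), β₃^𝒪 y = (x, 0, 0)`;
* **`exists_mem_locPart_tW`** : the same with `tW a y = x` (`Beta3Uq.tW`, every `a`).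
-/
import Mathlib
import Fermat.Agent.GE9.PNew.Inst.Beta3Uq
import Fermat.Agent.GE9.PNew.Inst.LocSurjTC
import Fermat.Agent.GE9.PNew.Inst.PolyAct

set_option autoImplicit false
set_option linter.unusedSectionVars false

open scoped TensorProduct

namespace Fermat.Agent.GE9.PNew.Inst.TransferOnto

open Fermat.Agent.GJ.J2.Lat Fermat.Agent.GM.Asm Fermat.Agent.GM.Theta.Outer
  Fermat.Agent.GE9.Eta.LocLam Fermat.Agent.GE9.Eta.LocLamU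
  Fermat.Agent.GE9.Eta.DualIhara2 Fermat.Agent.GE9.Eta.KPlug
  Fermat.Agent.GE9.PNew.Inst Fermat.Agent.GE9.PNew.Inst.Beta3Uq
  Fermat.Agent.GE9.PNew.Inst.LocSurjTC
  Fermat.Agent.GB.B3.Loc

/-! ### the kill hypothesis for `β₃ ⊗ O` -/

section Kill

variable {N q : ℕ} [hqF : Fact q.Prime] [NeZero N] [NeZero (N * q)] [NeZero (N * q * q)]
variable (hqN : ¬ q ∣ N)

/-- **dual IHARA2 for `β₃^O`**, in `Fin 3 → O ⊗ Λ_N` spelling. -/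
theorem beta3O_kill {p : ℕ} (hp : p.Prime) (hp2 : p ≠ 2)
    (l l' : Nat.Primes) (hl : ¬ (l : ℕ) ∣ N * q) (hlq : ((l : ℕ) : ZMod q) = 1)
    (hl' : ¬ (l' : ℕ) ∣ N)
    (O : Type*) [CommRing O] (ϖ : O) (hpϖ : ∃ c : O, (p : O) = ϖ * c)
    (z : Fin 3 → O ⊗[ℤ] Lam N) :
    ∃ (w : O ⊗[ℤ] Lam (N * q * q)) (z' : Fin 3 → O ⊗[ℤ] Lam N),
      (fun m => (eis2 N l l').baseChange O (z m)) = beta3O hqN O w + ϖ • z' := by
  classical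
  obtain ⟨C', D', h⟩ := dual_ihara2 hqN hp hp2 l l' hl hlq hl'
  obtain ⟨c, hc⟩ := hpϖ
  -- the components
  set Cm : Fin 3 → (Lam N →ₗ[ℤ] Lam (N * q * q)) :=
    fun m => C' ∘ₗ LinearMap.single ℤ (fun _ : Fin 3 => Lam N) m with hCm
  set Dkm : Fin 3 → Fin 3 → (Lam N →ₗ[ℤ] Lam N) :=
    fun k m => LinearMap.proj k ∘ₗ D' ∘ₗ LinearMap.single ℤ (fun _ : Fin 3 => Lam N) m with hDkm
  have hkm : ∀ k m : Fin 3,
      (LinearMap.proj k ∘ₗ beta3 hqN) ∘ₗ Cm m + (p : ℤ) • Dkm k m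
        = if k = m then eis2 N l l' else 0 := by
    intro k m
    refine LinearMap.ext fun x => ?_
    have h1 := congrFun (LinearMap.congr_fun h (Pi.single m x)) k
    rw [eis2Pi_apply] at h1
    have h2 : (((LinearMap.proj k ∘ₗ beta3 hqN) ∘ₗ Cm m + (p : ℤ) • Dkm k m) x)
        = (beta3 hqN ∘ₗ C' + (p : ℤ) • D') (Pi.single m x) k := rfl
    rw [h2, ← h1]
    by_cases hkm' : k = m
    · subst hkm'
      rw [if_pos rfl, Pi.single_eq_same]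
    · rw [if_neg hkm', Pi.single_eq_of_ne hkm', map_zero, LinearMap.zero_apply]
  refine ⟨∑ m : Fin 3, (Cm m).baseChange O (z m),
    fun k => c • ∑ m : Fin 3, (Dkm k m).baseChange O (z m), ?_⟩
  funext k
  have hsum : (eis2 N l l').baseChange O (z k)
      = ∑ m : Fin 3, (((LinearMap.proj k ∘ₗ beta3 hqN) ∘ₗ Cm m).baseChange O (z m)
          + (p : O) • (Dkm k m).baseChange O (z m)) := by
    have hterm : ∀ m : Fin 3,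
        ((LinearMap.proj k ∘ₗ beta3 hqN) ∘ₗ Cm m).baseChange O (z m)
          + (p : O) • (Dkm k m).baseChange O (z m)
        = (if k = m then eis2 N l l' else 0).baseChange O (z m) := by
      intro m
      rw [← hkm k m, LinearMap.baseChange_add, LinearMap.add_apply, LinearMap.baseChange_smul,
        LinearMap.smul_apply, ← Int.cast_smul_eq_zsmul O, Int.cast_natCast]
    simp only [hterm]
    rw [Finset.sum_eq_single k]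
    · rw [if_pos rfl]
    · intro m _ hmk
      rw [if_neg (Ne.symm hmk), LinearMap.baseChange_zero, LinearMap.zero_apply]
    · intro hk
      exact absurd (Finset.mem_univ k) hk
  rw [Pi.add_apply, Pi.smul_apply, beta3O_apply]
  show (eis2 N l l').baseChange O (z k)
    = beO hqN O k (∑ m : Fin 3, (Cm m).baseChange O (z m))
      + ϖ • (c • ∑ m : Fin 3, (Dkm k m).baseChange O (z m))
  rw [hsum, Finset.sum_add_distrib, map_sum, smul_smul, ← hc, Finset.smul_sum]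
  congr 1
  refine Finset.sum_congr rfl fun m _ => ?_
  unfold beO
  rw [baseChange_comp_apply]

end Kill

/-! ### the Eisenstein element of the polynomial Hecke algebra -/

section Eis

variable (𝒪 : Type) [CommRing 𝒪] (Z : Set ℕ)

/-- `E = (x_{l'} − (l' + 1)) (x_l − (l + 1))`. -/
noncomputable def eisP (l l' : Nat.Primes) (hl : (l : ℕ) ∈ Z) (hl' : (l' : ℕ) ∈ Z) : PAlg 𝒪 Z :=
  (xP 𝒪 Z l' hl' - algebraMap 𝒪 (PAlg 𝒪 Z) ((((l' : ℕ) : ℤ) + 1 : ℤ) : 𝒪))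
    * (xP 𝒪 Z l hl - algebraMap 𝒪 (PAlg 𝒪 Z) ((((l : ℕ) : ℤ) + 1 : ℤ) : 𝒪))

variable {𝒪 Z}

theorem eisEnd_baseChange {M : ℕ} [NeZero M] (l : Nat.Primes) (x : 𝒪 ⊗[ℤ] Lam M) :
    (eisEnd M l).baseChange 𝒪 x
      = (latT M l).baseChange 𝒪 x - ((((l : ℕ) : ℤ) + 1 : ℤ) : 𝒪) • x := by
  unfold eisEnd
  rw [LinearMap.baseChange_sub, LinearMap.sub_apply, LinearMap.baseChange_smul,
    LinearMap.smul_apply, ← Int.cast_smul_eq_zsmul 𝒪]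
  congr 2
  show (LinearMap.id : Lam M →ₗ[ℤ] Lam M).baseChange 𝒪 x = x
  rw [LinearMap.baseChange_id, LinearMap.id_apply]

theorem eisP_smul {M : ℕ} [NeZero M] (l l' : Nat.Primes) (hl : (l : ℕ) ∈ Z) (hl' : (l' : ℕ) ∈ Z)
    (x : 𝒪 ⊗[ℤ] Lam M) : eisP 𝒪 Z l l' hl hl' • x = (eis2 M l l').baseChange 𝒪 x := by
  have h1 : ∀ (l₀ : Nat.Primes) (h₀ : (l₀ : ℕ) ∈ Z) (y : 𝒪 ⊗[ℤ] Lam M),
      (xP 𝒪 Z l₀ h₀ - algebraMap 𝒪 (PAlg 𝒪 Z) ((((l₀ : ℕ) : ℤ) + 1 : ℤ) : 𝒪)) • y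
        = (eisEnd M l₀).baseChange 𝒪 y := by
    intro l₀ h₀ y
    rw [sub_smul, xP_smul, algebraMap_smulP, eisEnd_baseChange]
  unfold eisP eis2
  rw [mul_smul, h1, h1]
  show _ = ((eisEnd M l').comp (eisEnd M l)).baseChange 𝒪 x
  rw [LinearMap.baseChange_comp, LinearMap.comp_apply]

theorem evP_eisP (lam : Nat.Primes → 𝒪) (l l' : Nat.Primes) (hl : (l : ℕ) ∈ Z)
    (hl' : (l' : ℕ) ∈ Z) :
    evP 𝒪 Z lam (eisP 𝒪 Z l l' hl hl')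
      = (lam l' - ((((l' : ℕ) : ℤ) + 1 : ℤ) : 𝒪)) * (lam l - ((((l : ℕ) : ℤ) + 1 : ℤ) : 𝒪)) := by
  unfold eisP
  rw [map_mul, map_sub, map_sub, evP_xP, evP_xP, AlgHom.commutes, AlgHom.commutes]
  rfl

end Eis

/-! ### the final instance -/

section Final

variable (𝒪 : Type) [CommRing 𝒪] [IsLocalRing 𝒪] [IsNoetherianRing 𝒪]
  [IsAdicComplete (IsLocalRing.maximalIdeal 𝒪) 𝒪]
variable {N q : ℕ} [hqF : Fact q.Prime] [NeZero N] [NeZero (N * q)] [NeZero (N * q * q)]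
variable (hqN : ¬ q ∣ N) (Z : Set ℕ)

/-- `β₃^𝒪` as a `PAlg 𝒪 Z`-linear map, `q ∉ Z`. -/
noncomputable def beta3P (hqZ : q ∉ Z) :
    (𝒪 ⊗[ℤ] Lam (N * q * q)) →ₗ[PAlg 𝒪 Z] (Fin 3 → 𝒪 ⊗[ℤ] Lam N) :=
  LinearMap.pi fun m => baseChangeP (𝒪 := 𝒪) (Z := Z) (LinearMap.proj m ∘ₗ beta3 hqN)
    (fun l hl x => beta3_latT_ne_apply hqN l (fun h => hqZ (h ▸ hl)) x m)

theorem beta3P_apply (hqZ : q ∉ Z) (w : 𝒪 ⊗[ℤ] Lam (N * q * q)) (m : Fin 3) :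
    beta3P 𝒪 hqN Z hqZ w m = beO hqN 𝒪 m w := rfl

/-- **(I-b), `β₃` form** : every `x` in the `𝔪_Z`-primary part of `𝒪 ⊗ Λ_N` is `β₀^𝒪 y` for some `y`
in the `𝔪_{Z ∪ {q}}`-primary part of `𝒪 ⊗ Λ_{N q²}` (`U_q` topologically nilpotent) with
`β₁^𝒪 y = β₂^𝒪 y = 0`. -/
theorem exists_mem_locPart_beta3O (hq : q.Prime) (hqZ : q ∉ Z)
    (lam : Nat.Primes → 𝒪) (hq0 : lam (⟨q, hq⟩ : Nat.Primes) = 0)
    (hqu : IsUnit ((q : ℕ) : 𝒪))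
    {p : ℕ} (hp : p.Prime) (hp2 : p ≠ 2) (hpO : (p : 𝒪) ∈ IsLocalRing.maximalIdeal 𝒪)
    (l l' : Nat.Primes) (hlZ : (l : ℕ) ∈ Z) (hl'Z : (l' : ℕ) ∈ Z)
    (hl : ¬ (l : ℕ) ∣ N * q) (hlq : ((l : ℕ) : ZMod q) = 1) (hl' : ¬ (l' : ℕ) ∣ N)
    (hE : IsUnit ((lam l' - ((((l' : ℕ) : ℤ) + 1 : ℤ) : 𝒪))
      * (lam l - ((((l : ℕ) : ℤ) + 1 : ℤ) : 𝒪)))) :
    ∀ x ∈ locPart (mP 𝒪 Z lam) (𝒪 ⊗[ℤ] Lam N),
      ∃ y ∈ locPart (mP 𝒪 (insert ((⟨q, hq⟩ : Nat.Primes) : ℕ) Z) lam) (𝒪 ⊗[ℤ] Lam (N * q * q)),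
        beO hqN 𝒪 0 y = x ∧ beO hqN 𝒪 1 y = 0 ∧ beO hqN 𝒪 2 y = 0 := by
  have : Module.Finite ℤ (Lam N) := Fermat.Agent.GJ.J2.ZStruct.finite_parabolicHoms_int N
  have : Module.Finite ℤ (Lam (N * q * q)) :=
    Fermat.Agent.GJ.J2.ZStruct.finite_parabolicHoms_int (N * q * q)
  set Q : Nat.Primes := ⟨q, hq⟩ with hQ
  have hsub : Z ⊆ insert (Q : ℕ) Z := Set.subset_insert _ _
  have hqZ' : (Q : ℕ) ∉ Z := hqZ
  intro x hx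
  have key := exists_mem_locPart_single 𝒪 (P := PAlg 𝒪 Z) (P' := PAlg 𝒪 (insert (Q : ℕ) Z))
    (X := 𝒪 ⊗[ℤ] Lam N) (X' := 𝒪 ⊗[ℤ] Lam (N * q * q))
    (resP 𝒪 hsub : PAlg 𝒪 Z →+* PAlg 𝒪 (insert (Q : ℕ) Z))
    (mP 𝒪 Z lam) (mP 𝒪 (insert (Q : ℕ) Z) lam)
    (fun a y => resP_smul hsub a y)
    (xP 𝒪 (insert (Q : ℕ) Z) Q (Set.mem_insert _ _))
    (xP_mem_mP lam Q _ (by rw [hq0]; exact Ideal.zero_mem _))
    (map_mP_le hsub lam)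
    (le_of_eq (mP_insert_zero Q lam hq0))
    (beta3P 𝒪 hqN Z hqZ) ((latT N Q).baseChange 𝒪) ((q : ℕ) : 𝒪) hqu
    (fun y => by
      rw [xP_smul, beta3P_apply, beta3P_apply]
      exact beO_uq_zero hqN hq y)
    (fun y => by
      rw [xP_smul, beta3P_apply, beta3P_apply]
      exact beO_uq_one hqN hq y)
    (fun y => by
      rw [xP_smul, beta3P_apply, beta3P_apply, beta3P_apply]
      exact beO_uq_two hqN hq y)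
    (eisP 𝒪 Z l l' hlZ hl'Z)
    (by rw [notMem_mP_iff, evP_eisP]; exact hE)
    (p : 𝒪) hpO
    (fun z => by
      obtain ⟨w, z', hwz⟩ := beta3O_kill hqN hp hp2 l l' hl hlq hl' 𝒪 (p : 𝒪) ⟨1, (mul_one _).symm⟩ z
      refine ⟨w, z', ?_⟩
      rw [← show (fun m => (eis2 N l l').baseChange 𝒪 (z m)) = eisP 𝒪 Z l l' hlZ hl'Z • z from
        funext fun m => (eisP_smul l l' hlZ hl'Z (z m)).symm, hwz]
      rfl)
    x hx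
  obtain ⟨y, hy, h0, h1, h2⟩ := key
  exact ⟨y, hy, h0, h1, h2⟩

/-- **(I-b) = `ht`** : the transfer `t = q β₂ − a β₁ + β₀` (the `BW`-adjoint of
`x ↦ α₃ (v3 q a ⊗ x)`, `Beta3Uq.BW_raise3_tW`) maps the `𝔪_{Z ∪ {q}}`-primary part of
`𝒪 ⊗ Λ_{N q²}` ONTO the `𝔪_Z`-primary part of `𝒪 ⊗ Λ_N`. -/
theorem exists_mem_locPart_tW (hq : q.Prime) (hqZ : q ∉ Z)
    (lam : Nat.Primes → 𝒪) (hq0 : lam (⟨q, hq⟩ : Nat.Primes) = 0)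
    (hqu : IsUnit ((q : ℕ) : 𝒪))
    {p : ℕ} (hp : p.Prime) (hp2 : p ≠ 2) (hpO : (p : 𝒪) ∈ IsLocalRing.maximalIdeal 𝒪)
    (l l' : Nat.Primes) (hlZ : (l : ℕ) ∈ Z) (hl'Z : (l' : ℕ) ∈ Z)
    (hl : ¬ (l : ℕ) ∣ N * q) (hlq : ((l : ℕ) : ZMod q) = 1) (hl' : ¬ (l' : ℕ) ∣ N)
    (hE : IsUnit ((lam l' - ((((l' : ℕ) : ℤ) + 1 : ℤ) : 𝒪))
      * (lam l - ((((l : ℕ) : ℤ) + 1 : ℤ) : 𝒪)))) (a : 𝒪) :
    ∀ x ∈ locPart (mP 𝒪 Z lam) (𝒪 ⊗[ℤ] Lam N),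
      ∃ y ∈ locPart (mP 𝒪 (insert ((⟨q, hq⟩ : Nat.Primes) : ℕ) Z) lam) (𝒪 ⊗[ℤ] Lam (N * q * q)),
        tW hqN a y = x := by
  intro x hx
  obtain ⟨y, hy, h0, h1, h2⟩ := exists_mem_locPart_beta3O 𝒪 hqN Z hq hqZ lam hq0 hqu hp hp2 hpO
    l l' hlZ hl'Z hl hlq hl' hE x hx
  exact ⟨y, hy, by rw [tW_eq_beO_zero hqN a y h1 h2, h0]⟩

end Final

end Fermat.Agent.GE9.PNew.Inst.TransferOnto
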