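/-
GATE-E / RISK-4 PNEW-STAGE, instance layer (helper5): **the transfer `t = tW` is Hecke-linear, maps
local parts to local parts, and COMMUTES with `β_p`** — the binder `hcomm` (and `tA`) of
`KerHecke.card_congMod_ker_growth_hecke` in `PolyAct` vocabulary.

* `tW_smulP` / `tWP` : `tW a` is `PAlg 𝒪 Z`-linear (`q ∉ Z`);
* `tW_mem_locPart` : `tW a` maps `locPart 𝔪_{Z ∪ {q}} (𝒪 ⊗ Λ_{N q²})` INTO `locPart 𝔪_Z (𝒪 ⊗ Λ_N)`;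
* (the restricted map `tLoc` and `tLoc_surjective` = `ht` are helper37's `Inst/TSurj.lean`);
* `beO_bP1` / `beO_bP2` : `(cores_p ⊗ 𝒪) ∘ (β₃^{N p})_m = (β₃^{N})_m ∘ (cores_p ⊗ 𝒪) ∘ cast`
  (helper37 `DualIhara2P.coresP_beta3` / `coresDP_beta3` over `𝒪`);
* **`tW_bP1` / `tW_bP2`** (= `hcomm`) : `(β_p)_i (t^{N p} y) = t^{N} ((β_p)_i (cast y))`.
-/
import Mathlib
import Fermat.Agent.GE9.PNew.Inst.TransferOnto
import Fermat.Agent.GE9.PNew.Inst.PolyLin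
import Fermat.Agent.GE9.Eta.DualIhara2P

set_option autoImplicit false
set_option linter.unusedSectionVars false

open scoped TensorProduct

namespace Fermat.Agent.GE9.PNew.Inst.TransferComm

open Fermat.Agent.GJ.J2.Lat Fermat.Agent.GM.Asm Fermat.Agent.GM.Theta.Outer
  Fermat.Agent.GE9.Eta.LocLam Fermat.Agent.GE9.Eta.LocLamU
  Fermat.Agent.GE9.Eta.DualIhara2 Fermat.Agent.GE9.Eta.KPlug
  Fermat.Agent.GE9.PNew.Inst Fermat.Agent.GE9.PNew.Inst.Beta3Uq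
  Fermat.Agent.GE9.PNew.Inst.TransferOnto Fermat.Agent.GE9.PNew.Inst.PolyLin
  Fermat.Agent.GB.B3.Loc Fermat.Agent.GM.B

/-! ### `tW` is Hecke-linear and maps local parts to local parts -/

section Lin

variable {𝒪 : Type} [CommRing 𝒪]
variable {N q : ℕ} [hqF : Fact q.Prime] [NeZero N] [NeZero (N * q)] [NeZero (N * q * q)]
variable (hqN : ¬ q ∣ N) (Z : Set ℕ)

/-- `(β₃)_m ⊗ 𝒪` is `PAlg 𝒪 Z`-linear, `q ∉ Z`. -/
theorem beO_smulP (hqZ : q ∉ Z) (m : Fin 3) (s : PAlg 𝒪 Z) (y : 𝒪 ⊗[ℤ] Lam (N * q * q)) :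
    beO hqN 𝒪 m (s • y) = s • beO hqN 𝒪 m y :=
  map_smulP_of_comm (beO hqN 𝒪 m)
    (fun l hl x => beO_latT_ne hqN l (fun h => hqZ (h ▸ hl)) m x) s y

/-- **`tW a` is `PAlg 𝒪 Z`-linear**, `q ∉ Z`. -/
theorem tW_smulP (hqZ : q ∉ Z) (a : 𝒪) (s : PAlg 𝒪 Z) (y : 𝒪 ⊗[ℤ] Lam (N * q * q)) :
    tW hqN a (s • y) = s • tW hqN a y := by
  rw [tW_apply, tW_apply, beO_smulP hqN Z hqZ, beO_smulP hqN Z hqZ, beO_smulP hqN Z hqZ,
    smul_add, smul_sub, smul_comm s, smul_comm s]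

/-- `tW a` as a `PAlg 𝒪 Z`-linear map. -/
noncomputable def tWP (hqZ : q ∉ Z) (a : 𝒪) :
    (𝒪 ⊗[ℤ] Lam (N * q * q)) →ₗ[PAlg 𝒪 Z] (𝒪 ⊗[ℤ] Lam N) where
  toFun := tW hqN a
  map_add' := map_add _
  map_smul' := fun s y => tW_smulP hqN Z hqZ a s y

theorem tWP_apply (hqZ : q ∉ Z) (a : 𝒪) (y : 𝒪 ⊗[ℤ] Lam (N * q * q)) :
    tWP hqN Z hqZ a y = tW hqN a y := rfl

variable [IsLocalRing 𝒪]

/-- **`tW a` maps the `𝔪_{Z ∪ {q}}`-primary part into the `𝔪_Z`-primary part.** -/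
theorem tW_mem_locPart (hq : q.Prime) (hqZ : q ∉ Z) (lam : Nat.Primes → 𝒪) (a : 𝒪)
    {y : 𝒪 ⊗[ℤ] Lam (N * q * q)}
    (hy : y ∈ locPart (mP 𝒪 (insert ((⟨q, hq⟩ : Nat.Primes) : ℕ) Z) lam)
      (𝒪 ⊗[ℤ] Lam (N * q * q))) :
    tW hqN a y ∈ locPart (mP 𝒪 Z lam) (𝒪 ⊗[ℤ] Lam N) :=
  apply_mem_locPart (tWP hqN Z hqZ a) (locPart_mP_le (Set.subset_insert _ _) lam hy)

end Lin

/-! ### commutation with `β_p` -/

section Comm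

open Fermat.Agent.GE9.Eta.DualIhara2

variable {𝒪 : Type} [CommRing 𝒪]
variable {N p q : ℕ} [hpF : Fact p.Prime] [hqF : Fact q.Prime]
  [NeZero N] [NeZero (N * q)] [NeZero (N * q * q)]
  [NeZero (N * p)] [NeZero (N * p * q)] [NeZero (N * p * q * q)] [NeZero (N * q * q * p)]
variable (hpN : ¬ p ∣ N) (hqN : ¬ q ∣ N) (hqNp : ¬ q ∣ N * p) (hpNqq : ¬ p ∣ N * q * q)

/-- the level cast over `𝒪`. -/
noncomputable def castO : (𝒪 ⊗[ℤ] Lam (N * p * q * q)) →ₗ[𝒪] (𝒪 ⊗[ℤ] Lam (N * q * q * p)) :=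
  ((lamCast (level_eq N p q)).toLinearMap).baseChange 𝒪

/-- `cores_p ∘ (β₃^{N p})_m = (β₃^{N})_m ∘ cores_p ∘ cast`, `LinearMap` form over `ℤ`. -/
theorem bP1_proj_beta3 (m : Fin 3) :
    bP1 hpN ∘ₗ (LinearMap.proj m ∘ₗ beta3 hqNp)
      = (LinearMap.proj m ∘ₗ beta3 hqN) ∘ₗ bP1 hpNqq ∘ₗ (lamCast (level_eq N p q)).toLinearMap := by
  refine LinearMap.ext fun w => ?_
  show (betaP ℤ hpN (beta3 hqNp w m)).1
    = beta3 hqN ((betaP ℤ hpNqq (lamCast (level_eq N p q) w)).1) m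
  rw [betaP_beta3 hpN hqN hqNp hpNqq]

theorem bP2_proj_beta3 (m : Fin 3) :
    bP2 hpN ∘ₗ (LinearMap.proj m ∘ₗ beta3 hqNp)
      = (LinearMap.proj m ∘ₗ beta3 hqN) ∘ₗ bP2 hpNqq ∘ₗ (lamCast (level_eq N p q)).toLinearMap := by
  refine LinearMap.ext fun w => ?_
  show (betaP ℤ hpN (beta3 hqNp w m)).2
    = beta3 hqN ((betaP ℤ hpNqq (lamCast (level_eq N p q) w)).2) m
  rw [betaP_beta3 hpN hqN hqNp hpNqq]

/-- the same over `𝒪`. -/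
theorem beO_bP1 (m : Fin 3) (y : 𝒪 ⊗[ℤ] Lam (N * p * q * q)) :
    (bP1 hpN).baseChange 𝒪 (beO hqNp 𝒪 m y)
      = beO hqN 𝒪 m ((bP1 hpNqq).baseChange 𝒪 (castO (𝒪 := 𝒪) y)) := by
  unfold beO castO
  rw [baseChange_comp_apply, bP1_proj_beta3 hpN hqN hqNp hpNqq, baseChange_comp_apply,
    baseChange_comp_apply]
  rfl

theorem beO_bP2 (m : Fin 3) (y : 𝒪 ⊗[ℤ] Lam (N * p * q * q)) :
    (bP2 hpN).baseChange 𝒪 (beO hqNp 𝒪 m y)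
      = beO hqN 𝒪 m ((bP2 hpNqq).baseChange 𝒪 (castO (𝒪 := 𝒪) y)) := by
  unfold beO castO
  rw [baseChange_comp_apply, bP2_proj_beta3 hpN hqN hqNp hpNqq, baseChange_comp_apply,
    baseChange_comp_apply]
  rfl

/-- **`hcomm`, first component** : `cores_p (t^{N p} y) = t^{N} (cores_p (cast y))`. -/
theorem tW_bP1 (a : 𝒪) (y : 𝒪 ⊗[ℤ] Lam (N * p * q * q)) :
    (bP1 hpN).baseChange 𝒪 (tW hqNp a y)
      = tW hqN a ((bP1 hpNqq).baseChange 𝒪 (castO (𝒪 := 𝒪) y)) := by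
  rw [tW_apply, tW_apply, map_add, map_sub, map_smul, map_smul,
    beO_bP1 hpN hqN hqNp hpNqq, beO_bP1 hpN hqN hqNp hpNqq, beO_bP1 hpN hqN hqNp hpNqq]

/-- **`hcomm`, second component** : `cores_{p,δ} (t^{N p} y) = t^{N} (cores_{p,δ} (cast y))`. -/
theorem tW_bP2 (a : 𝒪) (y : 𝒪 ⊗[ℤ] Lam (N * p * q * q)) :
    (bP2 hpN).baseChange 𝒪 (tW hqNp a y)
      = tW hqN a ((bP2 hpNqq).baseChange 𝒪 (castO (𝒪 := 𝒪) y)) := by
  rw [tW_apply, tW_apply, map_add, map_sub, map_smul, map_smul,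
    beO_bP2 hpN hqN hqNp hpNqq, beO_bP2 hpN hqN hqNp hpNqq, beO_bP2 hpN hqN hqNp hpNqq]

end Comm

end Fermat.Agent.GE9.PNew.Inst.TransferComm
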